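import Mathlib
import Fermat.Agent.ES.B.Defs
import Fermat.Agent.S24.RHBasic

/-!
# T-UNI, (HDIV): `m ∣ div g` at the horizontal primes

* `exists_root_unit_of_valuation` (H1): semilocal Dedekind domain;
* `exists_hdiv` (H2): the hypothesis `hdiv` of the local principality theorem (C), abstract form;
* `exists_unit_of_mdiv` (H3): the valuation ring hypothesis of (H2) from `MDiv K m g`.
-/

set_option autoImplicit false

open IsDedekindDomain

namespace Fermat.Agent.UNIlib

/-- **(H1)** -/
theorem exists_root_unit_of_valuation {B F : Type*} [CommRing B] [IsDedekindDomain B]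
    [IsPrincipalIdealRing B] [Field F] [Algebra B F] [IsFractionRing B F]
    [Finite (HeightOneSpectrum B)] {m : ℕ} {g : F}
    (h : ∀ v : HeightOneSpectrum B, ∃ h : F, h ≠ 0 ∧ v.valuation F g = v.valuation F h ^ m) :
    ∃ f : F, f ≠ 0 ∧ f ^ m / g ∈ (algebraMap B F).range ∧ g / f ^ m ∈ (algebraMap B F).range := by
  classical
  have := Fintype.ofFinite (HeightOneSpectrum B)
  choose h hh0 hh using h
  -- generators of the primes
  have hgen : ∀ v : HeightOneSpectrum B, ∃ ϖ : B, ϖ ≠ 0 ∧ v.asIdeal = Ideal.span {ϖ} := by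
    intro v
    obtain ⟨ϖ, hϖ⟩ := (IsPrincipalIdealRing.principal v.asIdeal).principal
    refine ⟨ϖ, ?_, hϖ⟩
    rintro rfl
    apply v.ne_bot
    rw [hϖ]
    simp
  choose ϖ hϖ0 hϖ using hgen
  have hval : ∀ v w : HeightOneSpectrum B, w.valuation F (algebraMap B F (ϖ v)) =
      if w = v then WithZero.exp (-1 : ℤ) else 1 := by
    intro v w
    rw [HeightOneSpectrum.valuation_of_algebraMap]
    split_ifs with hwv
    · subst hwv
      exact w.intValuation_singleton (hϖ0 w) (hϖ w)
    · rw [HeightOneSpectrum.intValuation_eq_one_iff]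
      intro hmem
      apply hwv
      have hle : v.asIdeal ≤ w.asIdeal := by
        rw [hϖ v, Ideal.span_singleton_le_iff_mem]
        exact hmem
      exact HeightOneSpectrum.ext ((v.isMaximal.eq_of_le w.isPrime.ne_top hle).symm)
  -- exponents
  let k : HeightOneSpectrum B → ℤ := fun v => WithZero.log (v.valuation F (h v))
  have hk : ∀ v, v.valuation F (h v) = WithZero.exp (k v) := by
    intro v
    rw [WithZero.exp_log ((Valuation.ne_zero_iff _).2 (hh0 v))]
  let f : F := ∏ v, algebraMap B F (ϖ v) ^ (- k v)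
  have hϖF : ∀ v, algebraMap B F (ϖ v) ≠ 0 := fun v => by
    rw [Ne, FaithfulSMul.algebraMap_eq_zero_iff]
    exact hϖ0 v
  have hf0 : f ≠ 0 := Finset.prod_ne_zero_iff.2 fun v _ => zpow_ne_zero _ (hϖF v)
  have hfval : ∀ w : HeightOneSpectrum B, w.valuation F f = w.valuation F (h w) := by
    intro w
    rw [map_prod, hk]
    simp only [map_zpow₀, hval]
    rw [Finset.prod_eq_single w]
    · rw [if_pos rfl, ← WithZero.exp_zsmul]
      simp
    · intro v _ hv
      rw [if_neg (Ne.symm hv), one_zpow]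
    · intro hw
      exact absurd (Finset.mem_univ w) hw
  refine ⟨f, hf0, ?_, ?_⟩
  · apply HeightOneSpectrum.mem_integers_of_valuation_le_one
    intro v
    rw [map_div₀, map_pow, hfval, hh, div_self]
    exact pow_ne_zero _ ((Valuation.ne_zero_iff _).2 (hh0 v))
  · apply HeightOneSpectrum.mem_integers_of_valuation_le_one
    intro v
    rw [map_div₀, map_pow, hfval, hh, div_self]
    exact pow_ne_zero _ ((Valuation.ne_zero_iff _).2 (hh0 v))

section H2

variable {P A Kt F : Type*} [CommRing P] [IsDomain P] [IsNoetherianRing P]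
  [Field Kt] [Field F] [Algebra P Kt] [IsFractionRing P Kt] [Algebra Kt F] [Algebra P F]
  [IsScalarTower P Kt F] [FiniteDimensional Kt F] [CharZero Kt]

/-- the valuation subring of a height one prime of a Dedekind domain is a principal ideal ring -/
theorem isPrincipalIdealRing_valuationSubring {B : Type*} [CommRing B] [IsDedekindDomain B]
    [Algebra B F] [IsFractionRing B F] (v : HeightOneSpectrum B) :
    IsPrincipalIdealRing (v.valuation F).valuationSubring := by
  have : IsDiscreteValuationRing (v.valuation F).valuationSubring := inferInstance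
  infer_instance

theorem exists_hdiv_aux [CommRing A] [Algebra P A] [Algebra A Kt] [IsScalarTower P A Kt]
    [Algebra A F] [IsScalarTower A Kt F] (𝔭 : Ideal P) [𝔭.IsPrime] [IsLocalization.AtPrime A 𝔭]
    {π ϱ : P} (hϱ : Prime ϱ) (h𝔭 : 𝔭 = Ideal.span {ϱ}) (hπϱ : ¬ ϱ ∣ π) {m : ℕ} {g : F}
    (hg : g ≠ 0)
    (hV : ∀ V : ValuationSubring F, (∀ x : P, algebraMap P F x ∈ V) →
      (algebraMap P F π)⁻¹ ∈ V → V ≠ ⊤ → IsPrincipalIdealRing V →
      ∃ h : F, h ≠ 0 ∧ g / h ^ m ∈ V ∧ h ^ m / g ∈ V) :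
    ∃ f : F, f ≠ 0 ∧ ∃ c : P, ¬ ϱ ∣ c ∧ IsIntegral P (c • (f ^ m / g)) ∧
      IsIntegral P (c • (g / f ^ m)) := by
  classical
  have i1 : IsLocalRing A := IsLocalization.AtPrime.isLocalRing A 𝔭
  have i2 : IsDomain A := IsLocalization.isDomain_of_atPrime A 𝔭
  have i3 : IsNoetherianRing A := IsLocalization.isNoetherianRing 𝔭.primeCompl A inferInstance
  have i6 : IsFractionRing A Kt :=
    IsFractionRing.isFractionRing_of_isDomain_of_isLocalization 𝔭.primeCompl A Kt
  have i8 : IsScalarTower P A F := IsScalarTower.of_algebraMap_eq fun x => by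
    rw [IsScalarTower.algebraMap_apply P Kt F, IsScalarTower.algebraMap_apply P A Kt,
      ← IsScalarTower.algebraMap_apply A Kt F]
  have hmax : IsLocalRing.maximalIdeal A = Ideal.span {algebraMap P A ϱ} := by
    rw [← IsLocalization.AtPrime.map_eq_maximalIdeal 𝔭 A, h𝔭, Ideal.map_span, Set.image_singleton]
  have hprinc : (IsLocalRing.maximalIdeal A).IsPrincipal := ⟨⟨_, hmax⟩⟩
  have i9 : IsDedekindDomain A :=
    ((tfae_of_isNoetherianRing_of_isLocalRing_of_isDomain A).out 4 2).1 hprinc
  have hϱA : algebraMap P A ϱ ≠ 0 := by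
    have hinj : Function.Injective (algebraMap P A) :=
      IsLocalization.injective A (Ideal.primeCompl_le_nonZeroDivisors 𝔭)
    rw [Ne, map_eq_zero_iff _ hinj]
    exact hϱ.ne_zero
  have hmax0 : IsLocalRing.maximalIdeal A ≠ ⊥ := by
    rw [hmax, Ne, Ideal.span_singleton_eq_bot]
    exact hϱA
  have i10 : IsDedekindDomain (integralClosure A F) := integralClosure.isDedekindDomain A Kt F
  have i11 : IsFractionRing (integralClosure A F) F :=
    integralClosure.isFractionRing_of_finite_extension Kt F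
  have i12 : Algebra.IsIntegral A (integralClosure A F) := inferInstance
  have i14 : Module.IsTorsionFree A F := .trans_faithfulSMul A Kt F
  have i15 : Module.IsTorsionFree A (integralClosure A F) :=
    (integralClosure A F).toSubmodule.instIsTorsionFree
  have hfin : Finite (HeightOneSpectrum (integralClosure A F)) := by
    have h1 := IsDedekindDomain.primesOver_finite (IsLocalRing.maximalIdeal A)
      (integralClosure A F)
    have := h1.to_subtype
    refine Finite.of_injective (β := (IsLocalRing.maximalIdeal A).primesOver (integralClosure A F))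
      (fun v => ⟨v.asIdeal, v.isPrime, ⟨?_⟩⟩) ?_
    · have h2 : (v.asIdeal.under A).IsPrime := inferInstance
      have h3 : v.asIdeal.under A ≠ ⊥ := mt Ideal.eq_bot_of_comap_eq_bot v.ne_bot
      have h4 : (v.asIdeal.under A).IsMaximal := Ring.DimensionLEOne.maximalOfPrime h3 h2
      exact (IsLocalRing.eq_maximalIdeal h4).symm
    · intro v w hvw
      exact HeightOneSpectrum.ext (congrArg (fun x => x.1) hvw)
  have i13 : IsPrincipalIdealRing (integralClosure A F) := by
    apply IsPrincipalIdealRing.of_finite_primes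
    have h5 : {I : Ideal (integralClosure A F) | I.IsPrime} ⊆
        insert ⊥ (Set.range (HeightOneSpectrum.asIdeal (R := integralClosure A F))) := by
      intro I hI
      by_cases hI0 : I = ⊥
      · exact Or.inl hI0
      · exact Or.inr ⟨⟨I, hI, hI0⟩, rfl⟩
    exact ((Set.finite_range _).insert ⊥).subset h5
  have hAV : ∀ (v : HeightOneSpectrum (integralClosure A F)) (a : A),
      algebraMap A F a ∈ (v.valuation F).valuationSubring := by
    intro v a
    rw [Valuation.mem_valuationSubring_iff]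
    exact v.valuation_le_one (algebraMap A (integralClosure A F) a)
  have hπ𝔭 : π ∈ 𝔭.primeCompl := by
    intro hmem
    rw [SetLike.mem_coe, h𝔭, Ideal.mem_span_singleton] at hmem
    exact hπϱ hmem
  obtain ⟨f, hf0, hf1, hf2⟩ := exists_root_unit_of_valuation (B := integralClosure A F)
      (m := m) (g := g) (by
    intro v
    obtain ⟨h, hh0, h1, h2⟩ := hV (v.valuation F).valuationSubring
      (fun x => by
        rw [IsScalarTower.algebraMap_apply P A F]
        exact hAV v _)
      (by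
        obtain ⟨u, hu⟩ := IsLocalization.map_units A (⟨π, hπ𝔭⟩ : 𝔭.primeCompl)
        have h3 : (algebraMap P F π)⁻¹ = algebraMap A F (↑u⁻¹ : A) := by
          have h4 : algebraMap A F (↑u : A) * algebraMap A F (↑u⁻¹ : A) = 1 := by
            rw [← map_mul, Units.mul_inv, map_one]
          rw [IsScalarTower.algebraMap_apply P A F]
          rw [hu] at h4
          exact inv_eq_of_mul_eq_one_right h4
        rw [h3]
        exact hAV v _)
      (by
        intro htop
        obtain ⟨ϖ, hϖ⟩ := v.valuation_exists_uniformizer F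
        have h3 : ϖ⁻¹ ∈ (v.valuation F).valuationSubring := by rw [htop]; trivial
        rw [Valuation.mem_valuationSubring_iff, map_inv₀, hϖ, ← WithZero.exp_neg,
          ← WithZero.exp_zero, WithZero.exp_le_exp] at h3
        omega)
      (isPrincipalIdealRing_valuationSubring v)
    refine ⟨h, hh0, ?_⟩
    rw [Valuation.mem_valuationSubring_iff, map_div₀, map_pow] at h1 h2
    have h4 : v.valuation F h ^ m ≠ 0 := pow_ne_zero _ ((Valuation.ne_zero_iff _).2 hh0)
    have h5 : v.valuation F g ≠ 0 := (Valuation.ne_zero_iff _).2 hg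
    rw [div_le_one₀ (zero_lt_iff.2 h4)] at h1
    rw [div_le_one₀ (zero_lt_iff.2 h5)] at h2
    exact le_antisymm h1 h2)
  have hint : ∀ x : F, x ∈ (algebraMap (integralClosure A F) F).range →
      ∃ c : 𝔭.primeCompl, IsIntegral P (c • x) := by
    rintro _ ⟨x, rfl⟩
    exact IsIntegral.exists_multiple_integral_of_isLocalization 𝔭.primeCompl _ x.2
  obtain ⟨c1, hc1⟩ := hint _ hf1
  obtain ⟨c2, hc2⟩ := hint _ hf2
  refine ⟨f, hf0, (c1 : P) * (c2 : P), ?_, ?_, ?_⟩
  · intro hdvd
    have h6 := (c1 * c2).2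
    apply h6
    have h7 : (c1 : P) * (c2 : P) ∈ Ideal.span {ϱ} := Ideal.mem_span_singleton.2 hdvd
    rw [← h𝔭] at h7
    exact h7
  · rw [mul_comm, mul_smul]
    exact IsIntegral.smul _ hc1
  · rw [mul_smul]
    exact IsIntegral.smul _ hc2

/-- **(H2)**: the hypothesis `hdiv` of the local principality theorem (C) at the prime `ϱ`. -/
theorem exists_hdiv {P F : Type*} (Kt : Type*) [CommRing P] [IsDomain P] [IsNoetherianRing P]
    [Field Kt] [Field F] [Algebra P Kt] [IsFractionRing P Kt] [Algebra Kt F] [Algebra P F]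
    [IsScalarTower P Kt F] [FiniteDimensional Kt F] [CharZero Kt]
    {π ϱ : P} (hϱ : Prime ϱ) (hπϱ : ¬ ϱ ∣ π) {m : ℕ} {g : F} (hg : g ≠ 0)
    (hV : ∀ V : ValuationSubring F, (∀ x : P, algebraMap P F x ∈ V) →
      (algebraMap P F π)⁻¹ ∈ V → V ≠ ⊤ → IsPrincipalIdealRing V →
      ∃ h : F, h ≠ 0 ∧ g / h ^ m ∈ V ∧ h ^ m / g ∈ V) :
    ∃ f : F, f ≠ 0 ∧ ∃ c : P, ¬ ϱ ∣ c ∧ IsIntegral P (c • (f ^ m / g)) ∧
      IsIntegral P (c • (g / f ^ m)) := by
  have : (Ideal.span {ϱ}).IsPrime := (Ideal.span_singleton_prime hϱ.ne_zero).2 hϱ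
  exact exists_hdiv_aux (Kt := Kt)
    (A := Localization.subalgebra.ofField Kt (Ideal.span {ϱ}).primeCompl
      (Ideal.primeCompl_le_nonZeroDivisors _)) (Ideal.span {ϱ}) hϱ rfl hπϱ hg hV

end H2

section H3

open AlgebraicCurve Fermat.Agent.ESlib

variable {K F : Type*} [Field K] [Field F] [Algebra K F]

/-- **(H3)** -/
theorem exists_unit_of_mdiv {m : ℕ} {g : F} (hg : MDiv K m g) (V : ValuationSubring F)
    (hK : ∀ a : K, algebraMap K F a ∈ V) (htop : V ≠ ⊤) (hpir : IsPrincipalIdealRing V) :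
    ∃ h : F, h ≠ 0 ∧ g / h ^ m ∈ V ∧ h ^ m / g ∈ V := by
  let v : Place K F := ⟨V, hK, htop, hpir⟩
  obtain ⟨k, hk⟩ := hg.2 v
  obtain ⟨t, ht⟩ := S24RH.exists_ord_eq_one v
  have ht0 : t ≠ 0 := by
    rintro rfl
    simp at ht
  have h0 : t ^ k ≠ 0 := zpow_ne_zero _ ht0
  have h1 : v.ord ((t ^ k) ^ m) = v.ord g := by
    rw [S24RH.ord_pow, Place.ord_zpow, ht, hk]
    ring
  refine ⟨t ^ k, h0, ?_, ?_⟩
  · have : 0 ≤ v.ord (g / (t ^ k) ^ m) := by
      rw [S24RH.ord_div v hg.1 (pow_ne_zero _ h0), h1, sub_self]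
    exact S24RH.mem_of_ord_nonneg v this
  · have : 0 ≤ v.ord ((t ^ k) ^ m / g) := by
      rw [S24RH.ord_div v (pow_ne_zero _ h0) hg.1, h1, sub_self]
    exact S24RH.mem_of_ord_nonneg v this

/-- a valuation subring containing `R` and `π⁻¹` contains `K = Frac R` (`R` a DVR) -/
theorem algebraMap_mem_of_inv_mem {R : Type*} [CommRing R] [IsDomain R]
    [IsDiscreteValuationRing R] [Algebra R K] [IsFractionRing R K] [Algebra R F]
    [IsScalarTower R K F] {π : R} (hπ : Irreducible π) (V : ValuationSubring F)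
    (hR : ∀ x : R, algebraMap R F x ∈ V) (hinv : (algebraMap R F π)⁻¹ ∈ V) (a : K) :
    algebraMap K F a ∈ V := by
  obtain ⟨x, y, hy, rfl⟩ := IsFractionRing.div_surjective (A := R) a
  have hy0 : y ≠ 0 := nonZeroDivisors.ne_zero hy
  obtain ⟨n, hn⟩ := IsDiscreteValuationRing.associated_pow_irreducible hy0 hπ
  obtain ⟨u, hu⟩ := hn.symm
  rw [map_div₀, ← IsScalarTower.algebraMap_apply, ← IsScalarTower.algebraMap_apply, ← hu,
    map_mul, map_pow, div_eq_mul_inv, mul_inv, ← inv_pow]
  have h1 : (algebraMap R F (u : R))⁻¹ = algebraMap R F (↑u⁻¹ : R) := by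
    apply inv_eq_of_mul_eq_one_right
    rw [← map_mul, Units.mul_inv, map_one]
  rw [h1]
  exact mul_mem (hR x) (mul_mem (pow_mem hinv n) (hR _))

/-- **(HDIV)**: `hdiv` from `MDiv K m g`. -/
theorem exists_hdiv_of_mdiv {R P : Type*} (Kt : Type*) [CommRing R] [IsDomain R]
    [IsDiscreteValuationRing R] [Algebra R K] [IsFractionRing R K] [Algebra R F]
    [IsScalarTower R K F] [CommRing P] [IsDomain P] [IsNoetherianRing P]
    [Field Kt] [Algebra P Kt] [IsFractionRing P Kt] [Algebra Kt F] [Algebra P F]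
    [IsScalarTower P Kt F] [FiniteDimensional Kt F] [CharZero Kt] [Algebra R P]
    [IsScalarTower R P F] {π : R} (hπ : Irreducible π) {ϱ : P} (hϱ : Prime ϱ)
    (hπϱ : ¬ ϱ ∣ algebraMap R P π) {m : ℕ} {g : F} (hg : MDiv K m g) :
    ∃ f : F, f ≠ 0 ∧ ∃ c : P, ¬ ϱ ∣ c ∧ IsIntegral P (c • (f ^ m / g)) ∧
      IsIntegral P (c • (g / f ^ m)) := by
  refine exists_hdiv Kt hϱ hπϱ hg.1 fun V hP hinv htop hpir => ?_
  refine exists_unit_of_mdiv hg V (fun a => ?_) htop hpir
  refine algebraMap_mem_of_inv_mem hπ V (fun x => ?_) ?_ a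
  · rw [IsScalarTower.algebraMap_apply R P F]
    exact hP _
  · rw [IsScalarTower.algebraMap_apply R P F]
    exact hinv

end H3

end Fermat.Agent.UNIlib
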