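import Mathlib
import Fermat.Agent.ES.C.AKDefs

/-!
# T-UNI, (LP) half A, part 0: integrality over `P_(ϱ)`, elementwise

`LInt ϱ x` : `x` is integral over the localisation of `P` at the prime element `ϱ`.
-/

set_option autoImplicit false

namespace Fermat.Agent.UNIlib

open Fermat.Agent.ESlib

section Defs

variable {P F : Type*} [CommRing P] [Field F] [Algebra P F]

/-- `x` is integral over `P_(ϱ)`. -/
def LInt (ϱ : P) (x : F) : Prop := ∃ r : P, ¬ ϱ ∣ r ∧ IsIntegral P (r • x)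

theorem LInt.of_isIntegral {ϱ : P} (hϱ : Prime ϱ) {x : F} (h : IsIntegral P x) : LInt ϱ x :=
  ⟨1, fun h1 => hϱ.not_unit (isUnit_of_dvd_one h1), by rwa [one_smul]⟩

theorem LInt.algebraMap {ϱ : P} (hϱ : Prime ϱ) (c : P) : LInt ϱ (algebraMap P F c) :=
  LInt.of_isIntegral hϱ isIntegral_algebraMap

theorem LInt.add {ϱ : P} (hϱ : Prime ϱ) {x y : F} (hx : LInt ϱ x) (hy : LInt ϱ y) :
    LInt ϱ (x + y) := by
  obtain ⟨r, hr, hx⟩ := hx
  obtain ⟨t, ht, hy⟩ := hy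
  refine ⟨r * t, fun h => (hϱ.dvd_or_dvd h).elim hr ht, ?_⟩
  have : (r * t) • (x + y) = t • (r • x) + r • (t • y) := by
    simp only [Algebra.smul_def, map_mul]; ring
  rw [this]
  exact (hx.smul t).add (hy.smul r)

theorem LInt.mul {ϱ : P} (hϱ : Prime ϱ) {x y : F} (hx : LInt ϱ x) (hy : LInt ϱ y) :
    LInt ϱ (x * y) := by
  obtain ⟨r, hr, hx⟩ := hx
  obtain ⟨t, ht, hy⟩ := hy
  refine ⟨r * t, fun h => (hϱ.dvd_or_dvd h).elim hr ht, ?_⟩
  have : (r * t) • (x * y) = (r • x) * (t • y) := by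
    simp only [Algebra.smul_def, map_mul]; ring
  rw [this]
  exact hx.mul hy

theorem LInt.neg {ϱ : P} {x : F} (hx : LInt ϱ x) : LInt ϱ (-x) := by
  obtain ⟨r, hr, hx⟩ := hx
  exact ⟨r, hr, by rw [smul_neg]; exact hx.neg⟩

/-- The subring of the elements integral over `P_(ϱ)`. -/
def lsub (F : Type*) [Field F] [Algebra P F] {ϱ : P} (hϱ : Prime ϱ) : Subring F where
  carrier := {x | LInt ϱ x}
  mul_mem' hx hy := LInt.mul hϱ hx hy
  one_mem' := LInt.of_isIntegral hϱ isIntegral_one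
  add_mem' hx hy := LInt.add hϱ hx hy
  zero_mem' := LInt.of_isIntegral hϱ isIntegral_zero
  neg_mem' hx := LInt.neg hx

@[simp] theorem mem_lsub {ϱ : P} (hϱ : Prime ϱ) {x : F} : x ∈ lsub F hϱ ↔ LInt ϱ x := Iff.rfl

theorem LInt.sub {ϱ : P} (hϱ : Prime ϱ) {x y : F} (hx : LInt ϱ x) (hy : LInt ϱ y) :
    LInt ϱ (x - y) := (lsub F hϱ).sub_mem hx hy

theorem LInt.pow {ϱ : P} (hϱ : Prime ϱ) {x : F} (hx : LInt ϱ x) (k : ℕ) : LInt ϱ (x ^ k) :=
  (lsub F hϱ).pow_mem hx k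

theorem LInt.smul {ϱ : P} (hϱ : Prime ϱ) {x : F} (hx : LInt ϱ x) (c : P) : LInt ϱ (c • x) := by
  rw [Algebra.smul_def]
  exact (LInt.algebraMap hϱ c).mul hϱ hx

theorem LInt.of_pow {ϱ : P} {x : F} {k : ℕ} (hk : 0 < k) (h : LInt ϱ (x ^ k)) : LInt ϱ x := by
  obtain ⟨r, hr, hx⟩ := h
  refine ⟨r, hr, IsIntegral.of_pow hk ?_⟩
  have : (r • x) ^ k = r ^ (k - 1) • (r • x ^ k) := by
    rw [smul_pow, smul_smul, ← pow_succ, Nat.sub_add_cancel hk]
  rw [this]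
  exact hx.smul _

/-- division by an element prime to `ϱ` -/
theorem LInt.of_smul {ϱ : P} (hϱ : Prime ϱ) {x : F} {c : P} (hc : ¬ ϱ ∣ c) (h : LInt ϱ (c • x)) :
    LInt ϱ x := by
  obtain ⟨r, hr, hx⟩ := h
  exact ⟨r * c, fun h => (hϱ.dvd_or_dvd h).elim hr hc, by rwa [mul_smul]⟩

end Defs

section Frac

variable {P Kt : Type*} [CommRing P] [IsDomain P] [IsIntegrallyClosed P] [Field Kt] [Algebra P Kt]
  [IsFractionRing P Kt]

/-- In the fraction field: `x ∈ P_(ϱ)`. -/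
theorem lInt_frac_iff {ϱ : P} {x : Kt} :
    LInt ϱ x ↔ ∃ r c : P, ¬ ϱ ∣ r ∧ algebraMap P Kt r * x = algebraMap P Kt c := by
  constructor
  · rintro ⟨r, hr, h⟩
    obtain ⟨c, hc⟩ := IsIntegrallyClosed.isIntegral_iff.1 h
    exact ⟨r, c, hr, by rw [hc, Algebra.smul_def]⟩
  · rintro ⟨r, c, hr, h⟩
    exact ⟨r, hr, by rw [Algebra.smul_def, h]; exact isIntegral_algebraMap⟩

end Frac

end Fermat.Agent.UNIlib
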