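import Mathlib
import Fermat.Agent.ES.C.AKWrap
import Fermat.Agent.UNI.LPA0
import Fermat.Agent.UNI.HDiv

/-!
# T-UNI, (C): the dictionary between the chart `R[T]` near a maximal ideal `𝔪 ∋ π` of `R[X]` and the
local ring `O = R[X]_𝔪`

* `isIntegral_atPrime_iff` : `IsIntegral O x ↔ ∃ a ∉ 𝔪, IsIntegral R[T] (a(T) x)`;
* `lInt_atPrime_iff` : `LInt π x ↔ PiInt π T x`;
* `exists_intModPi_of_monic` : integral mod `π C` over `O` implies `IntModPi` up to a denominator.
-/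

set_option autoImplicit false
set_option linter.unusedSectionVars false

namespace Fermat.Agent.UNIlib

open Polynomial IntermediateField Fermat.Agent.ESlib

section Dict

variable {R F O : Type*} [CommRing R] [IsDomain R] [Field F] [Algebra R F]
  [Algebra R[X] F] [CommRing O] [Algebra R[X] O] [Algebra O F] [IsScalarTower R[X] O F]
  (𝔪 : Ideal R[X]) [𝔪.IsPrime] [IsLocalization.AtPrime O 𝔪]

theorem isIntegral_adjoin_iff_poly {T : F} (hTalg : ∀ p : R[X], algebraMap R[X] F p = aeval T p)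
    (x : F) : IsIntegral (Algebra.adjoin R {T}) x ↔ IsIntegral R[X] x := by
  have halg : algebraMap R[X] F = ((aeval T : R[X] →ₐ[R] F) : R[X] →+* F) := RingHom.ext hTalg
  rw [isIntegral_adjoin_singleton_iff, IsIntegral, halg]

/-- **(D1)** -/
theorem isIntegral_atPrime_iff {T : F} (hTalg : ∀ p : R[X], algebraMap R[X] F p = aeval T p)
    (x : F) : IsIntegral O x ↔
      ∃ a : R[X], a ∉ 𝔪 ∧ IsIntegral (Algebra.adjoin R {T}) (aeval T a * x) := by
  constructor
  · intro hx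
    obtain ⟨a, ha⟩ := IsIntegral.exists_multiple_integral_of_isLocalization 𝔪.primeCompl x hx
    refine ⟨a, a.2, ?_⟩
    rw [isIntegral_adjoin_iff_poly hTalg, ← hTalg, ← Algebra.smul_def]
    exact ha
  · rintro ⟨a, ha, hx⟩
    rw [isIntegral_adjoin_iff_poly hTalg] at hx
    have h1 : IsIntegral O (aeval T a * x) := hx.tower_top
    obtain ⟨u, hu⟩ := IsLocalization.map_units O (⟨a, ha⟩ : 𝔪.primeCompl)
    have h2 : x = (↑u⁻¹ : O) • (aeval T a * x) := by
      rw [← hTalg, IsScalarTower.algebraMap_apply R[X] O F, Algebra.smul_def, ← mul_assoc,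
        ← map_mul]
      change x = algebraMap O F (↑u⁻¹ * algebraMap R[X] O a) * x
      rw [show algebraMap R[X] O a = u from hu.symm, Units.inv_mul, map_one, one_mul]
    rw [h2]
    exact h1.smul _

/-- **(D2)** -/
theorem lInt_atPrime_iff {T : F} (hTalg : ∀ p : R[X], algebraMap R[X] F p = aeval T p)
    {π : R} (hπ : Prime π) (hπ𝔪 : C π ∈ 𝔪) (x : F) :
    LInt (algebraMap R[X] O (C π)) x ↔ PiInt π T x := by
  have hCπ : Prime (C π : R[X]) := prime_C_of_prime hπ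
  constructor
  · rintro ⟨r, hr, hx⟩
    obtain ⟨r0, s0, rfl⟩ := IsLocalization.exists_mk'_eq 𝔪.primeCompl r
    have h1 : IsIntegral O (algebraMap R[X] O r0 • x) := by
      rw [← IsLocalization.mk'_spec O r0 s0, mul_comm, mul_smul]
      exact hx.smul _
    have hr0 : ¬ C π ∣ r0 := by
      intro h
      apply hr
      rw [← atPrime_dvd_iff (O := O) 𝔪 hCπ hπ𝔪, ← IsLocalization.mk'_spec O r0 s0] at h
      exact ((IsLocalization.map_units O s0).dvd_mul_right).1 h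
    obtain ⟨a, ha, h2⟩ := (isIntegral_atPrime_iff 𝔪 hTalg _).1 h1
    refine ⟨a * r0, ?_, ?_⟩
    · intro h
      rcases hCπ.dvd_or_dvd h with h | h
      · exact ha (𝔪.mem_of_dvd h hπ𝔪)
      · exact hr0 h
    · rw [map_mul, mul_assoc]
      rwa [Algebra.smul_def, ← IsScalarTower.algebraMap_apply R[X] O F, hTalg] at h2
  · rintro ⟨r, hr, hx⟩
    refine ⟨algebraMap R[X] O r, ?_, ?_⟩
    · rwa [atPrime_dvd_iff 𝔪 hCπ hπ𝔪]
    · rw [Algebra.smul_def, ← IsScalarTower.algebraMap_apply R[X] O F, hTalg]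
      exact ((isIntegral_adjoin_iff_poly hTalg _).1 hx).tower_top

/-- **(D4)** integral mod `π C` over `O` implies `IntModPi` after multiplication by a denominator -/
theorem exists_intModPi_of_monic {T : F} (hTalg : ∀ p : R[X], algebraMap R[X] F p = aeval T p)
    {π : R} (hπ : Prime π) (hπ𝔪 : C π ∈ 𝔪) (p : O[X]) (hp : p.Monic) (Y : F)
    (h : LInt (algebraMap R[X] O (C π)) (aeval Y p / algebraMap R F π)) :
    ∃ u : R[X], u ∉ 𝔪 ∧ IntModPi π T (aeval T u * Y) := by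
  set u := IsLocalization.commonDenom 𝔪.primeCompl p.support p.coeff with hu
  have hl := IsLocalization.scaleRoots_commonDenom_mem_lifts 𝔪.primeCompl p
    (by rw [hp.leadingCoeff]; exact one_mem _)
  rw [← hu] at hl
  refine ⟨u, u.2, (p.scaleRoots (algebraMap R[X] O u)).map (algebraMap O F), ?_, ?_, ?_⟩
  · exact ((monic_scaleRoots_iff _).2 hp).map _
  · intro i
    rw [coeff_map]
    rw [Polynomial.lifts_iff_coeff_lifts] at hl
    obtain ⟨c, hc⟩ := hl i
    rw [← hc, ← IsScalarTower.algebraMap_apply R[X] O F, isIntegral_adjoin_iff_poly hTalg]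
    exact isIntegral_algebraMap
  · rw [eval_map, ← hTalg, IsScalarTower.algebraMap_apply R[X] O F, scaleRoots_eval₂_mul,
      ← aeval_def, mul_div_assoc]
    refine PiInt.mul hπ (PiInt.pow hπ (PiInt.of_isIntegral hπ ?_) _)
      ((lInt_atPrime_iff 𝔪 hTalg hπ hπ𝔪 _).1 h)
    rw [← IsScalarTower.algebraMap_apply R[X] O F, isIntegral_adjoin_iff_poly hTalg]
    exact isIntegral_algebraMap

end Dict

section Defs

/-- `Y ∈ Õ#`: `Y` is `π`-integral and integral over `P` modulo `π C`. -/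
def OtSharp {P F : Type*} [CommRing P] [Field F] [Algebra P F] (π : P) (Y : F) : Prop :=
  LInt π Y ∧ ∃ p : P[X], p.Monic ∧ LInt π (aeval Y p / algebraMap P F π)

/-- **(Node)**, local form: `rad Õ ⊆ Ō`. -/
def NodeP {P : Type*} (F : Type*) [CommRing P] [Field F] [Algebra P F] (π s : P) : Prop :=
  ∀ Z : F, OtSharp π Z →
    (∃ k : ℕ, 0 < k ∧ ∃ Y : F, OtSharp π Y ∧ LInt π ((Z ^ k - s • Y) / algebraMap P F π)) →
    ∃ e : F, IsIntegral P e ∧ LInt π ((Z - e) / algebraMap P F π)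

/-- **(Node)**, chart form at the maximal ideal `𝔪` of `R[X]`. -/
def NodeChartAt {R F : Type*} [CommRing R] [Field F] [Algebra R F] (π : R) (T : F) (𝔪 : Ideal R[X]) :
    Prop :=
  ∀ (Z Y : F) (k : ℕ) (s : R[X]), 0 < k → s ∈ 𝔪 →
    (∃ u : R[X], u ∉ 𝔪 ∧ PiInt π T (aeval T u * Z) ∧ IntModPi π T (aeval T u * Z)) →
    (∃ u : R[X], u ∉ 𝔪 ∧ PiInt π T (aeval T u * Y) ∧ IntModPi π T (aeval T u * Y)) →
    PiInt π T ((Z ^ k - aeval T s * Y) / algebraMap R F π) →
    ∃ a : R[X], a ∉ 𝔪 ∧ ∃ e : F, IsIntegral (Algebra.adjoin R {T}) e ∧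
      PiInt π T ((aeval T a * Z - e) / algebraMap R F π)

end Defs

section Node

variable {R F O : Type*} [CommRing R] [IsDomain R] [Field F] [Algebra R F]
  [Algebra R[X] F] [CommRing O] [Algebra R[X] O] [Algebra O F] [IsScalarTower R[X] O F]
  (𝔪 : Ideal R[X]) [𝔪.IsPrime] [IsLocalization.AtPrime O 𝔪]

theorem algebraMap_C_eq {T : F} (hTalg : ∀ p : R[X], algebraMap R[X] F p = aeval T p) (π : R) :
    algebraMap O F (algebraMap R[X] O (C π)) = algebraMap R F π := by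
  rw [← IsScalarTower.algebraMap_apply R[X] O F, hTalg, aeval_C]

theorem exists_chart_of_otSharp {T : F} (hTalg : ∀ p : R[X], algebraMap R[X] F p = aeval T p)
    {π : R} (hπ : Prime π) (hπ𝔪 : C π ∈ 𝔪) {Y : F}
    (hY : OtSharp (algebraMap R[X] O (C π)) Y) :
    ∃ u : R[X], u ∉ 𝔪 ∧ PiInt π T (aeval T u * Y) ∧ IntModPi π T (aeval T u * Y) := by
  obtain ⟨h1, p, hp, h2⟩ := hY
  rw [algebraMap_C_eq hTalg] at h2
  obtain ⟨u, hu, h3⟩ := exists_intModPi_of_monic 𝔪 hTalg hπ hπ𝔪 p hp Y h2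
  refine ⟨u, hu, PiInt.mul hπ (PiInt.of_isIntegral hπ ?_) ((lInt_atPrime_iff 𝔪 hTalg hπ hπ𝔪 _).1 h1),
    h3⟩
  rw [← hTalg, isIntegral_adjoin_iff_poly hTalg]
  exact isIntegral_algebraMap

/-- the local form of (Node) from the chart form -/
theorem nodeP_of_nodeChartAt {T : F} (hTalg : ∀ p : R[X], algebraMap R[X] F p = aeval T p)
    {π : R} (hπ : Prime π) (hπ𝔪 : C π ∈ 𝔪) {s : R[X]} (hs : s ∈ 𝔪) (H : NodeChartAt π T 𝔪) :
    NodeP F (algebraMap R[X] O (C π)) (algebraMap R[X] O s) := by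
  rintro Z hZ ⟨k, hk, Y, hY, hZY⟩
  rw [algebraMap_C_eq hTalg, lInt_atPrime_iff 𝔪 hTalg hπ hπ𝔪, Algebra.smul_def,
    ← IsScalarTower.algebraMap_apply R[X] O F, hTalg] at hZY
  obtain ⟨a, ha, e, he, h⟩ := H Z Y k s hk hs (exists_chart_of_otSharp 𝔪 hTalg hπ hπ𝔪 hZ)
    (exists_chart_of_otSharp 𝔪 hTalg hπ hπ𝔪 hY) hZY
  have hCπ : Prime (C π : R[X]) := prime_C_of_prime hπ
  have haπ : ¬ C π ∣ a := fun h => ha (𝔪.mem_of_dvd h hπ𝔪)
  by_cases ha0 : aeval T a = 0
  · -- degenerate case (excluded when `T` is transcendental)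
    refine ⟨Z, ?_, ?_⟩
    · rw [isIntegral_atPrime_iff 𝔪 hTalg]
      exact ⟨a, ha, by rw [ha0, zero_mul]; exact isIntegral_zero⟩
    · rw [sub_self, zero_div]
      exact LInt.of_isIntegral (atPrime_prime 𝔪 hCπ hπ𝔪) isIntegral_zero
  refine ⟨e / aeval T a, ?_, ?_⟩
  · rw [isIntegral_atPrime_iff 𝔪 hTalg]
    exact ⟨a, ha, by rwa [mul_div_cancel₀ _ ha0]⟩
  · rw [algebraMap_C_eq hTalg, lInt_atPrime_iff 𝔪 hTalg hπ hπ𝔪]
    have h1 : (Z - e / aeval T a) / algebraMap R F π =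
        (aeval T a)⁻¹ * ((aeval T a * Z - e) / algebraMap R F π) := by
      field_simp
    rw [h1]
    exact PiInt.mul hπ (PiInt.inv_aeval haπ) h

end Node

end Fermat.Agent.UNIlib
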