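import Mathlib
import Fermat.Agent.ES.C.AK12

/-!
# T-UNI, (CRIT): the abstract KIL for an arbitrary normal model

`abstract_KIL` (ES/C/AK12) uses the good reduction hypotheses (`GoodChart`) only to lift the
idempotent `ε = (1/m) ∑ Y ^ k` of the special fibre of `E = F(y)` to integral elements of the two
charts.  Here this lifting is obtained from a *local* hypothesis on `f = y ^ m` which makes sense
for any model:

for every maximal ideal `𝔪 ∋ π` of `R[t]` there is `G ∈ F`, `G ≡ 1 mod π`, such that `f * G ^ m`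
is integral over `R[t]_𝔪`.
-/

set_option autoImplicit false

namespace Fermat.Agent.UNIlib

open Polynomial IntermediateField Fermat.Agent.ESlib

universe u

section Core

variable {R K L : Type u} [CommRing R] [IsDomain R] [IsDiscreteValuationRing R]
    [Field K] [Algebra R K] [IsFractionRing R K] [CharZero K] [Field L] [Algebra K L] [Algebra R L]
    [IsScalarTower R K L]

/-- `core_idempotent` with the two liftings as hypotheses (no `GoodChart`). -/
theorem core_idempotent_of_lift {π : R} (hπ : Irreducible π) {t : L} (ht : Transcendental K t)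
    [FiniteDimensional K⟮t⟯ L]
    (hK : ∀ y : L, IsIntegral K y → ∃ c : K, algebraMap K L c = y)
    (ε : L) (hε1 : PiInt π t ε) (hε : PiInt π t ((ε ^ 2 - ε) / algebraMap R L π))
    (hA : ∃ a : L, IsIntegral (Algebra.adjoin R {t}) a ∧ PiInt π t ((a - ε) / algebraMap R L π))
    (hB : ∃ b : L, IsIntegral (Algebra.adjoin R {t⁻¹}) b ∧
      PiInt π t⁻¹ ((b - ε) / algebraMap R L π)) :
    PiInt π t (ε / algebraMap R L π) ∨ PiInt π t ((1 - ε) / algebraMap R L π) := by
  have hp : Prime π := hπ.prime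
  have ht0 : t ≠ 0 := fun h0 => ht (h0 ▸ isAlgebraic_zero)
  have ht' : Transcendental K t⁻¹ := by
    intro h
    exact ht (by simpa using h.inv)
  have hπ0 : algebraMap R L π ≠ 0 := by
    rw [IsScalarTower.algebraMap_apply R K L]
    simpa using hπ.ne_zero
  have hε1' : PiInt π t⁻¹ ε := (piInt_inv_iff hp ht).2 hε1
  have hε' : PiInt π t⁻¹ ((ε ^ 2 - ε) / algebraMap R L π) := (piInt_inv_iff hp ht).2 hε
  obtain ⟨a, ha, hau⟩ := hA
  obtain ⟨b, hb, hbu'⟩ := hB
  have hbu : PiInt π t ((b - ε) / algebraMap R L π) := (piInt_inv_iff hp ht).1 hbu'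
  have hidem : ∀ (T c : L), PiInt π T ε → PiInt π T ((ε ^ 2 - ε) / algebraMap R L π) →
      IsIntegral (Algebra.adjoin R {T}) c → PiInt π T ((c - ε) / algebraMap R L π) →
      PiInt π T ((c ^ 2 - c) / algebraMap R L π) := by
    intro T c h1 h2 hc h3
    have : (c ^ 2 - c) / algebraMap R L π = (ε ^ 2 - ε) / algebraMap R L π +
        (c - ε) / algebraMap R L π * (c + ε - 1) := by
      field_simp
      ring
    rw [this]
    refine h2.add hp (h3.mul hp ?_)
    exact ((PiInt.of_isIntegral hp hc).add hp h1).sub hp (PiInt.of_isIntegral hp isIntegral_one)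
  have haa : IsIntegral (Algebra.adjoin R {t}) ((a ^ 2 - a) / algebraMap R L π) := by
    refine isIntegral_of_piInt hp ht (hidem t a hε1 hε ha hau) ?_
    rw [mul_div_cancel₀ _ hπ0]
    exact (ha.pow 2).sub ha
  have hbb : IsIntegral (Algebra.adjoin R {t⁻¹}) ((b ^ 2 - b) / algebraMap R L π) := by
    refine isIntegral_of_piInt hp ht' (hidem t⁻¹ b hε1' hε' hb hbu') ?_
    rw [mul_div_cancel₀ _ hπ0]
    exact (hb.pow 2).sub hb
  have hab : IsIntegral (Algebra.adjoin R {t, t⁻¹}) ((a - b) / algebraMap R L π) := by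
    refine isIntegral_mid_of_piInt hπ ht ?_ ?_
    · have : (a - b) / algebraMap R L π =
          (a - ε) / algebraMap R L π - (b - ε) / algebraMap R L π := by
        field_simp
        ring
      rw [this]
      exact hau.sub hp hbu
    · rw [mul_div_cancel₀ _ hπ0]
      exact (isIntegral_mid_of_isIntegral ha).sub (isIntegral_mid_of_isIntegral_inv hb)
  rcases connected_charts hπ t ht hK ha hb haa hbb hab with h0 | h1
  · left
    have : ε / algebraMap R L π = a / algebraMap R L π - (a - ε) / algebraMap R L π := by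
      field_simp
      ring
    rw [this]
    exact (PiInt.of_isIntegral hp h0).sub hp hau
  · right
    have : (1 - ε) / algebraMap R L π =
        (1 - a) / algebraMap R L π + (a - ε) / algebraMap R L π := by
      field_simp
      ring
    rw [this]
    exact (PiInt.of_isIntegral hp h1).add hp hau

/-- local to global: if `ε` can be lifted modulo `π` after multiplication by some `a(T)`,
`a ∉ 𝔪`, for every maximal ideal `𝔪 ∋ π` of `R[X]`, then `ε` can be lifted. -/
theorem exists_lift_of_local {π : R} (hπ : Irreducible π) {T : L} (hT : Transcendental K T)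
    (ε : L) (hε1 : PiInt π T ε)
    (h : ∀ 𝔪 : Ideal R[X], 𝔪.IsMaximal → C π ∈ 𝔪 → ∃ a, a ∉ 𝔪 ∧ ∃ e : L,
      IsIntegral (Algebra.adjoin R {T}) e ∧
        PiInt π T ((e - aeval T a * ε) / algebraMap R L π)) :
    ∃ e : L, IsIntegral (Algebra.adjoin R {T}) e ∧ PiInt π T ((e - ε) / algebraMap R L π) := by
  have hp : Prime π := hπ.prime
  have hπ0 : algebraMap R L π ≠ 0 := by
    rw [IsScalarTower.algebraMap_apply R K L]
    simpa using hπ.ne_zero
  obtain ⟨r, hr, hrε⟩ := hε1
  have key : LocAt π T ε r 1 := by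
    refine locAt_one_of_forall_maximal π T ε r hrε fun 𝔪 h𝔪 hπ𝔪 => ?_
    obtain ⟨a, ha, e, he, hx⟩ := h 𝔪 h𝔪 hπ𝔪
    refine ⟨a, ha, e, aeval T r * ((e - aeval T a * ε) / algebraMap R L π), he, ?_, ?_⟩
    · refine isIntegral_of_piInt hp hT ?_ ?_
      · exact (PiInt.of_isIntegral hp (isIntegral_aeval_adjoin T r)).mul hp hx
      · have : algebraMap R L π * (aeval T r * ((e - aeval T a * ε) / algebraMap R L π)) =
            aeval T r * e - aeval T a * (aeval T r * ε) := by
          field_simp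
        rw [this]
        exact ((isIntegral_aeval_adjoin T r).mul he).sub ((isIntegral_aeval_adjoin T a).mul hrε)
    · field_simp
  obtain ⟨e, z, he, hz, h⟩ := key
  refine ⟨e, he, r, hr, ?_⟩
  have : aeval T r * ((e - ε) / algebraMap R L π) = z := by
    rw [map_one, one_mul] at h
    rw [← mul_div_assoc, h, mul_div_cancel_left₀ _ hπ0]
  rw [this]
  exact hz

/-- `(G - 1) / π` `π`-integral implies `(G ^ k - 1) / π` `π`-integral. -/
theorem piInt_pow_sub_one_div {π : R} (hπ : Irreducible π) (hπ0 : algebraMap R L π ≠ 0) {T G : L}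
    (hG : PiInt π T ((G - 1) / algebraMap R L π)) (k : ℕ) :
    PiInt π T ((G ^ k - 1) / algebraMap R L π) := by
  have hp : Prime π := hπ.prime
  have hGP : PiInt π T G := by
    have h1 : G = 1 + algebraMap R L π * ((G - 1) / algebraMap R L π) := by
      field_simp
      ring
    rw [h1]
    exact (PiInt.of_isIntegral hp isIntegral_one).add hp
      ((ak12_piInt_algebraMap hp _).mul hp hG)
  have h2 : (G ^ k - 1) / algebraMap R L π =
      (∑ i ∈ Finset.range k, G ^ i) * ((G - 1) / algebraMap R L π) := by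
    rw [← mul_div_assoc, geom_sum_mul]
  rw [h2]
  exact (ak12_piInt_sum hp _ _ fun i _ => hGP.pow hp i).mul hp hG

/-- the local lifting of the Kummer idempotent: `Y ^ m = f`, `G ≡ 1`, `s(T) f G ^ m` integral. -/
theorem kummer_local_lift {π : R} (hπ : Irreducible π) (hπ0 : algebraMap R L π ≠ 0) {T : L}
    {m : ℕ} (hm : IsUnit (m : R))
    {f Y G : L} (hY : Y ^ m = f) (hf : PiInt π T ((f - 1) / algebraMap R L π))
    (hG : PiInt π T ((G - 1) / algebraMap R L π)) (s : R[X])
    (hs : IsIntegral (Algebra.adjoin R {T}) (aeval T s * (f * G ^ m))) :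
    ∃ e : L, IsIntegral (Algebra.adjoin R {T}) e ∧
      PiInt π T ((e - aeval T (s ^ (m - 1)) * ((m : L)⁻¹ * ∑ k ∈ Finset.range m, Y ^ k)) /
        algebraMap R L π) := by
  have hp : Prime π := hπ.prime
  have hm0 : 0 < m := by
    rcases Nat.eq_zero_or_pos m with rfl | h
    · simp at hm
    · exact h
  have hsI : IsIntegral (Algebra.adjoin R {T}) (aeval T s) := isIntegral_aeval_adjoin T s
  have hminvI : IsIntegral (Algebra.adjoin R {T}) (m : L)⁻¹ := by
    rw [ak12_natCast_inv_eq_algebraMap hm]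
    exact isIntegral_algebraMap (R := Algebra.adjoin R {T}) (x := algebraMap R _ _)
  -- `s(T) Y G` is integral
  have hZ : IsIntegral (Algebra.adjoin R {T}) (aeval T s * (Y * G)) := by
    refine IsIntegral.of_pow hm0 ?_
    have : (aeval T s * (Y * G)) ^ m = aeval T s ^ (m - 1) * (aeval T s * (f * G ^ m)) := by
      rw [mul_pow, mul_pow, hY, ← mul_assoc (aeval T s ^ (m - 1)), ← pow_succ,
        Nat.sub_add_cancel hm0]
    rw [this]
    exact (hsI.pow _).mul hs
  have hterm : ∀ k ∈ Finset.range m,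
      IsIntegral (Algebra.adjoin R {T}) (aeval T s ^ (m - 1) * (Y * G) ^ k) := by
    intro k hk
    have hk' : k ≤ m - 1 := by
      have := Finset.mem_range.1 hk
      omega
    have : aeval T s ^ (m - 1) * (Y * G) ^ k =
        aeval T s ^ (m - 1 - k) * (aeval T s * (Y * G)) ^ k := by
      rw [mul_pow (aeval T s), ← mul_assoc, ← pow_add, Nat.sub_add_cancel hk']
    rw [this]
    exact (hsI.pow _).mul (hZ.pow k)
  have hfP : PiInt π T f := by
    have h1 : f = 1 + algebraMap R L π * ((f - 1) / algebraMap R L π) := by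
      field_simp
      ring
    rw [h1]
    exact (PiInt.of_isIntegral hp isIntegral_one).add hp
      ((ak12_piInt_algebraMap hp _).mul hp hf)
  have hYP : PiInt π T Y := PiInt.of_pow hm0 (hY ▸ hfP)
  refine ⟨(m : L)⁻¹ * ∑ k ∈ Finset.range m, aeval T s ^ (m - 1) * (Y * G) ^ k,
    hminvI.mul (IsIntegral.sum _ hterm), ?_⟩
  have hkey : ((m : L)⁻¹ * ∑ k ∈ Finset.range m, aeval T s ^ (m - 1) * (Y * G) ^ k -
      aeval T (s ^ (m - 1)) * ((m : L)⁻¹ * ∑ k ∈ Finset.range m, Y ^ k)) / algebraMap R L π =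
      (m : L)⁻¹ * aeval T s ^ (m - 1) *
        ∑ k ∈ Finset.range m, Y ^ k * ((G ^ k - 1) / algebraMap R L π) := by
    rw [map_pow, Finset.mul_sum, Finset.mul_sum, Finset.mul_sum, Finset.mul_sum,
      ← Finset.sum_sub_distrib, Finset.sum_div]
    refine Finset.sum_congr rfl fun k _ => ?_
    rw [mul_pow]
    field_simp
  rw [hkey]
  refine ((PiInt.of_isIntegral hp hminvI).mul hp (PiInt.of_isIntegral hp (hsI.pow _))).mul hp ?_
  exact ak12_piInt_sum hp _ _ fun k _ => (hYP.pow hp k).mul hp
    (piInt_pow_sub_one_div hπ hπ0 hG k)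

end Core

variable {R K F E : Type u} [CommRing R] [IsDomain R] [IsDiscreteValuationRing R]
    [Field K] [Algebra R K] [IsFractionRing R K] [CharZero K] [Field F] [Algebra K F] [Algebra R F]
    [IsScalarTower R K F] [Field E] [Algebra F E] [Algebra K E] [Algebra R E] [IsScalarTower K F E]
    [IsScalarTower R F E] [IsScalarTower R K E]

/-- The local hypothesis of (CRIT) in the chart `T`: for every maximal ideal `𝔪 ∋ π` of `R[X]`
there is `G ≡ 1 mod π` with `f * G ^ m` integral over `R[T]_𝔪`. -/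
def LocPow {R F : Type*} [CommRing R] [Field F] [Algebra R F] (π : R) (T f : F) (m : ℕ) : Prop :=
  ∀ 𝔪 : Ideal R[X], 𝔪.IsMaximal → C π ∈ 𝔪 → ∃ G : F,
    PiInt π T ((G - 1) / algebraMap R F π) ∧
      ∃ s : R[X], s ∉ 𝔪 ∧ IsIntegral (Algebra.adjoin R {T}) (aeval T s * (f * G ^ m))

/-- the lifting of the Kummer idempotent in one chart -/
theorem kummer_lift {π : R} (hπ : Irreducible π) {T : F} (hT : Transcendental K T)
    {m : ℕ} (hm : IsUnit (m : R)) {f : F} (hf : PiInt π T ((f - 1) / algebraMap R F π))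
    (hloc : LocPow π T f m) {Y : E} (hY : Y ^ m = algebraMap F E f) :
    ∃ e : E, IsIntegral (Algebra.adjoin R {algebraMap F E T}) e ∧
      PiInt π (algebraMap F E T)
        ((e - (m : E)⁻¹ * ∑ k ∈ Finset.range m, Y ^ k) / algebraMap R E π) := by
  have hinjRE : Function.Injective (algebraMap R E) := by
    rw [IsScalarTower.algebraMap_eq R K E]
    exact (algebraMap K E).injective.comp (IsFractionRing.injective R K)
  have hπE : algebraMap R E π ≠ 0 := by
    rw [Ne, map_eq_zero_iff _ hinjRE]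
    exact hπ.ne_zero
  have hTE : Transcendental K (algebraMap F E T) :=
    (transcendental_algebraMap_iff (algebraMap F E).injective).2 hT
  have hmap : ∀ x : F, PiInt π T ((x - 1) / algebraMap R F π) →
      PiInt π (algebraMap F E T) ((algebraMap F E x - 1) / algebraMap R E π) := by
    intro x hx
    have := PiInt.map (E := E) hx
    rwa [map_div₀, map_sub, map_one, ← IsScalarTower.algebraMap_apply R F E] at this
  have hfE := hmap f hf
  obtain ⟨hε1, -⟩ := kummer_idempotent hπ hπE (T := algebraMap F E T) hm hY hfE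
  refine exists_lift_of_local (K := K) hπ hTE _ hε1 fun 𝔪 h𝔪 hπ𝔪 => ?_
  obtain ⟨G, hG, s, hs, hsI⟩ := hloc 𝔪 h𝔪 hπ𝔪
  refine ⟨s ^ (m - 1), fun h => hs (h𝔪.isPrime.mem_of_pow_mem _ h), ?_⟩
  refine kummer_local_lift hπ hπE hm hY hfE (hmap G hG) s ?_
  have h1 : IsIntegral (Algebra.adjoin R {algebraMap F E T})
      (algebraMap F E (aeval T s * (f * G ^ m))) :=
    ak12_isIntegral_adjoin_singleton_map (IsScalarTower.toAlgHom R F E) hsI
  rwa [map_mul, map_mul, map_pow, ← aeval_algebraMap_apply] at h1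

/-- **(CRIT)**: the abstract KIL for an arbitrary normal model.  `f ≡ 1 mod π` and, locally on
both charts, `f = (integral element) * (m-th power of an element ≡ 1 mod π)`.  Then `f` is an
`m`-th power in `F`. -/
theorem crit {π : R} (hπ : Irreducible π) (t : F) (ht : Transcendental K t)
    [FiniteDimensional K⟮t⟯ F]
    (m : ℕ) (hm : IsUnit (m : R)) (ζ : R) (hζ : IsPrimitiveRoot ζ m)
    (f : F) (hf : PiInt π t ((f - 1) / algebraMap R F π))
    (hloc : LocPow π t f m) (hloc' : LocPow π t⁻¹ f m)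
    (y : E) (hy : y ^ m = algebraMap F E f) (hE : IntermediateField.adjoin F {y} = ⊤)
    (hK : ∀ z : E, IsIntegral K z → ∃ c : K, algebraMap K E c = z) :
    ∃ x : F, algebraMap F E x = y := by
  classical
  by_contra hcon
  push Not at hcon
  have hp : Prime π := hπ.prime
  have hm0 : 0 < m := by
    rcases Nat.eq_zero_or_pos m with rfl | h
    · simp at hm
    · exact h
  have hmne : NeZero m := ⟨hm0.ne'⟩
  have hinjRE : Function.Injective (algebraMap R E) := by
    rw [IsScalarTower.algebraMap_eq R K E]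
    exact (algebraMap K E).injective.comp (IsFractionRing.injective R K)
  have hπE : algebraMap R E π ≠ 0 := by
    rw [Ne, map_eq_zero_iff _ hinjRE]
    exact hπ.ne_zero
  have hcharF : CharZero F := charZero_of_injective_algebraMap (algebraMap K F).injective
  set T : E := algebraMap F E t with hTdef
  have hT : Transcendental K T := (transcendental_algebraMap_iff (algebraMap F E).injective).2 ht
  have hfin : FiniteDimensional K⟮T⟯ E := finiteDimensional_kummer hm0 hy hE
  have ht' : Transcendental K t⁻¹ := by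
    intro h
    exact ht (by simpa using h.inv)
  have hf' : PiInt π t⁻¹ ((f - 1) / algebraMap R F π) := (piInt_inv_iff hp ht).2 hf
  -- the valuation
  let Ω := AlgebraicClosure E
  let σ : E →ₐ[F] Ω := IsScalarTower.toAlgHom F E Ω
  obtain ⟨V, hV⟩ := exists_gaussDom (K := K) hp hT (σ : E →+* Ω)
  have hlt : ∀ {τ : E →+* Ω}, GaussDom π T V τ → ∀ {x : E}, PiInt π T (x / algebraMap R E π) →
      V.valuation (τ x) < 1 := by
    intro τ hτ x hx
    have h1 : x = algebraMap R E π * (x / algebraMap R E π) := by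
      field_simp
    rw [h1, map_mul, map_mul]
    exact mul_lt_of_lt_of_le_one (GaussDom.valuation_pi_lt_one hτ)
      (GaussDom.valuation_le_one hτ hx)
  have hfE : PiInt π T ((algebraMap F E f - 1) / algebraMap R E π) := by
    have := PiInt.map (E := E) hf
    rwa [map_div₀, map_sub, map_one, ← IsScalarTower.algebraMap_apply R F E] at this
  have hym : V.valuation ((σ : E →+* Ω) (y ^ m) - 1) < 1 := by
    have := hlt hV hfE
    rwa [map_sub, map_one, ← hy] at this
  obtain ⟨a, ha1⟩ := exists_valuation_sub_zeta_lt_one hm0 ζ hζ V (σ : E →+* Ω) hV hym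
  -- normalisation of `y`
  set b : ℕ := a * (m - 1) with hb
  have hab : ζ ^ b * ζ ^ a = 1 := by
    rw [← pow_add, hb]
    have : a * (m - 1) + a = m * a := by
      obtain ⟨n, rfl⟩ : ∃ n, m = n + 1 := ⟨m - 1, by omega⟩
      simp only [Nat.add_sub_cancel]
      ring
    rw [this, pow_mul, hζ.pow_eq_one, one_pow]
  set Y : E := algebraMap R E (ζ ^ b) * y with hYdef
  have hYm : Y ^ m = algebraMap F E f := by
    rw [hYdef, mul_pow, hy, ← map_pow, ← pow_mul, mul_comm b m, pow_mul, hζ.pow_eq_one, one_pow,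
      map_one, one_mul]
  have hY1 : V.valuation ((σ : E →+* Ω) Y - 1) < 1 := by
    have h1 : (σ : E →+* Ω) Y - 1 = (σ : E →+* Ω) (algebraMap R E (ζ ^ b)) *
        ((σ : E →+* Ω) y - (σ : E →+* Ω) (algebraMap R E (ζ ^ a))) := by
      rw [mul_sub, ← map_mul, ← map_mul, ← map_mul, hab, map_one, map_one]
    rw [h1, map_mul]
    exact mul_lt_of_le_one_of_lt (ak12_gaussDom_algebraMap_le_one hV _) ha1
  set ε : E := (m : E)⁻¹ * ∑ k ∈ Finset.range m, Y ^ k with hε
  obtain ⟨hε1, hε2⟩ := kummer_idempotent hπ hπE (T := T) hm hYm hfE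
  -- the two liftings
  have hA : ∃ a : E, IsIntegral (Algebra.adjoin R {T}) a ∧
      PiInt π T ((a - ε) / algebraMap R E π) := kummer_lift (K := K) hπ ht hm hf hloc hYm
  have hB : ∃ b : E, IsIntegral (Algebra.adjoin R {T⁻¹}) b ∧
      PiInt π T⁻¹ ((b - ε) / algebraMap R E π) := by
    have := kummer_lift (K := K) (E := E) hπ ht' hm hf' hloc' hYm
    rwa [map_inv₀] at this
  -- the second embedding
  have hint : IsIntegral F y := by
    refine ⟨X ^ m - C f, monic_X_pow_sub_C f hm0.ne', ?_⟩
    simp [hy]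
  obtain ⟨σ', hσ'⟩ := ak12_exists_algHom_apply_ne σ hint hE hcon
  have hy0 : y ≠ 0 := fun h => hcon 0 (by rw [map_zero, h])
  have hσy0 : σ y ≠ 0 := by
    rw [Ne, map_eq_zero]
    exact hy0
  have hinjRΩ : Function.Injective ((σ : E →+* Ω).comp (algebraMap R E)) :=
    (σ : E →+* Ω).injective.comp hinjRE
  have hζΩ : IsPrimitiveRoot ((σ : E →+* Ω).comp (algebraMap R E) ζ) m :=
    hζ.map_of_injective hinjRΩ
  have hRσ : ∀ c : R, σ' (algebraMap R E c) = σ (algebraMap R E c) := by
    intro c
    rw [IsScalarTower.algebraMap_apply R F E, AlgHom.commutes, AlgHom.commutes]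
  have hξ : (σ' y / σ y) ^ m = 1 := by
    rw [div_pow, ← map_pow, ← map_pow, hy, AlgHom.commutes, AlgHom.commutes]
    refine div_self ?_
    rw [← AlgHom.commutes σ, ← hy, map_pow]
    exact pow_ne_zero _ hσy0
  obtain ⟨k, _, hk⟩ := hζΩ.eq_pow_of_pow_eq_one hξ
  have hkm : ¬ m ∣ k := by
    intro hdvd
    rw [(hζΩ.pow_eq_one_iff_dvd k).2 hdvd] at hk
    exact hσ' ((div_eq_one_iff_eq hσy0).1 hk.symm)
  have hV' : GaussDom π T V (σ' : E →+* Ω) := by
    intro p
    have h1 : (σ' : E →+* Ω) (aeval T p) = (σ : E →+* Ω) (aeval T p) := by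
      rw [hTdef, aeval_algebraMap_apply]
      exact (AlgHom.commutes σ' _).trans (AlgHom.commutes σ _).symm
    rw [h1]
    exact hV p
  have hY' : V.valuation ((σ' : E →+* Ω) Y - (σ' : E →+* Ω) (algebraMap R E (ζ ^ k))) < 1 := by
    have h1 : (σ' : E →+* Ω) Y - (σ' : E →+* Ω) (algebraMap R E (ζ ^ k)) =
        (σ : E →+* Ω) (algebraMap R E (ζ ^ k)) * ((σ : E →+* Ω) Y - 1) := by
      have h2 : σ' y = σ (algebraMap R E (ζ ^ k)) * σ y := by
        have h3 : σ (algebraMap R E (ζ ^ k)) = σ' y / σ y := by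
          rw [← hk, map_pow, map_pow]
          rfl
        rw [h3, div_mul_cancel₀ _ hσy0]
      change σ' Y - σ' (algebraMap R E (ζ ^ k)) = σ (algebraMap R E (ζ ^ k)) * (σ Y - 1)
      rw [hYdef, map_mul, map_mul, hRσ, hRσ, h2]
      ring
    rw [h1, map_mul]
    exact mul_lt_of_le_one_of_lt (ak12_gaussDom_algebraMap_le_one hV _) hY1
  have hY0 : V.valuation ((σ : E →+* Ω) Y - (σ : E →+* Ω) (algebraMap R E (ζ ^ 0))) < 1 := by
    rwa [pow_zero, map_one, map_one]
  have hA' := (kummer_idempotent_valuation hπ hm ζ hζ V (σ : E →+* Ω) hV 0 hY0).1 (dvd_zero m)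
  have hB' := (kummer_idempotent_valuation hπ hm ζ hζ V (σ' : E →+* Ω) hV' k hY').2 hkm
  have hone : ¬ V.valuation (1 : Ω) < 1 := by simp
  rcases core_idempotent_of_lift hπ hT hK ε hε1 hε2 hA hB with h | h
  · have h1 := hlt hV h
    apply hone
    have h2 : (1 : Ω) = (σ : E →+* Ω) ε - ((σ : E →+* Ω) ε - 1) := by ring
    rw [h2]
    exact V.valuation.map_sub_lt h1 hA'
  · have h1 := hlt hV' h
    apply hone
    have h2 : (1 : Ω) = (σ' : E →+* Ω) (1 - ε) + (σ' : E →+* Ω) ε := by
      rw [map_sub, map_one]; ring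
    rw [h2]
    exact V.valuation.map_add_lt h1 hB'

end Fermat.Agent.UNIlib
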