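import Mathlib
import Fermat.Agent.UNI.Crit

/-!
# T-UNI, (WRAP): from local principality `(C)` to the hypotheses of `crit`

`LocPrin π T g m` is the chart form of `(C)`: near every closed point of the special fibre of the
chart `T` the function `g` is a unit times an `m`-th power.  If `σ` is a ring endomorphism of `F`
which is trivial modulo `π` ("inertia"), then `σ g / g` satisfies the hypotheses of `crit`.
-/

set_option autoImplicit false

namespace Fermat.Agent.UNIlib

open Polynomial IntermediateField Fermat.Agent.ESlib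

universe u

/-- The chart form of `(C)`: for every maximal ideal `𝔪 ∋ π` of `R[X]` there is `H ≠ 0` such that
`H ^ m / g` is a unit of the integral closure of `R[T]_𝔪`. -/
def LocPrin {R F : Type*} [CommRing R] [Field F] [Algebra R F] (π : R) (T g : F) (m : ℕ) : Prop :=
  ∀ 𝔪 : Ideal R[X], 𝔪.IsMaximal → C π ∈ 𝔪 → ∃ H : F, H ≠ 0 ∧ ∃ s : R[X], s ∉ 𝔪 ∧
    IsIntegral (Algebra.adjoin R {T}) (aeval T s * (H ^ m / g)) ∧
    IsIntegral (Algebra.adjoin R {T}) (aeval T s * (g / H ^ m))

section Semilinear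

variable {R F : Type*} [CommRing R] [Field F] [Algebra R F]

theorem map_aeval_semilinear {σ : F →+* F} {σR : R →+* R}
    (hσ : ∀ a, σ (algebraMap R F a) = algebraMap R F (σR a)) {T : F} (hT : σ T = T) (s : R[X]) :
    σ (aeval T s) = aeval T (s.map σR) := by
  rw [aeval_def, hom_eval₂, hT, aeval_def, eval₂_map]
  congr 1
  exact RingHom.ext hσ

theorem isIntegral_adjoin_map_semilinear {σ : F →+* F} {σR : R →+* R}
    (hσ : ∀ a, σ (algebraMap R F a) = algebraMap R F (σR a)) {T : F} (hT : σ T = T) {x : F}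
    (hx : IsIntegral (Algebra.adjoin R {T}) x) : IsIntegral (Algebra.adjoin R {T}) (σ x) := by
  rw [isIntegral_adjoin_singleton_iff] at hx ⊢
  obtain ⟨p, hp, hpx⟩ := hx
  refine ⟨p.map (mapRingHom σR), hp.map _, ?_⟩
  rw [eval₂_map]
  have h1 : (((aeval T : R[X] →ₐ[R] F) : R[X] →+* F)).comp (mapRingHom σR) =
      σ.comp ((aeval T : R[X] →ₐ[R] F) : R[X] →+* F) := by
    refine RingHom.ext fun s => ?_
    exact (map_aeval_semilinear hσ hT s).symm
  rw [h1, ← hom_eval₂, hpx, map_zero]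

theorem map_notMem_of_dvd_sub {σR : R →+* R} {π : R} (hσπ : ∀ a, π ∣ σR a - a) {𝔪 : Ideal R[X]}
    (hπ𝔪 : C π ∈ 𝔪) {s : R[X]} (hs : s ∉ 𝔪) : s.map σR ∉ 𝔪 := by
  intro h
  apply hs
  have h1 : C π ∣ s.map σR - s := by
    rw [C_dvd_iff_dvd_coeff]
    intro i
    rw [coeff_sub, coeff_map]
    exact hσπ _
  have h2 : s.map σR - s ∈ 𝔪 := Ideal.mem_of_dvd _ h1 hπ𝔪
  have h3 : s = s.map σR - (s.map σR - s) := by ring
  rw [h3]
  exact 𝔪.sub_mem h h2

end Semilinear

section Inv

variable {R F : Type*} [CommRing R] [IsDomain R] [Field F] [Algebra R F]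

omit [IsDomain R] in
theorem isIntegral_eval₂_aeval {T w : F} (hw : IsIntegral (Algebra.adjoin R {T}) w)
    (q : R[X][X]) :
    IsIntegral (Algebra.adjoin R {T}) (q.eval₂ ((aeval T : R[X] →ₐ[R] F) : R[X] →+* F) w) := by
  rw [eval₂_eq_sum_range]
  refine IsIntegral.sum _ fun i _ => ?_
  exact (isIntegral_aeval_adjoin T _).mul (hw.pow i)

/-- an element `≡ 1 mod π` is a unit of the ring of `π`-integral elements -/
theorem piInt_inv_of_sub_one_div {π : R} (hπ : Prime π) (hπ0 : algebraMap R F π ≠ 0) {T g : F}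
    (hg : PiInt π T ((g - 1) / algebraMap R F π)) : PiInt π T g⁻¹ := by
  obtain ⟨r, hr, hrc⟩ := hg
  set c' : F := aeval T r * ((g - 1) / algebraMap R F π) with hc'
  set φ : R[X] →+* F := ((aeval T : R[X] →ₐ[R] F) : R[X] →+* F) with hφ
  have hφr : ∀ s, φ s = aeval T s := fun s => rfl
  have hrc' := hrc
  rw [isIntegral_adjoin_singleton_iff] at hrc'
  obtain ⟨p, hp, hpx⟩ := hrc'
  set w : F := aeval T r * g with hw
  have hwc : w = φ r + φ (C π) * c' := by
    rw [hφr, hφr, aeval_C, hc', hw]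
    field_simp
    ring
  have hwint : IsIntegral (Algebra.adjoin R {T}) w := by
    rw [hwc]
    exact (isIntegral_aeval_adjoin T r).add ((isIntegral_aeval_adjoin T _).mul hrc)
  set P : R[X][X] := (p.scaleRoots (C π)).comp (X - C r) with hP
  have hPw : P.eval₂ φ w = 0 := by
    rw [hP, eval₂_comp, eval₂_sub, eval₂_X, eval₂_C]
    have : w - φ r = φ (C π) * c' := by rw [hwc]; ring
    rw [this, scaleRoots_eval₂_mul, hpx, mul_zero]
  set ρ : R[X] := P.coeff 0 with hρ
  have hρ1 : ρ = (p.scaleRoots (C π)).eval (-r) := by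
    rw [hρ, coeff_zero_eq_eval_zero, hP, eval_comp]
    simp
  have hρπ : ¬ C π ∣ ρ := by
    intro hdvd
    rw [hρ1, eval_eq_sum_range, natDegree_scaleRoots, Finset.sum_range_succ] at hdvd
    have h1 : C π ∣ ∑ i ∈ Finset.range p.natDegree, (p.scaleRoots (C π)).coeff i * (-r) ^ i := by
      refine Finset.dvd_sum fun i hi => ?_
      rw [coeff_scaleRoots]
      obtain ⟨k, hk⟩ : ∃ k, p.natDegree - i = k + 1 :=
        ⟨p.natDegree - i - 1, by have := Finset.mem_range.1 hi; omega⟩
      rw [hk, pow_succ]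
      exact ⟨p.coeff i * C π ^ k * (-r) ^ i, by ring⟩
    have h2 := (dvd_add_right h1).1 hdvd
    rw [coeff_scaleRoots, Nat.sub_self, pow_zero, mul_one, hp.coeff_natDegree, one_mul] at h2
    have h3 := (prime_C_of_prime hπ).dvd_of_dvd_pow h2
    exact hr ((dvd_neg).1 h3)
  refine ⟨ρ, hρπ, ?_⟩
  have h4 : P.divX.eval₂ φ w * w + φ ρ = 0 := by
    have := hPw
    rw [← divX_mul_X_add P, eval₂_add, eval₂_mul, eval₂_X, eval₂_C] at this
    exact this
  by_cases hg0 : g = 0
  · rw [hg0, inv_zero, mul_zero]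
    exact isIntegral_zero
  have h5 : aeval T ρ * g⁻¹ = -(P.divX.eval₂ φ w * aeval T r) := by
    have h6 : aeval T ρ = -(P.divX.eval₂ φ w * w) := by
      rw [← hφr]
      linear_combination h4
    rw [h6, hw]
    field_simp
  rw [h5]
  exact ((isIntegral_eval₂_aeval hwint _).mul (isIntegral_aeval_adjoin T r)).neg

end Inv

section WrapI

variable {R F : Type*} [CommRing R] [IsDomain R] [Field F] [Algebra R F]

theorem piInt_algebraMap {π : R} (hπ : Prime π) (T : F) (a : R) :
    PiInt π T (algebraMap R F a) := by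
  have := PiInt.of_isIntegral hπ (isIntegral_aeval_adjoin T (C a))
  rwa [aeval_C] at this

theorem piInt_of_sub_one_div {π : R} (hπ : Prime π) (hπ0 : algebraMap R F π ≠ 0) {T g : F}
    (hg : PiInt π T ((g - 1) / algebraMap R F π)) : PiInt π T g := by
  have h1 : g = 1 + algebraMap R F π * ((g - 1) / algebraMap R F π) := by
    field_simp
    ring
  rw [h1]
  exact (PiInt.of_isIntegral hπ isIntegral_one).add hπ
    ((piInt_algebraMap hπ T π).mul hπ hg)

/-- an endomorphism which is trivial modulo `π` preserves `π`-integrality -/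
theorem piInt_map_of_sub_div {π : R} (hπ : Prime π) (hπ0 : algebraMap R F π ≠ 0) {T : F}
    {σ : F →+* F} (hσC : ∀ x, PiInt π T x → PiInt π T ((σ x - x) / algebraMap R F π)) {x : F}
    (hx : PiInt π T x) : PiInt π T (σ x) := by
  have h1 : σ x = x + algebraMap R F π * ((σ x - x) / algebraMap R F π) := by
    field_simp
    ring
  rw [h1]
  exact hx.add hπ ((piInt_algebraMap hπ T π).mul hπ (hσC x hx))

/-- **(WRAP-I)**: if `σ` is trivial modulo `π` and `g ≡ 1 mod π` is locally a unit times an `m`-th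
power, then `σ g / g` satisfies the hypotheses of `crit` in the chart `T`. -/
theorem locPow_of_locPrin {π : R} (hπ : Prime π) (hπ0 : algebraMap R F π ≠ 0) {T : F}
    {σ : F →+* F} {σR : R →+* R} (hσ : ∀ a, σ (algebraMap R F a) = algebraMap R F (σR a))
    (hσπ : ∀ a, π ∣ σR a - a) (hT : σ T = T)
    (hσC : ∀ x, PiInt π T x → PiInt π T ((σ x - x) / algebraMap R F π))
    {m : ℕ} (hm : 0 < m) {g : F} (hg : PiInt π T ((g - 1) / algebraMap R F π))
    (hloc : LocPrin π T g m) :
    PiInt π T ((σ g / g - 1) / algebraMap R F π) ∧ LocPow π T (σ g / g) m := by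
  have hgC : PiInt π T g := piInt_of_sub_one_div hπ hπ0 hg
  have hgi : PiInt π T g⁻¹ := piInt_inv_of_sub_one_div hπ hπ0 hg
  by_cases hg0 : g = 0
  · subst hg0
    refine ⟨by simpa using hg, fun 𝔪 h𝔪 _ => ⟨1, ?_, 1, ?_, ?_⟩⟩
    · simpa using PiInt.of_isIntegral hπ (T := T) isIntegral_zero
    · exact fun h => h𝔪.ne_top ((Ideal.eq_top_iff_one _).2 h)
    · simpa using isIntegral_zero
  have hσg0 : σ g ≠ 0 := by rwa [Ne, map_eq_zero]
  constructor
  · have h1 : (σ g / g - 1) / algebraMap R F π = (σ g - g) / algebraMap R F π * g⁻¹ := by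
      field_simp
    rw [h1]
    exact (hσC g hgC).mul hπ hgi
  intro 𝔪 h𝔪 hπ𝔪
  obtain ⟨H, hH0, s, hs, h1, h2⟩ := hloc 𝔪 h𝔪 hπ𝔪
  have hsπ : ¬ C π ∣ s := fun h => hs (Ideal.mem_of_dvd _ h hπ𝔪)
  have hσH0 : σ H ≠ 0 := by rwa [Ne, map_eq_zero]
  have hHC : PiInt π T H := by
    refine PiInt.of_pow hm ?_
    have : H ^ m = H ^ m / g * g := by field_simp
    rw [this]
    exact PiInt.mul hπ ⟨s, hsπ, h1⟩ hgC
  have hHi : PiInt π T H⁻¹ := by
    refine PiInt.of_pow hm ?_
    have : H⁻¹ ^ m = g / H ^ m * g⁻¹ := by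
      rw [inv_pow]
      field_simp
    rw [this]
    exact PiInt.mul hπ ⟨s, hsπ, h2⟩ hgi
  refine ⟨H / σ H, ?_, s.map σR * s, ?_, ?_⟩
  · have h3 : (H / σ H - 1) / algebraMap R F π = -((σ H - H) / algebraMap R F π) * σ H⁻¹ := by
      rw [map_inv₀]
      field_simp
      ring
    rw [h3]
    exact (hσC H hHC).neg.mul hπ (piInt_map_of_sub_div hπ hπ0 hσC hHi)
  · exact fun h => (h𝔪.isPrime.mem_or_mem h).elim (map_notMem_of_dvd_sub hσπ hπ𝔪 hs) hs
  · have h4 : aeval T (s.map σR * s) * (σ g / g * (H / σ H) ^ m) =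
        σ (aeval T s * (g / H ^ m)) * (aeval T s * (H ^ m / g)) := by
      rw [map_mul, map_mul, map_div₀, map_pow, map_aeval_semilinear hσ hT, div_pow]
      field_simp
    rw [h4]
    exact (isIntegral_adjoin_map_semilinear hσ hT h2).mul h1

end WrapI

section CritI

variable {R K F E : Type u} [CommRing R] [IsDomain R] [IsDiscreteValuationRing R]
    [Field K] [Algebra R K] [IsFractionRing R K] [CharZero K] [Field F] [Algebra K F] [Algebra R F]
    [IsScalarTower R K F] [Field E] [Algebra F E] [Algebra K E] [Algebra R E] [IsScalarTower K F E]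
    [IsScalarTower R F E] [IsScalarTower R K E]

/-- **(WRAP-I) + (CRIT)**: `σ` trivial modulo `π`, `g ≡ 1 mod π`, `g` locally a unit times an
`m`-th power in both charts.  Then `σ g / g` is an `m`-th power in `F`. -/
theorem crit_inertia {π : R} (hπ : Irreducible π) (t : F) (ht : Transcendental K t)
    [FiniteDimensional K⟮t⟯ F]
    (m : ℕ) (hm : IsUnit (m : R)) (ζ : R) (hζ : IsPrimitiveRoot ζ m)
    {σ : F →+* F} {σR : R →+* R} (hσ : ∀ a, σ (algebraMap R F a) = algebraMap R F (σR a))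
    (hσπ : ∀ a, π ∣ σR a - a) (hσt : σ t = t)
    (hσC : ∀ x, PiInt π t x → PiInt π t ((σ x - x) / algebraMap R F π))
    (g : F) (hg : PiInt π t ((g - 1) / algebraMap R F π))
    (hloc : LocPrin π t g m) (hloc' : LocPrin π t⁻¹ g m)
    (y : E) (hy : y ^ m = algebraMap F E (σ g / g)) (hE : IntermediateField.adjoin F {y} = ⊤)
    (hK : ∀ z : E, IsIntegral K z → ∃ c : K, algebraMap K E c = z) :
    ∃ x : F, algebraMap F E x = y := by
  have hp : Prime π := hπ.prime
  have hm0 : 0 < m := by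
    rcases Nat.eq_zero_or_pos m with rfl | h
    · simp at hm
    · exact h
  have hinjRF : Function.Injective (algebraMap R F) := by
    rw [IsScalarTower.algebraMap_eq R K F]
    exact (algebraMap K F).injective.comp (IsFractionRing.injective R K)
  have hπF : algebraMap R F π ≠ 0 := by
    rw [Ne, map_eq_zero_iff _ hinjRF]
    exact hπ.ne_zero
  obtain ⟨h1, h2⟩ := locPow_of_locPrin hp hπF hσ hσπ hσt hσC hm0 hg hloc
  have hσt' : σ t⁻¹ = t⁻¹ := by rw [map_inv₀, hσt]
  have hσC' : ∀ x, PiInt π t⁻¹ x → PiInt π t⁻¹ ((σ x - x) / algebraMap R F π) := fun x hx =>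
    (piInt_inv_iff hp ht).2 (hσC x ((piInt_inv_iff hp ht).1 hx))
  obtain ⟨-, h3⟩ := locPow_of_locPrin hp hπF hσ hσπ hσt' hσC' hm0
    ((piInt_inv_iff hp ht).2 hg) hloc'
  exact crit hπ t ht m hm ζ hζ (σ g / g) h1 h2 h3 y hy hE hK

end CritI

end Fermat.Agent.UNIlib
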