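import Fermat.Agent.ES.M.Sep

/-!
# T-UNI, modular side (G1): the Gauss ring `gaussSub R K N` of `F_K(N)` is a valuation ring with
uniformiser `π`, for EVERY level `N` (no hypothesis on `N` modulo the residue characteristic).
-/

set_option autoImplicit false
set_option linter.unusedSectionVars false

open ModularCurve Polynomial

namespace Fermat.Agent.UNIlib

open Fermat.Agent.ESlib
open Fermat.Agent.S28lib (RedSetup jA jAd)
open Fermat.Agent.S24lib (Dv)

noncomputable section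

section abstract

variable {R K κ : Type*} [CommRing R] [Field K] [Field κ] {ι : R →+* K} {ρ : R →+* κ} {ϖ : R}

/-- a nonzero integral series is a power of `ϖ` times a primitive series -/
theorem exists_pow_mul_primitive_series (h : RedSetup ι ρ ϖ) {y : LaurentSeries R} (hy : y ≠ 0) :
    ∃ (a : ℕ) (y₀ : LaurentSeries R), y = HahnSeries.C (ϖ ^ a) * y₀ ∧ coeffMap ρ y₀ ≠ 0 := by
  obtain ⟨n₀, hn₀⟩ : ∃ n, y.coeff n ≠ 0 := by
    by_contra hcon
    push Not at hcon
    exact hy (HahnSeries.ext (funext hcon))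
  obtain ⟨m, hm⟩ := redSetup_exists_not_pow_dvd h hn₀
  clear hy hn₀
  induction m generalizing y with
  | zero => exact absurd (by rw [pow_zero]; exact one_dvd _) hm
  | succ m ih =>
    by_cases h0 : coeffMap ρ y = 0
    · obtain ⟨y', rfl⟩ := exists_eq_C_mul_of_coeffMap_eq_zero h h0
      have hm' : ¬ ϖ ^ m ∣ y'.coeff n₀ := by
        rintro ⟨c, hc⟩
        apply hm
        rw [HahnSeries.C_mul_eq_smul, HahnSeries.coeff_smul, smul_eq_mul, hc]
        exact ⟨c, by ring⟩
      obtain ⟨a, y₀, h1, h2⟩ := ih hm'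
      refine ⟨a + 1, y₀, ?_, h2⟩
      rw [h1, pow_succ, map_mul]
      ring
    · exact ⟨0, y, by simp, h0⟩

variable (ι) in
/-- quotients of integral series -/
def IsBdd (x : LaurentSeries K) : Prop :=
  ∃ s y : LaurentSeries R, coeffMap ι s ≠ 0 ∧ coeffMap ι s * x = coeffMap ι y

theorem IsBdd.of_coeffMap (y : LaurentSeries R) : IsBdd ι (coeffMap ι y) :=
  ⟨1, y, by rw [map_one]; exact one_ne_zero, by simp⟩

theorem IsBdd.add {x x' : LaurentSeries K} (hx : IsBdd ι x) (hx' : IsBdd ι x') :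
    IsBdd ι (x + x') := by
  obtain ⟨s, y, hs, h⟩ := hx
  obtain ⟨s', y', hs', h'⟩ := hx'
  exact ⟨s * s', y * s' + y' * s, by rw [map_mul]; exact mul_ne_zero hs hs', by
    rw [map_mul, map_add, map_mul, map_mul, ← h, ← h']; ring⟩

theorem IsBdd.mul {x x' : LaurentSeries K} (hx : IsBdd ι x) (hx' : IsBdd ι x') :
    IsBdd ι (x * x') := by
  obtain ⟨s, y, hs, h⟩ := hx
  obtain ⟨s', y', hs', h'⟩ := hx'
  exact ⟨s * s', y * y', by rw [map_mul]; exact mul_ne_zero hs hs', by
    rw [map_mul, map_mul, ← h, ← h']; ring⟩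

theorem IsBdd.inv {x : LaurentSeries K} (hx : IsBdd ι x) : IsBdd ι x⁻¹ := by
  obtain ⟨s, y, hs, h⟩ := hx
  by_cases hx0 : x = 0
  · exact ⟨1, 0, by rw [map_one]; exact one_ne_zero, by simp [hx0]⟩
  · exact ⟨y, s, by rw [← h]; exact mul_ne_zero hs hx0, by
      rw [← h, mul_assoc, mul_inv_cancel₀ hx0, mul_one]⟩

theorem IsBdd.const (h : RedSetup ι ρ ϖ) (a : K) : IsBdd ι (HahnSeries.C a) := by
  obtain ⟨n, z, hz⟩ := h.scale a
  refine ⟨HahnSeries.C (ϖ ^ n), HahnSeries.C z, ?_, ?_⟩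
  · rw [coeffMap_C', map_pow, map_pow]
    exact pow_ne_zero n (redSetup_C_unif_ne_zero h)
  · rw [coeffMap_C', coeffMap_C', ← map_mul, hz, map_pow]

/-- a nonzero quotient of integral series is a power of `ϖ` times a unit of `LamR` -/
theorem IsBdd.exists_unit (h : RedSetup ι ρ ϖ) {x : LaurentSeries K} (hx : IsBdd ι x)
    (hx0 : x ≠ 0) :
    ∃ (a b : ℕ) (u : LaurentSeries K), u ∈ LamR ι ρ ∧ u⁻¹ ∈ LamR ι ρ ∧ u ≠ 0 ∧
      (HahnSeries.C (ι ϖ) : LaurentSeries K) ^ a * x = (HahnSeries.C (ι ϖ)) ^ b * u := by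
  obtain ⟨s, y, hs, hxy⟩ := hx
  have hs0 : s ≠ 0 := fun h0 => hs (by rw [h0, map_zero])
  have hy0 : y ≠ 0 := by
    rintro rfl
    rw [map_zero] at hxy
    exact (mul_ne_zero hs hx0) hxy
  obtain ⟨a, s₀, rfl, hs₀⟩ := exists_pow_mul_primitive_series h hs0
  obtain ⟨b, y₀, rfl, hy₀⟩ := exists_pow_mul_primitive_series h hy0
  have hs₀' : coeffMap ι s₀ ≠ 0 := fun h0 => hs (by rw [map_mul, h0, mul_zero])
  have hy₀' : coeffMap ι y₀ ≠ 0 := by
    intro h0
    have : y₀ = 0 := S28lib.coeffMap_injective h.inj (by rw [h0, map_zero])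
    exact hy₀ (by rw [this, map_zero])
  refine ⟨a, b, coeffMap ι y₀ * (coeffMap ι s₀)⁻¹, ?_, ?_, mul_ne_zero hy₀' (inv_ne_zero hs₀'), ?_⟩
  · exact mul_mem (coeffMap_mem_LamR y₀) (inv_coeffMap_mem_LamR h.inj hs₀)
  · rw [mul_inv, inv_inv]
    exact mul_mem (inv_coeffMap_mem_LamR h.inj hy₀) (coeffMap_mem_LamR s₀)
  · rw [map_mul, map_mul, coeffMap_C', coeffMap_C', map_pow, map_pow, map_pow, map_pow] at hxy
    field_simp
    linear_combination hxy

/-- dichotomy -/
theorem IsBdd.mem_or_inv_mem (h : RedSetup ι ρ ϖ) {x : LaurentSeries K} (hx : IsBdd ι x) :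
    x ∈ LamR ι ρ ∨ x⁻¹ ∈ LamR ι ρ := by
  by_cases hx0 : x = 0
  · left; rw [hx0]; exact zero_mem _
  obtain ⟨a, b, u, hu, hu', hu0, hrel⟩ := hx.exists_unit h hx0
  have hc := redSetup_C_unif_ne_zero h
  have hcm : (HahnSeries.C (ι ϖ) : LaurentSeries K) ∈ LamR ι ρ := C_unif_mem_LamR
  rcases le_total a b with hab | hab
  · left
    obtain ⟨c, rfl⟩ := Nat.exists_eq_add_of_le hab
    have : x = (HahnSeries.C (ι ϖ) : LaurentSeries K) ^ c * u := by
      apply mul_left_cancel₀ (pow_ne_zero a hc)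
      rw [hrel, pow_add, mul_assoc]
    rw [this]
    exact mul_mem (pow_mem hcm c) hu
  · right
    obtain ⟨c, rfl⟩ := Nat.exists_eq_add_of_le hab
    have : x⁻¹ = (HahnSeries.C (ι ϖ) : LaurentSeries K) ^ c * u⁻¹ := by
      rw [pow_add, mul_assoc] at hrel
      have h2 := mul_left_cancel₀ (pow_ne_zero b hc) hrel
      rw [← h2, mul_inv, mul_inv_cancel_left₀ (pow_ne_zero c hc)]
    rw [this]
    exact mul_mem (pow_mem hcm c) hu'

end abstract

section FK

variable {R K : Type} [CommRing R] [IsDomain R] [IsDiscreteValuationRing R] [Field K]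
  [Algebra R K] [IsFractionRing R K] [Algebra ℚ K] {N : ℕ} [NeZero N]

/-- every element of `F_K(N)` is a quotient of integral series -/
theorem isBdd_of_mem_FK {x : LaurentSeries K}
    (hx : x ∈ laurentBaseChange K (modularFunctionFieldFull N)) : IsBdd (algebraMap R K) x := by
  obtain ⟨π, hπ⟩ := IsDiscreteValuationRing.exists_irreducible R
  have hS := redSetup_of_dvr (K := K) hπ
  rw [FK_eq_adjoin] at hx
  induction hx using IntermediateField.adjoin_induction with
  | mem x hx =>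
    obtain ⟨d, hd0, hd, rfl⟩ := hx
    have h1 := S28lib.coeffMap_jAd (algebraMap R K) d
    rw [show qExpand K d (jqModC K) = jAd K d from rfl, ← h1]
    exact IsBdd.of_coeffMap _
  | algebraMap a =>
    rw [algebraMap_laurentSeries_eq_single, ← HahnSeries.C_apply]
    exact IsBdd.const hS a
  | add x y _ _ hx hy => exact hx.add hy
  | inv x _ hx => exact hx.inv
  | mul x y _ _ hx hy => exact hx.mul hy

variable (R K N) in
/-- the Gauss valuation ring of `F_K(N)` (cusp `∞`) -/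
def gaussVal : ValuationSubring (FK K N) where
  __ := gaussSub R K N
  mem_or_inv_mem' x := by
    obtain ⟨π, hπ⟩ := IsDiscreteValuationRing.exists_irreducible R
    exact (isBdd_of_mem_FK (R := R) x.2).mem_or_inv_mem (redSetup_of_dvr (K := K) hπ)

theorem mem_gaussVal_iff {x : FK K N} : x ∈ gaussVal R K N ↔ x ∈ gaussSub R K N := Iff.rfl

end FK

end

end Fermat.Agent.UNIlib
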