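import Fermat.Agent.UNI.Normalise
import Fermat.Agent.UNI.GaussVal

/-!
# T-UNI, glue row GL2 (U2a): normalisation in `F_K(M)` for the two Gauss valuations

`V₁ = gaussSub R K M`, `V₂ = V₁.comap w` (`w` = Atkin-Lehner involution, here an arbitrary ring
endomorphism fixing the uniformiser).
-/

set_option autoImplicit false

open ModularCurve

namespace Fermat.Agent.UNIlib

open Fermat.Agent.ESlib Normalise

variable {R K : Type} [CommRing R] [IsDomain R] [IsDiscreteValuationRing R] [Field K]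
  [Algebra R K] [IsFractionRing R K] [Algebra ℚ K] {M : ℕ} [NeZero M]
  [Algebra R (FK K M)] [IsScalarTower R K (FK K M)]

theorem algebraMap_R_mem_gaussSub (a : R) : algebraMap R (FK K M) a ∈ gaussSub R K M := by
  refine mem_gaussSub_of_eq_coeffMap (HahnSeries.C a) ?_
  rw [coe_algebraMap_R, coeffMap_C']

theorem algebraMap_unif_ne_zero {π : R} (hπ : Irreducible π) : algebraMap R (FK K M) π ≠ 0 := by
  intro h
  have h1 := congrArg (fun x : FK K M => (x : LaurentSeries K)) h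
  simp only [coe_algebraMap_R] at h1
  exact redSetup_C_unif_ne_zero (redSetup_of_dvr (K := K) hπ) h1

theorem inv_unif_notMem_gaussSub {π : R} (hπ : Irreducible π) :
    (algebraMap R (FK K M) π)⁻¹ ∉ gaussSub R K M := by
  intro h
  have hS := redSetup_of_dvr (K := K) hπ
  rw [mem_gaussSub_iff] at h
  have hc : (((algebraMap R (FK K M) π)⁻¹ : FK K M) : LaurentSeries K)
      = (HahnSeries.C (algebraMap R K π) : LaurentSeries K)⁻¹ := by
    rw [← coe_algebraMap_R (N := M)]; rfl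
  rw [hc] at h
  have h1 : (⟨HahnSeries.C (algebraMap R K π), C_unif_mem_LamR⟩ :
      LamR (algebraMap R K) (IsLocalRing.residue R)) * ⟨_, h⟩ = 1 :=
    Subtype.ext (mul_inv_cancel₀ (redSetup_C_unif_ne_zero hS))
  have h2 := congrArg (redR hS.inj) h1
  rw [map_mul, redR_C_unif hS, zero_mul, map_one] at h2
  exact zero_ne_one h2

theorem exists_pow_mul_mem_gaussSub {π : R} (hπ : Irreducible π) (z : FK K M) :
    ∃ k : ℕ, (algebraMap R (FK K M) π) ^ k * z ∈ gaussSub R K M := by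
  by_cases hz : z = 0
  · exact ⟨0, by rw [hz, mul_zero]; exact zero_mem _⟩
  have hS := redSetup_of_dvr (K := K) hπ
  have hz' : (z : LaurentSeries K) ≠ 0 := fun h => hz (Subtype.ext h)
  obtain ⟨a, b, u, hu, -, -, hrel⟩ := (isBdd_of_mem_FK (R := R) z.2).exists_unit hS hz'
  refine ⟨a, ?_⟩
  rw [mem_gaussSub_iff]
  have hc : (((algebraMap R (FK K M) π) ^ a * z : FK K M) : LaurentSeries K)
      = (HahnSeries.C (algebraMap R K π) : LaurentSeries K) ^ a * (z : LaurentSeries K) := by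
    rw [← coe_algebraMap_R (N := M)]; rfl
  rw [hc, hrel]
  exact mul_mem (pow_mem C_unif_mem_LamR b) hu

/-- **(U2a)** normalisation at the two Gauss valuations `V_∞ = gaussSub`, `V_0 = w⁻¹ (gaussSub)`:
if `f ψ₁ ^ m / c ≡ 1` at `V_∞` and `f ψ₂ ^ m / c ≡ 1` at `V_0` then `g = f S ^ m / c ≡ 1` at both,
for a suitable `S ≠ 0`. -/
theorem exists_normalise_FK {π : R} (hπ : Irreducible π) (w : FK K M →+* FK K M)
    (hw : w (algebraMap R (FK K M) π) = algebraMap R (FK K M) π) {e₀ : FK K M}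
    (he₁ : (e₀ - 1) / algebraMap R (FK K M) π ∈ gaussSub R K M)
    (he₂ : w e₀ / algebraMap R (FK K M) π ∈ gaussSub R K M) (m : ℕ) {f ψ₁ ψ₂ c : FK K M}
    (hψ₁ : ψ₁ ≠ 0) (hψ₂ : ψ₂ ≠ 0)
    (h₁ : (f * ψ₁ ^ m / c - 1) / algebraMap R (FK K M) π ∈ gaussSub R K M)
    (h₂ : (w (f * ψ₂ ^ m / c) - 1) / algebraMap R (FK K M) π ∈ gaussSub R K M) :
    ∃ S : FK K M, S ≠ 0 ∧ (f * S ^ m / c - 1) / algebraMap R (FK K M) π ∈ gaussSub R K M ∧
      (w (f * S ^ m / c) - 1) / algebraMap R (FK K M) π ∈ gaussSub R K M := by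
  set ϖ := algebraMap R (FK K M) π with hϖ
  have key : ∀ x : FK K M, OneMod ((gaussSub R K M).comap w) ϖ x ↔
      (w x - 1) / ϖ ∈ gaussSub R K M := by
    intro x
    rw [OneMod, Subring.mem_comap, map_div₀, map_sub, map_one, hw]
  obtain ⟨S, hS, h1, h2⟩ := exists_normalise (V₁ := gaussSub R K M)
    (V₂ := (gaussSub R K M).comap w) (π := ϖ) (algebraMap_unif_ne_zero hπ)
    (algebraMap_R_mem_gaussSub π)
    (by rw [Subring.mem_comap, hw]; exact algebraMap_R_mem_gaussSub π)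
    (inv_unif_notMem_gaussSub hπ) (exists_pow_mul_mem_gaussSub hπ)
    (fun z => by
      obtain ⟨k, hk⟩ := exists_pow_mul_mem_gaussSub hπ (w z)
      exact ⟨k, by rw [Subring.mem_comap, map_mul, map_pow, hw]; exact hk⟩)
    (e₀ := e₀) he₁ (by rw [Subring.mem_comap, map_div₀, hw]; exact he₂) m hψ₁ hψ₂ h₁
    ((key _).2 h₂)
  exact ⟨S, hS, h1, (key _).1 h2⟩

end Fermat.Agent.UNIlib
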