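import Fermat.Agent.ES.Dict.ChartEmb
import Fermat.Agent.ES.B.Defs

/-!
# T-UNI: the Atkin–Lehner involution `w_r` on the function field of `X₀(N r)`, `r ∤ N` prime

`wr K N r : FK K (N * r) ≃ₐ[K] FK K (N * r)` exchanges `j(q^d)` and `j(q^{d r})` for `d ∣ N`.
-/

set_option autoImplicit false
set_option linter.unusedSectionVars false
set_option linter.style.haveILetI false

open UpperHalfPlane hiding I
open ModularForm MatrixGroups Filter Topology ModularCurve Complex
open scoped Manifold Real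
open Fermat.Agent.S24lib Fermat.Agent.ESlib

namespace Fermat.Agent.UNIlib

section analytic

/-- if `u = γ v` then `j(u) = j(v)` -/
theorem jfun_ofComplex_eq_of_moebius (γ : SL(2, ℤ)) {u v : ℂ} (hv : 0 < v.im)
    (h : u * ((γ.1 1 0 : ℂ) * v + (γ.1 1 1 : ℂ)) = (γ.1 0 0 : ℂ) * v + (γ.1 0 1 : ℂ)) :
    jfun (ofComplex u) = jfun (ofComplex v) := by
  have h1 := coe_specialLinearGroup_apply γ (⟨v, hv⟩ : ℍ)
  simp only [algebraMap_int_eq, eq_intCast, Complex.ofReal_intCast] at h1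
  have hden : ((γ.1 1 0 : ℂ) * v + (γ.1 1 1 : ℂ)) ≠ 0 := by
    have := UpperHalfPlane.denom_ne_zero (γ : GL (Fin 2) ℝ) (⟨v, hv⟩ : ℍ)
    simpa [UpperHalfPlane.denom] using this
  have h2 : u = ((γ • (⟨v, hv⟩ : ℍ) : ℍ) : ℂ) := by
    rw [h1, eq_div_iff hden]
    exact h
  rw [h2, ofComplex_apply, jfun_smul, ofComplex_apply_of_im_pos hv]

/-- Bezout data for the Atkin–Lehner matrix `(r, 1; N r z, r w)`, `r w - N z = 1`. -/
theorem exists_bezout {N r : ℕ} (h : Nat.Coprime r N) : ∃ w z : ℤ, (r : ℤ) * w - N * z = 1 := by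
  have h1 := Int.gcd_eq_gcd_ab r N
  have h2 : Int.gcd (r : ℤ) (N : ℤ) = 1 := by
    rw [Int.gcd_natCast_natCast]; exact h
  rw [h2] at h1
  exact ⟨Int.gcdA r N, -Int.gcdB r N, by push_cast at h1; linarith⟩

/-- the matrix `(1, 1; N z, r w)` of determinant `r w - N z = 1` -/
def alSL (N r : ℕ) (w z : ℤ) (h : (r : ℤ) * w - N * z = 1) : SL(2, ℤ) :=
  ⟨!![1, 1; N * z, r * w], by rw [Matrix.det_fin_two_of]; linarith⟩

/-- the Atkin–Lehner map `τ ↦ (r τ + 1) / (N r z τ + r w)` on the upper half plane -/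
noncomputable def alMap (N r : ℕ) (w z : ℤ) (h : (r : ℤ) * w - N * z = 1) (τ : ℍ) : ℍ :=
  alSL N r w z h • ofComplex ((r : ℂ) * τ)

theorem im_natCast_mul_pos {d : ℕ} (hd : d ≠ 0) (τ : ℍ) : 0 < ((d : ℂ) * (τ : ℂ)).im := by
  have hdpos : (0 : ℝ) < d := by exact_mod_cast Nat.pos_of_ne_zero hd
  have : ((d : ℂ) * (τ : ℂ)).im = d * τ.im := by simp
  rw [this]
  exact mul_pos hdpos τ.im_pos

theorem coe_alMap_mul {N r : ℕ} (hr : r ≠ 0) (w z : ℤ) (h : (r : ℤ) * w - N * z = 1) (τ : ℍ) :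
    (alMap N r w z h τ : ℂ) * ((N : ℂ) * z * ((r : ℂ) * τ) + (r : ℂ) * w) = (r : ℂ) * τ + 1 := by
  have hv := im_natCast_mul_pos hr τ
  have h1 := coe_specialLinearGroup_apply (alSL N r w z h) (⟨(r : ℂ) * τ, hv⟩ : ℍ)
  simp only [algebraMap_int_eq, eq_intCast, Complex.ofReal_intCast] at h1
  have hden := UpperHalfPlane.denom_ne_zero (alSL N r w z h : GL (Fin 2) ℝ)
    (⟨(r : ℂ) * τ, hv⟩ : ℍ)
  have hden' : ((N : ℂ) * z * ((r : ℂ) * τ) + (r : ℂ) * w) ≠ 0 := by
    simpa [UpperHalfPlane.denom, alSL] using hden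
  rw [alMap, ofComplex_apply_of_im_pos hv, h1]
  simp only [alSL, Matrix.of_apply, Matrix.cons_val', Matrix.cons_val_zero, Matrix.cons_val_one,
    Matrix.cons_val_fin_one]
  push_cast
  rw [div_mul_cancel₀ _ hden']
  ring

/-- `j(e W τ) = j(e r τ)` for `e ∣ N` -/
theorem jd_alMap {N r : ℕ} (hr : r ≠ 0) (w z : ℤ) (h : (r : ℤ) * w - N * z = 1) {e : ℕ}
    (he0 : e ≠ 0) (he : e ∣ N) (τ : ℍ) : jd e (alMap N r w z h τ) = jd (e * r) τ := by
  obtain ⟨f, rfl⟩ := he
  have hω := coe_alMap_mul hr w z h τ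
  let γ : SL(2, ℤ) := ⟨!![1, e; f * z, r * w], by
    rw [Matrix.det_fin_two_of]; push_cast at h; linarith⟩
  rw [jd, jd]
  refine jfun_ofComplex_eq_of_moebius γ (im_natCast_mul_pos (mul_ne_zero he0 hr) τ) ?_
  simp only [γ, Matrix.of_apply, Matrix.cons_val', Matrix.cons_val_zero, Matrix.cons_val_one,
    Matrix.cons_val_fin_one]
  push_cast at hω ⊢
  linear_combination (e : ℂ) * hω

/-- `j(e r W τ) = j(e τ)` for `e ∣ N` -/
theorem jd_mul_alMap {N r : ℕ} (hr : r ≠ 0) (w z : ℤ) (h : (r : ℤ) * w - N * z = 1) {e : ℕ}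
    (he0 : e ≠ 0) (he : e ∣ N) (τ : ℍ) : jd (e * r) (alMap N r w z h τ) = jd e τ := by
  obtain ⟨f, rfl⟩ := he
  have hω := coe_alMap_mul hr w z h τ
  let γ : SL(2, ℤ) := ⟨!![r, e; f * z, w], by
    rw [Matrix.det_fin_two_of]; push_cast at h; linarith⟩
  rw [jd, jd]
  refine jfun_ofComplex_eq_of_moebius γ (im_natCast_mul_pos he0 τ) ?_
  simp only [γ, Matrix.of_apply, Matrix.cons_val', Matrix.cons_val_zero, Matrix.cons_val_one,
    Matrix.cons_val_fin_one]
  push_cast at hω ⊢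
  linear_combination (e : ℂ) * hω

end analytic

section perm

variable {N r : ℕ}

theorem div_dvd_of_dvd_mul (hr : r.Prime) {d : ℕ} (h : r ∣ d) (hd : d ∣ N * r) : d / r ∣ N := by
  obtain ⟨e, rfl⟩ := h
  rw [Nat.mul_div_cancel_left _ hr.pos]
  rw [mul_comm r e] at hd
  exact Nat.dvd_of_mul_dvd_mul_right hr.pos hd

theorem dvd_of_not_dvd_of_dvd_mul (hr : r.Prime) {d : ℕ} (h : ¬ r ∣ d) (hd : d ∣ N * r) :
    d ∣ N :=
  Nat.Coprime.dvd_of_dvd_mul_right ((Nat.Prime.coprime_iff_not_dvd hr).2 h).symm hd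

/-- the permutation `d ↔ d r` (`d ∣ N`) of the divisors of `N r` -/
def alPerm (hr : r.Prime) (d : Dv (N * r)) : Dv (N * r) :=
  if h : r ∣ d.1 then ⟨d.1 / r, (div_dvd_of_dvd_mul hr h d.2).mul_right r⟩
  else ⟨d.1 * r, Nat.mul_dvd_mul_right (dvd_of_not_dvd_of_dvd_mul hr h d.2) r⟩

theorem alPerm_of_dvd (hr : r.Prime) (d : Dv (N * r)) (h : r ∣ d.1) :
    (alPerm hr d).1 = d.1 / r := by
  rw [alPerm, dif_pos h]

theorem alPerm_of_not_dvd (hr : r.Prime) (d : Dv (N * r)) (h : ¬ r ∣ d.1) :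
    (alPerm hr d).1 = d.1 * r := by
  rw [alPerm, dif_neg h]

theorem alPerm_alPerm (hr : r.Prime) (hrN : ¬ r ∣ N) (d : Dv (N * r)) :
    alPerm hr (alPerm hr d) = d := by
  apply Subtype.ext
  by_cases h : r ∣ d.1
  · have h1 : ¬ r ∣ (alPerm hr d).1 := by
      rw [alPerm_of_dvd hr d h]
      exact fun h2 => hrN (h2.trans (div_dvd_of_dvd_mul hr h d.2))
    rw [alPerm_of_not_dvd hr _ h1, alPerm_of_dvd hr d h, Nat.div_mul_cancel h]
  · have h1 : r ∣ (alPerm hr d).1 := by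
      rw [alPerm_of_not_dvd hr d h]
      exact dvd_mul_left r _
    rw [alPerm_of_dvd hr _ h1, alPerm_of_not_dvd hr d h, Nat.mul_div_cancel _ hr.pos]

theorem jd_alPerm [NeZero (N * r)] (hr : r.Prime) (w z : ℤ) (h : (r : ℤ) * w - N * z = 1)
    (d : Dv (N * r)) (τ : ℍ) : jd (alPerm hr d).1 τ = jd d.1 (alMap N r w z h τ) := by
  have hd0 : d.1 ≠ 0 := NeZero.ne d.1
  by_cases hd : r ∣ d.1
  · rw [alPerm_of_dvd hr d hd]
    have h1 := div_dvd_of_dvd_mul hr hd d.2
    have h0 : d.1 / r ≠ 0 := by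
      intro h0
      rw [Nat.div_eq_zero_iff] at h0
      rcases h0 with h0 | h0
      · exact hr.ne_zero h0
      · exact absurd (Nat.le_of_dvd (Nat.pos_of_ne_zero hd0) hd) (not_le.2 h0)
    have h2 := jd_mul_alMap hr.ne_zero w z h h0 h1 τ
    rw [Nat.div_mul_cancel hd] at h2
    exact h2.symm
  · rw [alPerm_of_not_dvd hr d hd]
    exact (jd_alMap hr.ne_zero w z h hd0 (dvd_of_not_dvd_of_dvd_mul hr hd d.2) τ).symm

end perm

section gen

/-! ### generation of `FK K M` by the `Jgen d`, for an arbitrary field `K ⊇ ℚ` -/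

variable (K : Type) [Field K] [Algebra ℚ K] (M : ℕ) [NeZero M]

theorem coeffEmb_mem_adjoin_JgenK {x : LaurentSeries ℚ} (hx : x ∈ modularFunctionFieldFull M) :
    coeffEmb K x ∈ IntermediateField.adjoin K
      (Subtype.val '' Set.range (ESlib.Jgen K M) : Set (LaurentSeries K)) := by
  unfold modularFunctionFieldFull at hx
  induction hx using IntermediateField.adjoin_induction with
  | mem x hx =>
    obtain ⟨d, hd0, hd, rfl⟩ := hx
    exact IntermediateField.subset_adjoin _ _ ⟨ESlib.Jgen K M ⟨d, hd⟩, ⟨_, rfl⟩, rfl⟩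
  | algebraMap c =>
    rw [eq_ratCast, map_ratCast]
    exact SubfieldClass.ratCast_mem _ c
  | add x y _ _ hx hy => rw [map_add]; exact add_mem hx hy
  | inv x _ hx => rw [map_inv₀]; exact inv_mem hx
  | mul x y _ _ hx hy => rw [map_mul]; exact mul_mem hx hy

theorem adjoin_range_JgenK : IntermediateField.adjoin K (Set.range (ESlib.Jgen K M)) = ⊤ := by
  apply IntermediateField.lift_injective
  rw [IntermediateField.lift_adjoin, IntermediateField.lift_top]
  apply le_antisymm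
  · rw [IntermediateField.adjoin_le_iff]
    rintro _ ⟨x, _, rfl⟩
    exact x.2
  · show IntermediateField.adjoin _ _ ≤ _
    rw [IntermediateField.adjoin_le_iff]
    rintro _ ⟨x, hx, rfl⟩
    exact coeffEmb_mem_adjoin_JgenK K M hx

/-- every element of the function field is a quotient of two polynomials in the generators -/
theorem exists_fracK (f : FK K M) :
    ∃ P Q : MvPolynomial (Dv M) K, ESlib.evF K M Q ≠ 0 ∧ f = ESlib.evF K M P / ESlib.evF K M Q := by
  have hf : f ∈ IntermediateField.adjoin K (Set.range (ESlib.Jgen K M)) := by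
    rw [adjoin_range_JgenK]; exact IntermediateField.mem_top
  obtain ⟨P, Q, h⟩ := (IntermediateField.mem_adjoin_range_iff K (ESlib.Jgen K M) f).mp hf
  by_cases hQ : ESlib.evF K M Q = 0
  · refine ⟨0, 1, by simp, ?_⟩
    have hQ' : MvPolynomial.aeval (ESlib.Jgen K M) Q = 0 := hQ
    rw [h, hQ']
    simp
  · exact ⟨P, Q, hQ, h⟩

/-- two ring homomorphisms out of `FK K M` which agree on the constants and on the generators are
equal -/
theorem ringHom_ext_JgenK {Ω : Type*} [Field Ω] {s s' : FK K M →+* Ω}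
    (hK : ∀ a : K, s (algebraMap K (FK K M) a) = s' (algebraMap K (FK K M) a))
    (hJ : ∀ d : Dv M, s (ESlib.Jgen K M d) = s' (ESlib.Jgen K M d)) : s = s' := by
  ext x
  have hx : x ∈ IntermediateField.adjoin K (Set.range (ESlib.Jgen K M)) := by
    rw [adjoin_range_JgenK]; exact IntermediateField.mem_top
  induction hx using IntermediateField.adjoin_induction with
  | mem x hx => obtain ⟨d, rfl⟩ := hx; exact hJ d
  | algebraMap c => exact hK c
  | add x y _ _ hx hy => rw [map_add, map_add, hx, hy]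
  | inv x _ hx => rw [map_inv₀, map_inv₀, hx]
  | mul x y _ _ hx hy => rw [map_mul, map_mul, hx, hy]

theorem evF_X (d : Dv M) : ESlib.evF K M (MvPolynomial.X d) = ESlib.Jgen K M d :=
  MvPolynomial.aeval_X _ _

theorem evF_C (a : K) : ESlib.evF K M (MvPolynomial.C a) = algebraMap K (FK K M) a :=
  MvPolynomial.aeval_C _ _

end gen

section kernel

variable {N r : ℕ} [NeZero (N * r)]

theorem evH_rename_alPerm (hr : r.Prime) (w z : ℤ) (h : (r : ℤ) * w - N * z = 1)
    (P : MvPolynomial (Dv (N * r)) ℂ) (τ : ℍ) :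
    ESlib.evH ℂ (N * r) (MvPolynomial.rename (alPerm hr) P) τ =
      ESlib.evH ℂ (N * r) P (alMap N r w z h τ) := by
  induction P using MvPolynomial.induction_on with
  | C a => rw [MvPolynomial.rename_C, ESlib.evH_C]
  | add p q hp hq => rw [map_add, map_add, map_add, Pi.add_apply, Pi.add_apply, hp, hq]
  | mul_X p d hp =>
    rw [map_mul, map_mul, map_mul, MvPolynomial.rename_X, ESlib.evH_X, ESlib.evH_X, Pi.mul_apply,
      Pi.mul_apply, hp, jd_alPerm hr w z h]

/-- the kernel of `evF` is stable under the permutation of the variables (over `ℂ`) -/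
theorem evF_rename_alPerm_eq_zero_complex (hr : r.Prime) (hrN : ¬ r ∣ N)
    (P : MvPolynomial (Dv (N * r)) ℂ) (hP : ESlib.evF ℂ (N * r) P = 0) :
    ESlib.evF ℂ (N * r) (MvPolynomial.rename (alPerm hr) P) = 0 := by
  obtain ⟨w, z, h⟩ := exists_bezout ((Nat.Prime.coprime_iff_not_dvd hr).2 hrN)
  rw [ESlib.evF_eq_zero_iff] at hP ⊢
  funext τ
  rw [evH_rename_alPerm hr w z h, hP]
  rfl

variable (K : Type) [Field K] [Algebra ℚ K] [Algebra K ℂ] [IsScalarTower ℚ K ℂ]

theorem bc_evF (M : ℕ) [NeZero M] (P : MvPolynomial (Dv M) K) :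
    bc K ℂ (modularFunctionFieldFull M) (ESlib.evF K M P) =
      ESlib.evF ℂ M (MvPolynomial.map (algebraMap K ℂ) P) := by
  induction P using MvPolynomial.induction_on with
  | C a => rw [MvPolynomial.map_C, evF_C, evF_C, bc_algebraMap]
  | add p q hp hq => rw [map_add, map_add, map_add, map_add, hp, hq]
  | mul_X p d hp =>
    rw [map_mul, map_mul, map_mul, map_mul, hp, MvPolynomial.map_X, evF_X, evF_X]
    congr 1
    exact Subtype.ext (coeffMap_coeffEmb_algebraMap K ℂ _)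

/-- the kernel of `evF` is stable under the permutation of the variables -/
theorem evF_rename_alPerm_eq_zero (hr : r.Prime) (hrN : ¬ r ∣ N)
    (P : MvPolynomial (Dv (N * r)) K) (hP : ESlib.evF K (N * r) P = 0) :
    ESlib.evF K (N * r) (MvPolynomial.rename (alPerm hr) P) = 0 := by
  apply bc_injective K ℂ (modularFunctionFieldFull (N * r))
  rw [map_zero, bc_evF, MvPolynomial.map_rename]
  apply evF_rename_alPerm_eq_zero_complex hr hrN
  rw [← bc_evF, hP, map_zero]

theorem rename_alPerm_rename_alPerm (hr : r.Prime) (hrN : ¬ r ∣ N)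
    (P : MvPolynomial (Dv (N * r)) K) :
    MvPolynomial.rename (alPerm hr) (MvPolynomial.rename (alPerm hr) P) = P := by
  rw [MvPolynomial.rename_rename]
  have : alPerm hr ∘ alPerm hr = (id : Dv (N * r) → Dv (N * r)) :=
    funext fun d => alPerm_alPerm hr hrN d
  rw [this, MvPolynomial.rename_id_apply]

theorem evF_rename_alPerm_eq_zero_iff (hr : r.Prime) (hrN : ¬ r ∣ N)
    (P : MvPolynomial (Dv (N * r)) K) :
    ESlib.evF K (N * r) (MvPolynomial.rename (alPerm hr) P) = 0 ↔ ESlib.evF K (N * r) P = 0 := by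
  refine ⟨fun h => ?_, evF_rename_alPerm_eq_zero K hr hrN P⟩
  have := evF_rename_alPerm_eq_zero K hr hrN _ h
  rwa [rename_alPerm_rename_alPerm K hr hrN] at this

end kernel

section wr

variable (K : Type) [Field K] [Algebra ℚ K] [Algebra K ℂ] [IsScalarTower ℚ K ℂ]
variable {N r : ℕ} [NeZero (N * r)]

theorem exists_wrHom (hr : r.Prime) (hrN : ¬ r ∣ N) :
    ∃ e : FK K (N * r) →ₐ[K] FK K (N * r), ∀ P : MvPolynomial (Dv (N * r)) K,
      e (ESlib.evF K (N * r) P) = ESlib.evF K (N * r) (MvPolynomial.rename (alPerm hr) P) := by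
  let φ : MvPolynomial (Dv (N * r)) K →ₐ[K] FK K (N * r) :=
    (ESlib.evF K (N * r)).comp (MvPolynomial.rename (alPerm hr))
  have hφ : ∀ P, φ P = ESlib.evF K (N * r) (MvPolynomial.rename (alPerm hr) P) := fun _ => rfl
  have hker : ∀ P, φ P = 0 ↔ ESlib.evF K (N * r) P = 0 := fun P => by
    rw [hφ, evF_rename_alPerm_eq_zero_iff K hr hrN]
  let f : MvPolynomial (Dv (N * r)) K →ₐ[K] (ESlib.evF K (N * r)).range :=
    (ESlib.evF K (N * r)).rangeRestrict
  have hf : Function.Surjective f := (ESlib.evF K (N * r)).rangeRestrict_surjective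
  have hfz : ∀ P, f P = 0 ↔ ESlib.evF K (N * r) P = 0 := fun P => by
    rw [← Subtype.coe_inj]; rfl
  let ψ : (ESlib.evF K (N * r)).range →ₐ[K] FK K (N * r) := AlgHom.liftOfSurjective f hf φ (by
    intro P hP
    rw [RingHom.mem_ker] at hP ⊢
    exact (hker P).mpr ((hfz P).mp hP))
  have hψ : ∀ P, ψ (f P) = φ P := fun P => AlgHom.liftOfSurjective_apply f hf φ _ P
  have hinj : Function.Injective ψ := by
    rw [injective_iff_map_eq_zero]
    intro a ha
    obtain ⟨P, rfl⟩ := hf a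
    rw [hψ, hker] at ha
    exact (hfz P).mpr ha
  have : IsFractionRing (ESlib.evF K (N * r)).range (FK K (N * r)) :=
    IsFractionRing.of_field _ _ (fun z => by
      obtain ⟨P, Q, -, h⟩ := exists_fracK K (N * r) z
      exact ⟨f P, f Q, h⟩)
  refine ⟨IsFractionRing.liftAlgHom hinj, fun P => ?_⟩
  rw [IsFractionRing.liftAlgHom_apply]
  have h1 : ESlib.evF K (N * r) P =
    algebraMap (ESlib.evF K (N * r)).range (FK K (N * r)) (f P) := rfl
  rw [h1, IsFractionRing.lift_algebraMap]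
  exact (hψ P).trans (hφ P)

/-- the Atkin–Lehner involution as an algebra endomorphism -/
noncomputable def wrHom (hr : r.Prime) (hrN : ¬ r ∣ N) : FK K (N * r) →ₐ[K] FK K (N * r) :=
  (exists_wrHom K hr hrN).choose

theorem wrHom_evF (hr : r.Prime) (hrN : ¬ r ∣ N) (P : MvPolynomial (Dv (N * r)) K) :
    wrHom K hr hrN (ESlib.evF K (N * r) P) =
      ESlib.evF K (N * r) (MvPolynomial.rename (alPerm hr) P) :=
  (exists_wrHom K hr hrN).choose_spec P

theorem wrHom_Jgen (hr : r.Prime) (hrN : ¬ r ∣ N) (d : Dv (N * r)) :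
    wrHom K hr hrN (ESlib.Jgen K (N * r) d) = ESlib.Jgen K (N * r) (alPerm hr d) := by
  rw [← evF_X, wrHom_evF, MvPolynomial.rename_X, evF_X]

theorem wrHom_wrHom (hr : r.Prime) (hrN : ¬ r ∣ N) (x : FK K (N * r)) :
    wrHom K hr hrN (wrHom K hr hrN x) = x := by
  have h : ((wrHom K hr hrN).comp (wrHom K hr hrN)).toRingHom =
      (AlgHom.id K (FK K (N * r))).toRingHom := by
    apply ringHom_ext_JgenK
    · intro a
      show wrHom K hr hrN (wrHom K hr hrN _) = _
      rw [AlgHom.commutes, AlgHom.commutes]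
      rfl
    · intro d
      show wrHom K hr hrN (wrHom K hr hrN _) = _
      rw [wrHom_Jgen, wrHom_Jgen, alPerm_alPerm hr hrN]
      rfl
  exact DFunLike.congr_fun h x

/-- **the Atkin–Lehner involution `w_r`** of the function field of `X₀(N r)` -/
noncomputable def wr (hr : r.Prime) (hrN : ¬ r ∣ N) : FK K (N * r) ≃ₐ[K] FK K (N * r) :=
  AlgEquiv.ofAlgHom (wrHom K hr hrN) (wrHom K hr hrN)
    (AlgHom.ext (wrHom_wrHom K hr hrN)) (AlgHom.ext (wrHom_wrHom K hr hrN))

theorem wr_evF (hr : r.Prime) (hrN : ¬ r ∣ N) (P : MvPolynomial (Dv (N * r)) K) :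
    wr K hr hrN (ESlib.evF K (N * r) P) =
      ESlib.evF K (N * r) (MvPolynomial.rename (alPerm hr) P) :=
  wrHom_evF K hr hrN P

theorem wr_Jgen (hr : r.Prime) (hrN : ¬ r ∣ N) (d : Dv (N * r)) :
    wr K hr hrN (ESlib.Jgen K (N * r) d) = ESlib.Jgen K (N * r) (alPerm hr d) :=
  wrHom_Jgen K hr hrN d

theorem wr_wr (hr : r.Prime) (hrN : ¬ r ∣ N) (x : FK K (N * r)) :
    wr K hr hrN (wr K hr hrN x) = x :=
  wrHom_wrHom K hr hrN x

theorem wr_symm (hr : r.Prime) (hrN : ¬ r ∣ N) : (wr K hr hrN).symm = wr K hr hrN := rfl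

/-- `w_r (j(q^e)) = j(q^{e r})` for `e ∣ N` -/
theorem wr_Jgen_of_dvd (hr : r.Prime) (hrN : ¬ r ∣ N) {e : ℕ} (he : e ∣ N) :
    wr K hr hrN (ESlib.Jgen K (N * r) ⟨e, he.mul_right r⟩) =
      ESlib.Jgen K (N * r) ⟨e * r, Nat.mul_dvd_mul_right he r⟩ := by
  rw [wr_Jgen]
  congr 1
  apply Subtype.ext
  exact alPerm_of_not_dvd hr _ (fun h => hrN (h.trans he))

/-- `w_r (j(q^{e r})) = j(q^e)` for `e ∣ N` -/
theorem wr_Jgen_mul_of_dvd (hr : r.Prime) (hrN : ¬ r ∣ N) {e : ℕ} (he : e ∣ N) :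
    wr K hr hrN (ESlib.Jgen K (N * r) ⟨e * r, Nat.mul_dvd_mul_right he r⟩) =
      ESlib.Jgen K (N * r) ⟨e, he.mul_right r⟩ := by
  rw [← wr_Jgen_of_dvd K hr hrN he, wr_wr]

/-- **functoriality**: `w_r` commutes with every ring homomorphism `s : F_K → F_{K'}` which maps
constants to constants and fixes the generators (base change, coefficientwise Galois action). -/
theorem map_wr (K' : Type) [Field K'] [Algebra ℚ K'] [Algebra K' ℂ] [IsScalarTower ℚ K' ℂ]
    (hr : r.Prime) (hrN : ¬ r ∣ N) (s : FK K (N * r) →+* FK K' (N * r)) (σ : K →+* K')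
    (hK : ∀ a : K, s (algebraMap K _ a) = algebraMap K' _ (σ a))
    (hJ : ∀ d, s (ESlib.Jgen K (N * r) d) = ESlib.Jgen K' (N * r) d) (x : FK K (N * r)) :
    s (wr K hr hrN x) = wr K' hr hrN (s x) := by
  have h : s.comp (wr K hr hrN).toAlgHom.toRingHom =
      ((wr K' hr hrN).toAlgHom.toRingHom).comp s := by
    apply ringHom_ext_JgenK
    · intro a
      show s (wr K hr hrN _) = wr K' hr hrN (s _)
      rw [AlgEquiv.commutes, hK, AlgEquiv.commutes]
    · intro d
      show s (wr K hr hrN _) = wr K' hr hrN (s _)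
      rw [wr_Jgen, hJ, hJ, wr_Jgen]
  exact DFunLike.congr_fun h x

end wr

end Fermat.Agent.UNIlib
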