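import Fermat.Agent.UNI.NewtonPhi

/-!
# T-UNI: `t_a(τ)` and `t_a(r τ)` have their zeros and poles at the same places (for an arbitrary
valuation in which `a` is a unit), abstract form.
-/

set_option autoImplicit false

open Polynomial

namespace Fermat.Agent.UNIlib

variable {F Γ : Type*} [Field F] [LinearOrderedCommGroupWithZero Γ] {v : Valuation F Γ}

/-- the relations between the Hauptmodul `t` of level `a ∈ {2, 3}` and `j(τ)`, `j(a τ)` -/
def HauptRel (a : ℕ) (j ja t : F) : Prop :=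
  (a = 2 ∧ j * t ^ 2 = (t + 256) ^ 3 ∧ ja * t = (t + 16) ^ 3) ∨
    (a = 3 ∧ j * t ^ 3 = (t + 27) * (t + 243) ^ 3 ∧ ja * t = (t + 27) * (t + 3) ^ 3)

theorem val_add_of_lt {t c : F} (hc : v c = 1) (ht : v t < 1) : v (t + c) = 1 := by
  rw [Valuation.map_add_eq_of_lt_right v (by rw [hc]; exact ht), hc]

theorem val_add_of_gt {t c : F} (hc : v c = 1) (ht : 1 < v t) : v (t + c) = v t :=
  Valuation.map_add_eq_of_lt_left v (by rw [hc]; exact ht)

theorem val_add_of_eq {t c : F} (hc : v c = 1) (ht : v t = 1) : v (t + c) ≤ 1 :=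
  Valuation.map_add_le v ht.le hc.le

theorem HauptRel.two_le {a : ℕ} {j ja t : F} (H : HauptRel a j ja t) : a = 2 ∨ a = 3 := by
  rcases H with ⟨h, -⟩ | ⟨h, -⟩
  · exact Or.inl h
  · exact Or.inr h

theorem HauptRel.val_lt {a : ℕ} {j ja t : F} (H : HauptRel a j ja t) (ha : v (a : F) = 1)
    (ht : v t < 1) : v j = (v t)⁻¹ ^ a ∧ v ja = (v t)⁻¹ := by
  rcases H with ⟨rfl, h1, h2⟩ | ⟨rfl, h1, h2⟩
  · have h256 : v (256 : F) = 1 := by
      rw [show (256 : F) = ((2 : ℕ) : F) ^ 8 by norm_num, map_pow, ha, one_pow]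
    have h16 : v (16 : F) = 1 := by
      rw [show (16 : F) = ((2 : ℕ) : F) ^ 4 by norm_num, map_pow, ha, one_pow]
    have e1 := congrArg v h1
    have e2 := congrArg v h2
    rw [map_mul, map_pow, map_pow, val_add_of_lt h256 ht, one_pow] at e1
    rw [map_mul, map_pow, val_add_of_lt h16 ht, one_pow] at e2
    exact ⟨by rw [inv_pow]; exact eq_inv_of_mul_eq_one_left e1, eq_inv_of_mul_eq_one_left e2⟩
  · have h27 : v (27 : F) = 1 := by
      rw [show (27 : F) = ((3 : ℕ) : F) ^ 3 by norm_num, map_pow, ha, one_pow]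
    have h243 : v (243 : F) = 1 := by
      rw [show (243 : F) = ((3 : ℕ) : F) ^ 5 by norm_num, map_pow, ha, one_pow]
    have h3 : v (3 : F) = 1 := by
      rw [show (3 : F) = ((3 : ℕ) : F) by norm_num, ha]
    have e1 := congrArg v h1
    have e2 := congrArg v h2
    rw [map_mul, map_pow, map_mul, map_pow, val_add_of_lt h27 ht, val_add_of_lt h243 ht, one_pow,
      one_mul] at e1
    rw [map_mul, map_mul, map_pow, val_add_of_lt h27 ht, val_add_of_lt h3 ht, one_pow,
      one_mul] at e2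
    exact ⟨by rw [inv_pow]; exact eq_inv_of_mul_eq_one_left e1, eq_inv_of_mul_eq_one_left e2⟩

theorem HauptRel.val_gt {a : ℕ} {j ja t : F} (H : HauptRel a j ja t) (ha : v (a : F) = 1)
    (ht : 1 < v t) : v j = v t ∧ v ja = v t ^ a := by
  have ht0 : v t ≠ 0 := (lt_trans zero_lt_one ht).ne'
  rcases H with ⟨rfl, h1, h2⟩ | ⟨rfl, h1, h2⟩
  · have h256 : v (256 : F) = 1 := by
      rw [show (256 : F) = ((2 : ℕ) : F) ^ 8 by norm_num, map_pow, ha, one_pow]
    have h16 : v (16 : F) = 1 := by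
      rw [show (16 : F) = ((2 : ℕ) : F) ^ 4 by norm_num, map_pow, ha, one_pow]
    have e1 := congrArg v h1
    have e2 := congrArg v h2
    rw [map_mul, map_pow, map_pow, val_add_of_gt h256 ht] at e1
    rw [map_mul, map_pow, val_add_of_gt h16 ht] at e2
    constructor
    · apply mul_right_cancel₀ (pow_ne_zero 2 ht0)
      rw [e1, pow_succ' _ 2]
    · apply mul_right_cancel₀ ht0
      rw [e2, pow_succ _ 2]
  · have h27 : v (27 : F) = 1 := by
      rw [show (27 : F) = ((3 : ℕ) : F) ^ 3 by norm_num, map_pow, ha, one_pow]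
    have h243 : v (243 : F) = 1 := by
      rw [show (243 : F) = ((3 : ℕ) : F) ^ 5 by norm_num, map_pow, ha, one_pow]
    have h3 : v (3 : F) = 1 := by
      rw [show (3 : F) = ((3 : ℕ) : F) by norm_num, ha]
    have e1 := congrArg v h1
    have e2 := congrArg v h2
    rw [map_mul, map_pow, map_mul, map_pow, val_add_of_gt h27 ht, val_add_of_gt h243 ht] at e1
    rw [map_mul, map_mul, map_pow, val_add_of_gt h27 ht, val_add_of_gt h3 ht] at e2
    constructor
    · apply mul_right_cancel₀ (pow_ne_zero 3 ht0)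
      rw [e1]
    · apply mul_right_cancel₀ ht0
      rw [e2, mul_comm]

theorem HauptRel.val_eq {a : ℕ} {j ja t : F} (H : HauptRel a j ja t) (ha : v (a : F) = 1)
    (ht : v t = 1) : v j ≤ 1 := by
  rcases H with ⟨rfl, h1, h2⟩ | ⟨rfl, h1, h2⟩
  · have h256 : v (256 : F) = 1 := by
      rw [show (256 : F) = ((2 : ℕ) : F) ^ 8 by norm_num, map_pow, ha, one_pow]
    have e1 := congrArg v h1
    rw [map_mul, map_pow, map_pow, ht, one_pow, mul_one] at e1
    rw [e1]
    exact pow_le_one₀ zero_le (val_add_of_eq h256 ht)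
  · have h27 : v (27 : F) = 1 := by
      rw [show (27 : F) = ((3 : ℕ) : F) ^ 3 by norm_num, map_pow, ha, one_pow]
    have h243 : v (243 : F) = 1 := by
      rw [show (243 : F) = ((3 : ℕ) : F) ^ 5 by norm_num, map_pow, ha, one_pow]
    have e1 := congrArg v h1
    rw [map_mul, map_pow, map_mul, map_pow, ht, one_pow, mul_one] at e1
    rw [e1]
    exact mul_le_one' (val_add_of_eq h27 ht) (pow_le_one₀ zero_le (val_add_of_eq h243 ht))

theorem HauptRel.ne_zero {a : ℕ} {j ja t : F} (H : HauptRel a j ja t) (ha : v (a : F) = 1) :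
    t ≠ 0 := by
  rintro rfl
  rcases H with ⟨rfl, -, e2⟩ | ⟨rfl, -, e2⟩
  · have := congrArg v e2
    rw [mul_zero, map_zero, show (0 + 16 : F) ^ 3 = ((2 : ℕ) : F) ^ 12 by norm_num, map_pow, ha,
      one_pow] at this
    exact zero_ne_one this
  · have := congrArg v e2
    rw [mul_zero, map_zero, show (0 + 27 : F) * (0 + 3) ^ 3 = ((3 : ℕ) : F) ^ 6 by norm_num,
      map_pow, ha, one_pow] at this
    exact zero_ne_one this

/-- `v(j) > 1` unless `t` is a unit -/
theorem HauptRel.one_lt_val {a : ℕ} {j ja t : F} (H : HauptRel a j ja t) (ha : v (a : F) = 1)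
    (ht : v t ≠ 1) : 1 < v j := by
  have ha0 : a ≠ 0 := by rcases H.two_le with rfl | rfl <;> norm_num
  rcases lt_or_gt_of_ne ht with h | h
  · rw [(H.val_lt ha h).1]
    have ht0 : v t ≠ 0 := by
      intro h0
      have ht0 : t = 0 := (Valuation.zero_iff v).1 h0
      have h2 := (H.val_lt ha h).2
      rw [h0, inv_zero, Valuation.zero_iff] at h2
      have h1 := (H.val_lt ha h).1
      rw [h0, inv_zero, zero_pow ha0, Valuation.zero_iff] at h1
      rcases H with ⟨rfl, e1, e2⟩ | ⟨rfl, e1, e2⟩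
      · rw [ht0, h2] at e2
        have := congrArg v e2
        rw [show (0 + 16 : F) ^ 3 = ((2 : ℕ) : F) ^ 12 by norm_num, map_pow, ha] at this
        simp at this
      · rw [ht0, h2] at e2
        have := congrArg v e2
        rw [show (0 + 27 : F) * (0 + 3) ^ 3 = ((3 : ℕ) : F) ^ 6 by norm_num, map_pow, ha] at this
        simp at this
    exact one_lt_pow₀ ((one_lt_inv₀ (zero_lt_iff.2 ht0)).2 h) ha0
  · rw [(H.val_gt ha h).1]; exact h

section main

variable {a r : ℕ} {Φ : ℤ[X][X]} {j ja t jr jar tr : F}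

theorem haupt_sign_core (ha : v (a : F) = 1) (hr : 2 ≤ r) (har : a ≠ r) (hΦ : PhiShape r Φ)
    (H : HauptRel a j ja t) (H' : HauptRel a jr jar tr)
    (e1 : evZ Φ jr j = 0) (e2 : evZ Φ j jr = 0) (e3 : evZ Φ jar ja = 0) (e4 : evZ Φ ja jar = 0) :
    ¬ (v t < 1 ∧ 1 < v tr) := by
  rintro ⟨h1, h2⟩
  obtain ⟨a1, a2⟩ := H.val_lt ha h1
  obtain ⟨b1, b2⟩ := H'.val_gt ha h2
  have hj : 1 < v j := H.one_lt_val ha h1.ne
  set γ := (v t)⁻¹ with hγ
  set δ := v tr with hδ
  have hγ1 : 1 < γ := by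
    by_contra hcon
    rw [a1] at hj
    exact absurd (pow_le_one₀ zero_le (not_lt.1 hcon)) (not_le.2 hj)
  have hinj := pow_right_injective₀ (lt_trans zero_lt_one hγ1) hγ1.ne'
  have n1 := newton_Phi hΦ hr e1 e2 hj
  have n2 := newton_Phi hΦ hr e3 e4 (by rw [a2]; exact hγ1)
  rw [a1, b1] at n1
  rw [a2, b2] at n2
  have ha2 := H.two_le
  rcases n1 with n1 | n1 <;> rcases n2 with n2 | n2
  · rw [n1, ← pow_mul, ← pow_mul] at n2
    have := hinj n2
    rcases ha2 with rfl | rfl <;> omega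
  · rw [n1, ← pow_mul, ← pow_mul, ← pow_mul] at n2
    have := hinj (n2.trans (pow_one γ).symm)
    have h4 : 2 * 2 ≤ a * r := Nat.mul_le_mul (by rcases ha2 with rfl | rfl <;> omega) hr
    nlinarith
  · have e : γ ^ (a * a) = γ ^ (r * r) := by
      rw [pow_mul, ← n1, pow_mul, ← n2, ← pow_mul, ← pow_mul, mul_comm]
    exact har (Nat.mul_self_inj.1 (hinj e))
  · have e : γ ^ (a * a) = γ ^ 1 := by
      rw [pow_mul, ← n1, pow_one, ← pow_mul, mul_comm, pow_mul, n2]
    have := hinj e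
    rcases ha2 with rfl | rfl <;> omega

/-- **`t` and `t_r` have the same sign at every valuation in which `a` is a unit.** -/
theorem haupt_sign (ha : v (a : F) = 1) (hr : 2 ≤ r) (har : a ≠ r) (hΦ : PhiShape r Φ)
    (H : HauptRel a j ja t) (H' : HauptRel a jr jar tr)
    (e1 : evZ Φ jr j = 0) (e2 : evZ Φ j jr = 0) (e3 : evZ Φ jar ja = 0) (e4 : evZ Φ ja jar = 0) :
    (v t < 1 ↔ v tr < 1) ∧ (1 < v t ↔ 1 < v tr) := by
  have c1 := haupt_sign_core ha hr har hΦ H H' e1 e2 e3 e4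
  have c2 := haupt_sign_core ha hr har hΦ H' H e2 e1 e4 e3
  have u1 : v t = 1 → v tr = 1 := by
    intro h
    by_contra hne
    exact absurd (val_le_one_of_evZ hΦ e1 (H.val_eq ha h)) (not_le.2 (H'.one_lt_val ha hne))
  have u2 : v tr = 1 → v t = 1 := by
    intro h
    by_contra hne
    exact absurd (val_le_one_of_evZ hΦ e2 (H'.val_eq ha h)) (not_le.2 (H.one_lt_val ha hne))
  refine ⟨⟨fun h => ?_, fun h => ?_⟩, ⟨fun h => ?_, fun h => ?_⟩⟩
  · rcases lt_trichotomy (v tr) 1 with h' | h' | h'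
    · exact h'
    · exact absurd (u2 h') h.ne
    · exact absurd ⟨h, h'⟩ c1
  · rcases lt_trichotomy (v t) 1 with h' | h' | h'
    · exact h'
    · exact absurd (u1 h') h.ne
    · exact absurd ⟨h, h'⟩ c2
  · rcases lt_trichotomy (v tr) 1 with h' | h' | h'
    · exact absurd ⟨h', h⟩ c2
    · exact absurd (u2 h') h.ne'
    · exact h'
  · rcases lt_trichotomy (v t) 1 with h' | h' | h'
    · exact absurd ⟨h', h⟩ c1
    · exact absurd (u1 h') h.ne'
    · exact h'

end main

end Fermat.Agent.UNIlib
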