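import Fermat.Agent.UNI.PhiShape
import Fermat.Agent.UNI.HauptSign
import Fermat.Agent.UNI.AL
import Fermat.Agent.ES.M.Base

/-!
# T-UNI, row MOD3 (TI): `t_a(r τ)` is integral over `R[t_a]`, `1 / t_a(r τ)` over `R[1 / t_a]`, and
conversely (`a ∈ {2, 3}` a unit of `R`, `r ≠ a` ANY prime, also the residue characteristic).
Hence `w_r` preserves the integral closures of `R[t]` and of `R[1/t]`.
-/

set_option autoImplicit false
set_option linter.unusedSectionVars false

open ModularCurve Polynomial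
open Fermat.Agent.S24lib Fermat.Agent.S28lib Fermat.Agent.ESlib

namespace Fermat.Agent.UNIlib

/-- an element lying in all the valuation subrings which contain the image of `S` is integral
over `S` -/
theorem isIntegral_of_forall_valuationSubring {S F : Type*} [CommRing S] [Field F] [Algebra S F]
    (x : F) (h : ∀ V : ValuationSubring F, (∀ s : S, algebraMap S F s ∈ V) → x ∈ V) :
    IsIntegral S x := by
  have h1 : x ∈ (⨅ V : {V : ValuationSubring F // Set.range (algebraMap S F) ⊆ V.toSubring},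
      V.1.toSubring) := by
    rw [Subring.mem_iInf]
    rintro ⟨V, hV⟩
    exact h V fun s => hV ⟨s, rfl⟩
  rw [iInf_valuationSubring_superset] at h1
  have h2 : IsIntegral (Subring.closure (Set.range (algebraMap S F))) x := h1
  obtain ⟨p, hpm, hp⟩ := h2
  have hcl : Subring.closure (Set.range (algebraMap S F)) = (algebraMap S F).range := by
    rw [← RingHom.coe_range, Subring.closure_eq]
  let g : S →+* Subring.closure (Set.range (algebraMap S F)) :=
    (algebraMap S F).codRestrict _ fun s => Subring.subset_closure ⟨s, rfl⟩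
  have hg : (algebraMap (Subring.closure (Set.range (algebraMap S F))) F).comp g =
      algebraMap S F := RingHom.ext fun _ => rfl
  have hsurj : Function.Surjective g := by
    rintro ⟨y, hy⟩
    rw [hcl] at hy
    obtain ⟨s, hs⟩ := hy
    exact ⟨s, Subtype.ext hs⟩
  have hl : p ∈ Polynomial.lifts g := by
    rw [Polynomial.lifts_iff_coeff_lifts]
    intro n
    exact hsurj _
  obtain ⟨q, hq, -, hqm⟩ := Polynomial.lifts_and_natDegree_eq_and_monic hl hpm
  refine ⟨q, hqm, ?_⟩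
  rw [← hg, ← Polynomial.eval₂_map, hq, hp]

/-- `evZ` and `S28lib.ev2` -/
theorem map_evZ {F K : Type*} [Field F] [Field K] (ι : F →+* LaurentSeries K) (Φ : ℤ[X][X])
    (x y : F) :
    ι (evZ Φ x y) = ev2 (Φ.map (mapRingHom (Int.castRingHom K))) (ι x) (ι y) := by
  unfold evZ ev2
  rw [Polynomial.hom_eval₂, Polynomial.eval₂_map]
  congr 1
  apply Polynomial.ringHom_ext
  · intro a
    simp
  · simp [evY_X]

theorem ev2_PhiK_up {r : ℕ} [NeZero r] {Φ : ℤ[X][X]} (h : ev2 Φ (jAd ℤ r) (jA ℤ) = 0)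
    (K : Type*) [Field K] (e : ℕ) [NeZero e] [NeZero (e * r)] :
    ev2 (Φ.map (mapRingHom (Int.castRingHom K))) (jAd K (e * r)) (jAd K e) = 0 := by
  have h1 := congrArg (coeffMap (Int.castRingHom K)) h
  rw [coeffMap_ev2, coeffMap_jAd, coeffMap_jA, map_zero] at h1
  have h2 := congrArg (sub (1 : Kˣ) e) h1
  rw [sub_ev2, map_zero, ← J_one, sub_J, one_pow, one_mul] at h2
  rw [← J_one, ← J_one]
  exact h2

theorem ev2_PhiK_down {r : ℕ} [NeZero r] {Φ : ℤ[X][X]} (h : ev2 Φ (jA ℤ) (jAd ℤ r) = 0)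
    (K : Type*) [Field K] (e : ℕ) [NeZero e] [NeZero (e * r)] :
    ev2 (Φ.map (mapRingHom (Int.castRingHom K))) (jAd K e) (jAd K (e * r)) = 0 := by
  have h1 := congrArg (coeffMap (Int.castRingHom K)) h
  rw [coeffMap_ev2, coeffMap_jAd, coeffMap_jA, map_zero] at h1
  have h2 := congrArg (sub (1 : Kˣ) e) h1
  rw [sub_ev2, map_zero, ← J_one, sub_J, one_pow, one_mul] at h2
  rw [← J_one, ← J_one]
  exact h2

/-- **the modular polynomial `Φ_r ∈ ℤ[Y][X]`** with its shape and the relations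
`Φ_r(j(q^(e r)), j(q^e)) = Φ_r(j(q^e), j(q^(e r))) = 0` in `F_K(M)` -/
theorem exists_PhiShape {r : ℕ} (hr : r.Prime) :
    ∃ Φ : ℤ[X][X], PhiShape r Φ ∧
      ∀ (K : Type) [Field K] [Algebra ℚ K] (M : ℕ) [NeZero M] (e : ℕ) (he : e ∣ M)
        (her : e * r ∣ M),
        evZ Φ (Jgen K M ⟨e * r, her⟩) (Jgen K M ⟨e, he⟩) = 0 ∧
          evZ Φ (Jgen K M ⟨e, he⟩) (Jgen K M ⟨e * r, her⟩) = 0 := by
  have : NeZero r := ⟨hr.ne_zero⟩
  obtain ⟨Φ, h1, h2, h3, h4, h5, h6, h7⟩ := exists_PhiZ hr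
  refine ⟨Φ, ⟨h1, h2, h5, h6, h7⟩, ?_⟩
  intro K _ _ M _ e he her
  have hinj : Function.Injective (algebraMap (FK K M) (LaurentSeries K)) :=
    (algebraMap (FK K M) (LaurentSeries K)).injective
  have : NeZero e := ⟨fun h0 => NeZero.ne M (by rw [h0] at he; exact Nat.eq_zero_of_zero_dvd he)⟩
  have : NeZero (e * r) := ⟨mul_ne_zero (NeZero.ne e) (NeZero.ne r)⟩
  have c1 : algebraMap (FK K M) (LaurentSeries K) (Jgen K M ⟨e, he⟩) = jAd K e :=
    coe_Jgen_jAd K M ⟨e, he⟩
  have c2 : algebraMap (FK K M) (LaurentSeries K) (Jgen K M ⟨e * r, her⟩) = jAd K (e * r) :=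
    coe_Jgen_jAd K M ⟨e * r, her⟩
  constructor
  · apply hinj
    rw [map_evZ, map_zero, c1, c2]
    exact ev2_PhiK_up h3 K e
  · apply hinj
    rw [map_evZ, map_zero, c1, c2]
    exact ev2_PhiK_down h4 K e

section main

variable (K : Type) [Field K] [CharZero K] [Algebra ℚ K] (M : ℕ) [NeZero M]

/-- the relations of the Hauptmodul `t_a` with `j(q)`, `j(q^a)` in `F_K(M)` -/
theorem hauptRel_tF (a : ℕ) [NeZero a] (ha : a = 2 ∨ a = 3) (haM : a ∣ M) :
    HauptRel a (Jgen K M ⟨1, one_dvd M⟩) (Jgen K M ⟨a, haM⟩) (tF K M a ha haM) := by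
  rcases ha with rfl | rfl
  · refine Or.inl ⟨rfl, tF_rel_two K M haM, ?_⟩
    apply Subtype.ext
    show ((Jgen K M ⟨2, haM⟩ : FK K M) : LaurentSeries K) * haupt K 2 24 = (haupt K 2 24 + 16) ^ 3
    rw [coe_Jgen]
    exact haupt2_rel_two K
  · refine Or.inr ⟨rfl, tF_rel_three K M haM, ?_⟩
    apply Subtype.ext
    show ((Jgen K M ⟨3, haM⟩ : FK K M) : LaurentSeries K) * haupt K 3 12 =
      (haupt K 3 12 + 27) * (haupt K 3 12 + 3) ^ 3
    rw [coe_Jgen]
    exact haupt3_rel_three K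

variable {K M}

/-- **(TI), valuation form.**  `t'` any element of `F_K(M)` with the relations of `t_a(r τ)`. -/
theorem tF_sign {Γ : Type*} [LinearOrderedCommGroupWithZero Γ] (v : Valuation (FK K M) Γ)
    {a r : ℕ} [NeZero a] (ha : a = 2 ∨ a = 3) (hr : r.Prime) (har : a ≠ r) (haM : a ∣ M)
    (hrM : 1 * r ∣ M) (harM : a * r ∣ M) {t' : FK K M}
    (H' : HauptRel a (Jgen K M ⟨1 * r, hrM⟩) (Jgen K M ⟨a * r, harM⟩) t')
    (hav : v (a : FK K M) = 1) :
    (v (tF K M a ha haM) < 1 ↔ v t' < 1) ∧ (1 < v (tF K M a ha haM) ↔ 1 < v t') := by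
  obtain ⟨Φ, hΦ, hrel⟩ := exists_PhiShape hr
  obtain ⟨e1, e2⟩ := hrel K M 1 (one_dvd M) hrM
  obtain ⟨e3, e4⟩ := hrel K M a haM harM
  exact haupt_sign hav hr.two_le har hΦ (hauptRel_tF K M a ha haM) H' e1 e2 e3 e4

theorem valuation_natCast_eq_one {R F : Type*} [CommRing R] [Field F] [Algebra R F]
    (V : ValuationSubring F) (hV : ∀ c : R, algebraMap R F c ∈ V) {a : ℕ} (ha : IsUnit (a : R)) :
    V.valuation (a : F) = 1 := by
  obtain ⟨u, hu⟩ := ha
  have h1 : algebraMap R F (u : R) * algebraMap R F ((u⁻¹ : Rˣ) : R) = 1 := by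
    rw [← map_mul, Units.mul_inv, map_one]
  let w : Vˣ := ⟨⟨_, hV u⟩, ⟨_, hV ((u⁻¹ : Rˣ) : R)⟩, Subtype.ext h1,
    Subtype.ext (by rw [mul_comm] at h1; exact h1)⟩
  have := V.valuation_unit w
  rw [← map_natCast (algebraMap R F), ← hu]
  exact this

/-- **(TI).**  `t'` any element of `F_K(M)` with the relations of `t_a(r τ)`, `R` any ring in which
`a` is invertible. -/
theorem isIntegral_tF_twist (R : Type*) [CommRing R] [Algebra R (FK K M)]
    {a r : ℕ} [NeZero a] (ha : a = 2 ∨ a = 3) (hr : r.Prime) (har : a ≠ r) (haM : a ∣ M)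
    (hrM : 1 * r ∣ M) (harM : a * r ∣ M) {t' : FK K M}
    (H' : HauptRel a (Jgen K M ⟨1 * r, hrM⟩) (Jgen K M ⟨a * r, harM⟩) t')
    (haR : IsUnit (a : R)) :
    IsIntegral (Algebra.adjoin R {tF K M a ha haM}) t' ∧
    IsIntegral (Algebra.adjoin R {t'}) (tF K M a ha haM) ∧
    IsIntegral (Algebra.adjoin R {(tF K M a ha haM)⁻¹}) t'⁻¹ ∧
    IsIntegral (Algebra.adjoin R {t'⁻¹}) (tF K M a ha haM)⁻¹ := by
  have key : ∀ (x y : FK K M),
      (∀ V : ValuationSubring (FK K M), V.valuation (a : FK K M) = 1 → x ∈ V → y ∈ V) →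
      IsIntegral (Algebra.adjoin R {x}) y := by
    intro x y hxy
    apply isIntegral_of_forall_valuationSubring
    intro V hV
    refine hxy V (valuation_natCast_eq_one V (fun c => ?_) haR) ?_
    · exact hV ⟨algebraMap R _ c, Subalgebra.algebraMap_mem _ c⟩
    · exact hV ⟨x, Algebra.subset_adjoin rfl⟩
  refine ⟨key _ _ fun V hav h => ?_, key _ _ fun V hav h => ?_, key _ _ fun V hav h => ?_,
    key _ _ fun V hav h => ?_⟩
  · have hs := (tF_sign V.valuation ha hr har haM hrM harM H' hav).2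
    rw [← V.valuation_le_one_iff] at h ⊢
    exact not_lt.1 fun h' => absurd (hs.2 h') (not_lt.2 h)
  · have hs := (tF_sign V.valuation ha hr har haM hrM harM H' hav).2
    rw [← V.valuation_le_one_iff] at h ⊢
    exact not_lt.1 fun h' => absurd (hs.1 h') (not_lt.2 h)
  · have hs := (tF_sign V.valuation ha hr har haM hrM harM H' hav).1
    have p1 : 0 < V.valuation (tF K M a ha haM) :=
      zero_lt_iff.2 ((Valuation.ne_zero_iff _).2 (tF_ne_zero K M a ha haM))
    have p2 : 0 < V.valuation t' := zero_lt_iff.2 ((Valuation.ne_zero_iff _).2 (H'.ne_zero hav))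
    rw [← V.valuation_le_one_iff, map_inv₀] at h ⊢
    rw [inv_le_one₀ p1] at h
    rw [inv_le_one₀ p2]
    exact not_lt.1 fun h' => absurd (hs.2 h') (not_lt.2 h)
  · have hs := (tF_sign V.valuation ha hr har haM hrM harM H' hav).1
    have p1 : 0 < V.valuation (tF K M a ha haM) :=
      zero_lt_iff.2 ((Valuation.ne_zero_iff _).2 (tF_ne_zero K M a ha haM))
    have p2 : 0 < V.valuation t' := zero_lt_iff.2 ((Valuation.ne_zero_iff _).2 (H'.ne_zero hav))
    rw [← V.valuation_le_one_iff, map_inv₀] at h ⊢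
    rw [inv_le_one₀ p2] at h
    rw [inv_le_one₀ p1]
    exact not_lt.1 fun h' => absurd (hs.1 h') (not_lt.2 h)

end main

section wr

variable (K : Type) [Field K] [CharZero K] [Algebra ℚ K] [Algebra K ℂ] [IsScalarTower ℚ K ℂ]
variable {N r : ℕ} [NeZero (N * r)]

/-- `w_r t_a` satisfies the relations of `t_a(r τ)` -/
theorem hauptRel_wr_tF (hr : r.Prime) (hrN : ¬ r ∣ N) (a : ℕ) [NeZero a] (ha : a = 2 ∨ a = 3)
    (haN : a ∣ N) :
    HauptRel a (Jgen K (N * r) ⟨1 * r, Nat.mul_dvd_mul_right (one_dvd N) r⟩)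
      (Jgen K (N * r) ⟨a * r, Nat.mul_dvd_mul_right haN r⟩)
      (wr K hr hrN (tF K (N * r) a ha (haN.mul_right r))) := by
  have H := hauptRel_tF K (N * r) a ha (haN.mul_right r)
  rw [← wr_Jgen_of_dvd K hr hrN (one_dvd N), ← wr_Jgen_of_dvd K hr hrN haN]
  rcases H with ⟨h, e1, e2⟩ | ⟨h, e1, e2⟩
  · refine Or.inl ⟨h, ?_, ?_⟩
    · have := congrArg (wr K hr hrN) e1
      simpa only [map_mul, map_pow, map_add, map_ofNat] using this
    · have := congrArg (wr K hr hrN) e2
      simpa only [map_mul, map_pow, map_add, map_ofNat] using this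
  · refine Or.inr ⟨h, ?_, ?_⟩
    · have := congrArg (wr K hr hrN) e1
      simpa only [map_mul, map_pow, map_add, map_ofNat] using this
    · have := congrArg (wr K hr hrN) e2
      simpa only [map_mul, map_pow, map_add, map_ofNat] using this

/-- **(TI) for `w_r`.** -/
theorem isIntegral_wr_tF (R : Type*) [CommRing R] [Algebra R (FK K (N * r))]
    (hr : r.Prime) (hrN : ¬ r ∣ N) (a : ℕ) [NeZero a] (ha : a = 2 ∨ a = 3) (haN : a ∣ N)
    (haR : IsUnit (a : R)) :
    IsIntegral (Algebra.adjoin R {tF K (N * r) a ha (haN.mul_right r)})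
      (wr K hr hrN (tF K (N * r) a ha (haN.mul_right r))) ∧
    IsIntegral (Algebra.adjoin R {wr K hr hrN (tF K (N * r) a ha (haN.mul_right r))})
      (tF K (N * r) a ha (haN.mul_right r)) ∧
    IsIntegral (Algebra.adjoin R {(tF K (N * r) a ha (haN.mul_right r))⁻¹})
      (wr K hr hrN (tF K (N * r) a ha (haN.mul_right r)))⁻¹ ∧
    IsIntegral (Algebra.adjoin R {(wr K hr hrN (tF K (N * r) a ha (haN.mul_right r)))⁻¹})
      (tF K (N * r) a ha (haN.mul_right r))⁻¹ :=
  isIntegral_tF_twist R ha hr (fun h => hrN (h ▸ haN)) (haN.mul_right r) _ _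
    (hauptRel_wr_tF K hr hrN a ha haN) haR

/-- transitivity of integrality for `R[t] ⊆ R[t][s]` -/
theorem isIntegral_adjoin_trans {R F : Type*} [CommRing R] [Field F] [Algebra R F] {t s x : F}
    (hs : IsIntegral (Algebra.adjoin R {t}) s) (hx : IsIntegral (Algebra.adjoin R {s}) x) :
    IsIntegral (Algebra.adjoin R {t}) x := by
  apply isIntegral_of_forall_valuationSubring
  intro V hV
  have hsV : s ∈ V := mem_valuationSubring_of_isIntegralElem V _
    (fun z => (V.valuation_le_one_iff _).2 (hV z)) hs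
  have hRV : ∀ c : R, algebraMap R F c ∈ V := fun c =>
    hV ⟨algebraMap R _ c, Subalgebra.algebraMap_mem _ c⟩
  rw [isIntegral_adjoin_singleton_iff] at hx
  refine mem_valuationSubring_of_isIntegralElem V _ (fun p => (V.valuation_le_one_iff _).2 ?_) hx
  show aeval s p ∈ V
  rw [aeval_eq_sum_range]
  refine V.toSubring.sum_mem fun i _ => ?_
  rw [Algebra.smul_def]
  exact V.mul_mem _ _ (hRV _) (V.toSubring.pow_mem hsV i)

/-- transport of integrality by an `R`-linear ring automorphism -/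
theorem isIntegral_adjoin_map {R F : Type*} [CommRing R] [Field F] [Algebra R F] (w : F →+* F)
    (hw : ∀ c : R, w (algebraMap R F c) = algebraMap R F c) {t x : F}
    (hx : IsIntegral (Algebra.adjoin R {t}) x) : IsIntegral (Algebra.adjoin R {w t}) (w x) := by
  rw [isIntegral_adjoin_singleton_iff] at hx ⊢
  obtain ⟨q, hqm, hq⟩ := hx
  refine ⟨q, hqm, ?_⟩
  have h1 := congrArg w hq
  rw [Polynomial.hom_eval₂, map_zero] at h1
  have h2 : w.comp ((aeval t : R[X] →ₐ[R] F) : R[X] →+* F) =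
      ((aeval (w t) : R[X] →ₐ[R] F) : R[X] →+* F) := by
    apply Polynomial.ringHom_ext
    · intro c
      simp [hw]
    · simp
  rw [h2] at h1
  exact h1

/-- **`w_r` preserves the integral closure of `R[t]` and of `R[1/t]`.** -/
theorem isIntegral_wr_iff (R : Type*) [CommRing R] [Algebra R K] [Algebra R (FK K (N * r))]
    [IsScalarTower R K (FK K (N * r))]
    (hr : r.Prime) (hrN : ¬ r ∣ N) (a : ℕ) [NeZero a] (ha : a = 2 ∨ a = 3) (haN : a ∣ N)
    (haR : IsUnit (a : R)) (x : FK K (N * r)) :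
    (IsIntegral (Algebra.adjoin R {tF K (N * r) a ha (haN.mul_right r)}) (wr K hr hrN x) ↔
      IsIntegral (Algebra.adjoin R {tF K (N * r) a ha (haN.mul_right r)}) x) ∧
    (IsIntegral (Algebra.adjoin R {(tF K (N * r) a ha (haN.mul_right r))⁻¹}) (wr K hr hrN x) ↔
      IsIntegral (Algebra.adjoin R {(tF K (N * r) a ha (haN.mul_right r))⁻¹}) x) := by
  obtain ⟨h1, -, h3, -⟩ := isIntegral_wr_tF K R hr hrN a ha haN haR
  have hw : ∀ c : R, (wr K hr hrN : FK K (N * r) →+* FK K (N * r)) (algebraMap R _ c) =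
      algebraMap R _ c := fun c => by
    rw [IsScalarTower.algebraMap_apply R K (FK K (N * r))]
    exact (wr K hr hrN).commutes _
  have key : ∀ T : FK K (N * r), IsIntegral (Algebra.adjoin R {T}) (wr K hr hrN T) →
      ∀ y, IsIntegral (Algebra.adjoin R {T}) y → IsIntegral (Algebra.adjoin R {T}) (wr K hr hrN y) :=
    fun T hT y hy => isIntegral_adjoin_trans hT (isIntegral_adjoin_map _ hw hy)
  rw [← map_inv₀] at h3
  refine ⟨⟨fun h => ?_, key _ h1 x⟩, ⟨fun h => ?_, key _ h3 x⟩⟩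
  · have := key _ h1 _ h
    rwa [wr_wr] at this
  · have := key _ h3 _ h
    rwa [wr_wr] at this

end wr

end Fermat.Agent.UNIlib
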