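import Fermat.Agent.UNI.GaussVal
import Fermat.Agent.ES.M.PiSide
import Fermat.Agent.ES.C.AKGauss
import Fermat.Agent.ES.C.AKInt

/-!
# T-UNI: the Gauss ring and the charts `t`, `1/t` (any level, any residue characteristic)

* `isIntegral_tF_mem_gaussSub` : the integral closure of `R[T]`, `T = t` or `1/t`, lies in the Gauss
  ring;
* `mem_gaussSub_of_piInt` : a `π`-integral element lies in the Gauss ring.
-/

set_option autoImplicit false
set_option linter.unusedSectionVars false

open ModularCurve Polynomial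

namespace Fermat.Agent.UNIlib

open Fermat.Agent.ESlib
open Fermat.Agent.S28lib (evY evY_C evY_X coeffMap_evY)

noncomputable section

/-- `ord_q t_a = -1` over any field -/
theorem order_haupt' (κ : Type*) [Field κ] (a : ℕ) [NeZero a] (c : ℕ) :
    (haupt κ a c).order = -1 := by
  have hc0 : PowerSeries.constantCoeff (hauptNum a c) = 1 := by
    have h1 : PowerSeries.constantCoeff etaProdInv = 1 := by
      have := congrArg PowerSeries.constantCoeff etaProd_mul_inv
      rwa [map_mul, constantCoeff_etaProd, one_mul, map_one] at this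
    rw [hauptNum, map_mul, map_pow, map_pow, constantCoeff_Vp, constantCoeff_etaProd, h1]
    simp
  have h0 : (zLhom κ (hauptNum a c)).coeff 0 = 1 := by
    have := zLhom_coeff_natCast κ (hauptNum a c) 0
    rw [PowerSeries.coeff_zero_eq_constantCoeff_apply, hc0] at this
    simpa using this
  have hne : zLhom κ (hauptNum a c) ≠ 0 := by
    intro h
    rw [h] at h0
    simp at h0
  have hord : (zLhom κ (hauptNum a c)).order = 0 := by
    apply le_antisymm
    · exact HahnSeries.order_le_of_coeff_ne_zero (by rw [h0]; exact one_ne_zero)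
    · by_contra hlt
      exact hne (HahnSeries.coeff_order_eq_zero.1 (zLhom_coeff_of_neg κ _ (not_le.1 hlt)))
  rw [haupt_eq, HahnSeries.order_mul (by simp) hne, HahnSeries.order_single one_ne_zero, hord,
    add_zero]

theorem evY_haupt_ne_zero (κ : Type*) [Field κ] (a : ℕ) [NeZero a] (c : ℕ) {P : κ[X]}
    (hP : P ≠ 0) : evY κ (haupt κ a c) P ≠ 0 := by
  have htr : Transcendental κ (haupt κ a c) :=
    transcendental_of_order_ne_zero' (by rw [order_haupt']; norm_num)
  intro h0
  apply hP
  apply (transcendental_iff.1 htr) P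
  rw [← h0, aeval_def]
  show _ = eval₂ _ _ _
  congr 1
  ext x : 1
  show algebraMap κ (LaurentSeries κ) x = HahnSeries.C x
  rw [algebraMap_laurentSeries_eq_single, HahnSeries.C_apply]

variable {R K : Type} [CommRing R] [IsDomain R] [IsDiscreteValuationRing R] [Field K] [Algebra R K]
  [IsFractionRing R K] [CharZero K] [Algebra ℚ K] (M : ℕ) [NeZero M]
  [Algebra R (FK K M)] [IsScalarTower R K (FK K M)]
  (a : ℕ) [NeZero a] (ha : a = 2 ∨ a = 3) (haM : a ∣ M)

theorem coe_aeval_tF (P : R[X]) :
    ((aeval (tF K M a ha haM) P : FK K M) : LaurentSeries K) =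
      coeffMap (algebraMap R K) (evY R (haupt R a (hexp a)) P) := by
  have : ((algebraMap (FK K M) (LaurentSeries K)).comp
      (aeval (tF K M a ha haM) : R[X] →ₐ[R] FK K M).toRingHom) =
      (coeffMap (algebraMap R K)).comp (evY R (haupt R a (hexp a))) := by
    apply Polynomial.ringHom_ext
    · intro c
      simp only [RingHom.comp_apply, AlgHom.toRingHom_eq_coe, RingHom.coe_coe, aeval_C,
        evY_C, coeffMap_C']
      exact coe_algebraMap_R c
    · simp only [RingHom.comp_apply, AlgHom.toRingHom_eq_coe, RingHom.coe_coe, aeval_X,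
        evY_X, coeffMap_haupt]
      rfl
  exact congrArg (fun g => g P) this

theorem aeval_tF_mem_gaussSub (P : R[X]) : aeval (tF K M a ha haM) P ∈ gaussSub R K M :=
  mem_gaussSub_of_eq_coeffMap _ (coe_aeval_tF M a ha haM P)

/-- `P(t)` is a unit of the Gauss ring if `π ∤ P` -/
theorem inv_aeval_tF_mem_gaussSub {π : R} (hπ : Irreducible π) {P : R[X]} (hP : ¬ C π ∣ P) :
    (aeval (tF K M a ha haM) P)⁻¹ ∈ gaussSub R K M := by
  refine inv_mem_gaussSub_of_eq_coeffMap _ (coe_aeval_tF M a ha haM P) ?_
  rw [coeffMap_evY, coeffMap_haupt]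
  apply evY_haupt_ne_zero
  intro h0
  apply hP
  exact (redSetup_of_dvr (K := K) hπ).poly.ker P h0

theorem tF_mem_gaussSub : tF K M a ha haM ∈ gaussSub R K M := by
  have := aeval_tF_mem_gaussSub (R := R) (K := K) M a ha haM X
  rwa [aeval_X] at this

theorem inv_tF_mem_gaussSub : (tF K M a ha haM)⁻¹ ∈ gaussSub R K M := by
  obtain ⟨π, hπ⟩ := IsDiscreteValuationRing.exists_irreducible R
  have := inv_aeval_tF_mem_gaussSub (K := K) M a ha haM hπ (P := X) (fun h => by
    obtain ⟨q, hq⟩ := h
    have h1 := congrArg (fun p => p.coeff 1) hq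
    simp only [coeff_X_one, coeff_C_mul] at h1
    exact hπ.not_isUnit (IsUnit.of_mul_eq_one _ h1.symm))
  rwa [aeval_X] at this

/-- the integral closure of `R[T]` lies in the Gauss ring as soon as `T` does -/
theorem mem_gaussSub_of_isIntegral {T : FK K M} (hT : T ∈ gaussSub R K M) {x : FK K M}
    (hx : IsIntegral (Algebra.adjoin R {T}) x) : x ∈ gaussSub R K M := by
  rw [isIntegral_adjoin_singleton_iff] at hx
  refine mem_valuationSubring_of_isIntegralElem (gaussVal R K M) _ (fun p => ?_) hx
  rw [ValuationSubring.valuation_le_one_iff]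
  show aeval T p ∈ gaussSub R K M
  rw [aeval_eq_sum_range]
  refine sum_mem fun i _ => ?_
  rw [Algebra.smul_def]
  refine mul_mem ?_ (pow_mem hT i)
  exact mem_gaussSub_of_eq_coeffMap (HahnSeries.C (p.coeff i))
    (by rw [coe_algebraMap_R, coeffMap_C'])

/-- a `π`-integral element lies in the Gauss ring -/
theorem mem_gaussSub_of_piInt {π : R} (hπ : Irreducible π) {x : FK K M}
    (hx : PiInt π (tF K M a ha haM) x) : x ∈ gaussSub R K M := by
  obtain ⟨P, hP, hPx⟩ := hx
  have h1 := mem_gaussSub_of_isIntegral M (tF_mem_gaussSub M a ha haM) hPx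
  have h2 := inv_aeval_tF_mem_gaussSub (K := K) M a ha haM hπ hP
  have h0 : aeval (tF K M a ha haM) P ≠ 0 := by
    intro h0
    have h3 := coe_aeval_tF (R := R) (K := K) M a ha haM P
    rw [h0] at h3
    have h4 : evY R (haupt R a (hexp a)) P = 0 := by
      apply coeffMap_injective (algebraMap R K) (IsFractionRing.injective R K)
      rw [← h3, map_zero]; rfl
    have h5 := congrArg (coeffMap (IsLocalRing.residue R)) h4
    rw [coeffMap_evY, coeffMap_haupt, map_zero] at h5
    refine evY_haupt_ne_zero _ a _ (fun h6 => hP ?_) h5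
    exact (redSetup_of_dvr (K := K) hπ).poly.ker P h6
  have h3 := mul_mem h2 h1
  rwa [inv_mul_cancel_left₀ h0] at h3

theorem mem_gaussSub_of_piInt_inv {π : R} (hπ : Irreducible π) {x : FK K M}
    (hx : PiInt π (tF K M a ha haM)⁻¹ x) : x ∈ gaussSub R K M := by
  apply mem_gaussSub_of_piInt M a ha haM hπ
  have := PiInt.inv (inv_ne_zero (tF_ne_zero K M a ha haM)) hx
  rwa [inv_inv] at this

end

end Fermat.Agent.UNIlib
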