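import Fermat.Agent.UNI.GaussVal
import Fermat.Agent.ES.E.HeckeSeries

/-!
# T-UNI, modular side (G3), series level: `1, j(q^r), …, j(q^r)^r` is an integral basis for the pair
of Gauss valuations `v_∞`, `v_0 = v_∞ ∘ w_r` in residue characteristic `r`.
-/

set_option autoImplicit false
set_option linter.unusedSectionVars false

open ModularCurve Polynomial

namespace Fermat.Agent.UNIlib

open Fermat.Agent.ESlib
open Fermat.Agent.S28lib (RedSetup jA jAd)

noncomputable section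

section red

variable {κ : Type*} [Field κ] (r : ℕ) [Fact r.Prime] [NeZero r] [CharP κ r]

theorem jA_pow_char : (jA κ) ^ r = jAd κ r := by
  rw [pow_char_eq_qExpand, S28lib.coeffMap_jA]

theorem order_jAd (d : ℕ) [NeZero d] : (jAd κ d).order = -(d : ℤ) := by
  rw [jAd, S28lib.order_qExpand _ _ S28lib.jA_ne_zero, S28lib.order_jA]
  ring

theorem jAd_ne_zero (d : ℕ) [NeZero d] : jAd κ d ≠ 0 := fun h =>
  S28lib.jA_ne_zero (K := κ) (qExpand_injective (R := κ) (N := d) (by rw [map_zero]; exact h))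

/-- **(RED)** -/
theorem eq_zero_of_eval_eq_zero (G : (LaurentSeries κ)[X]) (hdeg : G.natDegree ≤ r)
    (h1 : G.eval (jAd κ r) = 0) (h2 : (G.map (qExpand κ r)).eval (jA κ) = 0) : G = 0 := by
  have hr : r.Prime := Fact.out
  set g := G.coeff r with hg
  set H : (LaurentSeries κ)[X] := G - C g * (X ^ r - C (jA κ)) with hH
  have hHmap : H.map (qExpand κ r) = G.map (qExpand κ r) -
      C (qExpand κ r g) * (X ^ r - C (jAd κ r)) := by
    rw [hH, Polynomial.map_sub, Polynomial.map_mul, Polynomial.map_sub, Polynomial.map_pow, map_X,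
      map_C, map_C]
  have hHev : (H.map (qExpand κ r)).eval (jA κ) = 0 := by
    rw [hHmap, eval_sub, h2, eval_mul, eval_sub, eval_pow, eval_X, eval_C, eval_C, jA_pow_char,
      sub_self, mul_zero, sub_zero]
  have hHr : H.coeff r = 0 := by
    rw [hH, coeff_sub, coeff_C_mul, coeff_sub, coeff_X_pow, if_pos rfl, coeff_C,
      if_neg hr.ne_zero, sub_zero, mul_one, sub_self]
  have hHdeg : H.natDegree ≤ r := by
    rw [hH]
    refine (natDegree_sub_le _ _).trans (max_le hdeg ?_)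
    refine (natDegree_C_mul_le _ _).trans ?_
    exact (natDegree_sub_le _ _).trans (max_le (natDegree_X_pow_le r) (by simp))
  have hH0 : H = 0 := by
    by_contra hne
    have hne' : H.map (qExpand κ r) ≠ 0 := fun h0 =>
      hne (Polynomial.map_injective _ (qExpand_injective (R := κ) (N := r))
        (by rw [h0, Polynomial.map_zero]))
    have h3 := S28lib.natDegree_ge_of_root hr (jA κ) S28lib.jA_ne_zero
      (by
        rw [S28lib.order_jA]
        intro hd
        have := Int.natAbs_dvd_natAbs.2 hd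
        simp only [Int.natAbs_natCast, Int.natAbs_neg, Int.natAbs_one, Nat.dvd_one] at this
        exact hr.one_lt.ne' this)
      (H.map (qExpand κ r)) hne' (fun i => ⟨H.coeff i, by rw [coeff_map]⟩) hHev
    have h4 : (H.map (qExpand κ r)).natDegree ≤ H.natDegree := natDegree_map_le
    have h5 : H.natDegree = r := le_antisymm hHdeg (h3.trans h4)
    have h6 : H.leadingCoeff = 0 := by rw [leadingCoeff, h5, hHr]
    exact hne (leadingCoeff_eq_zero.1 h6)
  have hG : G = C g * (X ^ r - C (jA κ)) := sub_eq_zero.1 (hH ▸ hH0)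
  rw [hG, eval_mul, eval_sub, eval_pow, eval_X, eval_C, eval_C] at h1
  have hne : (jAd κ r) ^ r - jA κ ≠ 0 := by
    intro h0
    have h7 := congrArg HahnSeries.order (sub_eq_zero.1 h0)
    rw [HahnSeries.order_pow, order_jAd, S28lib.order_jA] at h7
    have h8 : (2 : ℤ) ≤ r := by exact_mod_cast hr.two_le
    simp only [nsmul_eq_mul] at h7
    nlinarith
  have hg0 : g = 0 := (mul_eq_zero.1 h1).resolve_right hne
  rw [hG, hg0, map_zero, zero_mul]

end red

section lam

variable {R K κ : Type*} [CommRing R] [Field K] [Field κ] {ι : R →+* K} {ρ : R →+* κ} {ϖ : R}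

theorem qExpand_mem_LamR (e : ℕ) [NeZero e] {x : LaurentSeries K} (hx : x ∈ LamR ι ρ) :
    qExpand K e x ∈ LamR ι ρ := by
  obtain ⟨s, y, hs, h⟩ := hx
  refine ⟨qExpand R e s, qExpand R e y, ?_, ?_⟩
  · rw [coeffMap_qExpand]
    exact fun h0 => hs (qExpand_injective (R := κ) (N := e) (by rw [h0, map_zero]))
  · rw [coeffMap_qExpand, coeffMap_qExpand, ← h, map_mul]

variable (ι ρ) in
/-- `q ↦ q^e` on `LamR` -/
def qExpL (e : ℕ) [NeZero e] : LamR ι ρ →+* LamR ι ρ :=
  ((qExpand K e).comp (LamR ι ρ).subtype).codRestrict (LamR ι ρ)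
    (fun x => qExpand_mem_LamR e x.2)

theorem coe_qExpL (e : ℕ) [NeZero e] (x : LamR ι ρ) :
    ((qExpL ι ρ e x : LamR ι ρ) : LaurentSeries K) = qExpand K e (x : LaurentSeries K) := rfl

theorem redR_qExpL (hι : Function.Injective ι) (e : ℕ) [NeZero e] (x : LamR ι ρ) :
    redR hι (qExpL ι ρ e x) = qExpand κ e (redR hι x) := by
  obtain ⟨s, y, hs, h⟩ := x.2
  rw [redR_eq hι x hs h, redR_eq hι (qExpL ι ρ e x) (s := qExpand R e s) (y := qExpand R e y)
    (by
      rw [coeffMap_qExpand]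
      exact fun h0 => hs (qExpand_injective (R := κ) (N := e) (by rw [h0, map_zero])))
    (by rw [coe_qExpL, coeffMap_qExpand, coeffMap_qExpand, ← h, map_mul]),
    coeffMap_qExpand, coeffMap_qExpand, map_div₀]

theorem redR_comp_qExpL (hι : Function.Injective ι) (e : ℕ) [NeZero e] :
    (redR hι).comp (qExpL ι ρ e) = (qExpand κ e).comp (redR hι) :=
  RingHom.ext fun x => redR_qExpL hι e x

variable (ι ρ ϖ) in
/-- `ϖ` as an element of `LamR` -/
abbrev unifL : LamR ι ρ := ⟨HahnSeries.C (ι ϖ), C_unif_mem_LamR⟩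

theorem jAd_mem_LamR (d : ℕ) [NeZero d] : jAd K d ∈ LamR ι ρ := by
  rw [← S28lib.coeffMap_jAd ι d]; exact coeffMap_mem_LamR _

theorem jA_mem_LamR : jA K ∈ LamR ι ρ := by
  rw [← S28lib.coeffMap_jA ι]; exact coeffMap_mem_LamR _

theorem redR_jAd (hι : Function.Injective ι) (d : ℕ) [NeZero d] :
    redR hι (⟨jAd K d, jAd_mem_LamR d⟩ : LamR ι ρ) = jAd κ d := by
  rw [redR_of_eq_coeffMap hι _ (jAd R d) (S28lib.coeffMap_jAd ι d).symm, S28lib.coeffMap_jAd]

theorem redR_jA (hι : Function.Injective ι) :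
    redR hι (⟨jA K, jA_mem_LamR⟩ : LamR ι ρ) = jA κ := by
  rw [redR_of_eq_coeffMap hι _ (jA R) (S28lib.coeffMap_jA ι).symm, S28lib.coeffMap_jA]

variable (r : ℕ) [Fact r.Prime] [NeZero r] [CharP κ r]

/-- one step: an integral polynomial `c` of degree `≤ r` with `c(j_r) ≡ 0`, `c^{(r)}(j) ≡ 0` is
`≡ 0` -/
theorem map_redR_eq_zero (h : RedSetup ι ρ ϖ) (c : (LamR ι ρ)[X]) (hdeg : c.natDegree ≤ r)
    (h1 : redR h.inj (c.eval ⟨jAd K r, jAd_mem_LamR r⟩) = 0)
    (h2 : redR h.inj ((c.map (qExpL ι ρ r)).eval ⟨jA K, jA_mem_LamR⟩) = 0) :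
    c.map (redR h.inj) = 0 := by
  apply eq_zero_of_eval_eq_zero r _ (natDegree_map_le.trans hdeg)
  · rw [← redR_jAd h.inj, eval_map, eval₂_at_apply, h1]
  · rw [Polynomial.map_map, ← redR_comp_qExpL, ← Polynomial.map_map, ← redR_jA h.inj, eval_map,
      eval₂_at_apply, h2]

theorem IsBdd.exists_pow_mul_mem (h : RedSetup ι ρ ϖ) {x : LaurentSeries K} (hx : IsBdd ι x) :
    ∃ a : ℕ, (HahnSeries.C (ι ϖ) : LaurentSeries K) ^ a * x ∈ LamR ι ρ := by
  by_cases hx0 : x = 0
  · exact ⟨0, by rw [hx0, mul_zero]; exact zero_mem _⟩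
  obtain ⟨a, b, u, hu, -, -, hrel⟩ := hx.exists_unit h hx0
  exact ⟨a, by rw [hrel]; exact mul_mem (pow_mem C_unif_mem_LamR b) hu⟩

/-- **(BASIS)**, series level. -/
theorem coeff_mem_LamR_of_eval (h : RedSetup ι ρ ϖ) (c : (LaurentSeries K)[X])
    (hdeg : c.natDegree ≤ r) (hb : ∀ i, IsBdd ι (c.coeff i))
    (h1 : c.eval (jAd K r) ∈ LamR ι ρ) (h2 : (c.map (qExpand K r)).eval (jA K) ∈ LamR ι ρ) :
    ∀ i, c.coeff i ∈ LamR ι ρ := by
  classical
  set ϖK : LaurentSeries K := HahnSeries.C (ι ϖ) with hϖK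
  have hϖ0 : ϖK ≠ 0 := redSetup_C_unif_ne_zero h
  have hϖm : ϖK ∈ LamR ι ρ := C_unif_mem_LamR
  have hex : ∃ a : ℕ, ∀ i, ϖK ^ a * c.coeff i ∈ LamR ι ρ := by
    choose a ha using fun i => (hb i).exists_pow_mul_mem h
    refine ⟨∑ i ∈ Finset.range (r + 1), a i, fun i => ?_⟩
    by_cases hi : i ∈ Finset.range (r + 1)
    · obtain ⟨k, hk⟩ := Nat.exists_eq_add_of_le (Finset.single_le_sum (f := a)
        (fun _ _ => Nat.zero_le _) hi)
      rw [hk, pow_add, mul_comm (ϖK ^ a i), mul_assoc]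
      exact mul_mem (pow_mem hϖm k) (ha i)
    · rw [Finset.mem_range, not_lt] at hi
      rw [coeff_eq_zero_of_natDegree_lt (by omega), mul_zero]
      exact zero_mem _
  have hfind := Nat.find_spec hex
  rcases Nat.eq_zero_or_pos (Nat.find hex) with h0 | hpos
  · intro i
    have := hfind i
    rwa [h0, pow_zero, one_mul] at this
  exfalso
  obtain ⟨a', ha'⟩ : ∃ a', Nat.find hex = a' + 1 := ⟨Nat.find hex - 1, by omega⟩
  rw [ha'] at hfind
  set c' : (LaurentSeries K)[X] := C (ϖK ^ (a' + 1)) * c with hc'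
  have hsub : (↑c'.coeffs : Set (LaurentSeries K)) ⊆ (LamR ι ρ : Set (LaurentSeries K)) := by
    intro z hz
    obtain ⟨i, -, rfl⟩ := (mem_coeffs_iff.1 (Finset.mem_coe.1 hz))
    rw [hc', coeff_C_mul]
    exact hfind i
  set cL : (LamR ι ρ)[X] := c'.toSubring (LamR ι ρ) hsub with hcL
  have hmap : cL.map (LamR ι ρ).subtype = c' := map_toSubring c' (LamR ι ρ) hsub
  have hdegL : cL.natDegree ≤ r := by
    rw [hcL, natDegree_toSubring, hc']
    exact (natDegree_C_mul_le _ _).trans hdeg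
  have hu0 : redR h.inj ((unifL ι ρ ϖ) ^ (a' + 1)) = 0 := by
    rw [map_pow, redR_C_unif h, zero_pow (Nat.succ_ne_zero a')]
  have e1 : cL.eval ⟨jAd K r, jAd_mem_LamR r⟩ = (unifL ι ρ ϖ) ^ (a' + 1) * ⟨_, h1⟩ := by
    apply Subtype.ext
    have : ((cL.eval ⟨jAd K r, jAd_mem_LamR r⟩ : LamR ι ρ) : LaurentSeries K) =
        (cL.map (LamR ι ρ).subtype).eval (jAd K r) := by
      rw [eval_map]
      exact (eval₂_at_apply (LamR ι ρ).subtype (⟨jAd K r, jAd_mem_LamR r⟩ : LamR ι ρ)).symm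
    rw [this, hmap, hc', eval_mul, eval_C]
    rfl
  have e2 : (cL.map (qExpL ι ρ r)).eval ⟨jA K, jA_mem_LamR⟩ =
      (unifL ι ρ ϖ) ^ (a' + 1) * ⟨_, h2⟩ := by
    apply Subtype.ext
    have : (((cL.map (qExpL ι ρ r)).eval ⟨jA K, jA_mem_LamR⟩ : LamR ι ρ) : LaurentSeries K) =
        ((cL.map (qExpL ι ρ r)).map (LamR ι ρ).subtype).eval (jA K) := by
      rw [eval_map ((LamR ι ρ).subtype)]
      exact (eval₂_at_apply (LamR ι ρ).subtype (⟨jA K, jA_mem_LamR⟩ : LamR ι ρ)).symm
    have hcomp : ((LamR ι ρ).subtype).comp (qExpL ι ρ r) =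
        (qExpand K r).comp (LamR ι ρ).subtype := RingHom.ext fun _ => rfl
    rw [this, Polynomial.map_map, hcomp, ← Polynomial.map_map, hmap, hc', Polynomial.map_mul, map_C,
      eval_mul, eval_C, map_pow, hϖK, qExpand_C]
    rfl
  have hz := map_redR_eq_zero r h cL hdegL (by rw [e1, map_mul, hu0, zero_mul])
    (by rw [e2, map_mul, hu0, zero_mul])
  refine Nat.find_min hex (m := a') (by omega) fun i => ?_
  have h3 : redR h.inj (cL.coeff i) = 0 := by
    have := congrArg (fun p => p.coeff i) hz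
    simpa [coeff_map] using this
  obtain ⟨z, hz'⟩ := exists_eq_mul_of_redR_eq_zero h h3
  have h4 : ϖK ^ (a' + 1) * c.coeff i = ϖK * (z : LaurentSeries K) := by
    have := congrArg (Subtype.val) hz'
    rw [hcL, coeff_toSubring, hc', coeff_C_mul] at this
    exact this
  have h5 : ϖK ^ a' * c.coeff i = (z : LaurentSeries K) := by
    apply mul_left_cancel₀ hϖ0
    rw [← h4, pow_succ]
    ring
  rw [h5]
  exact z.2

end lam

end

end Fermat.Agent.UNIlib
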