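import Fermat.Agent.UNI.AL
import Fermat.Agent.UNI.TwoValCore

/-!
# T-UNI, modular side (T4): weak approximation for the two Gauss valuations `v_∞`, `v_0 = v_∞ ∘ w_r`

`e₀ = (j_r^r - j) / (j^(r^2) - j)` is `≡ 1` modulo `π` at `v_∞` and `≡ 0` modulo `π` at `v_0`.
-/

set_option autoImplicit false
set_option linter.unusedSectionVars false

open ModularCurve Polynomial

namespace Fermat.Agent.UNIlib

open Fermat.Agent.ESlib
open Fermat.Agent.S28lib (RedSetup jA jAd)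
open Fermat.Agent.S24lib (Dv)

noncomputable section

section general

variable {R K : Type} [CommRing R] [IsDomain R] [IsDiscreteValuationRing R] [Field K]
  [Algebra R K] [IsFractionRing R K] [Algebra ℚ K] {M : ℕ} [NeZero M]
  [Algebra R (FK K M)] [IsScalarTower R K (FK K M)]

/-- if `f = y₁ / y₂` with `y₁ ≡ 0`, `y₂ ≢ 0` mod `π` then `f / π` lies in the Gauss ring -/
theorem wa_div_mem_gaussSub {π : R} (hπ : Irreducible π) {f : FK K M} {y₁ y₂ : LaurentSeries R}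
    (hf : (f : LaurentSeries K) * coeffMap (algebraMap R K) y₂ = coeffMap (algebraMap R K) y₁)
    (hred : coeffMap (IsLocalRing.residue R) y₁ = 0)
    (hne : coeffMap (IsLocalRing.residue R) y₂ ≠ 0) :
    f / algebraMap R (FK K M) π ∈ gaussSub R K M := by
  have h := div_sub_one_mem_gaussSub (N := M) hπ (f := f + 1) (y₁ := y₁ + y₂) (y₂ := y₂)
    (by
      show ((f : LaurentSeries K) + 1) * _ = _
      rw [map_add, ← hf]; ring)
    (by rw [map_add, hred, zero_add]) hne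
  rwa [add_sub_cancel_right] at h

end general

section red

variable {κ : Type*} [Field κ]

theorem wa_pow_sub_ne_zero (d : ℕ) [NeZero d] {n : ℕ} (hn : 2 ≤ n) :
    (jAd κ d) ^ n - jAd κ d ≠ 0 := by
  intro h
  have h1 : (jAd κ d) ^ n = jAd κ d := sub_eq_zero.1 h
  have h2 := congrArg HahnSeries.order h1
  rw [HahnSeries.order_pow, order_jAd] at h2
  have hd : (0 : ℤ) < d := by exact_mod_cast Nat.pos_of_ne_zero (NeZero.ne d)
  have hn' : (2 : ℤ) ≤ n := by exact_mod_cast hn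
  rw [nsmul_eq_mul] at h2
  nlinarith

end red

section main

variable {R K : Type} [CommRing R] [IsDomain R] [IsDiscreteValuationRing R] [Field K]
  [Algebra R K] [IsFractionRing R K] [Algebra ℚ K] [Algebra K ℂ] [IsScalarTower ℚ K ℂ]
  {N r : ℕ} [NeZero (N * r)]
  [Algebra R (FK K (N * r))] [IsScalarTower R K (FK K (N * r))]

variable (K N) in
/-- the weak approximation element `e₀ = (j_r^r - j) / (j^(r^2) - j)` -/
def waE (r : ℕ) [NeZero (N * r)] : FK K (N * r) :=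
  (Jgen K (N * r) ⟨1 * r, Nat.mul_dvd_mul_right (one_dvd N) r⟩ ^ r -
      Jgen K (N * r) ⟨1, one_dvd _⟩) /
    (Jgen K (N * r) ⟨1, one_dvd _⟩ ^ (r ^ 2) - Jgen K (N * r) ⟨1, one_dvd _⟩)

theorem wa_sub_one_div_mem [CharP (IsLocalRing.ResidueField R) r] (hr : r.Prime) {π : R}
    (hπ : Irreducible π) :
    (waE K N r - 1) / algebraMap R (FK K (N * r)) π ∈ gaussSub R K (N * r) := by
  have : Fact r.Prime := ⟨hr⟩
  have : NeZero r := ⟨hr.ne_zero⟩
  have : NeZero (1 * r) := ⟨by rw [one_mul]; exact hr.ne_zero⟩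
  set κ := IsLocalRing.ResidueField R
  have hne : (jAd κ 1) ^ (r ^ 2) - jAd κ 1 ≠ 0 :=
    wa_pow_sub_ne_zero 1 (by nlinarith [hr.two_le])
  have hneK : (jAd K 1) ^ (r ^ 2) - jAd K 1 ≠ 0 :=
    wa_pow_sub_ne_zero 1 (by nlinarith [hr.two_le])
  refine div_sub_one_mem_gaussSub hπ (y₁ := jAd R (1 * r) ^ r - jAd R 1)
    (y₂ := jAd R 1 ^ (r ^ 2) - jAd R 1) ?_ ?_ ?_
  · simp only [map_sub, map_pow, S28lib.coeffMap_jAd]
    show ((((Jgen K (N * r) ⟨1 * r, _⟩ : FK K (N * r)) : LaurentSeries K) ^ r -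
      ((Jgen K (N * r) ⟨1, _⟩ : FK K (N * r)) : LaurentSeries K)) /
      (((Jgen K (N * r) ⟨1, _⟩ : FK K (N * r)) : LaurentSeries K) ^ (r ^ 2) -
      ((Jgen K (N * r) ⟨1, _⟩ : FK K (N * r)) : LaurentSeries K))) * _ = _
    rw [coe_Jgen_jAd, coe_Jgen_jAd]
    exact div_mul_cancel₀ _ hneK
  · simp only [map_sub, map_pow, S28lib.coeffMap_jAd]
    congr 1
    have h1 : jAd κ 1 = jA κ := qExpand_one_apply _
    have h2 : jAd κ (1 * r) = jAd κ r := by
      congr 1; simp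
    rw [h1, h2, ← jA_pow_char, ← pow_mul, sq]
  · simp only [map_sub, map_pow, S28lib.coeffMap_jAd]
    exact hne

theorem wr_waE (hr : r.Prime) (hrN : ¬ r ∣ N) :
    wr K hr hrN (waE K N r) =
      (Jgen K (N * r) ⟨1, one_dvd _⟩ ^ r -
        Jgen K (N * r) ⟨1 * r, Nat.mul_dvd_mul_right (one_dvd N) r⟩) /
      (Jgen K (N * r) ⟨1 * r, Nat.mul_dvd_mul_right (one_dvd N) r⟩ ^ (r ^ 2) -
        Jgen K (N * r) ⟨1 * r, Nat.mul_dvd_mul_right (one_dvd N) r⟩) := by
  have h1 := wr_Jgen_of_dvd K hr hrN (one_dvd N)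
  have h2 := wr_Jgen_mul_of_dvd K hr hrN (one_dvd N)
  rw [waE, map_div₀, map_sub, map_sub, map_pow, map_pow, h1, h2]

theorem wa_wr_div_mem [CharP (IsLocalRing.ResidueField R) r] (hr : r.Prime) (hrN : ¬ r ∣ N)
    {π : R} (hπ : Irreducible π) :
    wr K hr hrN (waE K N r) / algebraMap R (FK K (N * r)) π ∈ gaussSub R K (N * r) := by
  have : Fact r.Prime := ⟨hr⟩
  have : NeZero r := ⟨hr.ne_zero⟩
  have : NeZero (1 * r) := ⟨by rw [one_mul]; exact hr.ne_zero⟩
  set κ := IsLocalRing.ResidueField R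
  have hne : (jAd κ (1 * r)) ^ (r ^ 2) - jAd κ (1 * r) ≠ 0 :=
    wa_pow_sub_ne_zero (1 * r) (by nlinarith [hr.two_le])
  have hneK : (jAd K (1 * r)) ^ (r ^ 2) - jAd K (1 * r) ≠ 0 :=
    wa_pow_sub_ne_zero (1 * r) (by nlinarith [hr.two_le])
  rw [wr_waE]
  refine wa_div_mem_gaussSub hπ (y₁ := jAd R 1 ^ r - jAd R (1 * r))
    (y₂ := jAd R (1 * r) ^ (r ^ 2) - jAd R (1 * r)) ?_ ?_ ?_
  · simp only [map_sub, map_pow, S28lib.coeffMap_jAd]
    show ((((Jgen K (N * r) ⟨1, _⟩ : FK K (N * r)) : LaurentSeries K) ^ r -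
      ((Jgen K (N * r) ⟨1 * r, _⟩ : FK K (N * r)) : LaurentSeries K)) /
      (((Jgen K (N * r) ⟨1 * r, _⟩ : FK K (N * r)) : LaurentSeries K) ^ (r ^ 2) -
      ((Jgen K (N * r) ⟨1 * r, _⟩ : FK K (N * r)) : LaurentSeries K))) * _ = _
    rw [coe_Jgen_jAd, coe_Jgen_jAd]
    exact div_mul_cancel₀ _ hneK
  · simp only [map_sub, map_pow, S28lib.coeffMap_jAd]
    have h1 : jAd κ 1 = jA κ := qExpand_one_apply _
    have h2 : jAd κ (1 * r) = jAd κ r := by
      congr 1; simp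
    rw [h1, h2, jA_pow_char, sub_self]
  · simp only [map_sub, map_pow, S28lib.coeffMap_jAd]
    exact hne

/-- **(T4)** weak approximation, in the shape of `exists_normalise_FK` -/
theorem exists_weakApprox [CharP (IsLocalRing.ResidueField R) r] (hr : r.Prime) (hrN : ¬ r ∣ N)
    {π : R} (hπ : Irreducible π) :
    ∃ e₀ : FK K (N * r), (e₀ - 1) / algebraMap R (FK K (N * r)) π ∈ gaussSub R K (N * r) ∧
      wr K hr hrN e₀ / algebraMap R (FK K (N * r)) π ∈ gaussSub R K (N * r) :=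
  ⟨waE K N r, wa_sub_one_div_mem hr hπ, wa_wr_div_mem hr hrN hπ⟩

end main

end

end Fermat.Agent.UNIlib
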