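import Fermat.Agent.UNI.TwoVal
import Fermat.Agent.UNI.WeakApprox
import Fermat.Agent.UNI.GaussInt
import Fermat.Agent.UNI.HauptInt
import Fermat.Agent.ES.C.AK12

/-!
# T-UNI, modular side (T2), (T3): the residue field of `v_∞` on `F_K(N r)` is that of `F_K(N)`, and
the `π`-integral elements of `F_K(N r)` are `V_∞ ∩ V_0`.
-/

set_option autoImplicit false
set_option linter.unusedSectionVars false
set_option linter.style.haveILetI false

open ModularCurve Polynomial

namespace Fermat.Agent.UNIlib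

open Fermat.Agent.ESlib
open Fermat.Agent.S28lib (RedSetup JIndep evY jA jAd)
open Fermat.Agent.S24lib (Dv)

noncomputable section

section pd

variable {F : Type*} [Field F] (G : Subring F) (ϖ : F)

theorem tv_pd_add {x y : F} (hx : x / ϖ ∈ G) (hy : y / ϖ ∈ G) : (x + y) / ϖ ∈ G := by
  rw [add_div]; exact add_mem hx hy

theorem tv_pd_sub {x y : F} (hx : x / ϖ ∈ G) (hy : y / ϖ ∈ G) : (x - y) / ϖ ∈ G := by
  rw [sub_div]; exact sub_mem hx hy

theorem tv_pd_mul {x g : F} (hx : x / ϖ ∈ G) (hg : g ∈ G) : (g * x) / ϖ ∈ G := by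
  rw [mul_div_assoc]; exact mul_mem hg hx

theorem tv_pd_sum {ι : Type*} (s : Finset ι) (f : ι → F) (h : ∀ i ∈ s, f i / ϖ ∈ G) :
    (∑ i ∈ s, f i) / ϖ ∈ G := by
  rw [Finset.sum_div]; exact sum_mem h

theorem tv_pd_pow_sub_pow {a b : F} (ha : a ∈ G) (hb : b ∈ G) (h : (a - b) / ϖ ∈ G) (n : ℕ) :
    (a ^ n - b ^ n) / ϖ ∈ G := by
  induction n with
  | zero => simp
  | succ n ih =>
    have : a ^ (n + 1) - b ^ (n + 1) = a ^ n * (a - b) + b * (a ^ n - b ^ n) := by ring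
    rw [this]
    exact tv_pd_add G ϖ (tv_pd_mul G ϖ h (pow_mem ha n)) (tv_pd_mul G ϖ ih hb)

end pd

section main

variable {R K : Type} [CommRing R] [IsDomain R] [IsDiscreteValuationRing R] [Field K]
  [Algebra R K] [IsFractionRing R K] [Algebra ℚ K] [CharZero K] [Algebra K ℂ] [IsScalarTower ℚ K ℂ]
  {N r : ℕ} [NeZero N] [NeZero r] [NeZero (N * r)]
  [Algebra R (FK K N)] [IsScalarTower R K (FK K N)]
  [Algebra R (FK K (N * r))] [IsScalarTower R K (FK K (N * r))]

theorem tv_incl_mem {y : FK K N} (hy : y ∈ gaussSub R K N) :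
    inclF K (dvd_mul_right N r) y ∈ gaussSub R K (N * r) := by
  rw [mem_gaussSub_iff, coe_inclF]; exact hy

theorem tv_wr_incl_mem (hr : r.Prime) (hrN : ¬ r ∣ N) {y : FK K N} (hy : y ∈ gaussSub R K N) :
    wr K hr hrN (inclF K (dvd_mul_right N r) y) ∈ gaussSub R K (N * r) := by
  rw [mem_gaussSub_iff, coe_wr_inclF]; exact qExpand_mem_LamR r hy

theorem tv_unif_mem (M : ℕ) [NeZero M] [Algebra R (FK K M)] [IsScalarTower R K (FK K M)] (c : R) :
    algebraMap R (FK K M) c ∈ gaussSub R K M :=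
  mem_gaussSub_of_eq_coeffMap (HahnSeries.C c) (by rw [coe_algebraMap_R, coeffMap_C'])

theorem tv_unif_ne_zero (M : ℕ) [NeZero M] [Algebra R (FK K M)] [IsScalarTower R K (FK K M)]
    {π : R} (hπ : Irreducible π) : algebraMap R (FK K M) π ≠ 0 := by
  rw [IsScalarTower.algebraMap_apply R K (FK K M)]
  simpa using hπ.ne_zero

theorem tv_incl_J1 : inclF K (dvd_mul_right N r) (J1 K N) = J1 K (N * r) :=
  Subtype.ext (by rw [coe_inclF, coe_J1_jA, coe_J1_jA])

variable [CharP (IsLocalRing.ResidueField R) r]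

/-- `j_r ≡ j ^ r` modulo `π V_∞` -/
theorem tv_jr_sub (hr : r.Prime) {π : R} (hπ : Irreducible π) :
    (jr K N r - J1 K (N * r) ^ r) / algebraMap R (FK K (N * r)) π ∈ gaussSub R K (N * r) := by
  haveI : Fact r.Prime := ⟨hr⟩
  refine wa_div_mem_gaussSub hπ (y₁ := jAd R r - jA R ^ r) (y₂ := 1) ?_ ?_ ?_
  · rw [map_one, mul_one, map_sub, map_pow, S28lib.coeffMap_jAd, S28lib.coeffMap_jA,
      ← coe_Jgen_jAd K (N * r) ⟨r, dvd_mul_left r N⟩, ← coe_J1_jA K (N * r)]
    rfl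
  · rw [map_sub, map_pow, S28lib.coeffMap_jAd, S28lib.coeffMap_jA, jA_pow_char, sub_self]
  · rw [map_one]; exact one_ne_zero

/-- **(T3)** -/
theorem tv_t3 (hr : r.Prime) (hrN : ¬ r ∣ N) (hN : (N : IsLocalRing.ResidueField R) ≠ 0)
    {π : R} (hπ : Irreducible π) (x : FK K (N * r)) (hx : x ∈ gaussSub R K (N * r)) :
    ∃ x' : FK K N, x' ∈ gaussSub R K N ∧
      (x - inclF K (dvd_mul_right N r) x') / algebraMap R (FK K (N * r)) π ∈
        gaussSub R K (N * r) := by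
  classical
  set G := gaussSub R K (N * r) with hG
  set ϖ := algebraMap R (FK K (N * r)) π with hϖ
  have hϖ0 : ϖ ≠ 0 := tv_unif_ne_zero (N * r) hπ
  have hϖG : ϖ ∈ G := tv_unif_mem (N * r) π
  have hS := redSetup_of_dvr (K := K) hπ
  -- the weak approximation element
  set e₀ := waE K N r with he₀
  have h1 : (e₀ - 1) / ϖ ∈ G := wa_sub_one_div_mem hr hπ
  have h2 : wr K hr hrN e₀ / ϖ ∈ G := wa_wr_div_mem hr hrN hπ
  have he₀G : e₀ ∈ G := by
    have : e₀ = 1 + ϖ * ((e₀ - 1) / ϖ) := by field_simp; ring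
    rw [this]
    exact add_mem (one_mem _) (mul_mem hϖG h1)
  obtain ⟨k, hk⟩ := (isBdd_of_mem_FK (R := R) (wr K hr hrN x).2).exists_pow_mul_mem hS
  have hk' : ϖ ^ k * wr K hr hrN x ∈ G := by
    rw [hG, mem_gaussSub_iff]
    convert hk using 1
    show (ϖ : LaurentSeries K) ^ k * _ = _
    rw [hϖ, coe_algebraMap_R]
  set z := e₀ ^ k * x with hz
  have hzG : z ∈ G := mul_mem (pow_mem he₀G k) hx
  have hzw : wr K hr hrN z ∈ G := by
    have : wr K hr hrN z = (wr K hr hrN e₀ / ϖ) ^ k * (ϖ ^ k * wr K hr hrN x) := by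
      rw [hz, map_mul, map_pow, div_pow]
      field_simp
    rw [this]
    exact mul_mem (pow_mem h2 k) hk'
  have hzx : (z - x) / ϖ ∈ G := by
    have : z - x = x * (e₀ ^ k - 1 ^ k) := by rw [hz, one_pow]; ring
    rw [this]
    exact tv_pd_mul G ϖ (tv_pd_pow_sub_pow G ϖ he₀G (one_mem _) h1 k) hx
  obtain ⟨c, hc, hzc⟩ := exists_gauss_coeffs hr hrN hN z hzG hzw
  refine ⟨∑ i, c i * (J1 K N ^ r) ^ (i : ℕ), sum_mem fun i _ =>
    mul_mem (hc i) (pow_mem (pow_mem (Jgen_mem_gaussSub _) r) _), ?_⟩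
  have h3 : x - inclF K (dvd_mul_right N r) (∑ i, c i * (J1 K N ^ r) ^ (i : ℕ)) =
      (z - inclF K (dvd_mul_right N r) (∑ i, c i * (J1 K N ^ r) ^ (i : ℕ))) - (z - x) := by ring
  rw [h3]
  refine tv_pd_sub G ϖ ?_ hzx
  have h4 : z - inclF K (dvd_mul_right N r) (∑ i, c i * (J1 K N ^ r) ^ (i : ℕ)) =
      ∑ i, (inclF K (dvd_mul_right N r) (c i) * Jgen K (N * r) ⟨r, dvd_mul_left r N⟩ ^ (i : ℕ) -
        inclF K (dvd_mul_right N r) (c i * (J1 K N ^ r) ^ (i : ℕ))) := by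
    rw [Finset.sum_sub_distrib, ← hzc, map_sum]
  rw [h4]
  refine tv_pd_sum G ϖ _ _ fun i _ => ?_
  rw [map_mul, map_pow, map_pow, tv_incl_J1, ← mul_sub]
  exact tv_pd_mul G ϖ (tv_pd_pow_sub_pow G ϖ (Jgen_mem_gaussSub _)
    (pow_mem (Jgen_mem_gaussSub _) r) (tv_jr_sub hr hπ) _) (tv_incl_mem (hc i))

section t2

variable (a : ℕ) [NeZero a] (ha : a = 2 ∨ a = 3) (haN : a ∣ N)

omit [CharP (IsLocalRing.ResidueField R) r] in
theorem tv_incl_aeval_tF (P : R[X]) :
    inclF K (dvd_mul_right N r) (aeval (tF K N a ha haN) P) =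
      aeval (tF K (N * r) a ha (haN.mul_right r)) P :=
  Subtype.ext (by rw [coe_inclF, coe_aeval_tF, coe_aeval_tF])

omit [CharP (IsLocalRing.ResidueField R) r] in
theorem tv_incl_tF :
    inclF K (dvd_mul_right N r) (tF K N a ha haN) = tF K (N * r) a ha (haN.mul_right r) :=
  Subtype.ext (coe_inclF K (dvd_mul_right N r) (tF K N a ha haN))

omit [CharP (IsLocalRing.ResidueField R) r] in
theorem tv_aeval_tF_ne_zero (M : ℕ) [NeZero M] [Algebra R (FK K M)] [IsScalarTower R K (FK K M)]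
    (haM : a ∣ M) {P : R[X]} (hP : P ≠ 0) : aeval (tF K M a ha haM) P ≠ 0 := by
  intro h0
  rw [← aeval_map_algebraMap K] at h0
  have h1 := (transcendental_iff.1 (transcendental_tF K M a ha haM)) _ h0
  exact hP (Polynomial.map_injective _ (IsFractionRing.injective R K)
    (by rw [h1, Polynomial.map_zero]))

omit [CharP (IsLocalRing.ResidueField R) r] in
/-- **(T2)**, `⇒` -/
theorem two_of_piInt (hr : r.Prime) (hrN : ¬ r ∣ N) (haR : IsUnit (a : R)) {π : R}
    (hπ : Irreducible π) {x : FK K (N * r)}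
    (hx : PiInt π (tF K (N * r) a ha (haN.mul_right r)) x) :
    x ∈ gaussSub R K (N * r) ∧ wr K hr hrN x ∈ gaussSub R K (N * r) := by
  refine ⟨mem_gaussSub_of_piInt (N * r) a ha _ hπ hx, ?_⟩
  obtain ⟨P, hP, hPx⟩ := hx
  set T := tF K (N * r) a ha (haN.mul_right r) with hT
  have hP0 : P ≠ 0 := by
    rintro rfl
    exact hP (dvd_zero _)
  have h0 : aeval T P ≠ 0 := tv_aeval_tF_ne_zero a ha (N * r) _ hP0
  have h1 : wr K hr hrN (aeval T P * x) ∈ gaussSub R K (N * r) :=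
    mem_gaussSub_of_isIntegral (N * r) (tF_mem_gaussSub (N * r) a ha (haN.mul_right r))
      ((isIntegral_wr_iff K R hr hrN a ha haN haR _).1.2 hPx)
  have h2 : wr K hr hrN (aeval T P)⁻¹ ∈ gaussSub R K (N * r) := by
    rw [hT, ← tv_incl_aeval_tF a ha haN P, ← map_inv₀]
    exact tv_wr_incl_mem hr hrN (inv_aeval_tF_mem_gaussSub N a ha haN hπ hP)
  have h3 := mul_mem h2 h1
  rwa [← map_mul, inv_mul_cancel_left₀ h0] at h3

omit [CharP (IsLocalRing.ResidueField R) r] in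
theorem two_of_piInt_inv (hr : r.Prime) (hrN : ¬ r ∣ N) (haR : IsUnit (a : R)) {π : R}
    (hπ : Irreducible π) {x : FK K (N * r)}
    (hx : PiInt π (tF K (N * r) a ha (haN.mul_right r))⁻¹ x) :
    x ∈ gaussSub R K (N * r) ∧ wr K hr hrN x ∈ gaussSub R K (N * r) :=
  two_of_piInt a ha haN hr hrN haR hπ
    ((piInt_inv_iff hπ.prime (transcendental_tF K (N * r) a ha (haN.mul_right r))).1 hx)

omit [CharP (IsLocalRing.ResidueField R) r] in
/-- the Gauss ring of the good level is `π`-integral, also at level `N r` -/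
theorem tv_piInt_incl (hN : (N : IsLocalRing.ResidueField R) ≠ 0) {π : R} (hπ : Irreducible π)
    {y : FK K N} (hy : y ∈ gaussSub R K N) :
    PiInt π (tF K (N * r) a ha (haN.mul_right r)) (inclF K (dvd_mul_right N r) y) := by
  obtain ⟨A, e, hA, he, hrel⟩ := exists_tF_rel K N R a ha haN
  obtain ⟨P, hP, hint⟩ := piInt_haupt hN (redSetup_of_dvr (K := K) hπ).red_unif
    (tF_ne_zero K N a ha haN) hA he hrel hy
  refine ⟨P, hP, ?_⟩
  have h := ak12_isIntegral_adjoin_singleton_map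
    ((inclF K (dvd_mul_right N r)).restrictScalars R) hint
  rw [AlgHom.restrictScalars_apply, AlgHom.restrictScalars_apply, tv_incl_tF, map_mul,
    tv_incl_aeval_tF] at h
  exact h

/-- `j_r` is `π`-integral -/
theorem tv_piInt_jr (hr : r.Prime) (hrN : ¬ r ∣ N) (hN : (N : IsLocalRing.ResidueField R) ≠ 0)
    {π : R} (hπ : Irreducible π) :
    PiInt π (tF K (N * r) a ha (haN.mul_right r)) (jr K N r) := by
  classical
  obtain ⟨c, hc, hrel⟩ := exists_gauss_coeffs (R := R) hr hrN hN (jr K N r ^ (r + 1))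
    (pow_mem (Jgen_mem_gaussSub _) _)
    (by rw [map_pow, wr_jr]; exact pow_mem (Jgen_mem_gaussSub _) _)
  set q : (FK K (N * r))[X] :=
    ∑ i : Fin (r + 1), C (inclF K (dvd_mul_right N r) (c i)) * X ^ (i : ℕ) with hq
  have hdeg : q.degree < ((r + 1 : ℕ) : WithBot ℕ) :=
    degree_sum_fin_lt (fun i : Fin (r + 1) => inclF K (dvd_mul_right N r) (c i))
  refine PiInt.of_monic hπ.prime (X ^ (r + 1) - q) (monic_X_pow_sub hdeg) (fun k => ?_) ?_
  · rw [coeff_sub, coeff_X_pow, hq, finsetSum_coeff]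
    refine PiInt.sub hπ.prime ?_ (ak12_piInt_sum hπ.prime _ _ fun i _ => ?_)
    · split_ifs
      · exact PiInt.of_isIntegral hπ.prime isIntegral_one
      · exact PiInt.of_isIntegral hπ.prime isIntegral_zero
    · rw [coeff_C_mul_X_pow]
      split_ifs
      · exact tv_piInt_incl a ha haN hN hπ (hc i)
      · exact PiInt.of_isIntegral hπ.prime isIntegral_zero
  · rw [eval_sub, eval_pow, eval_X, hq, eval_finsetSum, hrel, sub_eq_zero]
    refine Finset.sum_congr rfl fun i _ => ?_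
    rw [eval_mul, eval_C, eval_pow, eval_X]

/-- **(T2)**, `⇐` -/
theorem piInt_of_two (hr : r.Prime) (hrN : ¬ r ∣ N) (hN : (N : IsLocalRing.ResidueField R) ≠ 0)
    {π : R} (hπ : Irreducible π) {x : FK K (N * r)} (h1 : x ∈ gaussSub R K (N * r))
    (h2 : wr K hr hrN x ∈ gaussSub R K (N * r)) :
    PiInt π (tF K (N * r) a ha (haN.mul_right r)) x := by
  obtain ⟨c, hc, rfl⟩ := exists_gauss_coeffs hr hrN hN x h1 h2
  exact ak12_piInt_sum hπ.prime _ _ fun i _ =>
    (tv_piInt_incl a ha haN hN hπ (hc i)).mul hπ.prime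
      ((tv_piInt_jr a ha haN hr hrN hN hπ).pow hπ.prime _)

/-- **(T2)** for the chart `t` -/
theorem tv_piInt_iff (hr : r.Prime) (hrN : ¬ r ∣ N) (hN : (N : IsLocalRing.ResidueField R) ≠ 0)
    (haR : IsUnit (a : R)) {π : R} (hπ : Irreducible π) (x : FK K (N * r)) :
    PiInt π (tF K (N * r) a ha (haN.mul_right r)) x ↔
      x ∈ gaussVal R K (N * r) ∧
        x ∈ (gaussVal R K (N * r)).comap (wr K hr hrN : FK K (N * r) →+* FK K (N * r)) :=
  ⟨fun h => two_of_piInt a ha haN hr hrN haR hπ h,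
    fun h => piInt_of_two a ha haN hr hrN hN hπ h.1 h.2⟩

/-- **(T2)** for the chart `t⁻¹` -/
theorem tv_piInt_inv_iff (hr : r.Prime) (hrN : ¬ r ∣ N)
    (hN : (N : IsLocalRing.ResidueField R) ≠ 0)
    (haR : IsUnit (a : R)) {π : R} (hπ : Irreducible π) (x : FK K (N * r)) :
    PiInt π (tF K (N * r) a ha (haN.mul_right r))⁻¹ x ↔
      x ∈ gaussVal R K (N * r) ∧
        x ∈ (gaussVal R K (N * r)).comap (wr K hr hrN : FK K (N * r) →+* FK K (N * r)) := by
  rw [piInt_inv_iff hπ.prime (transcendental_tF K (N * r) a ha (haN.mul_right r))]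
  exact tv_piInt_iff a ha haN hr hrN hN haR hπ x

end t2

end main

end

end Fermat.Agent.UNIlib
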