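import Fermat.Agent.UNI.MordA
import Fermat.Agent.UNI.AL
import Fermat.Agent.ES.M.Base

/-!
# T-UNI, row MOD4: `MDiv K m g` over a field `K` which is not algebraically closed

`K ⊆ L`, `L` algebraically closed and algebraic over `K` (`K` a number field, `L = ℚ̄`).
Every place of `F_K(N)` over `K` extends to a place of `F_L(N)` with ramification index one; hence
`m ∣ ord_P g` for all the places `P` of `F_L(N)` implies `m ∣ ord_v g` for all the places `v` of
`F_K(N)`.
-/

set_option autoImplicit false
set_option linter.unusedSectionVars false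
set_option linter.style.haveILetI false

open AlgebraicCurve ModularCurve IntermediateField

namespace Fermat.Agent.UNIlib

open Fermat.Agent.S24RH Fermat.Agent.S24lib Fermat.Agent.ESlib

theorem isFF_FKK (K : Type) [Field K] [CharZero K] [Algebra ℚ K] (N : ℕ) [NeZero N] :
    IsFF K (FK K N) :=
  ⟨J1 K N, transcendental_J1K K N, (finrank_J1K_le K N).1⟩

variable (K L : Type) [Field K] [Field L] [CharZero K] [Algebra ℚ K] [Algebra ℚ L] [Algebra K L]
  [IsScalarTower ℚ K L] (N : ℕ) [NeZero N]

theorem bc_JgenK (d : Dv N) :
    bc K L (modularFunctionFieldFull N) (Jgen K N d) = Jgen L N d := by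
  have : CharZero L := charZero_of_injective_algebraMap (algebraMap K L).injective
  apply Subtype.ext
  rw [coe_bc, coe_Jgen_jAd, coe_Jgen_jAd]
  exact S28lib.coeffMap_jAd (algebraMap K L) d.1

/-- **MOD4a.** extension of places with ramification index one -/
theorem exists_place_bc [IsAlgClosed L] [Algebra.IsAlgebraic K L] (v : Place K (FK K N)) :
    ∃ P : Place L (FK L N), ∀ f : FK K N,
      P.ord (bc K L (modularFunctionFieldFull N) f) = v.ord f := by
  have : CharZero L := charZero_of_injective_algebraMap (algebraMap K L).injective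
  letI : Algebra (FK K N) (FK L N) := (bc K L (modularFunctionFieldFull N)).toAlgebra
  letI : Algebra K (FK L N) := ((algebraMap L (FK L N)).comp (algebraMap K L)).toAlgebra
  haveI : IsScalarTower K (FK K N) (FK L N) := IsScalarTower.of_algebraMap_eq fun a =>
    (bc_algebraMap K L (modularFunctionFieldFull N) a).symm
  haveI : IsScalarTower K L (FK L N) := IsScalarTower.of_algebraMap_eq fun _ => rfl
  refine exists_place_above_unramified (isFF_FKK K N) (isFF_FKK L N) ?_ v
  rw [eq_top_iff, ← adjoin_range_JgenK L N]
  apply IntermediateField.adjoin.mono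
  rintro _ ⟨d, rfl⟩
  exact ⟨Jgen K N d, bc_JgenK K L N d⟩

/-- **MOD4.** -/
theorem mDiv_of_mDiv_bc [IsAlgClosed L] [Algebra.IsAlgebraic K L] {m : ℕ} {g : FK K N}
    (h : MDiv L m (bc K L (modularFunctionFieldFull N) g)) : MDiv K m g := by
  refine ⟨fun h0 => h.1 (by rw [h0, map_zero]), fun v => ?_⟩
  obtain ⟨P, hP⟩ := exists_place_bc K L N v
  rw [← hP]
  exact h.2 P

end Fermat.Agent.UNIlib
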