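import Fermat.Agent.UNI.AL
import Fermat.Prelude.Thm_ModularCurve_coeffMap_qExpand

/-!
# T-UNI: more API for the Atkin-Lehner involution `w_r`

* `inclF K h : F_K(N) → F_K(M)` for `N ∣ M`;
* `coe_wr_inclF` : on the old level `N` the involution `w_r` is `B_r : f(q) ↦ f(q^r)`;
* `wr_bc`, `wr_arithmeticRingAut` : `w_r` commutes with base change and with the Galois action.
-/

set_option autoImplicit false
set_option linter.unusedSectionVars false

open ModularCurve Fermat.Agent.S24lib Fermat.Agent.ESlib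

namespace Fermat.Agent.UNIlib

section incl

variable (K : Type) [Field K] [Algebra ℚ K]

theorem FK_le {N M : ℕ} [NeZero N] [NeZero M] (h : N ∣ M) :
    laurentBaseChange K (modularFunctionFieldFull N) ≤
      laurentBaseChange K (modularFunctionFieldFull M) := by
  have h1 : modularFunctionFieldFull N ≤ modularFunctionFieldFull M := full_degeneracy_le h
  exact IntermediateField.adjoin.mono _ _ _ (Set.image_mono h1)

/-- the inclusion `F_K(N) ⊆ F_K(M)` for `N ∣ M` -/
noncomputable def inclF {N M : ℕ} [NeZero N] [NeZero M] (h : N ∣ M) : FK K N →ₐ[K] FK K M :=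
  IntermediateField.inclusion (FK_le K h)

@[simp]
theorem coe_inclF {N M : ℕ} [NeZero N] [NeZero M] (h : N ∣ M) (x : FK K N) :
    ((inclF K h x : FK K M) : LaurentSeries K) = (x : LaurentSeries K) :=
  IntermediateField.coe_inclusion _ x

theorem inclF_injective {N M : ℕ} [NeZero N] [NeZero M] (h : N ∣ M) :
    Function.Injective (inclF K h) := (inclF K h).toRingHom.injective

theorem inclF_Jgen {N M : ℕ} [NeZero N] [NeZero M] (h : N ∣ M) (d : Dv N) :
    inclF K h (ESlib.Jgen K N d) = ESlib.Jgen K M ⟨d.1, d.2.trans h⟩ := rfl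

theorem coeffEmb_qExpand (n : ℕ) [NeZero n] (x : LaurentSeries ℚ) :
    coeffEmb K (qExpand ℚ n x) = qExpand K n (coeffEmb K x) :=
  coeffMap_qExpand _ n x

theorem qExpand_algebraMap (n : ℕ) [NeZero n] (a : K) :
    qExpand K n (algebraMap K (LaurentSeries K) a) = algebraMap K (LaurentSeries K) a := by
  rw [algebraMap_laurentSeries_eq_single, qExpand_single, mul_zero]

end incl

section wr

variable (K : Type) [Field K] [Algebra ℚ K] [Algebra K ℂ] [IsScalarTower ℚ K ℂ]
variable {N r : ℕ} [NeZero N] [NeZero r] [NeZero (N * r)]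

/-- **`w_r` is `B_r` on the old level**: the `q`-expansion of `w_r f`, `f ∈ F_K(N)`, is
`f(q^r)`. -/
theorem coe_wr_inclF (hr : r.Prime) (hrN : ¬ r ∣ N) (x : FK K N) :
    ((wr K hr hrN (inclF K (dvd_mul_right N r) x) : FK K (N * r)) : LaurentSeries K) =
      qExpand K r (x : LaurentSeries K) := by
  have h : ((laurentBaseChange K (modularFunctionFieldFull (N * r))).val.toRingHom.comp
      (wr K hr hrN).toAlgHom.toRingHom).comp (inclF K (dvd_mul_right N r)).toRingHom =
      (qExpand K r).comp (laurentBaseChange K (modularFunctionFieldFull N)).val.toRingHom := by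
    apply ringHom_ext_JgenK
    · intro a
      show ((wr K hr hrN (inclF K (dvd_mul_right N r) (algebraMap K _ a)) : FK K (N * r)) :
        LaurentSeries K) = qExpand K r (algebraMap K (LaurentSeries K) a)
      rw [AlgHom.commutes, AlgEquiv.commutes, qExpand_algebraMap]
      rfl
    · intro d
      show ((wr K hr hrN (inclF K (dvd_mul_right N r) (ESlib.Jgen K N d)) : FK K (N * r)) :
        LaurentSeries K) = qExpand K r (coeffEmb K (qExpand ℚ d.1 jq))
      rw [inclF_Jgen, wr_Jgen_of_dvd K hr hrN d.2, ← coeffEmb_qExpand, qExpand_qExpand]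
      show coeffEmb K (qExpand ℚ (d.1 * r) jq) = _
      congr 1
      exact qExpand_congr (mul_comm _ _) _
  exact DFunLike.congr_fun h x

/-- `f(q^r) ∈ F_K(N r)` for `f ∈ F_K(N)` -/
theorem qExpand_mem_FK (hr : r.Prime) (hrN : ¬ r ∣ N) (x : FK K N) :
    qExpand K r (x : LaurentSeries K) ∈ laurentBaseChange K (modularFunctionFieldFull (N * r)) := by
  rw [← coe_wr_inclF K hr hrN x]
  exact Subtype.property _

/-- the degeneracy map `B_r : F_K(N) → F_K(N r)`, `f(q) ↦ f(q^r)` -/
noncomputable def Br (hr : r.Prime) (hrN : ¬ r ∣ N) : FK K N →ₐ[K] FK K (N * r) :=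
  (wr K hr hrN).toAlgHom.comp (inclF K (dvd_mul_right N r))

theorem Br_apply (hr : r.Prime) (hrN : ¬ r ∣ N) (x : FK K N) :
    Br K hr hrN x = wr K hr hrN (inclF K (dvd_mul_right N r) x) := rfl

@[simp]
theorem coe_Br (hr : r.Prime) (hrN : ¬ r ∣ N) (x : FK K N) :
    ((Br K hr hrN x : FK K (N * r)) : LaurentSeries K) = qExpand K r (x : LaurentSeries K) :=
  coe_wr_inclF K hr hrN x

theorem wr_Br (hr : r.Prime) (hrN : ¬ r ∣ N) (x : FK K N) :
    wr K hr hrN (Br K hr hrN x) = inclF K (dvd_mul_right N r) x := by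
  rw [Br_apply, wr_wr]

/-- version for elements given by their `q`-expansions -/
theorem wr_mk_of_mem (hr : r.Prime) (hrN : ¬ r ∣ N) {x : LaurentSeries K}
    (hx : x ∈ laurentBaseChange K (modularFunctionFieldFull N))
    (hx' : x ∈ laurentBaseChange K (modularFunctionFieldFull (N * r)))
    (hx'' : qExpand K r x ∈ laurentBaseChange K (modularFunctionFieldFull (N * r))) :
    wr K hr hrN ⟨x, hx'⟩ = ⟨qExpand K r x, hx''⟩ :=
  Subtype.ext (coe_wr_inclF K hr hrN ⟨x, hx⟩)

theorem wr_mk_qExpand_of_mem (hr : r.Prime) (hrN : ¬ r ∣ N) {x : LaurentSeries K}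
    (hx : x ∈ laurentBaseChange K (modularFunctionFieldFull N))
    (hx' : x ∈ laurentBaseChange K (modularFunctionFieldFull (N * r)))
    (hx'' : qExpand K r x ∈ laurentBaseChange K (modularFunctionFieldFull (N * r))) :
    wr K hr hrN ⟨qExpand K r x, hx''⟩ = ⟨x, hx'⟩ := by
  rw [← wr_mk_of_mem K hr hrN hx hx' hx'', wr_wr]

end wr

section functoriality

variable (K : Type) [Field K] [Algebra ℚ K] [Algebra K ℂ] [IsScalarTower ℚ K ℂ]
variable (K' : Type) [Field K'] [Algebra ℚ K'] [Algebra K' ℂ] [IsScalarTower ℚ K' ℂ]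
variable {N r : ℕ} [NeZero (N * r)]

theorem bc_Jgen [Algebra K K'] [IsScalarTower ℚ K K'] (M : ℕ) [NeZero M] (d : Dv M) :
    bc K K' (modularFunctionFieldFull M) (ESlib.Jgen K M d) = ESlib.Jgen K' M d :=
  Subtype.ext (coeffMap_coeffEmb_algebraMap K K' _)

/-- `w_r` commutes with base change -/
theorem bc_wr [Algebra K K'] [IsScalarTower ℚ K K'] (hr : r.Prime) (hrN : ¬ r ∣ N)
    (x : FK K (N * r)) :
    bc K K' (modularFunctionFieldFull (N * r)) (wr K hr hrN x) =
      wr K' hr hrN (bc K K' (modularFunctionFieldFull (N * r)) x) :=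
  map_wr K K' hr hrN (bc K K' _) (algebraMap K K') (bc_algebraMap K K' _) (bc_Jgen K K' _) x

theorem arithmeticRingAut_Jgen (M : ℕ) [NeZero M] (σ : K ≃ₐ[ℚ] K) (d : Dv M) :
    arithmeticRingAut (modularFunctionFieldFull M) σ (ESlib.Jgen K M d) = ESlib.Jgen K M d := by
  apply Subtype.ext
  show coeffMap (σ : K →+* K) (coeffEmb K _) = coeffEmb K _
  rw [coeffEmb, coeffMap_coeffMap]
  exact coeffMap_congr (RingHom.ext fun a => σ.commutes a) _

/-- `w_r` commutes with the (coefficientwise) Galois action -/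
theorem arithmeticRingAut_wr (hr : r.Prime) (hrN : ¬ r ∣ N) (σ : K ≃ₐ[ℚ] K) (x : FK K (N * r)) :
    arithmeticRingAut (modularFunctionFieldFull (N * r)) σ (wr K hr hrN x) =
      wr K hr hrN (arithmeticRingAut (modularFunctionFieldFull (N * r)) σ x) :=
  map_wr K K hr hrN (arithmeticRingAut (modularFunctionFieldFull (N * r)) σ).toRingHom
    (σ : K →+* K) (arithmeticRingAut_algebraMap _ σ) (arithmeticRingAut_Jgen K _ σ) x

end functoriality

section places

open AlgebraicCurve

variable (K : Type) [Field K] [Algebra ℚ K] [Algebra K ℂ] [IsScalarTower ℚ K ℂ]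
variable {N r : ℕ} [NeZero (N * r)]

/-- a `K`-automorphism preserves `MDiv` -/
theorem mDiv_algEquiv {k F : Type*} [Field k] [Field F] [Algebra k F] (e : F ≃ₐ[k] F) {m : ℕ}
    {f : F} (hf : MDiv k m f) : MDiv k m (e f) := by
  refine ⟨(map_ne_zero_iff _ e.injective).2 hf.1, fun v => ?_⟩
  set g := SemilinearAut.ofAlgAut (K := k) (F := F) e with hg
  have h := SemilinearAut.ord_smul g (g⁻¹ • v) f
  rw [smul_inv_smul] at h
  have h2 : g • f = e f := rfl
  rw [← h2, h]
  exact hf.2 _

theorem mDiv_wr (hr : r.Prime) (hrN : ¬ r ∣ N) {m : ℕ} {f : FK K (N * r)} (hf : MDiv K m f) :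
    MDiv K m (wr K hr hrN f) := mDiv_algEquiv _ hf

theorem mDiv_wr_iff (hr : r.Prime) (hrN : ¬ r ∣ N) {m : ℕ} {f : FK K (N * r)} :
    MDiv K m (wr K hr hrN f) ↔ MDiv K m f :=
  ⟨fun h => by simpa only [wr_wr] using mDiv_wr K hr hrN h, mDiv_wr K hr hrN⟩

theorem sameClass_wr (hr : r.Prime) (hrN : ¬ r ∣ N) {m : ℕ} {f g : FK K (N * r)}
    (h : SameClass m f g) : SameClass m (wr K hr hrN f) (wr K hr hrN g) :=
  h.map (wr K hr hrN).toAlgHom.toRingHom

end places

end Fermat.Agent.UNIlib
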