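import Fermat.Agent.UNI.Node

/-!
# T-UNI, (Node): from the modular inputs (abstract form) to `NodeHyp`

`F₀ ⊆ F` the function field of the good level, `V₁` the Gauss valuation ring of `F`, `w` the
Atkin-Lehner involution (`V₂ = w⁻¹ V₁`), `γ` the coefficientwise action of the inverse of a Frobenius
element.  Inputs: (t3) the residue field of `V₁` is that of `V₁ ∩ F₀`; (loc) the special fibre of the
good level is normal; (t5) `w g ≡ (γ g) ^ r mod π V₁` for `g ∈ F₀`.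
-/

set_option autoImplicit false

open Polynomial

namespace Fermat.Agent.UNIlib

variable {R F : Type*} [CommRing R] [Field F] [Algebra R F]

/-- the modular inputs of (Node), abstract form -/
structure NodeData (π : R) (T : F) (V₁ : ValuationSubring F) (w γ : F ≃+* F) (F₀ : Subfield F)
    (r : ℕ) : Prop where
  two_le : 2 ≤ r
  int_mem : ∀ x, IsIntegral (Algebra.adjoin R {T}) x → x ∈ V₁
  w_w : ∀ x, w (w x) = x
  w_unif : w (algebraMap R F π) = algebraMap R F π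
  w_int : ∀ x, IsIntegral (Algebra.adjoin R {T}) x → IsIntegral (Algebra.adjoin R {T}) (w x)
  γ_int : ∀ x, IsIntegral (Algebra.adjoin R {T}) x → IsIntegral (Algebra.adjoin R {T}) (γ x)
  γ_V : ∀ x, x ∈ V₁ → γ x ∈ V₁
  γ_unif : γ (algebraMap R F π) / algebraMap R F π ∈ V₁
  γ_w : ∀ x, γ (w x) = w (γ x)
  γ_poly : ∀ p : R[X], ∃ p' : R[X], γ (aeval T p) = aeval T p'
  adjoin_le : ∀ x ∈ Algebra.adjoin R {T}, x ∈ F₀
  t3 : ∀ x ∈ V₁, ∃ x' ∈ F₀, x' ∈ V₁ ∧ (x - x') / algebraMap R F π ∈ V₁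
  loc : ∀ ε ∈ F₀, ε ∈ V₁ → (∃ p : F[X], p.Monic ∧
      (∀ i, p.coeff i ∈ F₀ ∧ IsIntegral (Algebra.adjoin R {T}) (p.coeff i)) ∧
      p.eval ε / algebraMap R F π ∈ V₁) →
    ∃ e ∈ F₀, IsIntegral (Algebra.adjoin R {T}) e ∧ (ε - e) / algebraMap R F π ∈ V₁
  t5 : ∀ g ∈ F₀, g ∈ V₁ → (w g - γ g ^ r) / algebraMap R F π ∈ V₁

theorem eval_sub_eval_div_mem (V : ValuationSubring F) (ϖ : F) (p : F[X])
    (hp : ∀ i, p.coeff i ∈ V) {a b : F} (ha : a ∈ V) (hb : b ∈ V) (h : (a - b) / ϖ ∈ V) :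
    (p.eval a - p.eval b) / ϖ ∈ V := by
  rw [eval_eq_sum_range, eval_eq_sum_range, ← Finset.sum_sub_distrib, Finset.sum_div]
  refine V.toSubring.sum_mem fun i _ => ?_
  rw [← mul_sub, mul_div_assoc]
  exact V.mul_mem _ _ (hp i) (pow_sub_pow_div_mem V ϖ ha hb h i)

variable {π : R} {T : F} {V₁ : ValuationSubring F} {w γ : F ≃+* F} {F₀ : Subfield F} {r : ℕ}

namespace NodeData

/-- **T6.**  `B / 𝔭₁ = B₀ / π` -/
theorem t6 (D : NodeData π T V₁ w γ F₀ r) {x : F} (hx : IsIntegral (Algebra.adjoin R {T}) x) :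
    ∃ x' ∈ F₀, IsIntegral (Algebra.adjoin R {T}) x' ∧ (x - x') / algebraMap R F π ∈ V₁ := by
  obtain ⟨x₀, hx₀F, hx₀V, hx₀⟩ := D.t3 x (D.int_mem x hx)
  obtain ⟨P, hP, hPx⟩ := id hx
  have hcoef : ∀ i, (P.map (algebraMap (Algebra.adjoin R {T}) F)).coeff i ∈ F₀ ∧
      IsIntegral (Algebra.adjoin R {T}) ((P.map (algebraMap (Algebra.adjoin R {T}) F)).coeff i) := by
    intro i
    rw [coeff_map]
    exact ⟨D.adjoin_le _ (P.coeff i).2, isIntegral_algebraMap⟩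
  have hpx : (P.map (algebraMap (Algebra.adjoin R {T}) F)).eval x = 0 := by
    rw [eval_map]; exact hPx
  obtain ⟨e, heF, he, he'⟩ := D.loc x₀ hx₀F hx₀V ⟨_, hP.map _, hcoef, by
    have h1 : (x₀ - x) / algebraMap R F π ∈ V₁ := by
      rw [← neg_sub, neg_div]; exact V₁.neg_mem _ hx₀
    have := eval_sub_eval_div_mem V₁ (algebraMap R F π) _ (fun i => D.int_mem _ (hcoef i).2)
      hx₀V (D.int_mem x hx) h1
    rwa [hpx, sub_zero] at this⟩
  refine ⟨e, heF, he, ?_⟩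
  have : (x - e) / algebraMap R F π = (x - x₀) / algebraMap R F π + (x₀ - e) / algebraMap R F π := by
    ring
  rw [this]
  exact V₁.add_mem _ _ hx₀ he'

/-- the first branch is normal -/
theorem norm₁ (D : NodeData π T V₁ w γ F₀ r) (Z : F) (hZ : IntV π T V₁ Z) :
    ∃ x, IsIntegral (Algebra.adjoin R {T}) x ∧ (Z - x) / algebraMap R F π ∈ V₁ := by
  classical
  obtain ⟨hZV, p, hp, hc, hpZ⟩ := hZ
  obtain ⟨Z₀, hZ₀F, hZ₀V, hZ₀⟩ := D.t3 Z hZV
  choose c' hc'F hc'I hc' using fun i => D.t6 (hc i)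
  set ϖ := algebraMap R F π with hϖ
  set n := p.natDegree with hn
  set p' : F[X] := X ^ n + ∑ i ∈ Finset.range n, C (c' i) * X ^ i with hp'def
  have hp' : p'.Monic := by
    apply monic_X_pow_add
    rw [← Fin.sum_univ_eq_sum_range (fun i => C (c' i) * X ^ i) n]
    exact degree_sum_fin_lt (fun i : Fin n => c' i)
  -- the coefficients
  let S : Subring F := F₀.toSubring ⊓ (integralClosure (Algebra.adjoin R {T}) F).toSubring
  have hlift : p' ∈ lifts S.subtype := by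
    refine add_mem (X_pow_mem_lifts _ _) (sum_mem fun i _ => mul_mem ?_ (X_pow_mem_lifts _ _))
    exact C'_mem_lifts ⟨⟨c' i, hc'F i, hc'I i⟩, rfl⟩
  have hcoef : ∀ i, p'.coeff i ∈ F₀ ∧ IsIntegral (Algebra.adjoin R {T}) (p'.coeff i) := by
    intro i
    obtain ⟨s, hs⟩ := (lifts_iff_coeff_lifts _).1 hlift i
    rw [← hs]
    exact s.2
  have h1 : (Z₀ - Z) / ϖ ∈ V₁ := by
    rw [← neg_sub, neg_div]; exact V₁.neg_mem _ hZ₀
  have heval : p'.eval Z₀ / ϖ ∈ V₁ := by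
    have e1 : p'.eval Z₀ = Z₀ ^ n + ∑ i ∈ Finset.range n, c' i * Z₀ ^ i := by
      simp [hp'def, eval_finsetSum]
    have e2 : p.eval Z = Z ^ n + ∑ i ∈ Finset.range n, p.coeff i * Z ^ i := by
      conv_lhs => rw [hp.as_sum]
      simp [eval_finsetSum, hn]
    have e4 : ∑ i ∈ Finset.range n, (c' i * (Z₀ ^ i - Z ^ i) - (p.coeff i - c' i) * Z ^ i) =
        ∑ i ∈ Finset.range n, c' i * Z₀ ^ i - ∑ i ∈ Finset.range n, p.coeff i * Z ^ i := by
      rw [← Finset.sum_sub_distrib]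
      exact Finset.sum_congr rfl fun i _ => by ring
    have e3 : p'.eval Z₀ = p.eval Z + (Z₀ ^ n - Z ^ n) +
        ∑ i ∈ Finset.range n, (c' i * (Z₀ ^ i - Z ^ i) - (p.coeff i - c' i) * Z ^ i) := by
      rw [e4, e1, e2]; ring
    rw [e3, add_div, add_div, Finset.sum_div]
    refine V₁.add_mem _ _ (V₁.add_mem _ _ hpZ (pow_sub_pow_div_mem V₁ ϖ hZ₀V hZV h1 n))
      (V₁.toSubring.sum_mem fun i _ => ?_)
    rw [sub_div, mul_div_assoc, mul_div_right_comm]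
    exact V₁.toSubring.sub_mem
      (V₁.mul_mem _ _ (D.int_mem _ (hc'I i)) (pow_sub_pow_div_mem V₁ ϖ hZ₀V hZV h1 i))
      (V₁.mul_mem _ _ (hc' i) (V₁.toSubring.pow_mem hZV i))
  obtain ⟨e, -, he, he'⟩ := D.loc Z₀ hZ₀F hZ₀V ⟨p', hp', hcoef, heval⟩
  refine ⟨e, he, ?_⟩
  have : (Z - e) / ϖ = (Z - Z₀) / ϖ + (Z₀ - e) / ϖ := by ring
  rw [this]
  exact V₁.add_mem _ _ hZ₀ he'

theorem int_mem₂ (D : NodeData π T V₁ w γ F₀ r) (x : F)
    (hx : IsIntegral (Algebra.adjoin R {T}) x) : x ∈ V₁.comap (w : F →+* F) :=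
  D.int_mem _ (D.w_int x hx)

theorem w_div (D : NodeData π T V₁ w γ F₀ r) (x : F) :
    w (x / algebraMap R F π) = w x / algebraMap R F π := by
  rw [map_div₀, D.w_unif]

/-- the second branch is normal -/
theorem norm₂ (D : NodeData π T V₁ w γ F₀ r) (Z : F) (hZ : IntV π T (V₁.comap (w : F →+* F)) Z) :
    ∃ x, IsIntegral (Algebra.adjoin R {T}) x ∧
      (Z - x) / algebraMap R F π ∈ V₁.comap (w : F →+* F) := by
  obtain ⟨hZV, p, hp, hc, hpZ⟩ := hZ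
  obtain ⟨x, hx, hx'⟩ := D.norm₁ (w Z) ⟨hZV, p.map (w : F →+* F), hp.map _, fun i => by
      rw [coeff_map]; exact D.w_int _ (hc i), by
      have h1 : w (p.eval Z / algebraMap R F π) ∈ V₁ := hpZ
      rw [D.w_div] at h1
      have h2 : (p.map (w : F →+* F)).eval (w Z) = w (p.eval Z) :=
        eval_map_apply (w : F →+* F) Z
      rw [h2]
      exact h1⟩
  refine ⟨w x, D.w_int x hx, ?_⟩
  show w ((Z - w x) / algebraMap R F π) ∈ V₁
  rw [D.w_div, map_sub, D.w_w]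
  exact hx'

theorem γ_div (D : NodeData π T V₁ w γ F₀ r) {x : F} (h : x / algebraMap R F π ∈ V₁) :
    γ x / algebraMap R F π ∈ V₁ := by
  by_cases h0 : algebraMap R F π = 0
  · rw [h0, div_zero]; exact V₁.zero_mem
  have h1 := D.γ_V _ h
  rw [map_div₀] at h1
  have h2 : γ (algebraMap R F π) ≠ 0 := (map_ne_zero γ).2 h0
  have h3 : γ x / algebraMap R F π =
      γ x / γ (algebraMap R F π) * (γ (algebraMap R F π) / algebraMap R F π) := by
    field_simp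
  rw [h3]
  exact V₁.mul_mem _ _ h1 D.γ_unif

theorem inJ_mul_left (D : NodeData π T V₁ w γ F₀ r) {b β : F}
    (hb : IsIntegral (Algebra.adjoin R {T}) b) (h : InJ π T V₁ (V₁.comap (w : F →+* F)) β) :
    InJ π T V₁ (V₁.comap (w : F →+* F)) (b * β) := by
  obtain ⟨h1, Y, h2, h3, h4⟩ := h
  refine ⟨hb.mul h1, b * Y, hb.mul h2, ?_, ?_⟩
  · rw [mul_div_assoc]; exact (V₁.comap (w : F →+* F)).mul_mem _ _ (D.int_mem₂ b hb) h3
  · rw [← mul_sub, mul_div_assoc]; exact V₁.mul_mem _ _ (D.int_mem b hb) h4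

/-- `g ≡ (w γ g) ^ r mod J` -/
theorem frob₁ (D : NodeData π T V₁ w γ F₀ r) {g : F} (hg : IsIntegral (Algebra.adjoin R {T}) g) :
    InJ π T V₁ (V₁.comap (w : F →+* F)) (g - w (γ g) ^ r) := by
  obtain ⟨g', hg'F, hg'I, hg'⟩ := D.t6 hg
  have hθg : IsIntegral (Algebra.adjoin R {T}) (w (γ g)) := D.w_int _ (D.γ_int _ hg)
  refine ⟨hg.sub (hθg.pow r), g' - w (γ g) ^ r, hg'I.sub (hθg.pow r), ?_, ?_⟩
  · show w ((g' - w (γ g) ^ r) / algebraMap R F π) ∈ V₁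
    rw [D.w_div, map_sub, map_pow, D.w_w]
    have h1 : (w g' - γ g ^ r) / algebraMap R F π =
        (w g' - γ g' ^ r) / algebraMap R F π + (γ g' ^ r - γ g ^ r) / algebraMap R F π := by ring
    rw [h1]
    refine V₁.add_mem _ _ (D.t5 g' hg'F (D.int_mem _ hg'I)) ?_
    refine pow_sub_pow_div_mem V₁ _ (D.γ_V _ (D.int_mem _ hg'I)) (D.γ_V _ (D.int_mem _ hg)) ?_ r
    rw [← map_sub]
    apply D.γ_div
    rw [← neg_sub, neg_div]
    exact V₁.neg_mem _ hg'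
  · have h1 : g' - w (γ g) ^ r - (g - w (γ g) ^ r) = -(g - g') := by ring
    rw [h1, neg_div]
    exact V₁.neg_mem _ hg'

/-- `g ≡ (γ² g) ^ (r²) mod J` -/
theorem frob (D : NodeData π T V₁ w γ F₀ r) {g : F} (hg : IsIntegral (Algebra.adjoin R {T}) g) :
    InJ π T V₁ (V₁.comap (w : F →+* F)) (g - γ (γ g) ^ (r ^ 2)) := by
  have hθg : IsIntegral (Algebra.adjoin R {T}) (w (γ g)) := D.w_int _ (D.γ_int _ hg)
  have hγγ : IsIntegral (Algebra.adjoin R {T}) (γ (γ g)) := D.γ_int _ (D.γ_int _ hg)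
  have h1 := D.frob₁ hg
  have h2 := D.frob₁ hθg
  rw [D.γ_w, D.w_w] at h2
  have h3 : InJ π T V₁ (V₁.comap (w : F →+* F)) (w (γ g) ^ r - (γ (γ g) ^ r) ^ r) := by
    rw [← Commute.geom_sum₂_mul (Commute.all (w (γ g)) (γ (γ g) ^ r)) r]
    exact D.inJ_mul_left (IsIntegral.sum _ fun i _ => (hθg.pow _).mul ((hγγ.pow _).pow _)) h2
  have h4 := h1.add h3
  rwa [sub_add_sub_cancel, ← pow_mul, ← sq] at h4

/-- **the hypotheses of the abstract (Node)** -/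
theorem nodeHyp (D : NodeData π T V₁ w γ F₀ r) (ρ : F →+* F) (hρ : ∀ x, ρ x = γ (γ x)) :
    NodeHyp π T V₁ (V₁.comap (w : F →+* F)) (r ^ 2) ρ where
  two_le := by have := D.two_le; nlinarith
  int_mem₁ := D.int_mem
  int_mem₂ := D.int_mem₂
  norm₁ := D.norm₁
  norm₂ := D.norm₂
  ρ_int := fun x hx => by rw [hρ]; exact D.γ_int _ (D.γ_int _ hx)
  ρ_V₁ := fun x hx => by rw [hρ]; exact D.γ_div (D.γ_div hx)
  ρ_V₂ := fun x hx => by
    show w (ρ x / algebraMap R F π) ∈ V₁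
    have h1 : w (x / algebraMap R F π) ∈ V₁ := hx
    rw [D.w_div] at h1
    rw [D.w_div, hρ, ← D.γ_w, ← D.γ_w]
    exact D.γ_div (D.γ_div h1)
  ρ_poly := fun p => by
    obtain ⟨p', hp'⟩ := D.γ_poly p
    obtain ⟨p'', hp''⟩ := D.γ_poly p'
    exact ⟨p'', by rw [hρ, hp', hp'']⟩
  frob := fun x hx => by rw [hρ]; exact D.frob hx

end NodeData

end Fermat.Agent.UNIlib
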