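import Fermat.Agent.UNI.GaussInt
import Fermat.Agent.UNI.AL2
import Fermat.Agent.UNI.NodeAbs
import Fermat.Agent.UNI.HauptInt
import Fermat.Agent.UNI.Wrap
import Fermat.Agent.ES.C.AKCore

/-!
# T-UNI, (Node): the modular inputs, part 1 (any DVR `R` with fraction field `K ⊆ ℂ`)

`F = F_K(N r)`, `F₀ = oldF K N r` the image of `F_K(N)`, `V₁` the Gauss valuation ring, `w = w_r`.
`nodeData_of_chart` builds `NodeData` from a good chart `T₀` of the level `N`, a semilinear
automorphism `γ`, and the two congruences (t3), (t5).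
-/

set_option autoImplicit false
set_option linter.unusedSectionVars false

open ModularCurve Polynomial

namespace Fermat.Agent.UNIlib

open Fermat.Agent.ESlib

noncomputable section

section transport

variable {R F F' : Type*} [CommRing R] [Field F] [Field F'] [Algebra R F] [Algebra R F']

theorem aeval_map_eq_comp (ι : F →+* F') (hι : ∀ c : R, ι (algebraMap R F c) = algebraMap R F' c)
    (T : F) : ((aeval (ι T) : R[X] →ₐ[R] F') : R[X] →+* F') =
      ι.comp ((aeval T : R[X] →ₐ[R] F) : R[X] →+* F) := by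
  apply Polynomial.ringHom_ext
  · intro c
    simp [hι]
  · simp

/-- integrality over `R[T]` can be tested in a bigger field -/
theorem isIntegral_adjoin_map_iff (ι : F →+* F')
    (hι : ∀ c : R, ι (algebraMap R F c) = algebraMap R F' c) (T x : F) :
    IsIntegral (Algebra.adjoin R {ι T}) (ι x) ↔ IsIntegral (Algebra.adjoin R {T}) x := by
  rw [isIntegral_adjoin_singleton_iff, isIntegral_adjoin_singleton_iff]
  have h := aeval_map_eq_comp ι hι T
  constructor
  · rintro ⟨p, hp, hpx⟩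
    refine ⟨p, hp, ι.injective ?_⟩
    rw [map_zero, hom_eval₂, ← h]
    exact hpx
  · rintro ⟨p, hp, hpx⟩
    refine ⟨p, hp, ?_⟩
    rw [h, ← hom_eval₂, hpx, map_zero]

end transport

section level

variable {R K : Type} [CommRing R] [IsDomain R] [IsDiscreteValuationRing R] [Field K] [Algebra R K]
  [IsFractionRing R K] [CharZero K] [Algebra ℚ K] {N r : ℕ} [NeZero N] [NeZero r] [NeZero (N * r)]

variable (K N r) in
/-- the inclusion `F_K(N) → F_K(N r)` as a ring homomorphism -/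
abbrev oldI : FK K N →+* FK K (N * r) := (inclF K (dvd_mul_right N r)).toRingHom

variable (K N r) in
/-- the old subfield `F_K(N) ⊆ F_K(N r)` -/
def oldF : Subfield (FK K (N * r)) := (oldI K N r).fieldRange

theorem mem_oldF_iff {x : FK K (N * r)} : x ∈ oldF K N r ↔ ∃ x₀ : FK K N, oldI K N r x₀ = x :=
  RingHom.mem_fieldRange

theorem coe_oldI (x : FK K N) :
    ((oldI K N r x : FK K (N * r)) : LaurentSeries K) = (x : LaurentSeries K) :=
  coe_inclF K (dvd_mul_right N r) x

theorem mem_oldF_iff_coe {x : FK K (N * r)} : x ∈ oldF K N r ↔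
    (x : LaurentSeries K) ∈ laurentBaseChange K (modularFunctionFieldFull N) := by
  rw [mem_oldF_iff]
  constructor
  · rintro ⟨x₀, rfl⟩
    rw [coe_oldI]
    exact x₀.2
  · intro h
    exact ⟨⟨_, h⟩, Subtype.ext (coe_oldI _)⟩

theorem oldI_mem_gaussSub_iff {x : FK K N} :
    oldI K N r x ∈ gaussSub R K (N * r) ↔ x ∈ gaussSub R K N := by
  rw [mem_gaussSub_iff, mem_gaussSub_iff, coe_oldI]

theorem oldI_tF (a : ℕ) [NeZero a] (ha : a = 2 ∨ a = 3) (haN : a ∣ N) :
    oldI K N r (tF K N a ha haN) = tF K (N * r) a ha (haN.mul_right r) :=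
  Subtype.ext (coe_oldI _)

theorem oldI_apply (x : FK K N) : oldI K N r x = inclF K (dvd_mul_right N r) x := by
  unfold oldI
  rw [AlgHom.toRingHom_eq_coe, RingHom.coe_coe]

variable [Algebra K ℂ] [IsScalarTower ℚ K ℂ] [Algebra R ℂ] [IsScalarTower R K ℂ]
  [Algebra R (FK K N)] [IsScalarTower R K (FK K N)]
  [Algebra R (FK K (N * r))] [IsScalarTower R K (FK K (N * r))]

theorem oldI_algebraMap (c : R) :
    oldI K N r (algebraMap R (FK K N) c) = algebraMap R (FK K (N * r)) c := by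
  rw [IsScalarTower.algebraMap_apply R K (FK K N), IsScalarTower.algebraMap_apply R K (FK K (N * r))]
  exact (inclF K (dvd_mul_right N r)).commutes _

/-- **the modular inputs of (Node)** from a good chart of the level `N` -/
theorem nodeData_of_chart {π : R} (hπ : Irreducible π) (hr : r.Prime) (hrN : ¬ r ∣ N)
    (T₀ : FK K N) (hT₀ : T₀ ∈ gaussSub R K N) (hG : GoodChart K ℂ π T₀)
    (h1 : ∀ x ∈ gaussSub R K N, PiInt π T₀ x) (h2 : ∀ x, PiInt π T₀ x → x ∈ gaussSub R K N)
    (hw : ∀ x, IsIntegral (Algebra.adjoin R {oldI K N r T₀}) x →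
      IsIntegral (Algebra.adjoin R {oldI K N r T₀}) (wr K hr hrN x))
    (γ : FK K (N * r) ≃+* FK K (N * r)) (γR : R →+* R)
    (hγ : ∀ c, γ (algebraMap R (FK K (N * r)) c) = algebraMap R (FK K (N * r)) (γR c))
    (hγT : γ (oldI K N r T₀) = oldI K N r T₀)
    (hγV : ∀ x ∈ gaussSub R K (N * r), γ x ∈ gaussSub R K (N * r)) (hγπ : π ∣ γR π)
    (hγw : ∀ x, γ (wr K hr hrN x) = wr K hr hrN (γ x))
    (t3 : ∀ x ∈ gaussSub R K (N * r), ∃ x' : FK K N, x' ∈ gaussSub R K N ∧
      (x - oldI K N r x') / algebraMap R (FK K (N * r)) π ∈ gaussSub R K (N * r))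
    (t5 : ∀ g ∈ gaussSub R K N, (wr K hr hrN (oldI K N r g) - γ (oldI K N r g) ^ r) /
      algebraMap R (FK K (N * r)) π ∈ gaussSub R K (N * r)) :
    NodeData π (oldI K N r T₀) (gaussVal R K (N * r)) (wr K hr hrN).toRingEquiv γ (oldF K N r) r where
  two_le := hr.two_le
  int_mem x hx := mem_gaussSub_of_isIntegral (N * r) (oldI_mem_gaussSub_iff.2 hT₀) hx
  w_w x := wr_wr K hr hrN x
  w_unif := by
    rw [IsScalarTower.algebraMap_apply R K (FK K (N * r))]
    exact (wr K hr hrN).commutes _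
  w_int := hw
  γ_int x hx := isIntegral_adjoin_map_semilinear (σ := (γ : FK K (N * r) →+* FK K (N * r))) hγ hγT hx
  γ_V := hγV
  γ_unif := by
    obtain ⟨c, hc⟩ := hγπ
    have h0 : algebraMap R (FK K (N * r)) π ≠ 0 := by
      rw [IsScalarTower.algebraMap_apply R K (FK K (N * r))]
      exact (_root_.map_ne_zero _).2 ((map_ne_zero_iff _ (IsFractionRing.injective R K)).2 hπ.ne_zero)
    rw [hγ, hc, map_mul, mul_div_cancel_left₀ _ h0]
    exact mem_gaussSub_of_eq_coeffMap (HahnSeries.C c) (by rw [coe_algebraMap_R, coeffMap_C'])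
  γ_w := hγw
  γ_poly p := ⟨p.map γR,
    map_aeval_semilinear (σ := (γ : FK K (N * r) →+* FK K (N * r))) hγ hγT p⟩
  adjoin_le x hx := by
    rw [Algebra.adjoin_singleton_eq_range_aeval] at hx
    obtain ⟨p, rfl⟩ := hx
    refine mem_oldF_iff.2 ⟨aeval T₀ p, ?_⟩
    exact (DFunLike.congr_fun (aeval_map_eq_comp (oldI K N r) oldI_algebraMap T₀) p).symm
  t3 x hx := by
    obtain ⟨x', hx', h⟩ := t3 x hx
    exact ⟨oldI K N r x', mem_oldF_iff.2 ⟨x', rfl⟩, oldI_mem_gaussSub_iff.2 hx', h⟩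
  loc ε hε hεV := by
    rintro ⟨p, hp, hc, hpε⟩
    obtain ⟨ε₀, rfl⟩ := mem_oldF_iff.1 hε
    have hlift : p ∈ lifts (oldI K N r) := by
      rw [lifts_iff_coeff_lifts]
      intro i
      obtain ⟨c₀, hc₀⟩ := mem_oldF_iff.1 (hc i).1
      exact ⟨c₀, hc₀⟩
    obtain ⟨q, hq, -, hqm⟩ := lifts_and_natDegree_eq_and_monic hlift hp
    have hdiv : ∀ z : FK K N, oldI K N r z / algebraMap R (FK K (N * r)) π =
        oldI K N r (z / algebraMap R (FK K N) π) := by
      intro z
      rw [map_div₀, oldI_algebraMap]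
    have hε₀ : ε₀ ∈ gaussSub R K N := oldI_mem_gaussSub_iff.1 hεV
    have hev : q.eval ε₀ / algebraMap R (FK K N) π ∈ gaussSub R K N := by
      rw [← oldI_mem_gaussSub_iff (r := r), ← hdiv]
      rw [← hq, eval_map, eval₂_at_apply] at hpε
      exact hpε
    obtain ⟨e, he, he'⟩ := hG.loc hπ ε₀ (h1 _ hε₀) ⟨q, hqm, fun i => by
      rw [← isIntegral_adjoin_map_iff (oldI K N r) oldI_algebraMap, ← coeff_map, hq]
      exact (hc i).2, h1 _ hev⟩
    refine ⟨oldI K N r e, mem_oldF_iff.2 ⟨e, rfl⟩,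
      (isIntegral_adjoin_map_iff (oldI K N r) oldI_algebraMap _ _).2 he, ?_⟩
    rw [← map_sub, hdiv]
    refine oldI_mem_gaussSub_iff.2 ?_
    have := neg_mem (h2 _ he')
    rwa [← neg_div, neg_sub] at this
  t5 g hg hgV := by
    obtain ⟨g₀, rfl⟩ := mem_oldF_iff.1 hg
    exact t5 g₀ (oldI_mem_gaussSub_iff.1 hgV)

end level

end

end Fermat.Agent.UNIlib
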