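import Mathlib

/-!
# T-UNI: the Newton polygon of the modular polynomial `Φ_p` at the cusps, for an arbitrary valuation

If `Φ_p(x, y) = Φ_p(y, x) = 0` and `v(y) > 1` then `v(x) = v(y)^p` or `v(x)^p = v(y)`.
-/

set_option autoImplicit false

open Polynomial

namespace Fermat.Agent.UNIlib

/-- the shape of the modular polynomial -/
structure PhiShape (p : ℕ) (Φ : ℤ[X][X]) : Prop where
  monic : Φ.Monic
  natDegree : Φ.natDegree = p + 1
  deg : ∀ i, 1 ≤ i → (Φ.coeff i).natDegree ≤ p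
  top : (Φ.coeff p).coeff p = -1
  deg0 : (Φ.coeff 0).natDegree ≤ p + 1

variable {F Γ : Type*} [Field F] [LinearOrderedCommGroupWithZero Γ] (v : Valuation F Γ)

/-- `Φ(x, y)` for `Φ ∈ ℤ[Y][X]` -/
noncomputable def evZ (Φ : ℤ[X][X]) (x y : F) : F :=
  Φ.eval₂ ((aeval y : ℤ[X] →ₐ[ℤ] F) : ℤ[X] →+* F) x

theorem val_intCast_le_one (n : ℤ) : v (n : F) ≤ 1 :=
  (Valuation.mem_integer_iff v _).1 (intCast_mem v.integer n)

theorem val_aeval_le (P : ℤ[X]) (n : ℕ) (hn : P.natDegree ≤ n) (y : F) (hy : 1 ≤ v y) :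
    v (aeval y P) ≤ v y ^ n := by
  rw [aeval_eq_sum_range]
  apply Valuation.map_sum_le
  intro i hi
  rw [zsmul_eq_mul, map_mul, map_pow]
  calc v ((P.coeff i : ℤ) : F) * v y ^ i ≤ 1 * v y ^ n :=
        mul_le_mul' (val_intCast_le_one v _)
          (pow_le_pow_right₀ hy (by have := Finset.mem_range.1 hi; omega))
    _ = v y ^ n := one_mul _

theorem val_aeval_le_one (P : ℤ[X]) (y : F) (hy : v y ≤ 1) : v (aeval y P) ≤ 1 := by
  rw [aeval_eq_sum_range]
  apply Valuation.map_sum_le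
  intro i hi
  rw [zsmul_eq_mul, map_mul, map_pow]
  calc v ((P.coeff i : ℤ) : F) * v y ^ i ≤ 1 * 1 :=
        mul_le_mul' (val_intCast_le_one v _) (pow_le_one₀ zero_le hy)
    _ = 1 := one_mul _

variable {v} {p : ℕ} {Φ : ℤ[X][X]}

theorem evZ_eq_sum (hΦ : PhiShape p Φ) (x y : F) :
    evZ Φ x y = x ^ (p + 1) + ∑ i ∈ Finset.range (p + 1), aeval y (Φ.coeff i) * x ^ i := by
  rw [evZ, eval₂_eq_sum_range, hΦ.natDegree, Finset.sum_range_succ, add_comm]
  congr 1
  have : Φ.coeff (p + 1) = 1 := by rw [← hΦ.natDegree]; exact hΦ.monic.coeff_natDegree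
  rw [this, map_one, one_mul]

/-- integrality -/
theorem val_le_one_of_evZ (hΦ : PhiShape p Φ) {x y : F} (h : evZ Φ x y = 0) (hy : v y ≤ 1) :
    v x ≤ 1 := by
  by_contra hx
  rw [not_le] at hx
  rw [evZ_eq_sum hΦ] at h
  have h1 : v (∑ i ∈ Finset.range (p + 1), aeval y (Φ.coeff i) * x ^ i) < v x ^ (p + 1) := by
    apply Valuation.map_sum_lt v (pow_ne_zero _ (ne_of_gt (lt_trans zero_lt_one hx)))
    intro i hi
    rw [map_mul, map_pow]
    calc v (aeval y (Φ.coeff i)) * v x ^ i ≤ 1 * v x ^ p :=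
          mul_le_mul' (val_aeval_le_one v _ y hy)
            (pow_le_pow_right₀ hx.le (by have := Finset.mem_range.1 hi; omega))
      _ = v x ^ p := one_mul _
      _ < v x ^ (p + 1) := pow_lt_pow_right₀ hx (Nat.lt_succ_self p)
  have h2 : x ^ (p + 1) = -(∑ i ∈ Finset.range (p + 1), aeval y (Φ.coeff i) * x ^ i) :=
    eq_neg_of_add_eq_zero_left h
  have h3 := congrArg v h2
  rw [Valuation.map_neg, map_pow] at h3
  exact absurd h3 (ne_of_gt h1)

/-- the decomposition `Φ(x, y) = x^(p+1) - x^p y^p + R + c₀(y)` -/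
theorem evZ_decomp (hΦ : PhiShape p Φ) (hp : 2 ≤ p) {x y : F} (hx : 1 < v x) (hy : 1 < v y) :
    ∃ R : F, v R < v x ^ p * v y ^ p ∧
      evZ Φ x y = x ^ (p + 1) + -(x ^ p * y ^ p) + R + aeval y (Φ.coeff 0) := by
  obtain ⟨k, rfl⟩ : ∃ k, p = k + 1 := ⟨p - 1, by omega⟩
  have hx0 : 0 < v x := lt_trans zero_lt_one hx
  have hy0 : 0 < v y := lt_trans zero_lt_one hy
  set d : ℤ[X] := Φ.coeff (k + 1) + X ^ (k + 1) with hd
  have hdd : d.natDegree ≤ k := by
    rw [natDegree_le_iff_coeff_eq_zero]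
    intro N hN
    rw [hd, coeff_add, coeff_X_pow]
    rcases (Nat.succ_le_of_lt hN).eq_or_lt with rfl | hlt
    · rw [hΦ.top]; simp
    · rw [coeff_eq_zero_of_natDegree_lt (lt_of_le_of_lt (hΦ.deg _ (by omega)) hlt),
        if_neg (by omega), add_zero]
  refine ⟨aeval y d * x ^ (k + 1) +
    ∑ i ∈ Finset.range k, aeval y (Φ.coeff (i + 1)) * x ^ (i + 1), ?_, ?_⟩
  · apply Valuation.map_add_lt
    · rw [map_mul, map_pow, mul_comm]
      apply mul_lt_mul_of_pos_left _ (pow_pos hx0 _)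
      exact lt_of_le_of_lt (val_aeval_le v d k hdd y hy.le) (pow_lt_pow_right₀ hy (Nat.lt_succ_self k))
    · apply Valuation.map_sum_lt v (mul_ne_zero (pow_ne_zero _ hx0.ne') (pow_ne_zero _ hy0.ne'))
      intro i hi
      rw [map_mul, map_pow, mul_comm]
      have hi' := Finset.mem_range.1 hi
      calc v x ^ (i + 1) * v (aeval y (Φ.coeff (i + 1)))
          ≤ v x ^ (i + 1) * v y ^ (k + 1) :=
            mul_le_mul_right (val_aeval_le v _ _ (hΦ.deg _ (by omega)) y hy.le) _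
        _ < v x ^ (k + 1) * v y ^ (k + 1) :=
            mul_lt_mul_of_pos_right (pow_lt_pow_right₀ hx (by omega)) (pow_pos hy0 _)
  · rw [evZ_eq_sum hΦ, Finset.sum_range_succ, Finset.sum_range_succ']
    have : aeval y (Φ.coeff (k + 1)) = aeval y d - y ^ (k + 1) := by
      rw [hd, map_add, map_pow, aeval_X]; ring
    rw [this]
    ring

/-- half of the Newton polygon argument -/
theorem newton_aux (hΦ : PhiShape p Φ) (hp : 2 ≤ p) {x y : F} (h : evZ Φ x y = 0)
    (hx : 1 < v x) (hy : 1 < v y) :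
    ¬ (v x < v y ^ p ∧ v y < v x ^ p) ∧ ¬ (v y ^ p < v x) := by
  obtain ⟨R, hR, hdec⟩ := evZ_decomp hΦ hp hx hy
  rw [h] at hdec
  have hx0 : 0 < v x := lt_trans zero_lt_one hx
  have hy0 : 0 < v y := lt_trans zero_lt_one hy
  have h5 : v (aeval y (Φ.coeff 0)) ≤ v y ^ (p + 1) := val_aeval_le v _ _ hΦ.deg0 y hy.le
  constructor
  · rintro ⟨h1, h2⟩
    have e : x ^ p * y ^ p = x ^ (p + 1) + R + aeval y (Φ.coeff 0) := by
      linear_combination hdec
    have e' := congrArg v e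
    rw [map_mul, map_pow, map_pow] at e'
    refine absurd e' (ne_of_gt ?_)
    apply Valuation.map_add_lt _ (Valuation.map_add_lt _ _ hR)
    · refine lt_of_le_of_lt h5 ?_
      rw [pow_succ, mul_comm]
      exact mul_lt_mul_of_pos_right h2 (pow_pos hy0 _)
    · rw [map_pow, pow_succ]
      exact mul_lt_mul_of_pos_left h1 (pow_pos hx0 _)
  · intro h1
    have e : x ^ (p + 1) = x ^ p * y ^ p + -R + -aeval y (Φ.coeff 0) := by
      linear_combination -hdec
    have e' := congrArg v e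
    rw [map_pow] at e'
    refine absurd e' (ne_of_gt ?_)
    have hM : v x ^ p * v y ^ p < v x ^ (p + 1) := by
      rw [pow_succ]
      exact mul_lt_mul_of_pos_left h1 (pow_pos hx0 _)
    apply Valuation.map_add_lt _ (Valuation.map_add_lt _ _ _)
    · rw [Valuation.map_neg]
      refine lt_of_le_of_lt h5 ?_
      have hyx : v y < v x := lt_of_le_of_lt (le_self_pow₀ hy.le (by omega)) h1
      exact pow_lt_pow_left₀ hyx hy0.le (by omega)
    · rw [map_mul, map_pow, map_pow]; exact hM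
    · rw [Valuation.map_neg]; exact lt_trans hR hM

/-- **The Newton polygon of `Φ_p` at the cusps.** -/
theorem newton_Phi (hΦ : PhiShape p Φ) (hp : 2 ≤ p) {x y : F} (h1 : evZ Φ x y = 0)
    (h2 : evZ Φ y x = 0) (hy : 1 < v y) : v x = v y ^ p ∨ v x ^ p = v y := by
  have hx : 1 < v x := by
    by_contra hx
    exact absurd (val_le_one_of_evZ hΦ h2 (not_lt.1 hx)) (not_le.2 hy)
  obtain ⟨a1, a2⟩ := newton_aux hΦ hp h1 hx hy
  obtain ⟨-, b2⟩ := newton_aux hΦ hp h2 hy hx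
  rw [not_lt] at a2 b2
  rcases a2.eq_or_lt with h | h
  · exact Or.inl h
  · rcases b2.eq_or_lt with h' | h'
    · exact Or.inr h'.symm
    · exact absurd ⟨h, h'⟩ a1

end Fermat.Agent.UNIlib
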