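import Fermat.Agent.UNI.TwoValCore
import Fermat.Agent.UNI.AL2
import Fermat.Agent.S20.CombIndex

/-!
# T-UNI, modular side (G2)-(G3), function field level: `1, j_r, …, j_r ^ r` is a basis of
`F_K(N r)` over `F_K(N)`, and an integral basis for the pair of valuations `v_∞`, `v_0 = v_∞ ∘ w_r`.
-/

set_option autoImplicit false
set_option linter.unusedSectionVars false
set_option linter.style.haveILetI false

open ModularCurve Polynomial

namespace Fermat.Agent.UNIlib

open Fermat.Agent.ESlib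
open Fermat.Agent.S28lib (RedSetup JIndep evY jA jAd)
open Fermat.Agent.S24lib (Dv)

noncomputable section

section abstract

variable {R K κ : Type*} [CommRing R] [Field K] [Field κ] {ι : R →+* K} {ρ : R →+* κ} {ϖ : R}

/-- `⋂ ϖ^n LamR = 0` on quotients of integral series -/
theorem IsBdd.eq_zero_of_forall (h : RedSetup ι ρ ϖ) {x : LaurentSeries K} (hx : IsBdd ι x)
    (hall : ∀ n : ℕ, ((HahnSeries.C (ι ϖ) : LaurentSeries K)⁻¹) ^ n * x ∈ LamR ι ρ) : x = 0 := by
  by_contra hx0
  obtain ⟨a, b, u, hu, hu', hu0, hrel⟩ := hx.exists_unit h hx0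
  set p : LaurentSeries K := HahnSeries.C (ι ϖ) with hp
  have hp0 : p ≠ 0 := redSetup_C_unif_ne_zero h
  have hpm : p ∈ LamR ι ρ := C_unif_mem_LamR
  have hz := hall (b + 1)
  set z : LaurentSeries K := p⁻¹ ^ (b + 1) * x with hzdef
  have hxz : x = p ^ (b + 1) * z := by
    rw [hzdef, inv_pow, mul_inv_cancel_left₀ (pow_ne_zero _ hp0)]
  have h1 : u = p * (p ^ a * z) := by
    apply mul_left_cancel₀ (pow_ne_zero b hp0)
    rw [← hrel, hxz]
    ring
  have h2 : (1 : LaurentSeries K) = p * (p ^ a * z * u⁻¹) := by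
    rw [← mul_assoc, ← mul_assoc, mul_assoc p, ← h1, mul_inv_cancel₀ hu0]
  have hw : p ^ a * z * u⁻¹ ∈ LamR ι ρ := mul_mem (mul_mem (pow_mem hpm a) hz) hu'
  have h3 : (1 : LamR ι ρ) = unifL ι ρ ϖ * ⟨_, hw⟩ := Subtype.ext h2
  have h4 := congrArg (redR h.inj) h3
  rw [map_one, map_mul, redR_C_unif h, zero_mul] at h4
  exact one_ne_zero h4

end abstract

section basis

variable {R K : Type} [CommRing R] [IsDomain R] [IsDiscreteValuationRing R] [Field K]
  [Algebra R K] [IsFractionRing R K] [Algebra ℚ K] [Algebra K ℂ] [IsScalarTower ℚ K ℂ]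
  {N r : ℕ} [NeZero N] [NeZero r] [NeZero (N * r)]

variable (K N r) in
/-- the inclusion `F_K(N) → F_K(N r)` as a ring homomorphism -/
abbrev iF : FK K N →+* FK K (N * r) := (inclF K (dvd_mul_right N r)).toRingHom

variable (K N r) in
/-- `j(q^r) ∈ F_K(N r)` -/
abbrev jr : FK K (N * r) := Jgen K (N * r) ⟨r, dvd_mul_left r N⟩

variable (K N) in
/-- `F_K(N) → K((q))` -/
abbrev valF : FK K N →+* LaurentSeries K := algebraMap (FK K N) (LaurentSeries K)

theorem iF_apply (x : FK K N) : iF K N r x = inclF K (dvd_mul_right N r) x := by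
  unfold iF
  rw [AlgHom.toRingHom_eq_coe, RingHom.coe_coe]

theorem coe_iF (x : FK K N) : ((iF K N r x : FK K (N * r)) : LaurentSeries K) = x := by
  rw [iF_apply, coe_inclF]

theorem valF_comp_iF : (valF K (N * r)).comp (iF K N r) = valF K N := by
  refine RingHom.ext fun x => ?_
  rw [RingHom.comp_apply, IntermediateField.algebraMap_apply, IntermediateField.algebraMap_apply,
    coe_iF]

theorem coe_eval₂_jr (c : (FK K N)[X]) :
    ((c.eval₂ (iF K N r) (jr K N r) : FK K (N * r)) : LaurentSeries K) =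
      (c.map (valF K N)).eval (jAd K r) := by
  have h := hom_eval₂ c (iF K N r) (valF K (N * r)) (jr K N r)
  rw [valF_comp_iF] at h
  rw [eval_map, ← coe_Jgen_jAd K (N * r) ⟨r, dvd_mul_left r N⟩]
  exact h

theorem wr_jr (hr : r.Prime) (hrN : ¬ r ∣ N) : wr K hr hrN (jr K N r) = J1 K (N * r) := by
  have h := wr_Jgen_mul_of_dvd K hr hrN (one_dvd N)
  have h1 : (⟨1 * r, Nat.mul_dvd_mul_right (one_dvd N) r⟩ : Dv (N * r)) =
      ⟨r, dvd_mul_left r N⟩ := Subtype.ext (one_mul r)
  rw [h1] at h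
  exact h

theorem coe_wr_eval₂_jr (hr : r.Prime) (hrN : ¬ r ∣ N) (c : (FK K N)[X]) :
    ((wr K hr hrN (c.eval₂ (iF K N r) (jr K N r)) : FK K (N * r)) : LaurentSeries K) =
      ((c.map (valF K N)).map (qExpand K r)).eval (jA K) := by
  have h := hom_eval₂ c (iF K N r)
    ((valF K (N * r)).comp (wr K hr hrN).toAlgHom.toRingHom) (jr K N r)
  have h1 : ((valF K (N * r)).comp (wr K hr hrN).toAlgHom.toRingHom).comp (iF K N r) =
      (qExpand K r).comp (valF K N) := by
    refine RingHom.ext fun x => ?_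
    rw [RingHom.comp_apply, RingHom.comp_apply, RingHom.comp_apply, iF_apply,
      IntermediateField.algebraMap_apply, IntermediateField.algebraMap_apply]
    exact coe_wr_inclF K hr hrN x
  have h2 : ((valF K (N * r)).comp (wr K hr hrN).toAlgHom.toRingHom) (jr K N r) = jA K := by
    show ((wr K hr hrN (jr K N r) : FK K (N * r)) : LaurentSeries K) = _
    rw [wr_jr, coe_J1_jA]
  rw [h1, h2] at h
  rw [Polynomial.map_map, eval_map]
  exact h

variable [CharP (IsLocalRing.ResidueField R) r]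

/-- **(T1)** integral basis -/
theorem coeff_mem_gaussSub_of_eval₂ (hr : r.Prime) (hrN : ¬ r ∣ N) (c : (FK K N)[X])
    (hdeg : c.natDegree ≤ r)
    (h1 : c.eval₂ (iF K N r) (jr K N r) ∈ gaussSub R K (N * r))
    (h2 : wr K hr hrN (c.eval₂ (iF K N r) (jr K N r)) ∈ gaussSub R K (N * r)) (i : ℕ) :
    c.coeff i ∈ gaussSub R K N := by
  haveI : Fact r.Prime := ⟨hr⟩
  obtain ⟨π, hπ⟩ := IsDiscreteValuationRing.exists_irreducible R
  have hS := redSetup_of_dvr (K := K) hπ
  rw [mem_gaussSub_iff, coe_eval₂_jr] at h1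
  rw [mem_gaussSub_iff, coe_wr_eval₂_jr] at h2
  have := coeff_mem_LamR_of_eval r hS (c.map (valF K N)) (natDegree_map_le.trans hdeg)
    (fun i => by rw [coeff_map]; exact isBdd_of_mem_FK (c.coeff i).2) h1 h2 i
  rwa [coeff_map] at this

/-- **(IND)** `1, j_r, …, j_r ^ r` are linearly independent over `F_K(N)` -/
theorem eq_zero_of_eval₂_jr (R : Type) [CommRing R] [IsDomain R] [IsDiscreteValuationRing R]
    [Algebra R K] [IsFractionRing R K] [CharP (IsLocalRing.ResidueField R) r]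
    (hr : r.Prime) (hrN : ¬ r ∣ N) (c : (FK K N)[X])
    (hdeg : c.natDegree ≤ r) (h0 : c.eval₂ (iF K N r) (jr K N r) = 0) : c = 0 := by
  obtain ⟨π, hπ⟩ := IsDiscreteValuationRing.exists_irreducible R
  have hS := redSetup_of_dvr (K := K) hπ
  refine Polynomial.ext fun i => ?_
  rw [coeff_zero]
  apply Subtype.ext
  refine IsBdd.eq_zero_of_forall hS (isBdd_of_mem_FK (R := R) (c.coeff i).2) fun n => ?_
  set a : FK K N := algebraMap K (FK K N) ((algebraMap R K π)⁻¹ ^ n) with ha
  have hev : (C a * c).eval₂ (iF K N r) (jr K N r) = 0 := by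
    rw [eval₂_mul, h0, mul_zero]
  have := coeff_mem_gaussSub_of_eval₂ (R := R) hr hrN (C a * c)
    ((natDegree_C_mul_le _ _).trans hdeg) (by rw [hev]; exact zero_mem _)
    (by rw [hev, map_zero]; exact zero_mem _) i
  rw [coeff_C_mul, mem_gaussSub_iff] at this
  convert this using 1
  show _ = (a : LaurentSeries K) * _
  congr 1
  rw [ha]
  show _ = algebraMap K (LaurentSeries K) _
  rw [algebraMap_laurentSeries_eq_single, ← HahnSeries.C_apply, map_pow, map_inv₀]

/-- **(T0)** `1, j_r, …, j_r ^ r` span `F_K(N r)` over `F_K(N)` -/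
theorem exists_eval₂_jr_eq [CharZero K] (R : Type) [CommRing R] [IsDomain R]
    [IsDiscreteValuationRing R] [Algebra R K] [IsFractionRing R K]
    [CharP (IsLocalRing.ResidueField R) r] (hr : r.Prime) (hrN : ¬ r ∣ N)
    (hN : (N : IsLocalRing.ResidueField R) ≠ 0) (x : FK K (N * r)) :
    ∃ c : (FK K N)[X], c.natDegree ≤ r ∧ c.eval₂ (iF K N r) (jr K N r) = x := by
  classical
  letI : Algebra R (FK K N) := ((algebraMap K (FK K N)).comp (algebraMap R K)).toAlgebra
  haveI : IsScalarTower R K (FK K N) := IsScalarTower.of_algebraMap_eq fun _ => rfl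
  obtain ⟨π, hπ⟩ := IsDiscreteValuationRing.exists_irreducible R
  have hS := redSetup_of_dvr (K := K) hπ
  obtain ⟨b, hbF, hind⟩ := exists_basisR R K N hN
  have hψ : dedekindPsi (N * r) = dedekindPsi N * (r + 1) := by
    rw [S20lib.dedekindPsi_mul_prime_of_not_dvd (NeZero.ne N) hr hrN, mul_comm]
  let e : Fin (dedekindPsi (N * r)) ≃ Fin (dedekindPsi N) × Fin (r + 1) :=
    (finCongr hψ).trans finProdFinEquiv.symm
  let b' : Fin (dedekindPsi (N * r)) → LaurentSeries R :=
    fun i => b (e i).1 * jAd R r ^ ((e i).2 : ℕ)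
  have hb'F : ∀ i, coeffMap (algebraMap R K) (b' i) ∈ modularFunctionFieldFullC K (N * r) := by
    intro i
    apply FK_le_fullC K (N * r)
    rw [map_mul, map_pow, S28lib.coeffMap_jAd]
    exact mul_mem (FK_le K (dvd_mul_right N r) (hbF _))
      (pow_mem (jAd_mem_FK K (N * r) (dvd_mul_left r N)) _)
  obtain ⟨P, Q, hprim, hrel⟩ := exists_relR (N := N * r) hS b' hb'F (FK_le_fullC K (N * r) x.2)
  let cR : Fin (r + 1) → LaurentSeries R := fun k => ∑ l, evR (Q (e.symm (l, k))) * b l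
  let cF : Fin (r + 1) → FK K N :=
    fun k => ∑ l, aeval (J1 K N) (Q (e.symm (l, k))) * (⟨_, hbF l⟩ : FK K N)
  have hcF : ∀ k, ((cF k : FK K N) : LaurentSeries K) = coeffMap (algebraMap R K) (cR k) := by
    intro k
    rw [← IntermediateField.algebraMap_apply, map_sum, map_sum]
    refine Finset.sum_congr rfl fun l _ => ?_
    rw [map_mul, map_mul, ← coe_aeval_J1 (N := N)]
    rfl
  have hsum : ∑ i, evR (Q i) * b' i = ∑ k : Fin (r + 1), cR k * jAd R r ^ (k : ℕ) := by
    rw [Fintype.sum_equiv e (fun i => evR (Q i) * b' i)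
      (fun p => evR (Q (e.symm p)) * (b p.1 * jAd R r ^ (p.2 : ℕ)))
      (fun i => by simp only [b', Equiv.symm_apply_apply]), Fintype.sum_prod_type_right]
    refine Finset.sum_congr rfl fun k _ => ?_
    rw [Finset.sum_mul]
    refine Finset.sum_congr rfl fun l _ => ?_
    ring
  set c₀ : (FK K N)[X] := ∑ k : Fin (r + 1), C (cF k) * X ^ (k : ℕ) with hc₀
  have hdeg₀ : c₀.natDegree ≤ r := by
    refine natDegree_sum_le_of_forall_le _ _ fun k _ => ?_
    exact (natDegree_C_mul_X_pow_le _ _).trans (Nat.lt_succ_iff.1 k.2)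
  have hcoeff : ∀ k : Fin (r + 1), c₀.coeff (k : ℕ) = cF k := by
    intro k
    rw [hc₀, finsetSum_coeff, Finset.sum_eq_single k]
    · rw [coeff_C_mul_X_pow, if_pos rfl]
    · intro k' _ hk'
      rw [coeff_C_mul_X_pow, if_neg (fun h => hk' (Fin.ext h.symm))]
    · intro h; exact absurd (Finset.mem_univ k) h
  have hev : iF K N r (aeval (J1 K N) P) * x = c₀.eval₂ (iF K N r) (jr K N r) := by
    apply Subtype.ext
    rw [coe_eval₂_jr]
    show ((iF K N r (aeval (J1 K N) P) : FK K (N * r)) : LaurentSeries K) *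
      (x : LaurentSeries K) = _
    rw [coe_iF, coe_aeval_J1, hrel, hsum, hc₀, Polynomial.map_sum, eval_finsetSum, map_sum]
    refine Finset.sum_congr rfl fun k _ => ?_
    rw [Polynomial.map_mul, Polynomial.map_pow, map_X, map_C, eval_mul, eval_pow, eval_X, eval_C,
      map_mul, map_pow, S28lib.coeffMap_jAd, IntermediateField.algebraMap_apply, hcF]
  by_cases hP : P = 0
  · exfalso
    rw [hP, map_zero, map_zero, zero_mul] at hev
    have hc0 := eq_zero_of_eval₂_jr R hr hrN c₀ hdeg₀ hev.symm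
    obtain ⟨i, hi⟩ := hprim.resolve_left (by rw [hP, Polynomial.map_zero]; exact fun h => h rfl)
    have h1 : coeffMap (IsLocalRing.residue R) (cR (e i).2) ≠ 0 :=
      coeffMap_sum_ne_zero hind (Q := fun l => Q (e.symm (l, (e i).2)))
        ⟨(e i).1, by simpa using hi⟩
    apply h1
    have h2 : cF (e i).2 = 0 := by rw [← hcoeff, hc0, coeff_zero]
    have h3 : coeffMap (algebraMap R K) (cR (e i).2) = 0 := by
      rw [← hcF, h2]; rfl
    have h4 : cR (e i).2 = 0 :=
      S28lib.coeffMap_injective (IsFractionRing.injective R K) (by rw [h3, map_zero])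
    rw [h4, map_zero]
  · have hP0 : aeval (J1 K N) P ≠ 0 := fun h0 =>
      hP ((transcendental_iff.1 (transcendental_R_J1 R K N)) P h0)
    refine ⟨C (aeval (J1 K N) P)⁻¹ * c₀, (natDegree_C_mul_le _ _).trans hdeg₀, ?_⟩
    rw [eval₂_mul, eval₂_C, ← hev, ← mul_assoc, ← map_mul, inv_mul_cancel₀ hP0, map_one, one_mul]

/-- **(T0)+(T1)**, family form: `V_∞ ∩ V_0 = ⊕ gaussSub(N) j_r ^ i`. -/
theorem exists_gauss_coeffs [CharZero K] (hr : r.Prime) (hrN : ¬ r ∣ N)
    (hN : (N : IsLocalRing.ResidueField R) ≠ 0) (x : FK K (N * r))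
    (h1 : x ∈ gaussSub R K (N * r)) (h2 : wr K hr hrN x ∈ gaussSub R K (N * r)) :
    ∃ c : Fin (r + 1) → FK K N, (∀ i, c i ∈ gaussSub R K N) ∧
      x = ∑ i, inclF K (dvd_mul_right N r) (c i) *
        Jgen K (N * r) ⟨r, dvd_mul_left r N⟩ ^ (i : ℕ) := by
  obtain ⟨c, hdeg, rfl⟩ := exists_eval₂_jr_eq R hr hrN hN x
  refine ⟨fun i => c.coeff i, fun i => coeff_mem_gaussSub_of_eval₂ hr hrN c hdeg h1 h2 i, ?_⟩
  rw [eval₂_eq_sum_range' _ (Nat.lt_succ_of_le hdeg),
    ← Fin.sum_univ_eq_sum_range (fun i => iF K N r (c.coeff i) * jr K N r ^ i) (r + 1)]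
  refine Finset.sum_congr rfl fun i _ => ?_
  rw [iF_apply]

/-- family form of **(T0)** -/
theorem exists_coeffs [CharZero K] (R : Type) [CommRing R] [IsDomain R]
    [IsDiscreteValuationRing R] [Algebra R K] [IsFractionRing R K]
    [CharP (IsLocalRing.ResidueField R) r] (hr : r.Prime) (hrN : ¬ r ∣ N)
    (hN : (N : IsLocalRing.ResidueField R) ≠ 0) (x : FK K (N * r)) :
    ∃ c : Fin (r + 1) → FK K N,
      x = ∑ i, inclF K (dvd_mul_right N r) (c i) *
        Jgen K (N * r) ⟨r, dvd_mul_left r N⟩ ^ (i : ℕ) := by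
  obtain ⟨c, hdeg, rfl⟩ := exists_eval₂_jr_eq R hr hrN hN x
  refine ⟨fun i => c.coeff i, ?_⟩
  rw [eval₂_eq_sum_range' _ (Nat.lt_succ_of_le hdeg),
    ← Fin.sum_univ_eq_sum_range (fun i => iF K N r (c.coeff i) * jr K N r ^ i) (r + 1)]
  refine Finset.sum_congr rfl fun i _ => ?_
  rw [iF_apply]

end basis

end

end Fermat.Agent.UNIlib
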