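import Fermat.Agent.ES.C.AKDefs
import Fermat.Agent.ES.C.AK3Poly

/-!
# T-UNI, (Node): seminormality of the special fibre, abstract form

`B` = integral closure of `R[T]` in `F`; `V₁`, `V₂` the two valuation rings over the Gauss valuation;
`𝔭_i = B ∩ π V_i`; `J = 𝔭₁ + 𝔭₂` (the ideal of the nodes).

* `InJ.radical` : `J` is a radical ideal of `B` (from the twisted Frobenius congruence
  `β ≡ (ρ β)^q mod J`);
* `node_global` : an element of `C = V₁ ∩ V₂` which is integral modulo `π` over `B` and a power of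
  which lies in `J · (integral elements mod π)` is congruent modulo `π C` to an element of `B`;
* `node_local` : the same locally at a maximal ideal `𝔪 ∋ π` of `R[X]`: `rad(Õ) ⊆ Ō`.
-/

set_option autoImplicit false

open Polynomial

namespace Fermat.Agent.UNIlib

variable {R F : Type*} [CommRing R] [Field F] [Algebra R F]

/-- `β ∈ 𝔭₁ + 𝔭₂` -/
def InJ (π : R) (T : F) (V₁ V₂ : ValuationSubring F) (β : F) : Prop :=
  IsIntegral (Algebra.adjoin R {T}) β ∧ ∃ Y : F, IsIntegral (Algebra.adjoin R {T}) Y ∧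
    Y / algebraMap R F π ∈ V₂ ∧ (Y - β) / algebraMap R F π ∈ V₁

/-- `W` lies in `V` and is integral modulo `π V` over `B` -/
def IntV (π : R) (T : F) (V : ValuationSubring F) (W : F) : Prop :=
  W ∈ V ∧ ∃ p : F[X], p.Monic ∧ (∀ i, IsIntegral (Algebra.adjoin R {T}) (p.coeff i)) ∧
    p.eval W / algebraMap R F π ∈ V

/-- the hypotheses of the abstract (Node) -/
structure NodeHyp (π : R) (T : F) (V₁ V₂ : ValuationSubring F) (q : ℕ) (ρ : F →+* F) : Prop where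
  two_le : 2 ≤ q
  int_mem₁ : ∀ x, IsIntegral (Algebra.adjoin R {T}) x → x ∈ V₁
  int_mem₂ : ∀ x, IsIntegral (Algebra.adjoin R {T}) x → x ∈ V₂
  norm₁ : ∀ Z, IntV π T V₁ Z →
    ∃ x, IsIntegral (Algebra.adjoin R {T}) x ∧ (Z - x) / algebraMap R F π ∈ V₁
  norm₂ : ∀ Z, IntV π T V₂ Z →
    ∃ x, IsIntegral (Algebra.adjoin R {T}) x ∧ (Z - x) / algebraMap R F π ∈ V₂
  ρ_int : ∀ x, IsIntegral (Algebra.adjoin R {T}) x → IsIntegral (Algebra.adjoin R {T}) (ρ x)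
  ρ_V₁ : ∀ x, x / algebraMap R F π ∈ V₁ → ρ x / algebraMap R F π ∈ V₁
  ρ_V₂ : ∀ x, x / algebraMap R F π ∈ V₂ → ρ x / algebraMap R F π ∈ V₂
  ρ_poly : ∀ p : R[X], ∃ p' : R[X], ρ (aeval T p) = aeval T p'
  frob : ∀ x, IsIntegral (Algebra.adjoin R {T}) x → InJ π T V₁ V₂ (x - ρ x ^ q)

variable {π : R} {T : F} {V₁ V₂ : ValuationSubring F} {q : ℕ} {ρ : F →+* F}

namespace InJ

theorem isIntegral {β : F} (h : InJ π T V₁ V₂ β) : IsIntegral (Algebra.adjoin R {T}) β := h.1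

theorem add {β γ : F} (h : InJ π T V₁ V₂ β) (h' : InJ π T V₁ V₂ γ) : InJ π T V₁ V₂ (β + γ) := by
  obtain ⟨h1, Y, h2, h3, h4⟩ := h
  obtain ⟨h1', Y', h2', h3', h4'⟩ := h'
  refine ⟨h1.add h1', Y + Y', h2.add h2', ?_, ?_⟩
  · rw [add_div]; exact V₂.add_mem _ _ h3 h3'
  · rw [show Y + Y' - (β + γ) = (Y - β) + (Y' - γ) by ring, add_div]
    exact V₁.add_mem _ _ h4 h4'

theorem mul_left (H : NodeHyp π T V₁ V₂ q ρ) {b β : F} (hb : IsIntegral (Algebra.adjoin R {T}) b)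
    (h : InJ π T V₁ V₂ β) : InJ π T V₁ V₂ (b * β) := by
  obtain ⟨h1, Y, h2, h3, h4⟩ := h
  refine ⟨hb.mul h1, b * Y, hb.mul h2, ?_, ?_⟩
  · rw [mul_div_assoc]; exact V₂.mul_mem _ _ (H.int_mem₂ b hb) h3
  · rw [← mul_sub, mul_div_assoc]; exact V₁.mul_mem _ _ (H.int_mem₁ b hb) h4

theorem neg {β : F} (h : InJ π T V₁ V₂ β) : InJ π T V₁ V₂ (-β) := by
  obtain ⟨h1, Y, h2, h3, h4⟩ := h
  refine ⟨h1.neg, -Y, h2.neg, ?_, ?_⟩
  · rw [neg_div]; exact V₂.neg_mem _ h3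
  · rw [show -Y - -β = -(Y - β) by ring, neg_div]; exact V₁.neg_mem _ h4

theorem sub {β γ : F} (h : InJ π T V₁ V₂ β) (h' : InJ π T V₁ V₂ γ) : InJ π T V₁ V₂ (β - γ) := by
  rw [sub_eq_add_neg]; exact h.add h'.neg

theorem of_div_mem₁ {β : F} (hβ : IsIntegral (Algebra.adjoin R {T}) β)
    (h : β / algebraMap R F π ∈ V₁) : InJ π T V₁ V₂ β := by
  refine ⟨hβ, 0, isIntegral_zero, ?_, ?_⟩
  · rw [zero_div]; exact V₂.zero_mem
  · rw [zero_sub, neg_div]; exact V₁.neg_mem _ h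

theorem of_div_mem₂ {β : F} (hβ : IsIntegral (Algebra.adjoin R {T}) β)
    (h : β / algebraMap R F π ∈ V₂) : InJ π T V₁ V₂ β := by
  refine ⟨hβ, β, hβ, h, ?_⟩
  rw [sub_self, zero_div]; exact V₁.zero_mem

theorem map (H : NodeHyp π T V₁ V₂ q ρ) {β : F} (h : InJ π T V₁ V₂ β) : InJ π T V₁ V₂ (ρ β) := by
  obtain ⟨h1, Y, h2, h3, h4⟩ := h
  refine ⟨H.ρ_int _ h1, ρ Y, H.ρ_int _ h2, H.ρ_V₂ _ h3, ?_⟩
  rw [← map_sub]; exact H.ρ_V₁ _ h4

theorem map_iterate (H : NodeHyp π T V₁ V₂ q ρ) {β : F} (h : InJ π T V₁ V₂ β) (a : ℕ) :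
    InJ π T V₁ V₂ (ρ^[a] β) := by
  induction a with
  | zero => exact h
  | succ a ih => rw [Function.iterate_succ_apply']; exact ih.map H

theorem pow_sub_pow (H : NodeHyp π T V₁ V₂ q ρ) {u v : F}
    (hu : IsIntegral (Algebra.adjoin R {T}) u) (hv : IsIntegral (Algebra.adjoin R {T}) v)
    (h : InJ π T V₁ V₂ (u - v)) (n : ℕ) : InJ π T V₁ V₂ (u ^ n - v ^ n) := by
  rw [← Commute.geom_sum₂_mul (Commute.all u v) n]
  refine h.mul_left H (IsIntegral.sum _ fun i _ => (hu.pow _).mul (hv.pow _))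

end InJ

theorem isIntegral_iterate (H : NodeHyp π T V₁ V₂ q ρ) {x : F}
    (hx : IsIntegral (Algebra.adjoin R {T}) x) (a : ℕ) :
    IsIntegral (Algebra.adjoin R {T}) (ρ^[a] x) := by
  induction a with
  | zero => exact hx
  | succ a ih => rw [Function.iterate_succ_apply']; exact H.ρ_int _ ih

/-- `x ≡ (ρ^a x)^(q^a) mod J` -/
theorem InJ.sub_iterate_pow (H : NodeHyp π T V₁ V₂ q ρ) {x : F}
    (hx : IsIntegral (Algebra.adjoin R {T}) x) (a : ℕ) :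
    InJ π T V₁ V₂ (x - (ρ^[a] x) ^ (q ^ a)) := by
  induction a with
  | zero =>
    simp only [Function.iterate_zero, id_eq, pow_zero, pow_one, sub_self]
    exact InJ.of_div_mem₁ isIntegral_zero (by rw [zero_div]; exact V₁.zero_mem)
  | succ a ih =>
    have h1 := H.frob _ (isIntegral_iterate H hx a)
    have h2 := InJ.pow_sub_pow H (isIntegral_iterate H hx a)
      ((H.ρ_int _ (isIntegral_iterate H hx a)).pow q) h1 (q ^ a)
    have h3 := ih.add h2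
    rw [Function.iterate_succ_apply', pow_succ, pow_mul']
    convert h3 using 1
    ring

/-- **`J = 𝔭₁ + 𝔭₂` is a radical ideal of `B`.** -/
theorem InJ.radical (H : NodeHyp π T V₁ V₂ q ρ) {x : F}
    (hx : IsIntegral (Algebra.adjoin R {T}) x) {k : ℕ} (h : InJ π T V₁ V₂ (x ^ k)) :
    InJ π T V₁ V₂ x := by
  have hk : k ≤ q ^ k := (Nat.lt_pow_self (by have := H.two_le; omega)).le
  have h1 : InJ π T V₁ V₂ ((ρ^[k] x) ^ k) := by
    have := h.map_iterate H k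
    rwa [iterate_map_pow] at this
  have h2 : InJ π T V₁ V₂ ((ρ^[k] x) ^ (q ^ k)) := by
    obtain ⟨d, hd⟩ := Nat.exists_eq_add_of_le hk
    rw [hd, pow_add, mul_comm]
    exact h1.mul_left H ((isIntegral_iterate H hx k).pow d)
  have h3 := (InJ.sub_iterate_pow H hx k).add h2
  rwa [sub_add_cancel] at h3

theorem pow_sub_pow_div_mem (V : ValuationSubring F) (ϖ : F) {u v : F} (hu : u ∈ V) (hv : v ∈ V)
    (h : (u - v) / ϖ ∈ V) (n : ℕ) : (u ^ n - v ^ n) / ϖ ∈ V := by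
  rw [← Commute.geom_sum₂_mul (Commute.all u v) n, mul_div_assoc]
  refine V.mul_mem _ _ (V.toSubring.sum_mem fun i _ => ?_) h
  exact V.mul_mem _ _ (V.toSubring.pow_mem hu _) (V.toSubring.pow_mem hv _)

/-- **(Node), global form.** -/
theorem node_global (H : NodeHyp π T V₁ V₂ q ρ) {Z Y c : F} {k : ℕ}
    (hZ₁ : IntV π T V₁ Z) (hZ₂ : IntV π T V₂ Z) (hY₁ : IntV π T V₁ Y) (hY₂ : IntV π T V₂ Y)
    (hc : InJ π T V₁ V₂ c) (h₁ : (Z ^ k - c * Y) / algebraMap R F π ∈ V₁)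
    (h₂ : (Z ^ k - c * Y) / algebraMap R F π ∈ V₂) :
    ∃ e, IsIntegral (Algebra.adjoin R {T}) e ∧ (Z - e) / algebraMap R F π ∈ V₁ ∧
      (Z - e) / algebraMap R F π ∈ V₂ := by
  obtain ⟨x₁, hx₁, hx₁'⟩ := H.norm₁ Z hZ₁
  obtain ⟨x₂, hx₂, hx₂'⟩ := H.norm₂ Z hZ₂
  obtain ⟨y₁, hy₁, hy₁'⟩ := H.norm₁ Y hY₁
  obtain ⟨y₂, hy₂, hy₂'⟩ := H.norm₂ Y hY₂
  set ϖ := algebraMap R F π with hϖ
  have j₁ : InJ π T V₁ V₂ x₁ := by
    apply InJ.radical H hx₁ (k := k)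
    have e1 : InJ π T V₁ V₂ (x₁ ^ k - c * y₁) := by
      apply InJ.of_div_mem₁ ((hx₁.pow k).sub (hc.isIntegral.mul hy₁))
      have : (x₁ ^ k - c * y₁) / ϖ =
          -((Z ^ k - x₁ ^ k) / ϖ) + (Z ^ k - c * Y) / ϖ + c * ((Y - y₁) / ϖ) := by
        ring
      rw [this]
      refine V₁.add_mem _ _ (V₁.add_mem _ _ (V₁.neg_mem _ ?_) h₁)
        (V₁.mul_mem _ _ (H.int_mem₁ _ hc.isIntegral) hy₁')
      exact pow_sub_pow_div_mem V₁ ϖ hZ₁.1 (H.int_mem₁ _ hx₁) hx₁' k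
    have e0 : InJ π T V₁ V₂ (c * y₁) := by rw [mul_comm]; exact hc.mul_left H hy₁
    have e2 := e1.add e0
    rwa [sub_add_cancel] at e2
  have j₂ : InJ π T V₁ V₂ x₂ := by
    apply InJ.radical H hx₂ (k := k)
    have e1 : InJ π T V₁ V₂ (x₂ ^ k - c * y₂) := by
      apply InJ.of_div_mem₂ ((hx₂.pow k).sub (hc.isIntegral.mul hy₂))
      have : (x₂ ^ k - c * y₂) / ϖ =
          -((Z ^ k - x₂ ^ k) / ϖ) + (Z ^ k - c * Y) / ϖ + c * ((Y - y₂) / ϖ) := by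
        ring
      rw [this]
      refine V₂.add_mem _ _ (V₂.add_mem _ _ (V₂.neg_mem _ ?_) h₂)
        (V₂.mul_mem _ _ (H.int_mem₂ _ hc.isIntegral) hy₂')
      exact pow_sub_pow_div_mem V₂ ϖ hZ₂.1 (H.int_mem₂ _ hx₂) hx₂' k
    have e0 : InJ π T V₁ V₂ (c * y₂) := by rw [mul_comm]; exact hc.mul_left H hy₂
    have e2 := e1.add e0
    rwa [sub_add_cancel] at e2
  obtain ⟨-, Y₀, hY₀, hY₀₂, hY₀₁⟩ := j₁.sub j₂
  refine ⟨x₂ + Y₀, hx₂.add hY₀, ?_, ?_⟩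
  · have : (Z - (x₂ + Y₀)) / ϖ = (Z - x₁) / ϖ - (Y₀ - (x₁ - x₂)) / ϖ := by ring
    rw [this]
    exact V₁.toSubring.sub_mem hx₁' hY₀₁
  · have : (Z - (x₂ + Y₀)) / ϖ = (Z - x₂) / ϖ - Y₀ / ϖ := by ring
    rw [this]
    exact V₂.toSubring.sub_mem hx₂' hY₀₂

theorem isIntegral_aeval_adjoin' (T : F) (p : R[X]) :
    IsIntegral (Algebra.adjoin R {T}) (aeval T p) := by
  have hmem : aeval T p ∈ Algebra.adjoin R {T} := by
    rw [Algebra.adjoin_singleton_eq_range_aeval]; exact ⟨p, rfl⟩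
  exact isIntegral_algebraMap (R := Algebra.adjoin R {T}) (x := ⟨_, hmem⟩)

theorem IntV.mul_left {V : ValuationSubring F}
    (hV : ∀ x, IsIntegral (Algebra.adjoin R {T}) x → x ∈ V) {b W : F}
    (hb : IsIntegral (Algebra.adjoin R {T}) b) (h : IntV π T V W) : IntV π T V (b * W) := by
  obtain ⟨hW, p, hp, hc, hpW⟩ := h
  refine ⟨V.mul_mem _ _ (hV b hb) hW, p.scaleRoots b, (monic_scaleRoots_iff b).2 hp, fun i => ?_, ?_⟩
  · rw [coeff_scaleRoots]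
    exact (hc i).mul (hb.pow _)
  · have h1 := scaleRoots_eval₂_mul (RingHom.id F) W b (p := p)
    simp only [RingHom.id_apply, eval₂_id] at h1
    rw [h1, mul_div_assoc]
    exact V.mul_mem _ _ (V.toSubring.pow_mem (hV b hb) _) hpW

theorem InJ.unif_mul (H : NodeHyp π T V₁ V₂ q ρ) {b : F}
    (hb : IsIntegral (Algebra.adjoin R {T}) b) : InJ π T V₁ V₂ (algebraMap R F π * b) := by
  have hϖ : IsIntegral (Algebra.adjoin R {T}) (algebraMap R F π) := by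
    have := isIntegral_aeval_adjoin' (R := R) T (C π)
    rwa [aeval_C] at this
  apply InJ.of_div_mem₁ (hϖ.mul hb)
  by_cases h0 : algebraMap R F π = 0
  · rw [h0, div_zero]; exact V₁.zero_mem
  · rw [mul_div_cancel_left₀ _ h0]; exact H.int_mem₁ _ hb

section local_

variable [IsDomain R] [IsDiscreteValuationRing R]

/-- every maximal ideal `𝔪 ∋ π` of `R[X]` is, locally at `𝔪`, contained in `J` -/
theorem exists_mul_inJ (H : NodeHyp π T V₁ V₂ q ρ) (hπ : Irreducible π) (𝔪 : Ideal R[X])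
    (h𝔪 : 𝔪.IsMaximal) (hπ𝔪 : C π ∈ 𝔪) :
    ∃ a₀ : R[X], a₀ ∉ 𝔪 ∧ ∀ s ∈ 𝔪, InJ π T V₁ V₂ (aeval T (a₀ * s)) := by
  obtain ⟨g₀, h𝔪eq, -⟩ := ESlib.exists_maximal_eq_span_pair hπ 𝔪 h𝔪 hπ𝔪
  have hg₀ : g₀ ∈ 𝔪 := by rw [h𝔪eq]; exact Ideal.subset_span (by simp)
  obtain ⟨g', hg'⟩ := H.ρ_poly g₀
  have hq := H.two_le
  have hc₀ : InJ π T V₁ V₂ (aeval T (g₀ - g' ^ q)) := by
    have := H.frob (aeval T g₀) (isIntegral_aeval_adjoin' T g₀)
    rw [hg'] at this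
    rwa [map_sub, map_pow]
  have key : ∃ a₀ : R[X], a₀ ∉ 𝔪 ∧ InJ π T V₁ V₂ (aeval T (a₀ * g₀)) := by
    by_cases hg : g' ∈ 𝔪
    · rw [h𝔪eq, Ideal.mem_span_pair] at hg
      obtain ⟨α, β, hαβ⟩ := hg
      obtain ⟨δ, hδ⟩ : g' - β * g₀ ∣ g' ^ q - (β * g₀) ^ q := sub_dvd_pow_sub_pow _ _ _
      have h1 : g' - β * g₀ = α * C π := by rw [← hαβ]; ring
      rw [h1] at hδ
      refine ⟨1 - β ^ q * g₀ ^ (q - 1), fun hmem => ?_, ?_⟩
      · apply h𝔪.ne_top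
        rw [Ideal.eq_top_iff_one]
        have h2 : β ^ q * g₀ ^ (q - 1) ∈ 𝔪 :=
          𝔪.mul_mem_left _ (𝔪.pow_mem_of_mem hg₀ _ (by omega))
        have := 𝔪.add_mem hmem h2
        rwa [sub_add_cancel] at this
      · have h2 : (1 - β ^ q * g₀ ^ (q - 1)) * g₀ = (g₀ - g' ^ q) + C π * (α * δ) := by
          have h3 : g₀ ^ (q - 1) * g₀ = g₀ ^ q := by
            rw [← pow_succ]; congr 1; omega
          have h4 : (β * g₀) ^ q = g' ^ q - α * C π * δ := by rw [← hδ]; ring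
          calc (1 - β ^ q * g₀ ^ (q - 1)) * g₀ = g₀ - β ^ q * (g₀ ^ (q - 1) * g₀) := by ring
            _ = g₀ - (β * g₀) ^ q := by rw [h3, mul_pow]
            _ = _ := by rw [h4]; ring
        rw [h2, map_add, map_mul, aeval_C]
        exact hc₀.add (InJ.unif_mul H (isIntegral_aeval_adjoin' T _))
    · refine ⟨g₀ - g' ^ q, fun hmem => hg ?_, ?_⟩
      · have h2 : g' ^ q ∈ 𝔪 := by
          have := 𝔪.sub_mem hg₀ hmem
          rwa [sub_sub_cancel] at this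
        exact h𝔪.isPrime.mem_of_pow_mem _ h2
      · rw [mul_comm, map_mul]
        exact hc₀.mul_left H (isIntegral_aeval_adjoin' T _)
  obtain ⟨a₀, ha₀, hJ⟩ := key
  refine ⟨a₀, ha₀, fun s hs => ?_⟩
  rw [h𝔪eq, Ideal.mem_span_pair] at hs
  obtain ⟨α, β, rfl⟩ := hs
  have : a₀ * (α * C π + β * g₀) = C π * (a₀ * α) + β * (a₀ * g₀) := by ring
  rw [this, map_add, map_mul, aeval_C, map_mul (aeval T) β]
  exact (InJ.unif_mul H (isIntegral_aeval_adjoin' T _)).add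
    (hJ.mul_left H (isIntegral_aeval_adjoin' T _))

/-- **(Node), local form at a maximal ideal `𝔪 ∋ π` of `R[X]`: `rad(Õ) ⊆ Ō`.** -/
theorem node_local (H : NodeHyp π T V₁ V₂ q ρ) (hπ : Irreducible π) (𝔪 : Ideal R[X])
    (h𝔪 : 𝔪.IsMaximal) (hπ𝔪 : C π ∈ 𝔪) {Z Y : F} {k : ℕ} (hk : 0 < k) {s : R[X]} (hs : s ∈ 𝔪)
    (hZ : ∃ u : R[X], u ∉ 𝔪 ∧ IntV π T V₁ (aeval T u * Z) ∧ IntV π T V₂ (aeval T u * Z))
    (hY : ∃ u : R[X], u ∉ 𝔪 ∧ IntV π T V₁ (aeval T u * Y) ∧ IntV π T V₂ (aeval T u * Y))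
    (h₁ : (Z ^ k - aeval T s * Y) / algebraMap R F π ∈ V₁)
    (h₂ : (Z ^ k - aeval T s * Y) / algebraMap R F π ∈ V₂) :
    ∃ a : R[X], a ∉ 𝔪 ∧ ∃ e, IsIntegral (Algebra.adjoin R {T}) e ∧
      (aeval T a * Z - e) / algebraMap R F π ∈ V₁ ∧
      (aeval T a * Z - e) / algebraMap R F π ∈ V₂ := by
  obtain ⟨a₀, ha₀, hJ⟩ := exists_mul_inJ H hπ 𝔪 h𝔪 hπ𝔪
  obtain ⟨u, hu, hZ₁, hZ₂⟩ := hZ
  obtain ⟨u', hu', hY₁, hY₂⟩ := hY
  obtain ⟨n, rfl⟩ : ∃ n, k = n + 1 := ⟨k - 1, by omega⟩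
  have hprime := h𝔪.isPrime
  refine ⟨a₀ * u' * u, fun hmem => ?_, ?_⟩
  · rcases hprime.mem_or_mem hmem with h | h
    · rcases hprime.mem_or_mem h with h | h
      · exact ha₀ h
      · exact hu' h
    · exact hu h
  have eW : aeval T (a₀ * u' * u) * Z = aeval T (a₀ * u') * (aeval T u * Z) := by
    rw [map_mul (aeval T) (a₀ * u')]; ring
  have eD : (aeval T (a₀ * u' * u) * Z) ^ (n + 1) -
      aeval T (a₀ * s) * (aeval T (a₀ ^ n * u ^ (n + 1) * u' ^ n) * (aeval T u' * Y)) =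
      aeval T (a₀ * u' * u) ^ (n + 1) * (Z ^ (n + 1) - aeval T s * Y) := by
    simp only [map_mul, map_pow]
    ring
  refine node_global H (Y := aeval T (a₀ ^ n * u ^ (n + 1) * u' ^ n) * (aeval T u' * Y))
    (c := aeval T (a₀ * s)) (k := n + 1) ?_ ?_ ?_ ?_ (hJ s hs) ?_ ?_
  · rw [eW]; exact hZ₁.mul_left H.int_mem₁ (isIntegral_aeval_adjoin' T _)
  · rw [eW]; exact hZ₂.mul_left H.int_mem₂ (isIntegral_aeval_adjoin' T _)
  · exact hY₁.mul_left H.int_mem₁ (isIntegral_aeval_adjoin' T _)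
  · exact hY₂.mul_left H.int_mem₂ (isIntegral_aeval_adjoin' T _)
  · rw [eD, mul_div_assoc]
    exact V₁.mul_mem _ _ (H.int_mem₁ _ ((isIntegral_aeval_adjoin' T _).pow _)) h₁
  · rw [eD, mul_div_assoc]
    exact V₂.mul_mem _ _ (H.int_mem₂ _ ((isIntegral_aeval_adjoin' T _).pow _)) h₂

end local_

end Fermat.Agent.UNIlib
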