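import Mathlib

/-!
# T-UNI, glue row GL2 (U2a): weak approximation for two valuation rings and normalisation

Abstract form (Mathlib only).  `F` a field, `V₁ V₂` two subrings (in the application the two
valuation rings `V_∞`, `V_0` over the Gauss valuation), `π ∈ F`, `e₀` with `e₀ ≡ 1 mod π V₁`,
`e₀ ≡ 0 mod π V₂`.  Congruences are written in the element form `(x - 1) / π ∈ V`.

* `exists_approx` : for `x₁ x₂ ≠ 0` there is `S ≠ 0` with `S / x₁ ≡ 1 mod π V₁`, `S / x₂ ≡ 1 mod π V₂`;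
* `exists_normalise` : if `f ψ₁ ^ m / c ≡ 1 mod π V₁` and `f ψ₂ ^ m / c ≡ 1 mod π V₂` then
  `g = f S ^ m / c` is `≡ 1` modulo `π` in both rings.
-/

set_option autoImplicit false

namespace Fermat.Agent.UNIlib

namespace Normalise

variable {F : Type*} [Field F]

/-- `x ≡ 1 mod π V` -/
def OneMod (V : Subring F) (π x : F) : Prop := (x - 1) / π ∈ V

theorem OneMod.one (V : Subring F) (π : F) : OneMod V π 1 := by
  simp [OneMod, V.zero_mem]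

theorem oneMod_iff {V : Subring F} {π x : F} (hπ : π ≠ 0) :
    OneMod V π x ↔ ∃ z ∈ V, x = 1 + π * z := by
  constructor
  · intro h
    exact ⟨_, h, by field_simp; ring⟩
  · rintro ⟨z, hz, rfl⟩
    have : (1 + π * z - 1) / π = z := by field_simp; ring
    rw [OneMod, this]
    exact hz

theorem OneMod.mul {V : Subring F} {π x y : F} (hπ : π ≠ 0) (hπV : π ∈ V) (hx : OneMod V π x)
    (hy : OneMod V π y) : OneMod V π (x * y) := by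
  obtain ⟨a, ha, rfl⟩ := (oneMod_iff hπ).1 hx
  obtain ⟨b, hb, rfl⟩ := (oneMod_iff hπ).1 hy
  exact (oneMod_iff hπ).2 ⟨a + b + π * (a * b),
    V.add_mem (V.add_mem ha hb) (V.mul_mem hπV (V.mul_mem ha hb)), by ring⟩

theorem OneMod.pow {V : Subring F} {π x : F} (hπ : π ≠ 0) (hπV : π ∈ V) (hx : OneMod V π x)
    (n : ℕ) : OneMod V π (x ^ n) := by
  induction n with
  | zero => rw [pow_zero]; exact OneMod.one V π
  | succ n ih => rw [pow_succ]; exact ih.mul hπ hπV hx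

theorem OneMod.ne_zero {V : Subring F} {π x : F} (hπV : π⁻¹ ∉ V)
    (hx : OneMod V π x) : x ≠ 0 := by
  rintro rfl
  apply hπV
  have : ((0 : F) - 1) / π = -π⁻¹ := by rw [zero_sub, neg_div, one_div]
  rw [OneMod, this] at hx
  simpa using V.neg_mem hx

/-- `1 - (1 - e ^ k) ^ k` -/
def sharp (e : F) (k : ℕ) : F := 1 - (1 - e ^ k) ^ k

/-- if `e ∈ π V` then `sharp e k ∈ π ^ k V` -/
theorem sharp_mem_of_zero {V : Subring F} {π e : F} (hπV : π ∈ V)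
    (he : ∃ z ∈ V, e = π * z) (k : ℕ) : ∃ z ∈ V, sharp e k = π ^ k * z := by
  obtain ⟨z, hz, rfl⟩ := he
  -- `1 - (1 - w) ^ k` is divisible by `w`
  have key : ∀ (w : F), w ∈ V → ∀ n : ℕ, ∃ y ∈ V, 1 - (1 - w) ^ n = w * y := by
    intro w hw n
    induction n with
    | zero => exact ⟨0, V.zero_mem, by simp⟩
    | succ n ih =>
      obtain ⟨y, hy, h⟩ := ih
      refine ⟨y + (1 - w) ^ n, V.add_mem hy (V.pow_mem (V.sub_mem V.one_mem hw) n), ?_⟩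
      rw [pow_succ]
      linear_combination h
  obtain ⟨y, hy, h⟩ := key ((π * z) ^ k) (V.pow_mem (V.mul_mem hπV hz) k) k
  refine ⟨z ^ k * y, V.mul_mem (V.pow_mem hz k) hy, ?_⟩
  rw [sharp, h, mul_pow]
  ring

/-- if `e ∈ 1 + π V` then `1 - sharp e k ∈ π ^ k V` -/
theorem one_sub_sharp_mem_of_one {V : Subring F} {π e : F} (hπV : π ∈ V)
    (he : ∃ z ∈ V, e = 1 + π * z) (k : ℕ) : ∃ z ∈ V, 1 - sharp e k = π ^ k * z := by
  obtain ⟨z, hz, rfl⟩ := he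
  have key : ∀ n : ℕ, ∃ y ∈ V, 1 - (1 + π * z) ^ n = π * y := by
    intro n
    induction n with
    | zero => exact ⟨0, V.zero_mem, by simp⟩
    | succ n ih =>
      obtain ⟨y, hy, h⟩ := ih
      refine ⟨y - z * (1 + π * z) ^ n,
        V.sub_mem hy (V.mul_mem hz (V.pow_mem (V.add_mem V.one_mem (V.mul_mem hπV hz)) n)), ?_⟩
      rw [pow_succ]
      linear_combination h
  obtain ⟨y, hy, h⟩ := key k
  refine ⟨y ^ k, V.pow_mem hy k, ?_⟩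
  rw [sharp, h, mul_pow]
  ring

/-- **Weak approximation.** -/
theorem exists_approx {V₁ V₂ : Subring F} {π : F} (hπ : π ≠ 0) (hπ₁ : π ∈ V₁) (hπ₂ : π ∈ V₂)
    (hn₁ : π⁻¹ ∉ V₁)
    (harch₁ : ∀ z : F, ∃ k : ℕ, π ^ k * z ∈ V₁) (harch₂ : ∀ z : F, ∃ k : ℕ, π ^ k * z ∈ V₂)
    {e₀ : F} (he₁ : OneMod V₁ π e₀) (he₂ : e₀ / π ∈ V₂) {x₁ x₂ : F} (hx₁ : x₁ ≠ 0) (hx₂ : x₂ ≠ 0) :
    ∃ S : F, S ≠ 0 ∧ OneMod V₁ π (S / x₁) ∧ OneMod V₂ π (S / x₂) := by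
  obtain ⟨k₁, hk₁⟩ := harch₁ (x₂ / x₁ - 1)
  obtain ⟨k₂, hk₂⟩ := harch₂ (x₁ / x₂ - 1)
  set k := k₁ + k₂ + 1 with hk
  obtain ⟨a, ha, hEa⟩ := one_sub_sharp_mem_of_one hπ₁ ((oneMod_iff hπ).1 he₁) k
  obtain ⟨b, hb, hEb⟩ := sharp_mem_of_zero (e := e₀) hπ₂
    ⟨e₀ / π, he₂, (mul_div_cancel₀ e₀ hπ).symm⟩ k
  set E := sharp e₀ k with hE
  have h1 : OneMod V₁ π ((E * x₁ + (1 - E) * x₂) / x₁) := by
    refine (oneMod_iff hπ).2 ⟨π ^ k₂ * a * (π ^ k₁ * (x₂ / x₁ - 1)),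
      V₁.mul_mem (V₁.mul_mem (V₁.pow_mem hπ₁ k₂) ha) hk₁, ?_⟩
    have : (E * x₁ + (1 - E) * x₂) / x₁ = 1 + (1 - E) * (x₂ / x₁ - 1) := by
      field_simp
      ring
    rw [this, hEa, hk]
    ring
  have h2 : OneMod V₂ π ((E * x₁ + (1 - E) * x₂) / x₂) := by
    refine (oneMod_iff hπ).2 ⟨π ^ k₁ * b * (π ^ k₂ * (x₁ / x₂ - 1)),
      V₂.mul_mem (V₂.mul_mem (V₂.pow_mem hπ₂ k₁) hb) hk₂, ?_⟩
    have : (E * x₁ + (1 - E) * x₂) / x₂ = 1 + E * (x₁ / x₂ - 1) := by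
      field_simp
      ring
    rw [this, hEb, hk]
    ring
  refine ⟨E * x₁ + (1 - E) * x₂, ?_, h1, h2⟩
  intro h0
  rw [h0, zero_div] at h1
  exact h1.ne_zero hn₁ rfl

/-- **Normalisation.** -/
theorem exists_normalise {V₁ V₂ : Subring F} {π : F} (hπ : π ≠ 0) (hπ₁ : π ∈ V₁) (hπ₂ : π ∈ V₂)
    (hn₁ : π⁻¹ ∉ V₁)
    (harch₁ : ∀ z : F, ∃ k : ℕ, π ^ k * z ∈ V₁) (harch₂ : ∀ z : F, ∃ k : ℕ, π ^ k * z ∈ V₂)
    {e₀ : F} (he₁ : OneMod V₁ π e₀) (he₂ : e₀ / π ∈ V₂) (m : ℕ) {f ψ₁ ψ₂ c : F}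
    (hψ₁ : ψ₁ ≠ 0) (hψ₂ : ψ₂ ≠ 0)
    (h₁ : OneMod V₁ π (f * ψ₁ ^ m / c)) (h₂ : OneMod V₂ π (f * ψ₂ ^ m / c)) :
    ∃ S : F, S ≠ 0 ∧ OneMod V₁ π (f * S ^ m / c) ∧ OneMod V₂ π (f * S ^ m / c) := by
  obtain ⟨S, hS, hS₁, hS₂⟩ := exists_approx hπ hπ₁ hπ₂ hn₁ harch₁ harch₂ he₁ he₂ hψ₁ hψ₂
  refine ⟨S, hS, ?_, ?_⟩
  · have : f * S ^ m / c = f * ψ₁ ^ m / c * (S / ψ₁) ^ m := by
      rw [div_pow, div_mul_div_comm, mul_assoc f, mul_comm (ψ₁ ^ m), ← mul_assoc f,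
        mul_div_mul_right _ _ (pow_ne_zero m hψ₁)]
    rw [this]
    exact h₁.mul hπ hπ₁ (hS₁.pow hπ hπ₁ m)
  · have : f * S ^ m / c = f * ψ₂ ^ m / c * (S / ψ₂) ^ m := by
      rw [div_pow, div_mul_div_comm, mul_assoc f, mul_comm (ψ₂ ^ m), ← mul_assoc f,
        mul_div_mul_right _ _ (pow_ne_zero m hψ₂)]
    rw [this]
    exact h₂.mul hπ hπ₂ (hS₂.pow hπ hπ₂ m)

end Normalise

end Fermat.Agent.UNIlib
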