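import Fermat.Agent.UNI.AL
import Fermat.Agent.UNI.GaussVal
import Fermat.Agent.ES.M.NumField
import Fermat.Agent.ES.M.Base
import Fermat.Agent.ES.E.Main

/-!
# T-UNI, modular side (MOD5): the coefficientwise Galois action on `F_K(N)`, `K / ℚ` a normal
number field inside `ℚ̄`

* `galK K N σ : FK K N ≃+* FK K N` for `σ : Gal(ℚ̄ / ℚ)`;
* compatibility with the base change `bc`, the constants, the generators `Jgen`, the Hauptmodul
  `tF`, the Atkin–Lehner involution `wr`;
* `σ` in the decomposition group of `A`: `galK` preserves the Gauss ring `gaussSub (RA A K) K N`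
  and its `wr`-conjugate;
* `σ` in the inertia group: `galK σ x ≡ x` modulo `π`;
* `σ` a Frobenius element: the reduction of `galK σ x` is the coefficientwise Frobenius of the
  reduction of `x`.
-/

set_option autoImplicit false
set_option linter.unusedSectionVars false

open ModularCurve
open scoped Pointwise

namespace Fermat.Agent.UNIlib

open Fermat.Agent.ESlib
open Fermat.Agent.S28lib (RedSetup)
open Fermat.Agent.S24lib (Dv Kb)

noncomputable section

/-! ### abstract part: semilinear maps and `LamR` -/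

section abstract

variable {R K κ : Type*} [CommRing R] [Field K] [Field κ] {ι : R →+* K} {ρ : R →+* κ}

theorem coeffMap_comm_of_compat {R S : Type*} [CommRing R] [CommRing S] {f : R →+* S}
    (sR : R →+* R) (sS : S →+* S) (h : ∀ a, f (sR a) = sS (f a)) (y : LaurentSeries R) :
    coeffMap f (coeffMap sR y) = coeffMap sS (coeffMap f y) := by
  rw [coeffMap_coeffMap, coeffMap_coeffMap]
  exact coeffMap_congr (RingHom.ext h) y

/-- a compatible triple of endomorphisms of `R`, `K`, `κ` preserves `LamR` -/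
theorem coeffMap_mem_LamR_of_compat (sR : R →+* R) (sK : K →+* K) (sκ : κ →+* κ)
    (h1 : ∀ a, ι (sR a) = sK (ι a)) (h2 : ∀ a, ρ (sR a) = sκ (ρ a)) {x : LaurentSeries K}
    (hx : x ∈ LamR ι ρ) : coeffMap sK x ∈ LamR ι ρ := by
  obtain ⟨s, y, hs, h⟩ := hx
  refine ⟨coeffMap sR s, coeffMap sR y, ?_, ?_⟩
  · rw [coeffMap_comm_of_compat sR sκ h2]
    exact fun h0 => hs (S28lib.coeffMap_injective sκ.injective (by rw [h0, map_zero]))
  · rw [coeffMap_comm_of_compat sR sK h1, coeffMap_comm_of_compat sR sK h1, ← map_mul, h]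

/-- ... and is compatible with the reduction map -/
theorem redR_coeffMap_of_compat (hι : Function.Injective ι) (sR : R →+* R) (sK : K →+* K)
    (sκ : κ →+* κ) (h1 : ∀ a, ι (sR a) = sK (ι a)) (h2 : ∀ a, ρ (sR a) = sκ (ρ a))
    (x : LamR ι ρ) :
    redR hι (⟨coeffMap sK x, coeffMap_mem_LamR_of_compat sR sK sκ h1 h2 x.2⟩ : LamR ι ρ) =
      coeffMap sκ (redR hι x) := by
  obtain ⟨s, y, hs, h⟩ := x.2
  have hs' : coeffMap ρ (coeffMap sR s) ≠ 0 := by
    rw [coeffMap_comm_of_compat sR sκ h2]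
    exact fun h0 => hs (S28lib.coeffMap_injective sκ.injective (by rw [h0, map_zero]))
  rw [redR_eq hι x hs h, redR_eq hι _ (s := coeffMap sR s) (y := coeffMap sR y) hs' (by
    rw [coeffMap_comm_of_compat sR sK h1, coeffMap_comm_of_compat sR sK h1, ← map_mul, h]),
    coeffMap_comm_of_compat sR sκ h2, coeffMap_comm_of_compat sR sκ h2, map_div₀]

end abstract

/-! ### the action on `F_K(N)` -/

section galK

variable (K : IntermediateField ℚ Kb) [Normal ℚ K] (N : ℕ)

/-- the restriction of `σ` to `K` -/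
abbrev resK (σ : Kb ≃ₐ[ℚ] Kb) : K ≃ₐ[ℚ] K := σ.restrictNormal K

theorem algebraMap_resK (σ : Kb ≃ₐ[ℚ] Kb) (a : K) :
    algebraMap K Kb (resK K σ a) = σ (algebraMap K Kb a) :=
  AlgEquiv.restrictNormal_commutes σ K a

theorem coe_resK (σ : Kb ≃ₐ[ℚ] Kb) (a : K) : ((resK K σ a : K) : Kb) = σ (a : Kb) :=
  algebraMap_resK K σ a

theorem resK_one : resK K 1 = 1 := by
  ext a
  exact coe_resK K 1 a

theorem resK_mul (σ τ : Kb ≃ₐ[ℚ] Kb) : resK K (σ * τ) = resK K σ * resK K τ := by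
  ext a
  rw [coe_resK, AlgEquiv.mul_apply, AlgEquiv.mul_apply, coe_resK, coe_resK]

/-- **the coefficientwise Galois action on `F_K(N)`** -/
def galK (σ : Kb ≃ₐ[ℚ] Kb) : FK K N ≃+* FK K N :=
  arithmeticRingAut (modularFunctionFieldFull N) (resK K σ)

theorem coe_galK (σ : Kb ≃ₐ[ℚ] Kb) (x : FK K N) :
    ((galK K N σ x : FK K N) : LaurentSeries K) =
      coeffMap ((resK K σ : K ≃ₐ[ℚ] K) : K →+* K) (x : LaurentSeries K) := rfl

theorem galK_algebraMap (σ : Kb ≃ₐ[ℚ] Kb) (a : K) :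
    galK K N σ (algebraMap K (FK K N) a) = algebraMap K (FK K N) (resK K σ a) :=
  arithmeticRingAut_algebraMap _ _ a

theorem bc_galK (σ : Kb ≃ₐ[ℚ] Kb) (x : FK K N) :
    bc K Kb (modularFunctionFieldFull N) (galK K N σ x) =
      galF N σ (bc K Kb (modularFunctionFieldFull N) x) := by
  apply Subtype.ext
  show coeffMap (algebraMap K Kb) (coeffMap ((resK K σ : K ≃ₐ[ℚ] K) : K →+* K) _) =
    coeffMap ((σ : Kb ≃ₐ[ℚ] Kb) : Kb →+* Kb) (coeffMap (algebraMap K Kb) _)
  rw [coeffMap_coeffMap, coeffMap_coeffMap]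
  exact coeffMap_congr (RingHom.ext fun a => algebraMap_resK K σ a) _

theorem galK_one (x : FK K N) : galK K N 1 x = x := by
  apply Subtype.ext
  rw [coe_galK, resK_one]
  exact (coeffMap_congr (RingHom.ext fun _ => rfl) _).trans (coeffMap_id _)

theorem galK_mul (σ τ : Kb ≃ₐ[ℚ] Kb) (x : FK K N) :
    galK K N (σ * τ) x = galK K N σ (galK K N τ x) := by
  apply Subtype.ext
  rw [coe_galK, coe_galK, coe_galK, resK_mul, coeffMap_coeffMap]
  exact coeffMap_congr (RingHom.ext fun _ => rfl) _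

theorem galK_inv_galK (σ : Kb ≃ₐ[ℚ] Kb) (x : FK K N) : galK K N σ⁻¹ (galK K N σ x) = x := by
  rw [← galK_mul, inv_mul_cancel, galK_one]

theorem galK_galK_inv (σ : Kb ≃ₐ[ℚ] Kb) (x : FK K N) : galK K N σ (galK K N σ⁻¹ x) = x := by
  rw [← galK_mul, mul_inv_cancel, galK_one]

/-- series with rational coefficients are fixed -/
theorem galK_of_coeffEmb (σ : Kb ≃ₐ[ℚ] Kb) (x : FK K N) (y : LaurentSeries ℚ)
    (h : (x : LaurentSeries K) = coeffEmb K y) : galK K N σ x = x := by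
  apply Subtype.ext
  rw [coe_galK, h, coeffMap_coeffEmb]

variable [NeZero N]

theorem galK_Jgen (σ : Kb ≃ₐ[ℚ] Kb) (d : Dv N) : galK K N σ (Jgen K N d) = Jgen K N d :=
  galK_of_coeffEmb K N σ _ _ rfl

theorem galK_J1 (σ : Kb ≃ₐ[ℚ] Kb) : galK K N σ (J1 K N) = J1 K N := galK_Jgen K N σ _

theorem galK_tF (σ : Kb ≃ₐ[ℚ] Kb) (a : ℕ) [NeZero a] (ha : a = 2 ∨ a = 3) (haN : a ∣ N) :
    galK K N σ (tF K N a ha haN) = tF K N a ha haN :=
  Subtype.ext (coeffMap_haupt _ a (hexp a))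

end galK

section wr

variable (K : IntermediateField ℚ Kb) [Normal ℚ K] {N r : ℕ} [NeZero (N * r)]

theorem galK_wr (σ : Kb ≃ₐ[ℚ] Kb) (hr : r.Prime) (hrN : ¬ r ∣ N) (x : FK K (N * r)) :
    galK K (N * r) σ (wr K hr hrN x) = wr K hr hrN (galK K (N * r) σ x) :=
  map_wr K K hr hrN (galK K (N * r) σ).toRingHom ((resK K σ : K ≃ₐ[ℚ] K) : K →+* K)
    (galK_algebraMap K (N * r) σ) (galK_Jgen K (N * r) σ) x

end wr

/-! ### decomposition group, inertia group, Frobenius elements -/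

section decomp

variable (A : ValuationSubring Kb) (K : IntermediateField ℚ Kb) [Normal ℚ K]

theorem resK_mem_RA {σ : Kb ≃ₐ[ℚ] Kb} (hσ : σ ∈ A.decompositionSubgroup ℚ) {a : K}
    (ha : a ∈ RA A K) : resK K σ a ∈ RA A K := by
  show algebraMap K Kb (resK K σ a) ∈ A
  rw [algebraMap_resK]
  have h1 : σ • A = A := hσ
  have h2 : σ • (algebraMap K Kb a) ∈ σ • A := ValuationSubring.smul_mem_pointwise_smul σ _ A ha
  rw [h1] at h2
  exact h2

/-- the action of the decomposition group on `A ∩ K` -/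
def galRA {σ : Kb ≃ₐ[ℚ] Kb} (hσ : σ ∈ A.decompositionSubgroup ℚ) : RA A K →+* RA A K :=
  (((resK K σ : K ≃ₐ[ℚ] K) : K →+* K).comp (RA A K).subtype).codRestrict (RA A K).toSubring
    (fun a => resK_mem_RA A K hσ a.2)

theorem coe_galRA {σ : Kb ≃ₐ[ℚ] Kb} (hσ : σ ∈ A.decompositionSubgroup ℚ) (a : RA A K) :
    ((galRA A K hσ a : RA A K) : K) = resK K σ (a : K) := rfl

theorem algebraMap_galRA {σ : Kb ≃ₐ[ℚ] Kb} (hσ : σ ∈ A.decompositionSubgroup ℚ) (a : RA A K) :
    algebraMap (RA A K) K (galRA A K hσ a) = ((resK K σ : K ≃ₐ[ℚ] K) : K →+* K)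
      (algebraMap (RA A K) K a) := rfl

theorem RAincl_galRA {σ : Kb ≃ₐ[ℚ] Kb} (hσ : σ ∈ A.decompositionSubgroup ℚ) (a : RA A K) :
    RAincl A K (galRA A K hσ a) = (⟨σ, hσ⟩ : A.decompositionSubgroup ℚ) • RAincl A K a :=
  Subtype.ext (algebraMap_resK K σ (a : K))

theorem galRA_inv_galRA {σ : Kb ≃ₐ[ℚ] Kb} (hσ : σ ∈ A.decompositionSubgroup ℚ) (a : RA A K) :
    galRA A K (inv_mem hσ) (galRA A K hσ a) = a := by
  apply Subtype.ext
  rw [coe_galRA, coe_galRA]
  have h := resK_mul K σ⁻¹ σ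
  rw [inv_mul_cancel, resK_one] at h
  exact (DFunLike.congr_fun h (a : K)).symm

/-- the residue field of `A ∩ K` embeds into the residue field of `A` -/
theorem residue_RA_eq_iff (a b : RA A K) :
    IsLocalRing.residue (RA A K) a = IsLocalRing.residue (RA A K) b ↔
      IsLocalRing.residue A (RAincl A K a) = IsLocalRing.residue A (RAincl A K b) := by
  have := isLocalHom_RAincl A K
  rw [← sub_eq_zero, ← map_sub, IsLocalRing.residue_eq_zero_iff,
    ← sub_eq_zero (a := IsLocalRing.residue A (RAincl A K a)),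
    ← map_sub, ← map_sub, IsLocalRing.residue_eq_zero_iff, IsLocalRing.mem_maximalIdeal,
    IsLocalRing.mem_maximalIdeal, mem_nonunits_iff, mem_nonunits_iff, not_iff_not]
  exact ⟨fun h => h.map _, fun h => isUnit_of_map_unit (RAincl A K) _ h⟩

theorem isLocalHom_galRA {σ : Kb ≃ₐ[ℚ] Kb} (hσ : σ ∈ A.decompositionSubgroup ℚ) :
    IsLocalHom (galRA A K hσ) := by
  refine ⟨fun a ha => ?_⟩
  have := ha.map (galRA A K (inv_mem hσ))
  rwa [galRA_inv_galRA] at this

/-- the induced map on the residue field of `A ∩ K` -/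
def galRes {σ : Kb ≃ₐ[ℚ] Kb} (hσ : σ ∈ A.decompositionSubgroup ℚ) :
    IsLocalRing.ResidueField (RA A K) →+* IsLocalRing.ResidueField (RA A K) :=
  haveI := isLocalHom_galRA A K hσ
  IsLocalRing.ResidueField.map (galRA A K hσ)

theorem residue_galRA {σ : Kb ≃ₐ[ℚ] Kb} (hσ : σ ∈ A.decompositionSubgroup ℚ) (a : RA A K) :
    IsLocalRing.residue (RA A K) (galRA A K hσ a) =
      galRes A K hσ (IsLocalRing.residue (RA A K) a) := rfl

/-- inertia acts trivially on the residue field of `A ∩ K` -/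
theorem residue_galRA_of_inertia {σ : Kb ≃ₐ[ℚ] Kb} (hσ : σ ∈ A.decompositionSubgroup ℚ)
    (hI : σ ∈ A.inertiaSubgroupIn ℚ) (a : RA A K) :
    IsLocalRing.residue (RA A K) (galRA A K hσ a) = IsLocalRing.residue (RA A K) a := by
  obtain ⟨g, hg, rfl⟩ := Subgroup.mem_map.mp hI
  rw [residue_RA_eq_iff, RAincl_galRA, IsLocalRing.ResidueField.residue_smul]
  exact congrArg (fun f => f (IsLocalRing.residue A (RAincl A K a))) (MonoidHom.mem_ker.mp hg)

/-- a Frobenius element acts as `x ↦ x ^ r` on the residue field of `A ∩ K` -/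
theorem residue_galRA_of_frobenius {σ : Kb ≃ₐ[ℚ] Kb} {r : ℕ} (hF : A.IsFrobeniusAt σ r)
    (a : RA A K) :
    IsLocalRing.residue (RA A K) (galRA A K hF.mem_decompositionSubgroup a) =
      IsLocalRing.residue (RA A K) a ^ r := by
  rw [← map_pow, residue_RA_eq_iff, RAincl_galRA, IsLocalRing.ResidueField.residue_smul,
    hF.smul_residue_eq, map_pow, map_pow]

theorem mem_decomposition_of_mem_inertiaIn {σ : Kb ≃ₐ[ℚ] Kb} (hI : σ ∈ A.inertiaSubgroupIn ℚ) :
    σ ∈ A.decompositionSubgroup ℚ := by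
  obtain ⟨g, -, rfl⟩ := Subgroup.mem_map.mp hI
  exact g.2

theorem charP_resField_RA {r : ℕ} (hr : r.Prime) (hA : A.LiesOverPrime r) :
    CharP (IsLocalRing.ResidueField (RA A K)) r := by
  rw [CharP.charP_iff_prime_eq_zero hr]
  have h1 : ((r : ℕ) : RA A K) ∈ IsLocalRing.maximalIdeal (RA A K) := by
    have h2 : ((r : ℕ) : K) ∈ (RA A K).nonunits := by
      rw [mem_nonunits_RA_iff, map_natCast]
      exact hA
    obtain ⟨h3, h4⟩ := ValuationSubring.mem_nonunits_iff_exists_mem_maximalIdeal.1 h2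
    exact h4
  rw [← map_natCast (IsLocalRing.residue (RA A K))]
  exact (IsLocalRing.residue_eq_zero_iff _).2 h1

variable [IsDiscreteValuationRing (RA A K)] (N : ℕ) [NeZero N]

/-- the reduction map of the Gauss ring -/
abbrev redG : gaussSub (RA A K) K N →+* LaurentSeries (IsLocalRing.ResidueField (RA A K)) :=
  (redR (ρ := IsLocalRing.residue (RA A K)) (IsFractionRing.injective (RA A K) K)).comp
    ((algebraMap (FK K N) (LaurentSeries K)).restrict (gaussSub (RA A K) K N)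
      (LamR (algebraMap (RA A K) K) (IsLocalRing.residue (RA A K))) (fun _ h => h))

variable {N}

/-- **the decomposition group preserves the Gauss ring** -/
theorem galK_mem_gaussSub {σ : Kb ≃ₐ[ℚ] Kb} (hσ : σ ∈ A.decompositionSubgroup ℚ) {x : FK K N}
    (hx : x ∈ gaussSub (RA A K) K N) : galK K N σ x ∈ gaussSub (RA A K) K N :=
  coeffMap_mem_LamR_of_compat (galRA A K hσ) ((resK K σ : K ≃ₐ[ℚ] K) : K →+* K)
    (galRes A K hσ) (algebraMap_galRA A K hσ) (residue_galRA A K hσ) hx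

theorem galK_mem_gaussSub_iff {σ : Kb ≃ₐ[ℚ] Kb} (hσ : σ ∈ A.decompositionSubgroup ℚ)
    {x : FK K N} : galK K N σ x ∈ gaussSub (RA A K) K N ↔ x ∈ gaussSub (RA A K) K N := by
  refine ⟨fun h => ?_, galK_mem_gaussSub A K hσ⟩
  have := galK_mem_gaussSub A K (inv_mem hσ) h
  rwa [galK_inv_galK] at this

theorem redG_galK {σ : Kb ≃ₐ[ℚ] Kb} (hσ : σ ∈ A.decompositionSubgroup ℚ)
    (x : gaussSub (RA A K) K N) :
    redG A K N ⟨galK K N σ x, galK_mem_gaussSub A K hσ x.2⟩ =
      coeffMap (galRes A K hσ) (redG A K N x) :=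
  redR_coeffMap_of_compat (IsFractionRing.injective (RA A K) K) (galRA A K hσ)
    ((resK K σ : K ≃ₐ[ℚ] K) : K →+* K) (galRes A K hσ) (algebraMap_galRA A K hσ)
    (residue_galRA A K hσ) ⟨_, x.2⟩

/-- **inertia acts trivially on the reduction** -/
theorem redG_galK_of_inertia {σ : Kb ≃ₐ[ℚ] Kb} (hI : σ ∈ A.inertiaSubgroupIn ℚ)
    (x : gaussSub (RA A K) K N) :
    redG A K N ⟨galK K N σ x, galK_mem_gaussSub A K (mem_decomposition_of_mem_inertiaIn A hI) x.2⟩
      = redG A K N x := by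
  have hσ := mem_decomposition_of_mem_inertiaIn A hI
  refine (redR_coeffMap_of_compat (IsFractionRing.injective (RA A K) K) (galRA A K hσ)
    ((resK K σ : K ≃ₐ[ℚ] K) : K →+* K) (RingHom.id _) (algebraMap_galRA A K hσ)
    (residue_galRA_of_inertia A K hσ hI) ⟨_, x.2⟩).trans ?_
  exact coeffMap_id _

/-- **a Frobenius element acts on the reduction as the coefficientwise Frobenius** -/
theorem redG_galK_of_frobenius {σ : Kb ≃ₐ[ℚ] Kb} {r : ℕ} [Fact r.Prime]
    [CharP (IsLocalRing.ResidueField (RA A K)) r] (hF : A.IsFrobeniusAt σ r)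
    (x : gaussSub (RA A K) K N) :
    redG A K N ⟨galK K N σ x, galK_mem_gaussSub A K hF.mem_decompositionSubgroup x.2⟩ =
      coeffMap (frobenius (IsLocalRing.ResidueField (RA A K)) r) (redG A K N x) :=
  redR_coeffMap_of_compat (IsFractionRing.injective (RA A K) K)
    (galRA A K hF.mem_decompositionSubgroup)
    ((resK K σ : K ≃ₐ[ℚ] K) : K →+* K) (frobenius (IsLocalRing.ResidueField (RA A K)) r)
    (algebraMap_galRA A K hF.mem_decompositionSubgroup)
    (residue_galRA_of_frobenius A K hF) ⟨_, x.2⟩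

/-- the kernel of the reduction map is generated by `π` -/
theorem div_mem_gaussSub_of_redG_eq_zero {π : RA A K} (hπ : Irreducible π)
    {x : gaussSub (RA A K) K N} (hx : redG A K N x = 0) :
    (x : FK K N) / algebraMap K (FK K N) (π : K) ∈ gaussSub (RA A K) K N := by
  have hS := redSetup_of_dvr (K := K) hπ
  obtain ⟨x', hx'⟩ := exists_eq_mul_of_redR_eq_zero hS
    (x := ⟨((x : FK K N) : LaurentSeries K), x.2⟩) hx
  have h1 : ((x : FK K N) : LaurentSeries K) =
      HahnSeries.C (algebraMap (RA A K) K π) * (x' : LaurentSeries K) :=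
    congrArg Subtype.val hx'
  have h2 : ((algebraMap K (FK K N) (π : K) : FK K N) : LaurentSeries K) =
      HahnSeries.C (algebraMap (RA A K) K π) := by
    show algebraMap K (LaurentSeries K) _ = _
    rw [algebraMap_laurentSeries_eq_single, HahnSeries.C_apply]
    rfl
  rw [mem_gaussSub_iff]
  show ((x : FK K N) : LaurentSeries K) / ((algebraMap K (FK K N) (π : K) : FK K N) :
    LaurentSeries K) ∈ _
  rw [h2, h1, mul_div_cancel_left₀ _ (redSetup_C_unif_ne_zero hS)]
  exact x'.2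

/-- **inertia**: `(σ x - x) / π` lies in the Gauss ring for `x` in the Gauss ring -/
theorem galK_sub_div_mem_gaussSub {π : RA A K} (hπ : Irreducible π) {σ : Kb ≃ₐ[ℚ] Kb}
    (hI : σ ∈ A.inertiaSubgroupIn ℚ) {x : FK K N} (hx : x ∈ gaussSub (RA A K) K N) :
    (galK K N σ x - x) / algebraMap K (FK K N) (π : K) ∈ gaussSub (RA A K) K N := by
  have hσ := mem_decomposition_of_mem_inertiaIn A hI
  have h := redG_galK_of_inertia A K hI ⟨x, hx⟩
  have hx' := galK_mem_gaussSub A K hσ hx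
  have e : (⟨galK K N σ x - x, sub_mem hx' hx⟩ : gaussSub (RA A K) K N) =
      ⟨galK K N σ x, hx'⟩ - ⟨x, hx⟩ := rfl
  exact div_mem_gaussSub_of_redG_eq_zero A K hπ
    (x := ⟨galK K N σ x - x, sub_mem hx' hx⟩) (by rw [e, map_sub, h, sub_self])

end decomp

/-! ### the second valuation `V₀ = w_r⁻¹ (gaussSub)` -/

section second

variable (A : ValuationSubring Kb) (K : IntermediateField ℚ Kb) [Normal ℚ K]
  [IsDiscreteValuationRing (RA A K)] {N r : ℕ} [NeZero (N * r)]

theorem wr_galK_mem_gaussSub_iff (hr : r.Prime) (hrN : ¬ r ∣ N) {σ : Kb ≃ₐ[ℚ] Kb}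
    (hσ : σ ∈ A.decompositionSubgroup ℚ) {x : FK K (N * r)} :
    wr K hr hrN (galK K (N * r) σ x) ∈ gaussSub (RA A K) K (N * r) ↔
      wr K hr hrN x ∈ gaussSub (RA A K) K (N * r) := by
  rw [← galK_wr, galK_mem_gaussSub_iff A K hσ]

theorem wr_galK_sub_div_mem_gaussSub (hr : r.Prime) (hrN : ¬ r ∣ N) {π : RA A K}
    (hπ : Irreducible π) {σ : Kb ≃ₐ[ℚ] Kb} (hI : σ ∈ A.inertiaSubgroupIn ℚ) {x : FK K (N * r)}
    (hx : wr K hr hrN x ∈ gaussSub (RA A K) K (N * r)) :
    wr K hr hrN ((galK K (N * r) σ x - x) / algebraMap K (FK K (N * r)) (π : K)) ∈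
      gaussSub (RA A K) K (N * r) := by
  rw [map_div₀, map_sub, AlgEquiv.commutes, ← galK_wr]
  exact galK_sub_div_mem_gaussSub A K hπ hI hx

end second

end

end Fermat.Agent.UNIlib
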