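import Fermat.Agent.UNI.EndTate

/-!
# T-UNI, row GL1: `UnipAt` from the triviality of inertia on the toric part

`RedOne N A m f` : the class of `f` in `W_m` is represented by a function which reduces to a
nonzero constant (at the Gauss valuation of the cusp `∞`).
`ToricI N A m w` : inertia acts trivially on the classes `f` with `RedOne f` and `RedOne (w f)`
(`w` = the Atkin-Lehner involution).
-/

set_option autoImplicit false

open ModularCurve AlgebraicCurve Fermat.Agent.S28lib Fermat.Agent.ESlib Fermat.Agent.ESlib.PartD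

namespace Fermat.Agent.UNIlib

noncomputable section

/-- the conclusion of `ESlib.exists_intRep`, as a property of `(N, A)` (no hypothesis `ℓ ∤ N`) -/
def IntRepAt (N : ℕ) (A : ValuationSubring Qb) : Prop :=
  ∀ f : LaurentSeries Qb, f ∈ modularFunctionFieldBar N → f ≠ 0 →
    ∃ (c : Qb) (y₁ y₂ : LaurentSeries A), c ≠ 0 ∧ incA A y₁ ∈ modularFunctionFieldBar N ∧
      incA A y₂ ∈ modularFunctionFieldBar N ∧ redA A y₁ ≠ 0 ∧ redA A y₂ ≠ 0 ∧
      f * incA A y₂ = HahnSeries.C c * incA A y₁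

/-- the class of `f` modulo `m`-th powers is `≡ const` modulo `𝔪_A` at the cusp `∞` -/
def RedOne (N : ℕ) (A : ValuationSubring Qb) (m : ℕ) (f : modularFunctionFieldBar N) : Prop :=
  ∃ (ψ : modularFunctionFieldBar N) (c : Qb) (Y₁ Y₂ : LaurentSeries A), ψ ≠ 0 ∧ c ≠ 0 ∧
    incA A Y₁ ∈ modularFunctionFieldBar N ∧ incA A Y₂ ∈ modularFunctionFieldBar N ∧
    redA A Y₁ = redA A Y₂ ∧ redA A Y₁ ≠ 0 ∧
    (f : LaurentSeries Qb) * (ψ : LaurentSeries Qb) ^ m * incA A Y₂ = HahnSeries.C c * incA A Y₁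

/-- inertia acts trivially on the toric part -/
def ToricI (N : ℕ) (A : ValuationSubring Qb) (m : ℕ)
    (w : modularFunctionFieldBar N →+* modularFunctionFieldBar N) : Prop :=
  ∀ σ ∈ A.inertiaSubgroupIn ℚ, ∀ f : modularFunctionFieldBar N, MDiv Qb m f →
    RedOne N A m f → RedOne N A m (w f) → SameClass m f (galF N σ f)

/-- `σ f / f ≡ const` for `σ` in the inertia group -/
theorem redOne_inertia {N : ℕ} {A : ValuationSubring Qb} (hI : IntRepAt N A) (m : ℕ)
    {σ : GQ} (hσ : σ ∈ A.inertiaSubgroupIn ℚ) {f : modularFunctionFieldBar N} (hf : f ≠ 0) :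
    RedOne N A m (galF N σ f / f) := by
  obtain ⟨g, hg, rfl⟩ := Subgroup.mem_map.mp hσ
  obtain ⟨c, y₁, y₂, hc, h₁, h₂, hr₁, hr₂, hrel⟩ := hI f f.2 (fun h => hf (Subtype.ext h))
  have hrelσ := congrArg (coeffMap (((g : Qb ≃ₐ[ℚ] Qb) : Qb →+* Qb))) hrel
  rw [map_mul, map_mul, ← incA_galA, ← incA_galA, coeffMap_C] at hrelσ
  set σ : Qb ≃ₐ[ℚ] Qb := (g : Qb ≃ₐ[ℚ] Qb) with hσdef
  have hσc : σ c ≠ 0 := (map_ne_zero σ).2 hc
  have hCc : (HahnSeries.C c : LaurentSeries Qb) ≠ 0 := fun h =>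
    hc (HahnSeries.C_injective (by rw [h, map_zero]))
  have hf' : (f : LaurentSeries Qb) ≠ 0 := fun h => hf (Subtype.ext h)
  refine ⟨1, σ c / c, galA g y₁ * y₂, galA g y₂ * y₁, one_ne_zero, div_ne_zero hσc hc, ?_, ?_, ?_,
    ?_, ?_⟩
  · rw [map_mul]; exact mul_mem (incA_galA_mem g h₁) h₂
  · rw [map_mul]; exact mul_mem (incA_galA_mem g h₂) h₁
  · rw [map_mul, map_mul, redA_galA_of_mem_inertia hg, redA_galA_of_mem_inertia hg, mul_comm]
  · rw [map_mul, redA_galA_of_mem_inertia hg]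
    exact mul_ne_zero hr₁ hr₂
  · have e : ((galF N ((A.decompositionSubgroup ℚ).subtype g) f / f : modularFunctionFieldBar N) :
        LaurentSeries Qb) = coeffMap (σ : Qb →+* Qb) (f : LaurentSeries Qb)
          / (f : LaurentSeries Qb) := rfl
    rw [e, map_mul, map_mul, map_div₀]
    have h3 : coeffMap (σ : Qb →+* Qb) (f : LaurentSeries Qb) * incA A (galA g y₂)
        = HahnSeries.C (σ c) * incA A (galA g y₁) := hrelσ
    have e1 : ((1 : modularFunctionFieldBar N) : LaurentSeries Qb) = 1 := rfl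
    rw [e1, one_pow, mul_one]
    field_simp
    linear_combination (HahnSeries.C c * incA A y₁) * h3
      - (HahnSeries.C (σ c) * incA A (galA g y₁)) * hrel

/-- **(GL1)** -/
theorem unipAt_of_toricI {N : ℕ} {A : ValuationSubring Qb} {m : ℕ}
    (w : modularFunctionFieldBar N →+* modularFunctionFieldBar N)
    (hw : ∀ (σ : GQ) (f : modularFunctionFieldBar N), w (galF N σ f) = galF N σ (w f))
    (hI : IntRepAt N A) (hT : ToricI N A m w) : UnipAt N A m := by
  intro σ hσ f hf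
  have hσf := mDiv_galF hf σ
  have hσσf := mDiv_galF hσf σ
  have hh : MDiv Qb m (galF N σ f / f) := by
    rw [div_eq_mul_inv]
    exact hσf.mul' hf.inv'
  have hwf : w f ≠ 0 := (map_ne_zero_iff w w.injective).2 hf.1
  have h2 : RedOne N A m (w (galF N σ f / f)) := by
    rw [map_div₀, hw]
    exact redOne_inertia hI m hσ hwf
  obtain ⟨ψ, hψ0, hψ⟩ := hT σ hσ _ hh (redOne_inertia hI m hσ hf.1) h2
  refine ⟨ψ, hψ0, ?_⟩
  rw [map_div₀] at hψ
  have h3 := hσf.1
  have h4 := hf.1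
  field_simp at hψ
  linear_combination hψ

end

end Fermat.Agent.UNIlib
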