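import Fermat.Agent.UNI.NormaliseFK
import Fermat.Agent.UNI.WeakApprox
import Fermat.Agent.UNI.GalK
import Fermat.Agent.UNI.ToricU
import Fermat.Agent.UNI.Mord
import Fermat.Agent.UNI.AL2
import Fermat.Agent.ES.M.Top

/-!
# T-UNI, row DESC: descent of a toric class from `ℚ̄` to a normal number field

A function `f ∈ F_ℚ̄(N r)` with `MDiv`, `RedOne f`, `RedOne (w_r f)` is, up to an `m`-th power, the
base change of a function `g ∈ F_K(N r)`, `K` a normal number field, with `g ≡ 1` modulo `π` at the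
two Gauss valuations, `MDiv K m g`, and whose leading coefficient is an `m`-th power in `K`.
-/

set_option autoImplicit false
set_option linter.unusedSectionVars false
set_option linter.style.haveILetI false

open ModularCurve AlgebraicCurve

namespace Fermat.Agent.UNIlib

open Fermat.Agent.ESlib Fermat.Agent.ESlib.PartD
open Fermat.Agent.S24lib (Dv Kb)

/-- `exists_level` with a normal number field -/
theorem exists_level_normal (N : ℕ) [NeZero N] (s : Finset (FK Kb N)) (c : Finset Kb) :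
    ∃ K : IntermediateField ℚ Kb, FiniteDimensional ℚ K ∧ Normal ℚ K ∧ (∀ a ∈ c, a ∈ K) ∧
      ∀ f ∈ s, ∃ g : FK K N, bc K Kb (modularFunctionFieldFull N) g = f := by
  obtain ⟨K₁, h₁, H₁⟩ := exists_level_finset N s
  have h₂ : FiniteDimensional ℚ (IntermediateField.adjoin ℚ (c : Set Kb)) :=
    IntermediateField.finiteDimensional_adjoin fun x _ => isIntegral_Qb_MK x
  have h₃ : FiniteDimensional ℚ ↥(K₁ ⊔ IntermediateField.adjoin ℚ (c : Set Kb)) :=
    IntermediateField.finiteDimensional_sup _ _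
  have : Algebra.IsAlgebraic ℚ Kb := AlgebraicClosure.isAlgebraic ℚ
  have : IsAlgClosure ℚ Kb := ⟨inferInstance, inferInstance⟩
  have : Normal ℚ Kb := IsAlgClosure.normal ℚ Kb
  have hle := IntermediateField.le_normalClosure
    (K₁ ⊔ IntermediateField.adjoin ℚ (c : Set Kb))
  refine ⟨IntermediateField.normalClosure ℚ ↥(K₁ ⊔ IntermediateField.adjoin ℚ (c : Set Kb)) Kb,
    normalClosure.is_finiteDimensional ℚ _ Kb, normalClosure.normal ℚ _ Kb, fun a ha => ?_,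
    H₁ _ (le_sup_left.trans hle)⟩
  exact hle ((le_sup_right : IntermediateField.adjoin ℚ (c : Set Kb) ≤ _)
    (IntermediateField.subset_adjoin ℚ _ ha))

section abstractR

variable {R K : Type} [CommRing R] [IsDomain R] [IsDiscreteValuationRing R] [Field K]
  [Algebra R K] [IsFractionRing R K] [Algebra ℚ K]

/-- `div_sub_one_mem_gaussSub` without an `Algebra R (FK K M)` instance -/
theorem div_sub_one_mem_gaussSub' {M : ℕ} [NeZero M] {π : R} (hπ : Irreducible π) {f : FK K M}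
    {y₁ y₂ : LaurentSeries R}
    (hf : (f : LaurentSeries K) * coeffMap (algebraMap R K) y₂ = coeffMap (algebraMap R K) y₁)
    (hred : coeffMap (IsLocalRing.residue R) y₁ = coeffMap (IsLocalRing.residue R) y₂)
    (hne : coeffMap (IsLocalRing.residue R) y₂ ≠ 0) :
    (f - 1) / algebraMap K (FK K M) (algebraMap R K π) ∈ gaussSub R K M := by
  letI : Algebra R (FK K M) := ((algebraMap K (FK K M)).comp (algebraMap R K)).toAlgebra
  haveI : IsScalarTower R K (FK K M) := IsScalarTower.of_algebraMap_eq fun _ => rfl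
  exact div_sub_one_mem_gaussSub (R := R) (N := M) hπ hf hred hne

variable [Algebra K ℂ] [IsScalarTower ℚ K ℂ] {N r : ℕ} [NeZero (N * r)]

/-- normalisation at the two Gauss valuations of `F_K(N r)` -/
theorem exists_normalise_wr [CharP (IsLocalRing.ResidueField R) r] (hr : r.Prime) (hrN : ¬ r ∣ N)
    {π : R} (hπ : Irreducible π) (m : ℕ) {f ψ₁ ψ₂ : FK K (N * r)} (hψ₁ : ψ₁ ≠ 0) (hψ₂ : ψ₂ ≠ 0)
    (h₁ : (f * ψ₁ ^ m - 1) / algebraMap K (FK K (N * r)) (algebraMap R K π) ∈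
      gaussSub R K (N * r))
    (h₂ : (wr K hr hrN f * ψ₂ ^ m - 1) / algebraMap K (FK K (N * r)) (algebraMap R K π) ∈
      gaussSub R K (N * r)) :
    ∃ S : FK K (N * r), S ≠ 0 ∧
      (f * S ^ m - 1) / algebraMap K (FK K (N * r)) (algebraMap R K π) ∈ gaussSub R K (N * r) ∧
      (wr K hr hrN (f * S ^ m) - 1) / algebraMap K (FK K (N * r)) (algebraMap R K π) ∈
        gaussSub R K (N * r) := by
  letI : Algebra R (FK K (N * r)) :=
    ((algebraMap K (FK K (N * r))).comp (algebraMap R K)).toAlgebra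
  haveI : IsScalarTower R K (FK K (N * r)) := IsScalarTower.of_algebraMap_eq fun _ => rfl
  obtain ⟨e₀, he₁, he₂⟩ := exists_weakApprox (R := R) (K := K) hr hrN hπ
  obtain ⟨S, hS, h1, h2⟩ := exists_normalise_FK (R := R) (K := K) hπ
    ((wr K hr hrN : FK K (N * r) ≃ₐ[K] FK K (N * r)) : FK K (N * r) →+* FK K (N * r))
    ((wr K hr hrN).commutes _) he₁ he₂ m (f := f) (ψ₁ := ψ₁) (ψ₂ := wr K hr hrN ψ₂) (c := 1) hψ₁
    ((map_ne_zero_iff _ (wr K hr hrN).injective).2 hψ₂)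
    (by rw [div_one]; exact h₁)
    (by
      rw [div_one]
      have : ((wr K hr hrN : FK K (N * r) ≃ₐ[K] FK K (N * r)) : FK K (N * r) →+* FK K (N * r))
          (f * wr K hr hrN ψ₂ ^ m) = wr K hr hrN f * ψ₂ ^ m := by
        show wr K hr hrN (f * wr K hr hrN ψ₂ ^ m) = _
        rw [map_mul, map_pow, wr_wr]
      rw [this]
      exact h₂)
  rw [div_one] at h1 h2
  exact ⟨S, hS, h1, h2⟩

end abstractR

section one

variable (A : ValuationSubring Kb) (K : IntermediateField ℚ Kb)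
  [IsDiscreteValuationRing (RA A K)] {M : ℕ} [NeZero M]

/-- one `RedOne` datum, descended to `K` -/
theorem redOne_descend {π : RA A K} (hπ : Irreducible π) {m : ℕ} (f' ψ' y₁ y₂ : FK K M)
    (c d : K) (hd0' : d ≠ 0) (hd : d ^ m = c) (Y₁ Y₂ : LaurentSeries A)
    (h₁ : coeffMap (algebraMap K Kb) (y₁ : LaurentSeries K) = incA A Y₁)
    (h₂ : coeffMap (algebraMap K Kb) (y₂ : LaurentSeries K) = incA A Y₂)
    (hred : redA A Y₁ = redA A Y₂) (hne : redA A Y₁ ≠ 0)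
    (hrel : f' * ψ' ^ m * y₂ = algebraMap K (FK K M) c * y₁) :
    (f' * (ψ' / algebraMap K (FK K M) d) ^ m - 1) / algebraMap K (FK K M) (π : K) ∈
      gaussSub (RA A K) K M := by
  obtain ⟨y₁', hy₁', hy₁''⟩ := exists_series_RA A K Y₁ (y₁ : LaurentSeries K) h₁
  obtain ⟨y₂', hy₂', hy₂''⟩ := exists_series_RA A K Y₂ (y₂ : LaurentSeries K) h₂
  have hd0 : algebraMap K (FK K M) d ≠ 0 := by
    rw [Ne, map_eq_zero]
    exact hd0'
  have hrel' : f' * (ψ' / algebraMap K (FK K M) d) ^ m * y₂ = y₁ := by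
    have hc' : algebraMap K (FK K M) c = algebraMap K (FK K M) d ^ m := by rw [← hd, map_pow]
    rw [hc'] at hrel
    rw [div_pow]
    field_simp
    linear_combination hrel
  refine div_sub_one_mem_gaussSub' (R := RA A K) (M := M) hπ (y₁ := y₁') (y₂ := y₂') ?_ ?_ ?_
  · rw [hy₁', hy₂']
    exact congrArg (fun x : FK K M => (x : LaurentSeries K)) hrel'
  · rw [coeffMap_residue_RA_eq_iff, hy₁'', hy₂'']
    exact hred
  · intro h
    apply hne
    rw [hred]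
    have := (coeffMap_residue_RA_eq_iff A K y₂' 0).1 (by rw [h, map_zero])
    rw [hy₂'', map_zero, map_zero] at this
    exact this

end one

theorem leadingCoeff_pow_laurent {k : Type*} [Field k] (x : LaurentSeries k) (n : ℕ) :
    (x ^ n).leadingCoeff = x.leadingCoeff ^ n := by
  induction n with
  | zero => simp
  | succ n ih => rw [pow_succ, pow_succ, HahnSeries.leadingCoeff_mul, ih]

theorem coe_algebraMap_FK (k : Type) [Field k] [Algebra ℚ k] (M : ℕ) (c : k) :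
    ((algebraMap k (FK k M) c : FK k M) : LaurentSeries k) = HahnSeries.C c := by
  show algebraMap k (LaurentSeries k) c = _
  rw [algebraMap_laurentSeries_eq_single]
  rfl

/-- **(DESC)** -/
theorem exists_descent {N r : ℕ} [NeZero (N * r)] (hr : r.Prime) (hrN : ¬ r ∣ N)
    (A : ValuationSubring Kb) (hA : A.LiesOverPrime r) {m : ℕ} (hm : 0 < m) (cs : Finset Kb)
    {f : FK Kb (N * r)} (hf : MDiv Kb m f) (h1 : RedOne (N * r) A m f)
    (h2 : RedOne (N * r) A m (wr Kb hr hrN f)) :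
    ∃ (K : IntermediateField ℚ Kb) (_ : FiniteDimensional ℚ K) (_ : Normal ℚ K)
      (_ : IsDiscreteValuationRing (RA A K)), (∀ a ∈ cs, a ∈ K) ∧
      ∃ (π : RA A K) (g : FK K (N * r)) (Ψ : FK Kb (N * r)), Irreducible π ∧ Ψ ≠ 0 ∧
        bc K Kb (modularFunctionFieldFull (N * r)) g = f * Ψ ^ m ∧ MDiv K m g ∧
        (g - 1) / algebraMap K (FK K (N * r)) (π : K) ∈ gaussSub (RA A K) K (N * r) ∧
        (wr K hr hrN g - 1) / algebraMap K (FK K (N * r)) (π : K) ∈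
          gaussSub (RA A K) K (N * r) ∧
        ∃ d : K, d ^ m = ((g : FK K (N * r)) : LaurentSeries K).leadingCoeff := by
  classical
  obtain ⟨ψ₁, c₁, Y₁, Y₂, hψ₁, hc₁, hY₁, hY₂, hredY, hneY, hrelY⟩ := h1
  obtain ⟨ψ₂, c₂, Z₁, Z₂, hψ₂, hc₂, hZ₁, hZ₂, hredZ, hneZ, hrelZ⟩ := h2
  obtain ⟨d₁, hd₁⟩ := IsAlgClosed.exists_pow_nat_eq c₁ hm
  obtain ⟨d₂, hd₂⟩ := IsAlgClosed.exists_pow_nat_eq c₂ hm
  obtain ⟨l₀, hl₀⟩ := IsAlgClosed.exists_pow_nat_eq ((f : LaurentSeries Kb).leadingCoeff) hm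
  set fY₁ : FK Kb (N * r) := ⟨_, hY₁⟩ with hfY₁
  set fY₂ : FK Kb (N * r) := ⟨_, hY₂⟩ with hfY₂
  set fZ₁ : FK Kb (N * r) := ⟨_, hZ₁⟩ with hfZ₁
  set fZ₂ : FK Kb (N * r) := ⟨_, hZ₂⟩ with hfZ₂
  obtain ⟨K, hKfd, hKn, hKc, hKf⟩ := exists_level_normal (N * r)
    ({f, ψ₁, ψ₂, fY₁, fY₂, fZ₁, fZ₂} : Finset (FK Kb (N * r))) (cs ∪ {c₁, c₂, d₁, d₂, l₀})
  obtain ⟨f', hf'⟩ := hKf f (by simp)
  obtain ⟨ψ₁', hψ₁'⟩ := hKf ψ₁ (by simp)
  obtain ⟨ψ₂', hψ₂'⟩ := hKf ψ₂ (by simp)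
  obtain ⟨y₁, hy₁⟩ := hKf fY₁ (by simp)
  obtain ⟨y₂, hy₂⟩ := hKf fY₂ (by simp)
  obtain ⟨z₁, hz₁⟩ := hKf fZ₁ (by simp)
  obtain ⟨z₂, hz₂⟩ := hKf fZ₂ (by simp)
  have hc₁K : c₁ ∈ K := hKc c₁ (by simp)
  have hc₂K : c₂ ∈ K := hKc c₂ (by simp)
  have hd₁K : d₁ ∈ K := hKc d₁ (by simp)
  have hd₂K : d₂ ∈ K := hKc d₂ (by simp)
  have hl₀K : l₀ ∈ K := hKc l₀ (by simp)
  haveI hdvr := isDiscreteValuationRing_RA A hr hA K
  haveI := charP_resField_RA A K hr hA
  obtain ⟨π, hπ⟩ := IsDiscreteValuationRing.exists_irreducible (RA A K)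
  set B := bc K Kb (modularFunctionFieldFull (N * r)) with hB
  have hBinj : Function.Injective B := B.injective
  have hKinj : Function.Injective (algebraMap K Kb) := (algebraMap K Kb).injective
  have hd₁0 : (⟨d₁, hd₁K⟩ : K) ≠ 0 := by
    intro h
    have : d₁ = 0 := congrArg Subtype.val h
    exact hc₁ (by rw [← hd₁, this, zero_pow hm.ne'])
  have hd₂0 : (⟨d₂, hd₂K⟩ : K) ≠ 0 := by
    intro h
    have : d₂ = 0 := congrArg Subtype.val h
    exact hc₂ (by rw [← hd₂, this, zero_pow hm.ne'])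
  have hψ₁0 : ψ₁' ≠ 0 := by
    rintro rfl
    exact hψ₁ (by rw [← hψ₁', map_zero])
  have hψ₂0 : ψ₂' ≠ 0 := by
    rintro rfl
    exact hψ₂ (by rw [← hψ₂', map_zero])
  -- the two relations over `K`
  have hrel₁ : f' * ψ₁' ^ m * y₂ = algebraMap K (FK K (N * r)) ⟨c₁, hc₁K⟩ * y₁ := by
    apply hBinj
    rw [map_mul, map_mul, map_pow, map_mul, hB, bc_algebraMap, hf', hψ₁', hy₁, hy₂]
    apply Subtype.ext
    show (f : LaurentSeries Kb) * (ψ₁ : LaurentSeries Kb) ^ m * incA A Y₂ =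
      ((algebraMap Kb (FK Kb (N * r)) c₁ : FK Kb (N * r)) : LaurentSeries Kb) * incA A Y₁
    rw [coe_algebraMap_FK]
    exact hrelY
  have hrel₂ : wr K hr hrN f' * ψ₂' ^ m * z₂ = algebraMap K (FK K (N * r)) ⟨c₂, hc₂K⟩ * z₁ := by
    apply hBinj
    rw [map_mul, map_mul, map_pow, map_mul, hB, bc_algebraMap, bc_wr, hf', hψ₂', hz₁, hz₂]
    apply Subtype.ext
    show ((wr Kb hr hrN f : FK Kb (N * r)) : LaurentSeries Kb) * (ψ₂ : LaurentSeries Kb) ^ m *
        incA A Z₂ =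
      ((algebraMap Kb (FK Kb (N * r)) c₂ : FK Kb (N * r)) : LaurentSeries Kb) * incA A Z₁
    rw [coe_algebraMap_FK]
    exact hrelZ
  have hg₁ := redOne_descend A K hπ f' ψ₁' y₁ y₂ ⟨c₁, hc₁K⟩ ⟨d₁, hd₁K⟩ hd₁0
    (Subtype.ext hd₁) Y₁ Y₂ (by rw [← coe_bc, ← hB, hy₁]) (by rw [← coe_bc, ← hB, hy₂])
    hredY hneY hrel₁
  have hg₂ := redOne_descend A K hπ (wr K hr hrN f') ψ₂' z₁ z₂ ⟨c₂, hc₂K⟩ ⟨d₂, hd₂K⟩ hd₂0
    (Subtype.ext hd₂) Z₁ Z₂ (by rw [← coe_bc, ← hB, hz₁]) (by rw [← coe_bc, ← hB, hz₂])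
    hredZ hneZ hrel₂
  obtain ⟨S, hS, hS₁, hS₂⟩ := exists_normalise_wr (R := RA A K) (K := K) hr hrN hπ m
    (f := f') (div_ne_zero hψ₁0 ((map_ne_zero _).2 hd₁0))
    (div_ne_zero hψ₂0 ((map_ne_zero _).2 hd₂0)) hg₁ hg₂
  have hBS : B S ≠ 0 := (map_ne_zero_iff _ hBinj).2 hS
  have hBg : B (f' * S ^ m) = f * B S ^ m := by rw [map_mul, map_pow, hf']
  have : Algebra.IsAlgebraic ℚ Kb := AlgebraicClosure.isAlgebraic ℚ
  have : Algebra.IsAlgebraic K Kb := Algebra.IsAlgebraic.tower_top (K := ℚ) K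
  refine ⟨K, hKfd, hKn, hdvr, fun a ha => hKc a (Finset.mem_union_left _ ha), π, f' * S ^ m, B S,
    hπ, hBS, hBg, ?_, hS₁, hS₂, ⟨l₀, hl₀K⟩ * (S : LaurentSeries K).leadingCoeff, ?_⟩
  · apply mDiv_of_mDiv_bc K Kb (N * r)
    rw [← hB, hBg]
    exact hf.mul' (MDiv.pow_self' hBS)
  · show _ = ((f' : LaurentSeries K) * (S : LaurentSeries K) ^ m).leadingCoeff
    rw [HahnSeries.leadingCoeff_mul, leadingCoeff_pow_laurent, mul_pow]
    congr 1
    apply hKinj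
    rw [← leadingCoeff_coeffMap_of_injective_top _ hKinj, ← coe_bc, ← hB, hf', ← hl₀, map_pow]
    rfl

end Fermat.Agent.UNIlib
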