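import Fermat.Agent.UNI.ToricU

/-!
# T-UNI, S35: the geometric input `ToricF` (`Frob² = r²` on the toric part)
-/

set_option autoImplicit false

open ModularCurve AlgebraicCurve Fermat.Agent.S28lib Fermat.Agent.ESlib Fermat.Agent.ESlib.PartD

namespace Fermat.Agent.UNIlib

/-- the square of a Frobenius element at `r` acts as `r ^ 2` on the toric part (the classes `f` with
`RedOne f` and `RedOne (w f)`, `w` = the Atkin-Lehner involution) -/
def ToricF (N : ℕ) (A : ValuationSubring Qb) (m r : ℕ)
    (w : modularFunctionFieldBar N →+* modularFunctionFieldBar N) : Prop :=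
  ∀ σ : GQ, A.IsFrobeniusAt σ r → ∀ f : modularFunctionFieldBar N, MDiv Qb m f →
    RedOne N A m f → RedOne N A m (w f) →
      SameClass m (f ^ (r ^ 2)) (galF N σ (galF N σ f))

end Fermat.Agent.UNIlib
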