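import Fermat.Agent.UNI.Crit
import Fermat.Agent.UNI.GalK
import Fermat.Agent.ES.M.Top

/-!
# T-UNI, glue: instantiation of `crit` for `F = F_K(M)`, `t = tF`, `E = F(y) ⊆ K((q))`
-/

set_option autoImplicit false
set_option linter.unusedSectionVars false
set_option linter.style.haveILetI false

open ModularCurve IntermediateField
open Fermat.Agent.S24lib Fermat.Agent.ESlib

namespace Fermat.Agent.UNIlib

section level

variable {R K : Type} [CommRing R] [IsDomain R] [IsDiscreteValuationRing R] [Field K] [Algebra R K]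
  [IsFractionRing R K] [CharZero K] [Algebra ℚ K] [Algebra K ℂ] [IsScalarTower ℚ K ℂ]
  (M : ℕ) [NeZero M] [Algebra R (FK K M)] [IsScalarTower R K (FK K M)]

/-- **(CRIT) at the level `M`** (any level divisible by `a ∈ {2, 3}`): `f ≡ 1 mod π` at all the
components of the special fibre, `LocPow` in both charts `t`, `t⁻¹`, and the obvious condition at
the cusp `∞` ⟹ `f` is an `m`-th power in `F_K(M)`. -/
theorem pow_level {π : R} (hπ : Irreducible π) (a : ℕ) [NeZero a] (ha : a = 2 ∨ a = 3)
    (haM : a ∣ M) (m : ℕ) (hm : IsUnit (m : R)) (ζ : R) (hζ : IsPrimitiveRoot ζ m)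
    (f : FK K M) (hf0 : f ≠ 0)
    (hf : PiInt π (tF K M a ha haM) ((f - 1) / algebraMap R (FK K M) π))
    (hloc : LocPow π (tF K M a ha haM) f m) (hloc' : LocPow π (tF K M a ha haM)⁻¹ f m)
    (hord : (m : ℤ) ∣ (f : LaurentSeries K).order)
    (c : K) (hc : c ^ m = (f : LaurentSeries K).leadingCoeff) :
    ∃ ψ : FK K M, ψ ^ m = f := by
  classical
  have hmK : (m : K) ≠ 0 := by
    have := hm.map (algebraMap R K)
    rw [map_natCast] at this
    exact this.ne_zero
  obtain ⟨y, hy⟩ := laurent_exists_pow_eq_of_leadingCoeff hmK (f : LaurentSeries K)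
    (by simpa using hf0) hord c hc
  let E : IntermediateField (FK K M) (LaurentSeries K) := IntermediateField.adjoin (FK K M) {y}
  letI : Algebra R E := ((algebraMap (FK K M) E).comp (algebraMap R (FK K M))).toAlgebra
  haveI : IsScalarTower R (FK K M) E := IsScalarTower.of_algebraMap_eq fun _ => rfl
  haveI : IsScalarTower R K E := IsScalarTower.of_algebraMap_eq fun x => by
    show algebraMap (FK K M) E (algebraMap R (FK K M) x) = algebraMap K E (algebraMap R K x)
    rw [IsScalarTower.algebraMap_apply R K (FK K M), ← IsScalarTower.algebraMap_apply K (FK K M) E]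
  let yE : E := ⟨y, IntermediateField.mem_adjoin_simple_self _ y⟩
  have hfd := (finiteDimensional_tF K M a ha haM).1
  have key := crit (R := R) (K := K) (F := FK K M) (E := E) hπ
    (tF K M a ha haM) (transcendental_tF K M a ha haM) m hm ζ hζ f hf hloc hloc'
    yE (Subtype.ext hy) (adjoin_simple_gen_eq_top y) ?_
  · obtain ⟨x, hx⟩ := key
    refine ⟨x, ?_⟩
    have h3 : (x : LaurentSeries K) = y := congrArg Subtype.val hx
    apply Subtype.ext
    show (x : LaurentSeries K) ^ m = _
    rw [h3, hy]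
  · intro w hw
    have h5 : IsIntegral K (w : LaurentSeries K) := by
      obtain ⟨p, hp, hp0⟩ := hw
      refine ⟨p, hp, ?_⟩
      have h6 := congrArg E.val hp0
      rw [Polynomial.eval₂_eq_sum_range, map_sum, map_zero] at h6
      rw [Polynomial.eval₂_eq_sum_range, ← h6]
      rfl
    obtain ⟨b, hb⟩ := exists_eq_C_of_isAlgebraic (w : LaurentSeries K) h5.isAlgebraic
    refine ⟨b, Subtype.ext ?_⟩
    rw [hb]
    show algebraMap K (LaurentSeries K) b = _
    rw [algebraMap_laurentSeries_eq_single]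
    rfl

end level

/-! ### the facts on `galK` consumed by (WRAP-I) -/

section gal

variable (A : ValuationSubring Kb) (K : IntermediateField ℚ Kb) [Normal ℚ K]
  [IsDiscreteValuationRing (RA A K)] {M : ℕ} [NeZero M]
  [Algebra (RA A K) (FK K M)] [IsScalarTower (RA A K) K (FK K M)]

theorem galK_algebraMap_RA {σ : Kb ≃ₐ[ℚ] Kb} (hσ : σ ∈ A.decompositionSubgroup ℚ) (x : RA A K) :
    galK K M σ (algebraMap (RA A K) (FK K M) x) =
      algebraMap (RA A K) (FK K M) (galRA A K hσ x) := by
  rw [IsScalarTower.algebraMap_apply (RA A K) K (FK K M), galK_algebraMap,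
    IsScalarTower.algebraMap_apply (RA A K) K (FK K M)]
  rfl

theorem dvd_galRA_sub {π : RA A K} (hπ : Irreducible π) {σ : Kb ≃ₐ[ℚ] Kb}
    (hI : σ ∈ A.inertiaSubgroupIn ℚ) (x : RA A K) :
    π ∣ galRA A K (mem_decomposition_of_mem_inertiaIn A hI) x - x := by
  have h := residue_galRA_of_inertia A K (mem_decomposition_of_mem_inertiaIn A hI) hI x
  rw [← sub_eq_zero, ← map_sub, IsLocalRing.residue_eq_zero_iff, hπ.maximalIdeal_eq,
    Ideal.mem_span_singleton] at h
  exact h

theorem algebraMap_RA_eq (x : RA A K) :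
    algebraMap (RA A K) (FK K M) x = algebraMap K (FK K M) (x : K) :=
  IsScalarTower.algebraMap_apply (RA A K) K (FK K M) x

/-- order and leading coefficient of `σ g / g` -/
theorem order_leadingCoeff_galK_div (σ : Kb ≃ₐ[ℚ] Kb) {g : FK K M} (hg : g ≠ 0) :
    ((galK K M σ g / g : FK K M) : LaurentSeries K).order = 0 ∧
      ((galK K M σ g / g : FK K M) : LaurentSeries K).leadingCoeff =
        resK K σ (g : LaurentSeries K).leadingCoeff / (g : LaurentSeries K).leadingCoeff := by
  have hg' : (g : LaurentSeries K) ≠ 0 := fun h => hg (Subtype.ext h)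
  have hσg : galK K M σ g ≠ 0 := (map_ne_zero_iff _ (galK K M σ).injective).2 hg
  have hf : galK K M σ g / g ≠ 0 := div_ne_zero hσg hg
  have hf' : ((galK K M σ g / g : FK K M) : LaurentSeries K) ≠ 0 := fun h => hf (Subtype.ext h)
  have hinj : Function.Injective (((resK K σ : K ≃ₐ[ℚ] K) : K →+* K)) := (resK K σ).injective
  have hmul : ((galK K M σ g / g : FK K M) : LaurentSeries K) * (g : LaurentSeries K) =
      coeffMap ((resK K σ : K ≃ₐ[ℚ] K) : K →+* K) (g : LaurentSeries K) := by
    rw [← coe_galK]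
    show ((galK K M σ g / g * g : FK K M) : LaurentSeries K) = _
    rw [div_mul_cancel₀ _ hg]
  constructor
  · have h1 := congrArg HahnSeries.order hmul
    rw [HahnSeries.order_mul hf' hg', order_coeffMap_of_injective_top _ hinj] at h1
    linarith
  · have h1 := congrArg HahnSeries.leadingCoeff hmul
    rw [HahnSeries.leadingCoeff_mul, leadingCoeff_coeffMap_of_injective_top _ hinj] at h1
    rw [eq_div_iff (HahnSeries.leadingCoeff_ne_zero.mpr hg'), h1]
    rfl

/-- **TORIC at the level of a number field**, modulo (WRAP-I): if `σ g / g ≡ 1` and `LocPow` holds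
for `σ g / g` in both charts, then `σ g / g` is an `m`-th power. -/
theorem toric_level {π : RA A K} (hπ : Irreducible π) (a : ℕ) [NeZero a] (ha : a = 2 ∨ a = 3)
    (haM : a ∣ M) (m : ℕ) (hm : IsUnit (m : RA A K)) (ζ : RA A K) (hζ : IsPrimitiveRoot ζ m)
    (σ : Kb ≃ₐ[ℚ] Kb) (g : FK K M) (hg : g ≠ 0)
    (hf : PiInt π (tF K M a ha haM)
      ((galK K M σ g / g - 1) / algebraMap (RA A K) (FK K M) π))
    (hloc : LocPow π (tF K M a ha haM) (galK K M σ g / g) m)
    (hloc' : LocPow π (tF K M a ha haM)⁻¹ (galK K M σ g / g) m)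
    (c₀ : K) (hc₀ : c₀ ^ m = (g : LaurentSeries K).leadingCoeff) :
    ∃ ψ : FK K M, ψ ≠ 0 ∧ galK K M σ g = g * ψ ^ m := by
  have hσg : galK K M σ g ≠ 0 := (map_ne_zero_iff _ (galK K M σ).injective).2 hg
  obtain ⟨h1, h2⟩ := order_leadingCoeff_galK_div K σ hg
  obtain ⟨ψ, hψ⟩ := pow_level (R := RA A K) (K := K) M hπ a ha haM m hm ζ hζ (galK K M σ g / g)
    (div_ne_zero hσg hg) hf hloc hloc' (by rw [h1]; exact dvd_zero _) (resK K σ c₀ / c₀)
    (by rw [h2, div_pow, ← map_pow, hc₀])
  refine ⟨ψ, ?_, ?_⟩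
  · rintro rfl
    have hm0 : m ≠ 0 := by
      rintro rfl
      simp at hm
    rw [zero_pow hm0] at hψ
    exact div_ne_zero hσg hg hψ.symm
  · rw [hψ, mul_div_cancel₀ _ hg]

end gal

end Fermat.Agent.UNIlib
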