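import Fermat.Agent.UNI.CoreKF
import Fermat.Agent.UNI.ToricLevel
import Fermat.Agent.UNI.ToricF
import Fermat.Agent.UNI.Mord
import Fermat.Agent.UNI.NormaliseFK
import Fermat.Agent.UNI.Descent

/-!
# T-UNI, row TORICF (b): `Frob² = r²` on the toric part
-/

set_option autoImplicit false
set_option linter.unusedSectionVars false
set_option linter.style.haveILetI false

open ModularCurve IntermediateField AlgebraicCurve
open Fermat.Agent.S24lib Fermat.Agent.ESlib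

namespace Fermat.Agent.UNIlib

section gal

variable (A : ValuationSubring Kb) (K : IntermediateField ℚ Kb) [Normal ℚ K]
  [IsDiscreteValuationRing (RA A K)] {M : ℕ} [NeZero M]
  [Algebra (RA A K) (FK K M)] [IsScalarTower (RA A K) K (FK K M)]

/-- the decomposition group preserves `1 + π G` -/
theorem galK_sub_one_div_mem {π : RA A K} (hπ : Irreducible π) {σ : Kb ≃ₐ[ℚ] Kb}
    (hσ : σ ∈ A.decompositionSubgroup ℚ) {h : FK K M}
    (hh : (h - 1) / algebraMap (RA A K) (FK K M) π ∈ gaussSub (RA A K) K M) :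
    (galK K M σ h - 1) / algebraMap (RA A K) (FK K M) π ∈ gaussSub (RA A K) K M := by
  have hπ0 : algebraMap (RA A K) (FK K M) π ≠ 0 := algebraMap_unif_ne_zero hπ
  have h1 := galK_mem_gaussSub A K hσ hh
  rw [map_div₀, map_sub, map_one, galK_algebraMap_RA A K hσ] at h1
  -- `π ∣ σ π`
  have h2 : π ∣ galRA A K hσ π := by
    have := isLocalHom_galRA A K hσ
    have h3 : galRA A K hσ π ∈ IsLocalRing.maximalIdeal (RA A K) := by
      rw [IsLocalRing.mem_maximalIdeal, mem_nonunits_iff]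
      intro hu
      exact hπ.not_isUnit (isUnit_of_map_unit (galRA A K hσ) π hu)
    rwa [hπ.maximalIdeal_eq, Ideal.mem_span_singleton] at h3
  obtain ⟨u, hu⟩ := h2
  have hσπ0 : algebraMap (RA A K) (FK K M) (galRA A K hσ π) ≠ 0 := by
    rw [← galK_algebraMap_RA A K hσ]
    exact (map_ne_zero_iff _ (galK K M σ).injective).2 hπ0
  have h4 : (galK K M σ h - 1) / algebraMap (RA A K) (FK K M) π =
      (galK K M σ h - 1) / algebraMap (RA A K) (FK K M) (galRA A K hσ π) *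
        algebraMap (RA A K) (FK K M) u := by
    have hu0 : algebraMap (RA A K) (FK K M) u ≠ 0 := by
      intro h0
      apply hσπ0
      rw [hu, map_mul, h0, mul_zero]
    rw [hu, map_mul]
    field_simp
  rw [h4]
  exact mul_mem h1 (algebraMap_R_mem_gaussSub u)

/-- order and leading coefficient of `σ g / g ^ q` -/
theorem order_leadingCoeff_galK_div_pow (σ : Kb ≃ₐ[ℚ] Kb) {g : FK K M} (hg : g ≠ 0) (q : ℕ) :
    ((galK K M σ g / g ^ q : FK K M) : LaurentSeries K).order =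
        (g : LaurentSeries K).order - q * (g : LaurentSeries K).order ∧
      ((galK K M σ g / g ^ q : FK K M) : LaurentSeries K).leadingCoeff =
        resK K σ (g : LaurentSeries K).leadingCoeff / (g : LaurentSeries K).leadingCoeff ^ q := by
  have hg' : (g : LaurentSeries K) ≠ 0 := fun h => hg (Subtype.ext h)
  have hgq' : (g : LaurentSeries K) ^ q ≠ 0 := pow_ne_zero _ hg'
  have hσg : galK K M σ g ≠ 0 := (map_ne_zero_iff _ (galK K M σ).injective).2 hg
  have hf : galK K M σ g / g ^ q ≠ 0 := div_ne_zero hσg (pow_ne_zero _ hg)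
  have hf' : ((galK K M σ g / g ^ q : FK K M) : LaurentSeries K) ≠ 0 :=
    fun h => hf (Subtype.ext h)
  have hinj : Function.Injective (((resK K σ : K ≃ₐ[ℚ] K) : K →+* K)) := (resK K σ).injective
  have hmul : ((galK K M σ g / g ^ q : FK K M) : LaurentSeries K) * (g : LaurentSeries K) ^ q =
      coeffMap ((resK K σ : K ≃ₐ[ℚ] K) : K →+* K) (g : LaurentSeries K) := by
    rw [← coe_galK]
    show ((galK K M σ g / g ^ q * g ^ q : FK K M) : LaurentSeries K) = _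
    rw [div_mul_cancel₀ _ (pow_ne_zero _ hg)]
  constructor
  · have h1 := congrArg HahnSeries.order hmul
    rw [HahnSeries.order_mul hf' hgq', order_coeffMap_of_injective_top _ hinj,
      HahnSeries.order_pow, nsmul_eq_mul] at h1
    linarith
  · have h1 := congrArg HahnSeries.leadingCoeff hmul
    rw [HahnSeries.leadingCoeff_mul, leadingCoeff_coeffMap_of_injective_top _ hinj,
      leadingCoeff_pow_laurent] at h1
    rw [eq_div_iff (pow_ne_zero _ (HahnSeries.leadingCoeff_ne_zero.mpr hg')), h1]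
    rfl

end gal

section core

variable (A : ValuationSubring Kb) (K : IntermediateField ℚ Kb) [Normal ℚ K]
  [IsDiscreteValuationRing (RA A K)] {N r : ℕ} [NeZero (N * r)]
  [Algebra (RA A K) (FK K (N * r))] [IsScalarTower (RA A K) K (FK K (N * r))]

/-- **TORIC-F at the level of a number field.** -/
theorem coreK_frob (hr : r.Prime) (hrN : ¬ r ∣ N) {π : RA A K} (hπ : Irreducible π)
    (t : FK K (N * r)) (ht : Transcendental K t)
    [FiniteDimensional K⟮t⟯ (FK K (N * r))] [FiniteDimensional K⟮t⁻¹⟯ (FK K (N * r))]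
    (m : ℕ) (hm : IsUnit (m : RA A K)) (ζ : RA A K) (hζ : IsPrimitiveRoot ζ m)
    {φ : Kb ≃ₐ[ℚ] Kb} (hφ : φ ∈ A.decompositionSubgroup ℚ)
    {V₁ V₂ : ValuationSubring (FK K (N * r))} {q : ℕ} {ρ : FK K (N * r) →+* FK K (N * r)}
    (hV₁ : ∀ x, x ∈ V₁ ↔ x ∈ gaussSub (RA A K) K (N * r))
    (hV₂ : ∀ x, x ∈ V₂ ↔ wr K hr hrN x ∈ gaussSub (RA A K) K (N * r))
    (hρ : ∀ x, ρ x = galK K (N * r) (φ⁻¹ * φ⁻¹) x)
    (H : NodeHyp π t V₁ V₂ q ρ) (H' : NodeHyp π t⁻¹ V₁ V₂ q ρ)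
    (hC : ∀ x, PiInt π t x ↔ x ∈ V₁ ∧ x ∈ V₂)
    (g : FK K (N * r)) (hdiv : MDiv K m g) (hdivτ : MDiv K m (galK K (N * r) (φ * φ) g))
    (hg1 : (g - 1) / algebraMap (RA A K) (FK K (N * r)) π ∈ gaussSub (RA A K) K (N * r))
    (hg2 : (wr K hr hrN g - 1) / algebraMap (RA A K) (FK K (N * r)) π ∈
      gaussSub (RA A K) K (N * r))
    (hord : (m : ℤ) ∣ (g : LaurentSeries K).order)
    (d : K) (hd : d ^ m = (g : LaurentSeries K).leadingCoeff) :
    ∃ x : FK K (N * r), x ≠ 0 ∧ galK K (N * r) (φ * φ) g = g ^ q * x ^ m := by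
  have hφφ : φ * φ ∈ A.decompositionSubgroup ℚ := mul_mem hφ hφ
  set τg := galK K (N * r) (φ * φ) g with hτg
  have hρτ : ρ τg = g := by
    rw [hρ, hτg, ← galK_mul]
    have : φ⁻¹ * φ⁻¹ * (φ * φ) = 1 := by group
    rw [this, galK_one]
  have hwπ : ∀ x : FK K (N * r), wr K hr hrN ((x - 1) / algebraMap (RA A K) (FK K (N * r)) π) =
      (wr K hr hrN x - 1) / algebraMap (RA A K) (FK K (N * r)) π := by
    intro x
    rw [map_div₀, map_sub, map_one, algebraMap_RA_eq, AlgEquiv.commutes]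
  obtain ⟨h1, h2⟩ := order_leadingCoeff_galK_div_pow K (φ * φ) hdiv.1 q
  obtain ⟨x, hx⟩ := root_frob_FK (R := RA A K) (K := K) hπ t ht m hm ζ hζ H H' hC τg
    ((hV₁ _).2 (galK_sub_one_div_mem A K hπ hφφ hg1))
    ((hV₂ _).2 (by
      rw [hwπ, hτg, ← galK_wr]
      exact galK_sub_one_div_mem A K hπ hφφ hg2))
    (by rw [hρτ]; exact (hV₁ _).2 hg1)
    (by rw [hρτ]; exact (hV₂ _).2 (by rw [hwπ]; exact hg2))
    hdivτ (by rw [hρτ]; exact hdiv)
    (by
      rw [hρτ, h1]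
      exact dvd_sub hord (Dvd.dvd.mul_left hord _))
    (resK K (φ * φ) d / d ^ q)
    (by rw [hρτ, h2, div_pow, ← map_pow, hd, ← pow_mul, mul_comm q m, pow_mul, hd])
  rw [hρτ] at hx
  have hgq : g ^ q ≠ 0 := pow_ne_zero _ hdiv.1
  refine ⟨x, ?_, ?_⟩
  · rintro rfl
    have hm0 : m ≠ 0 := by
      rintro rfl
      simp at hm
    rw [zero_pow hm0] at hx
    exact div_ne_zero hdivτ.1 hgq hx.symm
  · rw [hx, mul_div_cancel₀ _ hgq]

end core

section top

open Fermat.Agent.ESlib.PartD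

variable {N r : ℕ} [NeZero (N * r)]

/-- the conclusion of the (`τ`-independent) descent `ℚ̄ → K` -/
def DescentAt (hr : r.Prime) (hrN : ¬ r ∣ N) (A : ValuationSubring Kb) (m : ℕ) : Prop :=
  ∀ (cs : Finset Kb) (f : FK Kb (N * r)), MDiv Kb m f → RedOne (N * r) A m f →
    RedOne (N * r) A m (wr Kb hr hrN f) →
    ∃ (K : IntermediateField ℚ Kb) (_ : FiniteDimensional ℚ K) (_ : Normal ℚ K)
      (_ : IsDiscreteValuationRing (RA A K)), (∀ a ∈ cs, a ∈ K) ∧
      ∃ (π : RA A K) (g : FK K (N * r)) (Ψ : FK Kb (N * r)), Irreducible π ∧ Ψ ≠ 0 ∧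
        bc K Kb (modularFunctionFieldFull (N * r)) g = f * Ψ ^ m ∧ MDiv K m g ∧
        (g - 1) / algebraMap K (FK K (N * r)) (π : K) ∈ gaussSub (RA A K) K (N * r) ∧
        (wr K hr hrN g - 1) / algebraMap K (FK K (N * r)) (π : K) ∈ gaussSub (RA A K) K (N * r) ∧
        ∃ d : K, d ^ m = (g : LaurentSeries K).leadingCoeff

/-- the modular inputs: (Node) in both charts and `C = V_∞ ∩ V_0`, over all sufficiently large
normal number fields -/
def NodeInputsAt (hr : r.Prime) (hrN : ¬ r ∣ N) (A : ValuationSubring Kb) (a : ℕ) [NeZero a]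
    (ha : a = 2 ∨ a = 3) (haM : a ∣ N * r) (φ : Kb ≃ₐ[ℚ] Kb) : Prop :=
  ∀ (K : IntermediateField ℚ Kb) [FiniteDimensional ℚ K] [Normal ℚ K]
    [IsDiscreteValuationRing (RA A K)] [Algebra (RA A K) (FK K (N * r))]
    [IsScalarTower (RA A K) K (FK K (N * r))] (π : RA A K), Irreducible π →
    (∃ z : K, IsPrimitiveRoot z N) → (∃ z : K, IsPrimitiveRoot z (N * r)) →
    ∃ (V₁ V₂ : ValuationSubring (FK K (N * r))) (ρ : FK K (N * r) →+* FK K (N * r)),
      (∀ x, x ∈ V₁ ↔ x ∈ gaussSub (RA A K) K (N * r)) ∧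
      (∀ x, x ∈ V₂ ↔ wr K hr hrN x ∈ gaussSub (RA A K) K (N * r)) ∧
      (∀ x, ρ x = galK K (N * r) (φ⁻¹ * φ⁻¹) x) ∧
      NodeHyp π (tF K (N * r) a ha haM) V₁ V₂ (r ^ 2) ρ ∧
      NodeHyp π (tF K (N * r) a ha haM)⁻¹ V₁ V₂ (r ^ 2) ρ ∧
      ∀ x, PiInt π (tF K (N * r) a ha haM) x ↔ x ∈ V₁ ∧ x ∈ V₂

set_option synthInstance.maxHeartbeats 400000 in
/-- **TORIC-F**: `Frob² = r²` on the toric part, from the descent and the modular inputs. -/
theorem toricF_of (hr : r.Prime) (hrN : ¬ r ∣ N) (A : ValuationSubring Kb)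
    (hA : A.LiesOverPrime r) (a : ℕ) [NeZero a] (ha : a = 2 ∨ a = 3) (haM : a ∣ N * r)
    {m : ℕ} (hm : 0 < m) (hmr : ¬ r ∣ m) (hD : DescentAt hr hrN A m)
    (hI : ∀ φ : Kb ≃ₐ[ℚ] Kb, A.IsFrobeniusAt φ r → NodeInputsAt hr hrN A a ha haM φ)
    (w : modularFunctionFieldBar (N * r) →+* modularFunctionFieldBar (N * r))
    (hw : ∀ f, w f = wr Kb hr hrN f) : ToricF (N * r) A m r w := by
  classical
  intro σ hσ f hf h1 h2
  rw [hw] at h2
  have hN0 : N ≠ 0 := by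
    rintro rfl
    exact NeZero.ne (0 * r) (zero_mul r)
  haveI : NeZero N := ⟨hN0⟩
  haveI : NeZero (m : Kb) := ⟨Nat.cast_ne_zero.2 hm.ne'⟩
  haveI : NeZero (N : Kb) := ⟨Nat.cast_ne_zero.2 hN0⟩
  haveI : NeZero ((N * r : ℕ) : Kb) := ⟨Nat.cast_ne_zero.2 (NeZero.ne (N * r))⟩
  obtain ⟨zm, hzm⟩ := HasEnoughRootsOfUnity.exists_primitiveRoot Kb m
  obtain ⟨zN, hzN⟩ := HasEnoughRootsOfUnity.exists_primitiveRoot Kb N
  obtain ⟨zM, hzM⟩ := HasEnoughRootsOfUnity.exists_primitiveRoot Kb (N * r)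
  obtain ⟨K, hKfd, hKn, hKdvr, hKc, π, g, Ψ, hπ, hΨ, hbc, hdiv, hg1, hg2, d, hd⟩ :=
    hD {zm, zN, zM} f hf h1 h2
  have hzmK : zm ∈ K := hKc zm (by simp)
  have hzNK : zN ∈ K := hKc zN (by simp)
  have hzMK : zM ∈ K := hKc zM (by simp)
  letI : Algebra (RA A K) (FK K (N * r)) :=
    ((algebraMap K (FK K (N * r))).comp (algebraMap (RA A K) K)).toAlgebra
  haveI : IsScalarTower (RA A K) K (FK K (N * r)) := IsScalarTower.of_algebraMap_eq fun _ => rfl
  have hKinj : Function.Injective (algebraMap K Kb) := (algebraMap K Kb).injective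
  obtain ⟨V₁, V₂, ρ, hV₁, hV₂, hρ, H, H', hC⟩ := hI σ hσ K π hπ
    ⟨⟨zN, hzNK⟩, IsPrimitiveRoot.of_map_of_injective (f := algebraMap K Kb) (hf := hKinj) hzN⟩
    ⟨⟨zM, hzMK⟩, IsPrimitiveRoot.of_map_of_injective (f := algebraMap K Kb) (hf := hKinj) hzM⟩
  obtain ⟨ζ, hζ⟩ := exists_primitiveRoot_RA A K hm zm hzm hzmK
  have hfd := finiteDimensional_tF K (N * r) a ha haM
  haveI := hfd.1
  haveI := hfd.2
  -- the divisor of `bc g`
  have hdivb : MDiv Kb m (bc K Kb (modularFunctionFieldFull (N * r)) g) := by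
    rw [hbc]
    exact hf.sameClass ⟨Ψ, hΨ, rfl⟩
  haveI : Algebra.IsAlgebraic ℚ Kb := AlgebraicClosure.isAlgebraic ℚ
  haveI : Algebra.IsAlgebraic K Kb := Algebra.IsAlgebraic.tower_top (K := ℚ) K
  have hdivτ : MDiv K m (galK K (N * r) (σ * σ) g) := by
    apply mDiv_of_mDiv_bc K Kb (N * r)
    rw [bc_galK]
    exact mDiv_galF hdivb _
  have hord : (m : ℤ) ∣ (g : LaurentSeries K).order := by
    obtain ⟨P, hP⟩ := exists_place_infty (N * r)
    rw [← order_coeffMap_of_injective_top _ hKinj, ← coe_bc, ← hP _ hdivb.1]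
    exact hdivb.2 P
  obtain ⟨x, hx0, hx⟩ := coreK_frob A K hr hrN hπ (tF K (N * r) a ha haM)
    (transcendental_tF K (N * r) a ha haM) m (isUnit_natCast_RA A hr hA K m hmr) ζ hζ
    hσ.mem_decompositionSubgroup hV₁ hV₂ hρ H H' hC g hdiv hdivτ hg1 hg2 hord d hd
  -- back to `ℚ̄`
  have h3 := congrArg (bc K Kb (modularFunctionFieldFull (N * r))) hx
  rw [bc_galK, map_mul, map_pow, map_pow, hbc, galF_mul, map_mul, map_mul, map_pow, map_pow] at h3
  set X := bc K Kb (modularFunctionFieldFull (N * r)) x with hX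
  have hX0 : X ≠ 0 := (map_ne_zero _).2 hx0
  set Ψ' := galF (N * r) σ (galF (N * r) σ Ψ) with hΨ'
  have hΨ'0 : Ψ' ≠ 0 :=
    (map_ne_zero_iff _ (galF (N * r) σ).injective).2
      ((map_ne_zero_iff _ (galF (N * r) σ).injective).2 hΨ)
  refine ⟨Ψ ^ (r ^ 2) * X / Ψ', div_ne_zero (mul_ne_zero (pow_ne_zero _ hΨ) hX0) hΨ'0, ?_⟩
  have h4 : galF (N * r) σ (galF (N * r) σ f) = (f * Ψ ^ m) ^ r ^ 2 * X ^ m / Ψ' ^ m := by
    rw [eq_div_iff (pow_ne_zero _ hΨ'0)]
    exact h3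
  rw [h4, div_pow, mul_pow, mul_pow, ← pow_mul, ← pow_mul, mul_comm m]
  ring

theorem descentAt (hr : r.Prime) (hrN : ¬ r ∣ N) (A : ValuationSubring Kb)
    (hA : A.LiesOverPrime r) {m : ℕ} (hm : 0 < m) : DescentAt hr hrN A m :=
  fun cs _ hf h1 h2 => exists_descent hr hrN A hA hm cs hf h1 h2

/-- **TORIC-F** from the modular inputs only. -/
theorem toricF_of_nodeInputs (hr : r.Prime) (hrN : ¬ r ∣ N) (A : ValuationSubring Kb)
    (hA : A.LiesOverPrime r) (a : ℕ) [NeZero a] (ha : a = 2 ∨ a = 3) (haM : a ∣ N * r)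
    {m : ℕ} (hm : 0 < m) (hmr : ¬ r ∣ m)
    (hI : ∀ φ : Kb ≃ₐ[ℚ] Kb, A.IsFrobeniusAt φ r → NodeInputsAt hr hrN A a ha haM φ)
    (w : modularFunctionFieldBar (N * r) →+* modularFunctionFieldBar (N * r))
    (hw : ∀ f, w f = wr Kb hr hrN f) : ToricF (N * r) A m r w :=
  toricF_of hr hrN A hA a ha haM hm hmr (descentAt hr hrN A hA hm) hI w hw

end top

end Fermat.Agent.UNIlib
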