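import Fermat.Agent.UNI.EndS30U
import Fermat.Agent.ES.K.S18Final

/-!
# T-UNI, glue row GL0 (U0): change of level for `UnipAt`

`UnipAt (N * a) A m → UnipAt N A m` for a prime `a ∤ N` with `gcd(m, a + 1) = 1` (norm argument, as in
`ES/K/Level.kilAt_of_mul`), and the reduction of `UnipInput` to the levels divisible by an auxiliary
prime `a ∈ {2, 3}`, `a ≠ q`.
-/

set_option autoImplicit false
set_option linter.style.haveILetI false

open ModularCurve AlgebraicCurve Fermat.Agent.S28lib

namespace Fermat.Agent.UNIlib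

open Fermat.Agent.ESlib Fermat.Agent.ESlib.PartD

namespace LevelU

/-- the inclusion `F(N) → F(M)` for `N ∣ M` -/
noncomputable def incl {N M : ℕ} [NeZero N] [NeZero M] (h : N ∣ M) :
    modularFunctionFieldBar N →ₐ[Qb] modularFunctionFieldBar M :=
  IntermediateField.inclusion (Level.bar_le h)

@[simp]
theorem coe_incl {N M : ℕ} [NeZero N] [NeZero M] (h : N ∣ M) (x : modularFunctionFieldBar N) :
    (incl h x : LaurentSeries Qb) = (x : LaurentSeries Qb) :=
  IntermediateField.coe_inclusion _ x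

theorem galF_incl {N M : ℕ} [NeZero N] [NeZero M] (h : N ∣ M) (σ : GQ)
    (x : modularFunctionFieldBar N) : galF M σ (incl h x) = incl h (galF N σ x) := by
  apply Subtype.ext
  rw [coe_incl, coe_arithmeticRingAut_apply, coe_arithmeticRingAut_apply, coe_incl]

theorem mDiv_incl {N M : ℕ} [NeZero N] [NeZero M] (h : N ∣ M) {m : ℕ}
    {f : modularFunctionFieldBar N} (hf : MDiv Qb m f) : MDiv Qb m (incl h f) := by
  refine ⟨(map_ne_zero (incl h)).2 hf.1, fun P' => ?_⟩
  rcases exists_place_restrict (K := Qb) (K' := Qb) ((incl h).toRingHom)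
      (fun a => (incl h).commutes a) P' with h0 | ⟨P, n, _, hP⟩
  · have h1 : P'.ord (incl h f) = 0 := h0 f
    rw [h1]
    exact dvd_zero _
  · have h1 : P'.ord (incl h f) = n * P.ord f := hP f
    rw [h1]
    exact Dvd.dvd.mul_left (hf.2 P) _

/-- an element of `F(N)` which is an `m`-th power in `F(N r)` is an `m`-th power in `F(N)`
(`gcd(m, r + 1) = 1`). -/
theorem sameClass_of_incl (N r : ℕ) [NeZero N] [NeZero (N * r)] (hr : r.Prime) (hrN : ¬ r ∣ N)
    {m : ℕ} (hm : 0 < m) (hmr : Nat.Coprime m (r + 1)) {x y : modularFunctionFieldBar N}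
    (hx : x ≠ 0) (hy : y ≠ 0)
    (h : SameClass m (incl (dvd_mul_right N r) x) (incl (dvd_mul_right N r) y)) :
    SameClass m x y := by
  letI : Algebra (modularFunctionFieldBar N) (modularFunctionFieldBar (N * r)) :=
    (IntermediateField.inclusion (Level.bar_le (dvd_mul_right N r))).toRingHom.toAlgebra
  have hd := Level.finrank_level N r hr hrN
  obtain ⟨ψ, hψ0, hψ⟩ := h
  have hψ' : algebraMap (modularFunctionFieldBar N) (modularFunctionFieldBar (N * r)) y
      = algebraMap (modularFunctionFieldBar N) (modularFunctionFieldBar (N * r)) x * ψ ^ m := hψ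
  have hn := congrArg (Algebra.norm (modularFunctionFieldBar N)) hψ'
  rw [map_mul, map_pow, Algebra.norm_algebraMap, Algebra.norm_algebraMap, hd] at hn
  obtain ⟨φ, hφ⟩ := Level.exists_pow_eq_of_coprime hm hmr (x := y * x⁻¹)
    (η := Algebra.norm (modularFunctionFieldBar N) ψ) (mul_ne_zero hy (inv_ne_zero hx)) (by
      rw [mul_pow, hn, inv_pow, mul_comm (x ^ (r + 1)), mul_assoc,
        mul_inv_cancel₀ (pow_ne_zero _ hx), mul_one])
  refine ⟨φ, ?_, ?_⟩
  · rintro rfl
    rw [zero_pow hm.ne'] at hφ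
    exact mul_ne_zero hy (inv_ne_zero hx) hφ.symm
  · rw [hφ, mul_comm y, ← mul_assoc, mul_inv_cancel₀ hx, one_mul]

end LevelU

open LevelU

/-- **(U0)** descent of `UnipAt` from level `N a` to level `N`. -/
theorem unipAt_of_mul (N a : ℕ) [NeZero N] (ha : a.Prime) (haN : ¬ a ∣ N)
    (A : ValuationSubring Qb) {m : ℕ} (hm : 0 < m) (hma : Nat.Coprime m (a + 1))
    (h : UnipAt (N * a) A m) : UnipAt N A m := by
  haveI : NeZero (N * a) := ⟨Nat.mul_ne_zero (NeZero.ne N) ha.ne_zero⟩
  intro σ hσ f hf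
  have h1 := h σ hσ (incl (dvd_mul_right N a) f) (mDiv_incl _ hf)
  have hf0 := hf.1
  have hσf : galF N σ f ≠ 0 := (map_ne_zero_iff _ (galF N σ).injective).2 hf0
  have hσσf : galF N σ (galF N σ f) ≠ 0 := (map_ne_zero_iff _ (galF N σ).injective).2 hσf
  refine sameClass_of_incl N a ha haN hm hma (pow_ne_zero 2 hσf) (mul_ne_zero hσσf hf0) ?_
  rw [galF_incl, galF_incl] at h1
  rw [map_pow, map_mul]
  exact h1

/-- What the geometric side has to deliver: `UnipAt` at the levels divisible by an auxiliary prime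
`a ∈ {2, 3}` different from the residue characteristic `q`. -/
def UnipHaupt : Prop :=
  ∀ (N : ℕ) [NeZero N] (a p q : ℕ), (a = 2 ∨ a = 3) → a ∣ N → a ≠ q → p.Prime → q.Prime → q ≠ p →
    q ∣ N → ¬ q ^ 2 ∣ N → ∀ A : ValuationSubring Qb, A.LiesOverPrime q → ∀ n : ℕ, UnipAt N A (p ^ n)

/-- **(U0)** -/
theorem unipInput_of_unipHaupt (H : UnipHaupt) : UnipInput := by
  intro N _ p q hp hq hqp hqN hq2 A hA n
  obtain ⟨a, ha23, haq, hcop⟩ : ∃ a : ℕ, (a = 2 ∨ a = 3) ∧ a ≠ q ∧ Nat.Coprime p (a + 1) := by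
    by_cases h2 : q = 2
    · refine ⟨3, Or.inr rfl, by omega, ?_⟩
      have : Nat.Coprime p 2 := (Nat.coprime_primes hp Nat.prime_two).2 (by omega)
      exact Nat.Coprime.pow_right 2 this
    · by_cases h3 : q = 3
      · exact ⟨2, Or.inl rfl, by omega, (Nat.coprime_primes hp Nat.prime_three).2 (by omega)⟩
      · by_cases hp3 : p = 3
        · subst hp3
          exact ⟨3, Or.inr rfl, fun h => h3 h.symm, by decide⟩
        · exact ⟨2, Or.inl rfl, fun h => h2 h.symm, (Nat.coprime_primes hp Nat.prime_three).2 hp3⟩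
  have ha : a.Prime := by
    rcases ha23 with rfl | rfl
    · exact Nat.prime_two
    · exact Nat.prime_three
  by_cases haN : a ∣ N
  · exact H N a p q ha23 haN haq hp hq hqp hqN hq2 A hA n
  · haveI : NeZero (N * a) := ⟨Nat.mul_ne_zero (NeZero.ne N) ha.ne_zero⟩
    refine unipAt_of_mul N a ha haN A (pow_pos hp.pos n) (Nat.Coprime.pow_left n hcop) ?_
    refine H (N * a) a p q ha23 (dvd_mul_left a N) haq hp hq hqp (Dvd.dvd.mul_right hqN a) ?_ A hA n
    intro h
    have hc : Nat.Coprime (q ^ 2) a :=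
      Nat.Coprime.pow_left 2 ((Nat.coprime_primes hq ha).2 (fun h => haq h.symm))
    exact hq2 (hc.dvd_of_dvd_mul_right h)

end Fermat.Agent.UNIlib
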