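import Fermat.Agent.UNI.S35Lim
import Fermat.Agent.ES.E.Tate

/-!
# T-UNI, S35: the class map `W_m(K, F) → Λ / S` of a `ThetaRel`
-/

set_option autoImplicit false

open ModularCurve AlgebraicCurve Fermat.Agent.S28lib

namespace Fermat.Agent.UNIlib

open Fermat.Agent.ESlib Fermat.Agent.ESlib.PartD

section cls

variable {K F Λ : Type*} [Field K] [Field F] [Algebra K F] [AddCommGroup Λ]
variable {m : ℕ} {S : Submodule ℤ Λ} {rel : F → Λ → Prop} (h : ThetaRel K m S rel)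

/-- the class of `f` in `Λ / S` -/
noncomputable def cls (f : F) (hf : MDiv K m f) : Λ ⧸ S :=
  Submodule.Quotient.mk (h.exists_right hf).choose

theorem cls_eq_mk {f : F} (hf : MDiv K m f) {x : Λ} (hx : rel f x) :
    cls h f hf = Submodule.Quotient.mk x := by
  rw [cls, Submodule.Quotient.eq]
  exact (h.right_iff hf hx).1 (h.exists_right hf).choose_spec

theorem rel_of_cls_eq_mk {f : F} (hf : MDiv K m f) {x : Λ}
    (hx : cls h f hf = Submodule.Quotient.mk x) : rel f x := by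
  rw [cls, eq_comm, Submodule.Quotient.eq] at hx
  exact (h.right_iff hf (h.exists_right hf).choose_spec).2 hx

theorem exists_cls (ξ : Λ ⧸ S) : ∃ (f : F) (hf : MDiv K m f), ξ = cls h f hf := by
  obtain ⟨x, rfl⟩ := Submodule.Quotient.mk_surjective _ ξ
  obtain ⟨f, hf, hx⟩ := h.exists_left x
  exact ⟨f, hf, (cls_eq_mk h hf hx).symm⟩

theorem cls_congr {f g : F} (hf : MDiv K m f) (hg : MDiv K m g) (e : f = g) :
    cls h f hf = cls h g hg := by
  subst e
  rfl

theorem cls_mul {f g : F} (hf : MDiv K m f) (hg : MDiv K m g) :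
    cls h (f * g) (hf.mul' hg) = cls h f hf + cls h g hg := by
  obtain ⟨x, hx⟩ := h.exists_right hf
  obtain ⟨y, hy⟩ := h.exists_right hg
  rw [cls_eq_mk h hf hx, cls_eq_mk h hg hy, cls_eq_mk h _ (h.mul hf hg hx hy)]
  rfl

theorem cls_eq_iff {f g : F} (hf : MDiv K m f) (hg : MDiv K m g) :
    cls h f hf = cls h g hg ↔ SameClass m f g := by
  obtain ⟨x, hx⟩ := h.exists_right hf
  obtain ⟨y, hy⟩ := h.exists_right hg
  rw [cls_eq_mk h hf hx, cls_eq_mk h hg hy, h.sameClass_iff hf hg hx hy, eq_comm,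
    Submodule.Quotient.eq]

theorem cls_one : cls h (1 : F) MDiv.one' = 0 := by
  have h1 : rel (1 : F) 0 := by simpa using h.rel_pow (one_ne_zero (α := F))
  rw [cls_eq_mk h _ h1]
  rfl

theorem cls_eq_zero_iff {f : F} (hf : MDiv K m f) : cls h f hf = 0 ↔ SameClass m 1 f := by
  rw [← cls_one h, eq_comm, cls_eq_iff]

theorem cls_inv {f : F} (hf : MDiv K m f) : cls h f⁻¹ hf.inv' = - cls h f hf := by
  have h1 := cls_mul h hf hf.inv'
  rw [cls_congr h _ MDiv.one' (mul_inv_cancel₀ hf.1), cls_one] at h1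
  exact (neg_eq_of_add_eq_zero_right h1.symm).symm

theorem MDiv.div' {f g : F} (hf : MDiv K m f) (hg : MDiv K m g) : MDiv K m (f / g) := by
  rw [div_eq_mul_inv]
  exact hf.mul' hg.inv'

theorem cls_div {f g : F} (hf : MDiv K m f) (hg : MDiv K m g) :
    cls h (f / g) (MDiv.div' hf hg) = cls h f hf - cls h g hg := by
  rw [cls_congr h _ (hf.mul' hg.inv') (div_eq_mul_inv f g), cls_mul h hf hg.inv', cls_inv,
    sub_eq_add_neg]

theorem cls_pow {f : F} (hf : MDiv K m f) (k : ℕ) :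
    cls h (f ^ k) (hf.pow' k) = (k : ℤ) • cls h f hf := by
  obtain ⟨x, hx⟩ := h.exists_right hf
  rw [cls_eq_mk h hf hx, cls_eq_mk h _ (h.rel_npow hf hx k), natCast_zsmul]
  rfl

theorem act_cls (s : F →+* F) (hs : ∀ f, MDiv K m f → MDiv K m (s f)) {f : F}
    (hf : MDiv K m f) : h.act s hs (cls h f hf) = cls h (s f) (hs f hf) := by
  obtain ⟨x, hx⟩ := h.exists_right hf
  obtain ⟨y, hy⟩ := h.exists_right (hs f hf)
  rw [cls_eq_mk h hf hx, cls_eq_mk h _ hy]
  exact h.act_mk s hs hf hx hy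

end cls

section act2

variable {K F F' Λ Λ' : Type*} [Field K] [Field F] [Algebra K F] [Field F'] [Algebra K F']
  [AddCommGroup Λ] [AddCommGroup Λ']
variable {m : ℕ} {S : Submodule ℤ Λ} {rel : F → Λ → Prop} (h : ThetaRel K m S rel)
  {S' : Submodule ℤ Λ'} {rel' : F' → Λ' → Prop} (h' : ThetaRel K m S' rel')
  (ι : F' →+* F) (hι : ∀ f, MDiv K m f → MDiv K m (ι f))

/-- the map `Λ' / S' → Λ / S` induced by a ring homomorphism `F' → F` -/
noncomputable def resFun (ξ : Λ' ⧸ S') : Λ ⧸ S :=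
  cls h (ι (exists_cls h' ξ).choose) (hι _ (exists_cls h' ξ).choose_spec.choose)

theorem resFun_cls {f : F'} (hf : MDiv K m f) :
    resFun h h' ι hι (cls h' f hf) = cls h (ι f) (hι f hf) := by
  have h1 := (exists_cls h' (cls h' f hf)).choose_spec.choose_spec
  rw [resFun, cls_eq_iff]
  exact ((cls_eq_iff h' _ _).1 h1.symm).map ι

/-- the linear map `Λ' / S' → Λ / S` induced by a ring homomorphism `F' → F` -/
noncomputable def resAct : (Λ' ⧸ S') →ₗ[ℤ] (Λ ⧸ S) :=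
  AddMonoidHom.toIntLinearMap
    { toFun := resFun h h' ι hι
      map_zero' := by
        rw [← cls_one h', resFun_cls, cls_congr h _ MDiv.one' (map_one ι), cls_one]
      map_add' := by
        intro a b
        obtain ⟨f, hf, rfl⟩ := exists_cls h' a
        obtain ⟨g, hg, rfl⟩ := exists_cls h' b
        rw [← cls_mul, resFun_cls, resFun_cls, resFun_cls, ← cls_mul]
        exact cls_congr _ _ _ (map_mul ι f g) }

theorem resAct_cls {f : F'} (hf : MDiv K m f) :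
    resAct h h' ι hι (cls h' f hf) = cls h (ι f) (hι f hf) :=
  resFun_cls h h' ι hι hf

end act2

section sys

variable {M : ℕ} [NeZero M] {p : ℕ} (D : ThetaSys M p)

theorem gal_cls (n : ℕ) (σ : GQ) {f : modularFunctionFieldBar M} (hf : MDiv Qb (p ^ n) f) :
    D.gal n σ (cls (D.isTheta n) f hf) = cls (D.isTheta n) (galF M σ f) (mDiv_galF hf σ) :=
  act_cls (D.isTheta n) _ _ hf

theorem T_cls (n : ℕ) {ℓ : ℕ} [NeZero ℓ] (hℓ : ℓ.Prime) (hℓM : ¬ ℓ ∣ M) {ζ : Qbˣ}
    (hζ : IsPrimitiveRoot ζ ℓ) {f : modularFunctionFieldBar M} (hf : MDiv Qb (p ^ n) f)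
    (hf' : MDiv Qb (p ^ n) (⟨_, D.T_mem hℓ hℓM hζ f f.2⟩ : modularFunctionFieldBar M)) :
    famOf p (D.hecke (CuspForm.heckeAlgebra.T hℓ hℓM (Set.notMem_empty ℓ))) n
      (cls (D.isTheta n) f hf) = cls (D.isTheta n) ⟨_, D.T_mem hℓ hℓM hζ f f.2⟩ hf' := by
  obtain ⟨x, hx⟩ := (D.isTheta n).exists_right hf
  rw [cls_eq_mk _ hf hx, cls_eq_mk _ _ (D.T_rel n hℓ hℓM hζ hf hx).2, famOf_mk]

theorem U_cls (n : ℕ) {q : ℕ} [NeZero q] (hq : q.Prime) (hqM : q ∣ M) {ζ : Qbˣ}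
    (hζ : IsPrimitiveRoot ζ q) {f : modularFunctionFieldBar M} (hf : MDiv Qb (p ^ n) f)
    (hf' : MDiv Qb (p ^ n) (⟨_, D.U_mem hq hqM hζ f f.2⟩ : modularFunctionFieldBar M)) :
    famOf p (D.hecke (CuspForm.heckeAlgebra.U hq hqM (Set.notMem_empty q))) n
      (cls (D.isTheta n) f hf) = cls (D.isTheta n) ⟨_, D.U_mem hq hqM hζ f f.2⟩ hf' := by
  obtain ⟨x, hx⟩ := (D.isTheta n).exists_right hf
  rw [cls_eq_mk _ hf hx, cls_eq_mk _ _ (D.U_rel n hq hqM hζ hf hx).2, famOf_mk]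

theorem act_compat (s : modularFunctionFieldBar M →+* modularFunctionFieldBar M)
    (hs : ∀ (n : ℕ) (f : modularFunctionFieldBar M), MDiv Qb (p ^ n) f → MDiv Qb (p ^ n) (s f))
    (n : ℕ) (x y : D.Λ)
    (h : (D.isTheta (n + 1)).act s (hs (n + 1)) (Submodule.Quotient.mk x)
      = Submodule.Quotient.mk y) :
    (D.isTheta n).act s (hs n) (Submodule.Quotient.mk x) = Submodule.Quotient.mk y := by
  obtain ⟨f, hf, hx⟩ := (D.isTheta (n + 1)).exists_left x
  have hy := ((D.isTheta (n + 1)).act_mk_iff s (hs (n + 1)) hf hx).1 h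
  have hf' : MDiv Qb (p ^ n) f := hf.of_dvd' (pow_dvd_pow p (Nat.le_succ n))
  exact ((D.isTheta n).act_mk_iff s (hs n) hf' (D.trans n hf hx)).2
    (D.trans n (hs (n + 1) f hf) hy)

end sys

end Fermat.Agent.UNIlib
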