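import Fermat.Agent.UNI.ToricF

/-!
# T-UNI, S35: the Frobenius relation on functions

For a Frobenius element `σ` at `r ∥ M`: `σ f / U_r f ≡ const` at the cusp `∞`; hence on the
classes `f` with `f · U_r (w f) ~ 1` and `w f · U_r f ~ 1` the class `h = σ f / U_r f` is toric and
`σ² h ~ h ^ (r²)`.
-/

set_option autoImplicit false

open ModularCurve AlgebraicCurve Fermat.Agent.S28lib Fermat.Agent.ESlib Fermat.Agent.ESlib.PartD

namespace Fermat.Agent.UNIlib

noncomputable section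

theorem RedOne.of_sameClass {N : ℕ} {A : ValuationSubring Qb} {m : ℕ}
    {f g : modularFunctionFieldBar N} (hf : RedOne N A m f) (h : SameClass m f g) :
    RedOne N A m g := by
  obtain ⟨ψ, c, Y₁, Y₂, hψ, hc, h₁, h₂, hred, hne, hrel⟩ := hf
  obtain ⟨u, hu, rfl⟩ := h
  refine ⟨ψ / u, c, Y₁, Y₂, div_ne_zero hψ hu, hc, h₁, h₂, hred, hne, ?_⟩
  rw [← hrel]
  have e : f * u ^ m * (ψ / u) ^ m = f * ψ ^ m := by
    rw [div_pow]
    field_simp
  have e' := congrArg (Subtype.val) e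
  have e'' : (f : LaurentSeries Qb) * (u : LaurentSeries Qb) ^ m *
      ((ψ / u : modularFunctionFieldBar N) : LaurentSeries Qb) ^ m =
      (f : LaurentSeries Qb) * (ψ : LaurentSeries Qb) ^ m := e'
  show (f : LaurentSeries Qb) * (u : LaurentSeries Qb) ^ m *
      ((ψ / u : modularFunctionFieldBar N) : LaurentSeries Qb) ^ m * _ = _
  rw [e'']

/-- `σ f / U_r f ≡ const` for a Frobenius element `σ` at `r` -/
theorem redOne_frob {N : ℕ} {A : ValuationSubring Qb} (hI : IntRepAt N A) (m : ℕ) {r : ℕ}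
    [Fact r.Prime] [NeZero r] (hA : A.LiesOverPrime r) {ζ : Qbˣ} (hζ : IsPrimitiveRoot ζ r)
    (hU : ∀ u ∈ modularFunctionFieldBar N, normU r ζ u ∈ modularFunctionFieldBar N)
    {σ : GQ} (hσ : A.IsFrobeniusAt σ r) {f : modularFunctionFieldBar N} (hf : f ≠ 0) :
    RedOne N A m (galF N σ f / ⟨normU r ζ f, hU f f.2⟩) := by
  obtain ⟨hdec, hfrob⟩ := hσ
  set g : A.decompositionSubgroup ℚ := ⟨σ, hdec⟩ with hg
  have hchar : CharP (IsLocalRing.ResidueField A) r := charP_resFieldE Fact.out hA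
  obtain ⟨ζA, hζA⟩ := exists_unit_of_pow_eq_one (A := A) (NeZero.ne r) hζ.pow_eq_one
  have hζA1 : ζA ^ r = 1 := by
    apply Units.map_injective (f := (A.subtype : A →* Qb)) Subtype.val_injective
    rw [map_pow, hζA, hζ.pow_eq_one, map_one]
  have hincU : ∀ y : LaurentSeries A, incA A (normU r ζA y) = normU r ζ (incA A y) := by
    intro y
    rw [coeffMap_normU, hζA]
  obtain ⟨c, y₁, y₂, hc, h₁, h₂, hr₁, hr₂, hrel⟩ := hI f f.2 (fun h => hf (Subtype.ext h))
  have hinc : ∀ y : LaurentSeries A, incA A (galA g y) = coeffMap (σ : Qb →+* Qb) (incA A y) :=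
    fun y => incA_galA g y
  have hrelσ := congrArg (coeffMap (σ : Qb →+* Qb)) hrel
  rw [map_mul, map_mul, ← hinc, ← hinc, coeffMap_C] at hrelσ
  have hrelU := congrArg (normUHom hζ) hrel
  rw [map_mul, map_mul] at hrelU
  simp only [normUHom_apply, normU_C] at hrelU
  have hσc : σ c ≠ 0 := (map_ne_zero σ).2 hc
  have hCne : ∀ a : Qb, a ≠ 0 → (HahnSeries.C a : LaurentSeries Qb) ≠ 0 := fun a ha h =>
    ha (HahnSeries.C_injective (by rw [h, map_zero]))
  have hf' : (f : LaurentSeries Qb) ≠ 0 := fun h => hf (Subtype.ext h)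
  have hUf : normU r ζ (f : LaurentSeries Qb) ≠ 0 := by
    rw [← normUHom_apply hζ]
    exact (map_ne_zero (normUHom hζ)).2 hf'
  have hredU : ∀ y : LaurentSeries A, redA A (normU r ζA y) = redA A (galA g y) := by
    intro y
    rw [redA_normU hζA1, redA_galA_of_frobenius hfrob]
  refine ⟨1, σ c / c ^ r, galA g y₁ * normU r ζA y₂, galA g y₂ * normU r ζA y₁, one_ne_zero,
    div_ne_zero hσc (pow_ne_zero _ hc), ?_, ?_, ?_, ?_, ?_⟩
  · rw [map_mul, hincU]; exact mul_mem (incA_galA_mem g h₁) (hU _ h₂)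
  · rw [map_mul, hincU]; exact mul_mem (incA_galA_mem g h₂) (hU _ h₁)
  · rw [map_mul, map_mul, hredU, hredU, mul_comm]
  · rw [map_mul, hredU]
    exact mul_ne_zero (redA_galA_ne_zero g hr₁) (redA_galA_ne_zero g hr₂)
  · have e : ((galF N σ f / ⟨normU r ζ f, hU f f.2⟩ : modularFunctionFieldBar N) :
        LaurentSeries Qb) = coeffMap (σ : Qb →+* Qb) (f : LaurentSeries Qb)
          / normU r ζ (f : LaurentSeries Qb) := rfl
    have e1 : ((1 : modularFunctionFieldBar N) : LaurentSeries Qb) = 1 := rfl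
    rw [e, e1, one_pow, mul_one, map_mul, map_mul, map_div₀, hincU, hincU, map_pow]
    have hC1 := hCne _ hc
    rw [map_pow] at hrelU
    set a := (f : LaurentSeries Qb)
    set F1 := coeffMap (σ : Qb →+* Qb) a
    set Ua := normU r ζ a
    set v₁ := incA A (galA g y₁)
    set v₂ := incA A (galA g y₂)
    set w₁ := normU r ζ (incA A y₁)
    set w₂ := normU r ζ (incA A y₂)
    field_simp
    calc F1 * v₂ * w₁ * HahnSeries.C c ^ r = (F1 * v₂) * (HahnSeries.C c ^ r * w₁) := by ring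
      _ = (HahnSeries.C (σ c) * v₁) * (Ua * w₂) := by rw [hrelσ, hrelU]; rfl
      _ = _ := by ring

/-- the Frobenius relation on functions -/
def FrobRel (M m r : ℕ) [NeZero r] (ζ : Qbˣ)
    (hU : ∀ u ∈ modularFunctionFieldBar M, normU r ζ u ∈ modularFunctionFieldBar M)
    (w : modularFunctionFieldBar M →+* modularFunctionFieldBar M) (σ : GQ) : Prop :=
  ∀ f : modularFunctionFieldBar M, MDiv Qb m f →
    SameClass m 1 (f * ⟨normU r ζ (w f), hU _ (w f).2⟩) →
    SameClass m 1 (w f * ⟨normU r ζ f, hU _ f.2⟩) →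
    SameClass m ((galF M σ f / ⟨normU r ζ f, hU _ f.2⟩) ^ (r ^ 2))
      (galF M σ (galF M σ (galF M σ f / ⟨normU r ζ f, hU _ f.2⟩)))

theorem frobRel_of_toricF {M : ℕ} {A : ValuationSubring Qb} (hI : IntRepAt M A) {m r : ℕ}
    [Fact r.Prime] [NeZero r] (hA : A.LiesOverPrime r) {ζ : Qbˣ} (hζ : IsPrimitiveRoot ζ r)
    (hU : ∀ u ∈ modularFunctionFieldBar M, normU r ζ u ∈ modularFunctionFieldBar M)
    (hUm : ∀ f : modularFunctionFieldBar M, MDiv Qb m f →
      MDiv Qb m (⟨normU r ζ f, hU _ f.2⟩ : modularFunctionFieldBar M))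
    (w : modularFunctionFieldBar M →+* modularFunctionFieldBar M)
    (hww : ∀ f, w (w f) = f)
    (hw : ∀ (σ : GQ) (f : modularFunctionFieldBar M), w (galF M σ f) = galF M σ (w f))
    (hT : ToricF M A m r w) {σ : GQ} (hσ : A.IsFrobeniusAt σ r) :
    FrobRel M m r ζ hU w σ := by
  intro f hf h1 h2
  have hwf : w f ≠ 0 := (map_ne_zero_iff w w.injective).2 hf.1
  have hh : MDiv Qb m (galF M σ f / ⟨normU r ζ f, hU _ f.2⟩) := by
    rw [div_eq_mul_inv]
    exact (mDiv_galF hf σ).mul' (hUm f hf).inv'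
  refine hT σ hσ _ hh (redOne_frob hI m hA hζ hU hσ hf.1) ?_
  refine (redOne_frob hI m hA hζ hU hσ hwf).of_sameClass ?_
  obtain ⟨v, hv, hv'⟩ := h1
  obtain ⟨u, hu, hu'⟩ := h2
  rw [one_mul] at hv' hu'
  have hwu : w u ≠ 0 := (map_ne_zero_iff w w.injective).2 hu
  refine ⟨v / w u, div_ne_zero hv hwu, ?_⟩
  have h3 := congrArg w hu'
  rw [map_mul, hww, map_pow] at h3
  rw [map_div₀, hw]
  have hf0 := hf.1
  set Uf : modularFunctionFieldBar M := ⟨normU r ζ f, hU _ f.2⟩
  set Uwf : modularFunctionFieldBar M := ⟨normU r ζ (w f), hU _ (w f).2⟩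
  have hUwf : Uwf ≠ 0 := by
    intro h0
    rw [h0, mul_zero] at hv'
    exact pow_ne_zero m hv hv'.symm
  have hwUf : w Uf ≠ 0 := by
    intro h0
    rw [h0, mul_zero] at h3
    exact pow_ne_zero m hwu h3.symm
  rw [div_pow]
  field_simp
  have : Uwf * w u ^ m = w Uf * v ^ m := by
    rw [← h3, ← hv']
    ring
  linear_combination (galF M σ (w f)) * this

end

end Fermat.Agent.UNIlib
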