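import Fermat.Agent.UNI.S35Core2
import Fermat.Agent.UNI.S35Cls
import Fermat.Agent.UNI.S35Frob
import Fermat.Agent.UNI.AL2
import Fermat.Agent.UNI.LevelU

/-!
# T-UNI, S35: from functions to the finite level operators
-/

set_option autoImplicit false
set_option linter.unusedSectionVars false

open ModularCurve AlgebraicCurve Fermat.Agent.S28lib CongruenceSubgroup
open scoped TensorProduct

namespace Fermat.Agent.UNIlib

open Fermat.Agent.ESlib Fermat.Agent.ESlib.PartD IsLocalRing Fermat.Agent.S24lib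

noncomputable section

variable {N r p : ℕ} [NeZero N] [NeZero r] [NeZero (N * r)]

/-- the Atkin-Lehner involution over `ℚ̄`, as a ring homomorphism -/
def wrB (hr : r.Prime) (hrN : ¬ r ∣ N) :
    modularFunctionFieldBar (N * r) →+* modularFunctionFieldBar (N * r) :=
  (wr Qb hr hrN).toAlgHom.toRingHom

theorem wrB_apply (hr : r.Prime) (hrN : ¬ r ∣ N) (f : modularFunctionFieldBar (N * r)) :
    wrB hr hrN f = wr Qb hr hrN f := rfl

theorem wrB_wrB (hr : r.Prime) (hrN : ¬ r ∣ N) (f : modularFunctionFieldBar (N * r)) :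
    wrB hr hrN (wrB hr hrN f) = f := wr_wr Qb hr hrN f

theorem mDiv_wrB (hr : r.Prime) (hrN : ¬ r ∣ N) {m : ℕ} (f : modularFunctionFieldBar (N * r))
    (hf : MDiv Qb m f) : MDiv Qb m (wrB hr hrN f) := mDiv_wr Qb hr hrN hf

theorem wrB_galF (hr : r.Prime) (hrN : ¬ r ∣ N) (σ : GQ) (f : modularFunctionFieldBar (N * r)) :
    wrB hr hrN (galF (N * r) σ f) = galF (N * r) σ (wrB hr hrN f) :=
  (arithmeticRingAut_wr Qb hr hrN σ f).symm

/-- the Atkin-Lehner involution on `Λ / p ^ n` -/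
def wAct (hr : r.Prime) (hrN : ¬ r ∣ N) (D : ThetaSys (N * r) p) (n : ℕ) :
    Module.End ℤ (D.Λ ⧸ powSub D.Λ p n) :=
  (D.isTheta n).act (wrB hr hrN) (fun f hf => mDiv_wrB hr hrN f hf)

theorem wAct_cls (hr : r.Prime) (hrN : ¬ r ∣ N) (D : ThetaSys (N * r) p) (n : ℕ)
    {f : modularFunctionFieldBar (N * r)} (hf : MDiv Qb (p ^ n) f) :
    wAct hr hrN D n (cls (D.isTheta n) f hf) =
      cls (D.isTheta n) (wrB hr hrN f) (mDiv_wrB hr hrN f hf) :=
  act_cls (D.isTheta n) _ _ hf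

theorem wAct_compat (hr : r.Prime) (hrN : ¬ r ∣ N) (D : ThetaSys (N * r) p) (n : ℕ) (x y : D.Λ)
    (h : wAct hr hrN D (n + 1) (Submodule.Quotient.mk x) = Submodule.Quotient.mk y) :
    wAct hr hrN D n (Submodule.Quotient.mk x) = Submodule.Quotient.mk y :=
  act_compat D (wrB hr hrN) (fun _ f hf => mDiv_wrB hr hrN f hf) n x y h

theorem wAct_sq (hr : r.Prime) (hrN : ¬ r ∣ N) (D : ThetaSys (N * r) p) (n : ℕ) :
    wAct hr hrN D n * wAct hr hrN D n = 1 := by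
  refine LinearMap.ext fun ξ => ?_
  obtain ⟨f, hf, rfl⟩ := exists_cls (D.isTheta n) ξ
  rw [Module.End.mul_apply, wAct_cls, wAct_cls, Module.End.one_apply]
  exact cls_congr _ _ _ (wrB_wrB hr hrN f)

/-- `w_r` commutes with `T_ℓ` on functions -/
def CommWT (hr : r.Prime) (hrN : ¬ r ∣ N) : Prop :=
  ∀ (ℓ : ℕ) [NeZero ℓ], ℓ.Prime → ¬ ℓ ∣ N * r → ∀ ζ : Qbˣ, IsPrimitiveRoot ζ ℓ →
    ∀ (f : modularFunctionFieldBar (N * r))
      (h : heckeTS ℓ ζ (f : LaurentSeries Qb) ∈ modularFunctionFieldBar (N * r)),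
      ((wrB hr hrN ⟨_, h⟩ : modularFunctionFieldBar (N * r)) : LaurentSeries Qb) =
        heckeTS ℓ ζ ((wrB hr hrN f : modularFunctionFieldBar (N * r)) : LaurentSeries Qb)

theorem wAct_T (hr : r.Prime) (hrN : ¬ r ∣ N) (D : ThetaSys (N * r) p) (hc : CommWT hr hrN)
    (n : ℕ) (i : GoodPrime (N * r)) :
    wAct hr hrN D n * famOf p (D.hecke (goodEval (dvd_refl (N * r)) (MvPolynomial.X i))) n =
      famOf p (D.hecke (goodEval (dvd_refl (N * r)) (MvPolynomial.X i))) n * wAct hr hrN D n := by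
  have : NeZero i.1 := ⟨i.2.1.ne_zero⟩
  obtain ⟨ζ, hζ⟩ := ThetaSys.exists_primitiveRoot_Qb i.1
  refine LinearMap.ext fun ξ => ?_
  obtain ⟨f, hf, rfl⟩ := exists_cls (D.isTheta n) ξ
  obtain ⟨x, hx⟩ := (D.isTheta n).exists_right hf
  obtain ⟨y, hy⟩ := (D.isTheta n).exists_right (mDiv_wrB hr hrN f hf)
  rw [Module.End.mul_apply, Module.End.mul_apply, goodEval_X, wAct_cls,
    T_cls D n i.2.1 i.2.2 hζ hf (D.T_rel n i.2.1 i.2.2 hζ hf hx).1,
    T_cls D n i.2.1 i.2.2 hζ _ (D.T_rel n i.2.1 i.2.2 hζ (mDiv_wrB hr hrN f hf) hy).1, wAct_cls]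
  exact cls_congr _ _ _ (Subtype.ext (hc i.1 i.2.1 i.2.2 ζ hζ f _))

/-- the norm from level `N r` to level `N` on functions -/
def NormLevel (hr : r.Prime) (hrN : ¬ r ∣ N) : Prop :=
  ∀ ζ : Qbˣ, IsPrimitiveRoot ζ r → ∀ (m : ℕ) (f : modularFunctionFieldBar (N * r)), MDiv Qb m f →
    ∃ f' : modularFunctionFieldBar N, MDiv Qb m f' ∧ (f' : LaurentSeries Qb) =
      (f : LaurentSeries Qb) *
        normU r ζ ((wrB hr hrN f : modularFunctionFieldBar (N * r)) : LaurentSeries Qb)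

theorem int_eq_zero_of_forall_pow_dvd {p : ℕ} (hp : 1 < p) {c : ℤ}
    (h : ∀ n : ℕ, (p : ℤ) ^ n ∣ c) : c = 0 := by
  by_contra hc
  have h2 : ((p ^ c.natAbs : ℕ) : ℤ) ∣ c := by
    rw [Nat.cast_pow]
    exact h _
  have h3 := Int.natAbs_dvd_natAbs.2 h2
  rw [Int.natAbs_natCast] at h3
  have h4 := Nat.le_of_dvd (Int.natAbs_pos.2 hc) h3
  exact absurd (Nat.lt_pow_self hp) (not_lt.2 h4)

theorem eq_zero_of_forall_mem_powSub {Λ : Type} [AddCommGroup Λ] [Module.Free ℤ Λ] {p : ℕ}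
    (hp : 1 < p) {x : Λ} (h : ∀ n, x ∈ powSub Λ p n) : x = 0 := by
  let b := Module.Free.chooseBasis ℤ Λ
  apply b.repr.injective
  rw [map_zero]
  ext i
  rw [Finsupp.zero_apply]
  refine int_eq_zero_of_forall_pow_dvd hp fun n => ?_
  obtain ⟨y, hy⟩ := h n
  refine ⟨b.repr y i, ?_⟩
  rw [← hy]
  simp

section main

variable (hr : r.Prime) (hrN : ¬ r ∣ N) (D : ThetaSys (N * r) p)

/-- the operator `U_r` -/
abbrev UrH (hr : r.Prime) : FullHecke (N * r) :=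
  CuspForm.heckeAlgebra.U hr (dvd_mul_left r N) (Set.notMem_empty r)

/-- `U_r` on functions -/
def UrF {ζ : Qbˣ} (hζ : IsPrimitiveRoot ζ r) (f : modularFunctionFieldBar (N * r)) :
    modularFunctionFieldBar (N * r) := ⟨_, D.U_mem hr (dvd_mul_left r N) hζ f f.2⟩

theorem mDiv_UrF (n : ℕ) {ζ : Qbˣ} (hζ : IsPrimitiveRoot ζ r)
    {f : modularFunctionFieldBar (N * r)} (hf : MDiv Qb (p ^ n) f) :
    MDiv Qb (p ^ n) (UrF hr D hζ f) := by
  obtain ⟨y, hy⟩ := (D.isTheta n).exists_right hf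
  exact (D.U_rel n hr (dvd_mul_left r N) hζ hf hy).1

theorem UrF_cls (n : ℕ) {ζ : Qbˣ} (hζ : IsPrimitiveRoot ζ r)
    {f : modularFunctionFieldBar (N * r)} (hf : MDiv Qb (p ^ n) f) :
    famOf p (D.hecke (UrH hr)) n (cls (D.isTheta n) f hf) =
      cls (D.isTheta n) (UrF hr D hζ f) (mDiv_UrF hr D n hζ hf) :=
  U_cls D n hr (dvd_mul_left r N) hζ hf _

theorem one_add_U_w_cls (n : ℕ) {ζ : Qbˣ} (hζ : IsPrimitiveRoot ζ r)
    {f : modularFunctionFieldBar (N * r)} (hf : MDiv Qb (p ^ n) f) :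
    (1 + famOf p (D.hecke (UrH hr)) n * wAct hr hrN D n) (cls (D.isTheta n) f hf) =
      cls (D.isTheta n) (f * UrF hr D hζ (wrB hr hrN f))
        (hf.mul' (mDiv_UrF hr D n hζ (mDiv_wrB hr hrN f hf))) := by
  rw [LinearMap.add_apply, Module.End.one_apply, Module.End.mul_apply, wAct_cls,
    UrF_cls hr D n hζ, cls_mul]

theorem w_add_U_cls (n : ℕ) {ζ : Qbˣ} (hζ : IsPrimitiveRoot ζ r)
    {f : modularFunctionFieldBar (N * r)} (hf : MDiv Qb (p ^ n) f) :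
    (wAct hr hrN D n + famOf p (D.hecke (UrH hr)) n) (cls (D.isTheta n) f hf) =
      cls (D.isTheta n) (wrB hr hrN f * UrF hr D hζ f)
        ((mDiv_wrB hr hrN f hf).mul' (mDiv_UrF hr D n hζ hf)) := by
  rw [LinearMap.add_apply, wAct_cls, UrF_cls hr D n hζ, cls_mul]

theorem frob_of_frobRel (n : ℕ) {ζ : Qbˣ} (hζ : IsPrimitiveRoot ζ r) (σ : GQ)
    (hF : FrobRel (N * r) (p ^ n) r ζ (D.U_mem hr (dvd_mul_left r N) hζ) (wrB hr hrN) σ)
    (ξ : D.Λ ⧸ powSub D.Λ p n)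
    (h1 : (1 + famOf p (D.hecke (UrH hr)) n * wAct hr hrN D n) ξ = 0)
    (h2 : (wAct hr hrN D n + famOf p (D.hecke (UrH hr)) n) ξ = 0) :
    ((D.gal n σ * D.gal n σ - ((r : ℤ) ^ 2) • 1) * (D.gal n σ - famOf p (D.hecke (UrH hr)) n)) ξ
      = 0 := by
  obtain ⟨f, hf, rfl⟩ := exists_cls (D.isTheta n) ξ
  rw [one_add_U_w_cls hr hrN D n hζ hf, cls_eq_zero_iff] at h1
  rw [w_add_U_cls hr hrN D n hζ hf, cls_eq_zero_iff] at h2
  have h3 : SameClass (p ^ n) ((galF (N * r) σ f / UrF hr D hζ f) ^ (r ^ 2))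
      (galF (N * r) σ (galF (N * r) σ (galF (N * r) σ f / UrF hr D hζ f))) := hF f hf h1 h2
  have hh := MDiv.div' (mDiv_galF hf σ) (mDiv_UrF hr D n hζ hf)
  have h4 := (cls_eq_iff (D.isTheta n) (hh.pow' (r ^ 2)) (mDiv_galF (mDiv_galF hh σ) σ)).2 h3
  have h5 : (D.gal n σ - famOf p (D.hecke (UrH hr)) n) (cls (D.isTheta n) f hf) =
      cls (D.isTheta n) _ hh := by
    rw [LinearMap.sub_apply, gal_cls, UrF_cls hr D n hζ, ← cls_div]
  rw [Module.End.mul_apply, h5, LinearMap.sub_apply, Module.End.mul_apply, gal_cls, gal_cls,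
    LinearMap.smul_apply, Module.End.one_apply, sub_eq_zero, ← h4, cls_pow]
  push_cast
  rfl

/-- the map `Λ' / p ^ n → Λ / p ^ n` induced by the inclusion of function fields -/
def resLevel (D' : ThetaSys N p) (n : ℕ) :
    (D'.Λ ⧸ powSub D'.Λ p n) →ₗ[ℤ] (D.Λ ⧸ powSub D.Λ p n) :=
  resAct (D.isTheta n) (D'.isTheta n) (LevelU.incl (dvd_mul_right N r)).toRingHom
    (fun _ hf => LevelU.mDiv_incl (dvd_mul_right N r) hf)

theorem resLevel_cls (D' : ThetaSys N p) (n : ℕ) {f : modularFunctionFieldBar N}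
    (hf : MDiv Qb (p ^ n) f) :
    resLevel D D' n (cls (D'.isTheta n) f hf) =
      cls (D.isTheta n) (LevelU.incl (dvd_mul_right N r) f)
        (LevelU.mDiv_incl (dvd_mul_right N r) hf) :=
  resAct_cls _ _ _ _ hf

theorem resLevel_T (D' : ThetaSys N p) (n : ℕ) (i : GoodPrime (N * r))
    (ξ : D'.Λ ⧸ powSub D'.Λ p n) :
    resLevel D D' n (((famHom p n).comp D'.hecke)
        (goodEval (dvd_mul_right N r) (MvPolynomial.X i)) ξ) =
      ((famHom p n).comp D.hecke) (goodEval (dvd_refl (N * r)) (MvPolynomial.X i))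
        (resLevel D D' n ξ) := by
  have : NeZero i.1 := ⟨i.2.1.ne_zero⟩
  obtain ⟨ζ, hζ⟩ := ThetaSys.exists_primitiveRoot_Qb i.1
  obtain ⟨f, hf, rfl⟩ := exists_cls (D'.isTheta n) ξ
  obtain ⟨x, hx⟩ := (D'.isTheta n).exists_right hf
  obtain ⟨y, hy⟩ := (D.isTheta n).exists_right (LevelU.mDiv_incl (dvd_mul_right N r) hf)
  have hiN : ¬ i.1 ∣ N := fun h => i.2.2 (h.trans (dvd_mul_right N r))
  rw [RingHom.comp_apply, RingHom.comp_apply, famHom_apply, famHom_apply, goodEval_X, goodEval_X,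
    resLevel_cls, T_cls D' n i.2.1 hiN hζ hf (D'.T_rel n i.2.1 hiN hζ hf hx).1, resLevel_cls,
    T_cls D n i.2.1 i.2.2 hζ _
      (D.T_rel n i.2.1 i.2.2 hζ (LevelU.mDiv_incl (dvd_mul_right N r) hf) hy).1]
  refine cls_congr _ _ _ (Subtype.ext ?_)
  rw [LevelU.coe_incl]
  show heckeTS i.1 ζ (f : LaurentSeries Qb) = heckeTS i.1 ζ _
  rw [LevelU.coe_incl]

theorem kill_of_fun (D' : ThetaSys N p) (hnorm : NormLevel hr hrN)
    (F : MvPolynomial (GoodPrime (N * r)) ℤ) (hF : goodEval (dvd_mul_right N r) F = 0) (n : ℕ) :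
    famOf p (D.hecke (goodEval (dvd_refl (N * r)) F)) n *
      (1 + famOf p (D.hecke (UrH hr)) n * wAct hr hrN D n) = 0 := by
  obtain ⟨ζ, hζ⟩ := ThetaSys.exists_primitiveRoot_Qb r
  refine LinearMap.ext fun ξ => ?_
  obtain ⟨f, hf, rfl⟩ := exists_cls (D.isTheta n) ξ
  obtain ⟨f', hf', e⟩ := hnorm ζ hζ (p ^ n) f hf
  have e1 : f * UrF hr D hζ (wrB hr hrN f) = LevelU.incl (dvd_mul_right N r) f' := by
    apply Subtype.ext
    rw [LevelU.coe_incl, e]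
    rfl
  rw [Module.End.mul_apply, one_add_U_w_cls hr hrN D n hζ hf,
    cls_congr _ _ (LevelU.mDiv_incl (dvd_mul_right N r) hf') e1, ← resLevel_cls D D' n hf',
    LinearMap.zero_apply]
  have h1 := res_goodEval (dvd_mul_right N r) ((famHom p n).comp D.hecke)
    ((famHom p n).comp D'.hecke) (resLevel D D' n) (resLevel_T D D' n) F
    (cls (D'.isTheta n) f' hf')
  rw [hF, map_zero, LinearMap.zero_apply, map_zero] at h1
  exact h1.symm

/-- **The Steinberg relation from the function level facts.** -/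
theorem steinberg_of_fun (hp : p.Prime)
    (hK : ∀ ℓ : ℕ, ℓ.Prime → ¬ ℓ ∣ N * r → ℓ ≠ p → ∀ A : ValuationSubring Qb, A.LiesOverPrime ℓ →
      KILAt (N * r) A p) (D' : ThetaSys N p)
    {O : Type} [CommRing O] [IsDomain O] [IsDiscreteValuationRing O]
    [IsAdicComplete (maximalIdeal O) O] [CharZero O] (hpO : (p : O) ∈ maximalIdeal O)
    {g : CuspForm (Gamma0 (N * r)) 2} (hg : g.IsNewform) (lam : FullHecke (N * r) →+* O)
    (hlam : ∀ t, lam t = 0 → eigenCharC hg.1 ∅ t = 0)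
    (hc : CommWT hr hrN) (hnorm : NormLevel hr hrN) (σ : GQ)
    (hF : ∀ (n : ℕ) (ζ : Qbˣ) (hζ : IsPrimitiveRoot ζ r),
      FrobRel (N * r) (p ^ n) r ζ (D.U_mem hr (dvd_mul_left r N) hζ) (wrB hr hrN) σ)
    (v : O ⊗[ℤ] D.Λ) (hv : v ∈ eigenO (D.tateDatum hp.pos hK) lam) :
    ((rhoM (D.tateDatum hp.pos hK) hpO σ * rhoM (D.tateDatum hp.pos hK) hpO σ - ((r : O) ^ 2) • 1) *
      (rhoM (D.tateDatum hp.pos hK) hpO σ * rhoM (D.tateDatum hp.pos hK) hpO σ - 1)) v = 0 := by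
  obtain ⟨ζ, hζ⟩ := ThetaSys.exists_primitiveRoot_Qb r
  have hne : N ≠ N * r := by
    intro h
    have h1 : N * 1 = N * r := by rw [mul_one]; exact h
    exact hr.one_lt.ne (Nat.eq_of_mul_eq_mul_left (Nat.pos_of_ne_zero (NeZero.ne N)) h1)
  exact steinberg_of_kill (D.tateDatum hp.pos hK) hpO hp.ne_zero (dvd_mul_right N r) hne hg lam hlam
    r (UrH hr) (wAct hr hrN D) (wAct_compat hr hrN D) (wAct_sq hr hrN D) (wAct_T hr hrN D hc)
    (kill_of_fun hr hrN D D' hnorm) σ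
    (fun n ξ h1 h2 => frob_of_frobRel hr hrN D n hζ σ (hF n ζ hζ) ξ h1 h2) v hv

end main

end

end Fermat.Agent.UNIlib
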