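import Fermat.Agent.UNI.AL2
import Fermat.Agent.S37.HKNormT

/-!
# T-UNI, S35: the Atkin-Lehner involution `w_r` commutes with the Hecke operators `T_ℓ`, `ℓ ∤ N r`

`T_ℓ = N_α ∘ β` (row HK5 of S37, `norm_alpha_beta`) at level `(N r) ℓ`, and the involution `w_r` of
level `(N ℓ) r = (N r) ℓ` restricts to `w_r` of level `N r` along both degeneracy maps `α`, `β`.
-/

set_option autoImplicit false
set_option linter.unusedSectionVars false
set_option linter.style.haveILetI false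

open ModularCurve AlgebraicCurve Fermat.Agent.S24lib Fermat.Agent.ESlib Fermat.Agent.S37lib

namespace Fermat.Agent.UNIlib

section wrAt

variable (K : Type) [Field K] [Algebra ℚ K] [Algebra K ℂ] [IsScalarTower ℚ K ℂ]

/-- the involution `w_r` at a level `M` which is only propositionally of the form `N' * r` -/
theorem exists_wrAt {M N' r : ℕ} [NeZero M] (hM : M = N' * r) (hr : r.Prime) (hrN' : ¬ r ∣ N') :
    ∃ W : FK K M ≃ₐ[K] FK K M, ∀ d d' : Dv M, (r ∣ d.1 → d'.1 * r = d.1) →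
      (¬ r ∣ d.1 → d'.1 = d.1 * r) → W (ESlib.Jgen K M d) = ESlib.Jgen K M d' := by
  subst hM
  refine ⟨wr K hr hrN', fun d d' h1 h2 => ?_⟩
  rw [wr_Jgen]
  congr 1
  apply Subtype.ext
  by_cases h : r ∣ d.1
  · rw [alPerm_of_dvd hr d h, ← h1 h, Nat.mul_div_cancel _ hr.pos]
  · rw [alPerm_of_not_dvd hr d h, h2 h]

end wrAt

section comm

variable {N r ℓ : ℕ} [NeZero (N * r)] [NeZero ℓ]

theorem alphaBar_Jgen_comm (M : ℕ) [NeZero M] (d : Dv M) :
    heckeAlphaBar Kb M ℓ (ESlib.Jgen Kb M d) = ESlib.Jgen Kb (M * ℓ) ⟨d.1, d.2.mul_right ℓ⟩ :=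
  Subtype.ext (coe_heckeAlphaBar M ℓ _)

theorem betaBar_Jgen_comm (M : ℕ) [NeZero M] (d : Dv M) :
    heckeBetaBar Kb M ℓ (ESlib.Jgen Kb M d) =
      ESlib.Jgen Kb (M * ℓ) ⟨d.1 * ℓ, Nat.mul_dvd_mul_right d.2 ℓ⟩ := by
  apply Subtype.ext
  rw [coe_heckeBetaBar]
  show qExpand Kb ℓ (coeffEmb Kb (qExpand ℚ d.1 jq)) = coeffEmb Kb (qExpand ℚ (d.1 * ℓ) jq)
  rw [← coeffEmb_qExpand, qExpand_qExpand]
  congr 1
  exact qExpand_congr (mul_comm _ _) _

/-- **`w_r` commutes with `T_ℓ`**, `ℓ ∤ N r`, on the function field of `X₀(N r)` over `ℚ̄`. -/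
theorem wr_heckeTS (hr : r.Prime) (hrN : ¬ r ∣ N) (hℓ : ℓ.Prime) (hℓN : ¬ ℓ ∣ N * r) {ζ : Kbˣ}
    (hζ : IsPrimitiveRoot ζ ℓ) (f : modularFunctionFieldBar (N * r)) :
    wr Kb hr hrN ⟨heckeTS ℓ ζ (f : LaurentSeries Kb), heckeTS_mem_bar hℓ hℓN hζ _ f.2⟩ =
      ⟨heckeTS ℓ ζ ((wr Kb hr hrN f : modularFunctionFieldBar (N * r)) : LaurentSeries Kb),
        heckeTS_mem_bar hℓ hℓN hζ _ (wr Kb hr hrN f).2⟩ := by
  have hrℓ : ¬ r ∣ ℓ := fun h => hℓN (by
    rw [(Nat.prime_dvd_prime_iff_eq hr hℓ).1 h]; exact dvd_mul_left _ _)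
  have hrN' : ¬ r ∣ N * ℓ := fun h => (hr.dvd_mul.1 h).elim hrN hrℓ
  obtain ⟨W, hW⟩ := exists_wrAt Kb (M := N * r * ℓ) (N' := N * ℓ) (by ring) hr hrN'
  have hα : (W.toRingEquiv : _ →+* _).comp (heckeAlphaBar Kb (N * r) ℓ).toRingHom =
      (heckeAlphaBar Kb (N * r) ℓ).toRingHom.comp (wr Kb hr hrN).toAlgHom.toRingHom := by
    apply ringHom_ext_JgenK
    · intro a
      show W (heckeAlphaBar Kb (N * r) ℓ _) = heckeAlphaBar Kb (N * r) ℓ (wr Kb hr hrN _)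
      rw [AlgHom.commutes, AlgEquiv.commutes, AlgEquiv.commutes, AlgHom.commutes]
    · intro d
      show W (heckeAlphaBar Kb (N * r) ℓ _) = heckeAlphaBar Kb (N * r) ℓ (wr Kb hr hrN _)
      rw [wr_Jgen, alphaBar_Jgen_comm, alphaBar_Jgen_comm]
      apply hW
      · intro h
        show (alPerm hr d).1 * r = d.1
        rw [alPerm_of_dvd hr d h, Nat.div_mul_cancel h]
      · intro h
        exact alPerm_of_not_dvd hr d h
  have hβ : (W.toRingEquiv : _ →+* _).comp (heckeBetaBar Kb (N * r) ℓ).toRingHom =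
      (heckeBetaBar Kb (N * r) ℓ).toRingHom.comp (wr Kb hr hrN).toAlgHom.toRingHom := by
    apply ringHom_ext_JgenK
    · intro a
      show W (heckeBetaBar Kb (N * r) ℓ _) = heckeBetaBar Kb (N * r) ℓ (wr Kb hr hrN _)
      rw [AlgHom.commutes, AlgEquiv.commutes, AlgEquiv.commutes, AlgHom.commutes]
    · intro d
      show W (heckeBetaBar Kb (N * r) ℓ _) = heckeBetaBar Kb (N * r) ℓ (wr Kb hr hrN _)
      rw [wr_Jgen, betaBar_Jgen_comm, betaBar_Jgen_comm]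
      apply hW
      · intro h
        have h' : r ∣ d.1 := (hr.dvd_mul.1 h).elim id (fun h2 => absurd h2 hrℓ)
        show (alPerm hr d).1 * ℓ * r = d.1 * ℓ
        rw [alPerm_of_dvd hr d h', mul_right_comm, Nat.div_mul_cancel h']
      · intro h
        have h' : ¬ r ∣ d.1 := fun h2 => h (h2.mul_right ℓ)
        show (alPerm hr d).1 * ℓ = d.1 * ℓ * r
        rw [alPerm_of_not_dvd hr d h', mul_right_comm]
  letI := algebraAlong (heckeAlphaBar Kb (N * r) ℓ)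
  have h1 := Algebra.norm_eq_of_equiv_equiv (A₁ := modularFunctionFieldBar (N * r))
    (B₁ := modularFunctionFieldBar (N * r * ℓ)) (A₂ := modularFunctionFieldBar (N * r))
    (B₂ := modularFunctionFieldBar (N * r * ℓ)) (wr Kb hr hrN).toRingEquiv W.toRingEquiv hα.symm
    (heckeBetaBar Kb (N * r) ℓ f)
  have h2 : W.toRingEquiv (heckeBetaBar Kb (N * r) ℓ f) =
      heckeBetaBar Kb (N * r) ℓ (wr Kb hr hrN f) := DFunLike.congr_fun hβ f
  rw [h2, norm_alpha_beta hℓ hℓN hζ, norm_alpha_beta hℓ hℓN hζ] at h1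
  rw [h1]
  exact (wr Kb hr hrN).toRingEquiv.apply_symm_apply _

end comm

end Fermat.Agent.UNIlib
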