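import Fermat.Agent.UNI.AL2
import Fermat.Agent.ES.K.Level
import Fermat.Agent.ES.E.HeckeSeries
import Fermat.Agent.ES.M.Base
import Fermat.Agent.S37.HKInputs

/-!
# T-UNI, S35: the norm from level `N r` to level `N`

`Norm_{F(N r) / F(N)} x = x * U_r (w_r x)` (`r` prime, `r ∤ N`): the `r + 1` embeddings of `F(N r)`
into `ℚ̄((t))`, `q = t ^ r`, over `F(N)` are `x ↦ x(t ^ r)` and `x ↦ (w_r x)(ζ ^ b t)`.
-/

set_option autoImplicit false
set_option linter.unusedSectionVars false
set_option linter.style.haveILetI false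

open ModularCurve AlgebraicCurve Fermat.Agent.S24lib Fermat.Agent.S28lib Fermat.Agent.ESlib

namespace Fermat.Agent.UNIlib

/-- the norm is the product over a full set of embeddings -/
theorem norm_eq_prod_of_embeddings {F E W : Type*} [Field F] [Field E] [Field W] [Algebra F E]
    [FiniteDimensional F E] [Algebra.IsSeparable F E] {ι : Type*} [Fintype ι]
    (Φ : ι → E →+* W) (j : F →+* W) (hΦ : ∀ i a, Φ i (algebraMap F E a) = j a)
    (hinj : Function.Injective Φ) (hcard : Fintype.card ι = Module.finrank F E) (x : E) :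
    j (Algebra.norm F x) = ∏ i, Φ i x := by
  classical
  letI : Algebra F W := j.toAlgebra
  let Ψ : ι → (E →ₐ[F] AlgebraicClosure W) := fun i =>
    { ((algebraMap W (AlgebraicClosure W)).comp (Φ i)) with
      commutes' := fun a => by
        show algebraMap W (AlgebraicClosure W) (Φ i (algebraMap F E a)) = _
        rw [hΦ]
        rfl }
  have hΨ : ∀ i y, Ψ i y = algebraMap W (AlgebraicClosure W) (Φ i y) := fun _ _ => rfl
  have hΨinj : Function.Injective Ψ := by
    intro i i' h
    apply hinj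
    ext y
    apply (algebraMap W (AlgebraicClosure W)).injective
    rw [← hΨ, ← hΨ, h]
  have hbij : Function.Bijective Ψ :=
    (Fintype.bijective_iff_injective_and_card Ψ).2
      ⟨hΨinj, by rw [hcard, AlgHom.card F E (AlgebraicClosure W)]⟩
  have h := Algebra.norm_eq_prod_embeddings F (AlgebraicClosure W) x
  apply (algebraMap W (AlgebraicClosure W)).injective
  rw [map_prod]
  calc algebraMap W (AlgebraicClosure W) (j (Algebra.norm F x))
      = algebraMap F (AlgebraicClosure W) (Algebra.norm F x) := rfl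
    _ = ∏ σ : E →ₐ[F] AlgebraicClosure W, σ x := h
    _ = ∏ i, Ψ i x := (Fintype.prod_bijective Ψ hbij _ _ (fun _ => rfl)).symm

theorem scale_qExpand_of_pow_eq_one {A : Type*} [CommRing A] {r : ℕ} [NeZero r] {c : Aˣ}
    (hc : c ^ r = 1) (u : LaurentSeries A) : scale c (qExpand A r u) = qExpand A r u := by
  ext n
  rw [coeff_scale]
  by_cases hn : (r : ℤ) ∣ n
  · obtain ⟨k, rfl⟩ := hn
    rw [zpow_mul, zpow_natCast, hc, one_zpow, Units.val_one, one_mul]
  · rw [qExpand_coeff_of_not_dvd r _ hn, mul_zero]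

section level

variable {N r : ℕ} [NeZero N] [NeZero r] [NeZero (N * r)]

/-- the embeddings of `F(N r)` in `ℚ̄((t))` -/
noncomputable def levelEmb (hr : r.Prime) (hrN : ¬ r ∣ N) (ζ : Kbˣ) :
    Option (Fin r) → (FK Kb (N * r) →+* LaurentSeries Kb)
  | none => (qExpand Kb r).comp (algebraMap (FK Kb (N * r)) (LaurentSeries Kb))
  | some b => ((scale (ζ ^ (b : ℕ))).comp (algebraMap (FK Kb (N * r)) (LaurentSeries Kb))).comp
      (wr Kb hr hrN).toAlgHom.toRingHom

theorem levelEmb_none (hr : r.Prime) (hrN : ¬ r ∣ N) (ζ : Kbˣ) (x : FK Kb (N * r)) :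
    levelEmb hr hrN ζ none x = qExpand Kb r (x : LaurentSeries Kb) := rfl

theorem levelEmb_some (hr : r.Prime) (hrN : ¬ r ∣ N) (ζ : Kbˣ) (b : Fin r) (x : FK Kb (N * r)) :
    levelEmb hr hrN ζ (some b) x = scale (ζ ^ (b : ℕ)) (wr Kb hr hrN x : LaurentSeries Kb) := rfl

theorem levelEmb_inclF (hr : r.Prime) (hrN : ¬ r ∣ N) {ζ : Kbˣ} (hζ : ζ ^ r = 1)
    (i : Option (Fin r)) (a : FK Kb N) :
    levelEmb hr hrN ζ i (inclF Kb (dvd_mul_right N r) a) = qExpand Kb r (a : LaurentSeries Kb) := by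
  cases i with
  | none => rw [levelEmb_none, coe_inclF]
  | some b =>
    rw [levelEmb_some, coe_wr_inclF]
    exact scale_qExpand_of_pow_eq_one (by rw [← pow_mul, mul_comm, pow_mul, hζ, one_pow]) _

theorem levelEmb_injective (hr : r.Prime) (hrN : ¬ r ∣ N) {ζ : Kbˣ} (hζ : IsPrimitiveRoot ζ r) :
    Function.Injective (levelEmb (N := N) hr hrN ζ) := by
  -- the test element `j(q^r)`
  set x₀ : FK Kb (N * r) := Br Kb hr hrN (ESlib.J1 Kb N) with hx₀
  have h1 : (levelEmb hr hrN ζ none x₀).coeff (-1) = 0 := by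
    rw [levelEmb_none]
    apply qExpand_coeff_of_not_dvd
    intro h
    have h2 : (r : ℤ) ∣ 1 := (dvd_neg.1 h)
    have h3 : r ∣ 1 := by exact_mod_cast h2
    exact hr.one_lt.ne' (Nat.dvd_one.1 h3)
  have h2 : ∀ b : Fin r, (levelEmb hr hrN ζ (some b) x₀).coeff (-1) = (((ζ ^ (b : ℕ))⁻¹ : Kbˣ) : Kb) := by
    intro b
    rw [levelEmb_some, hx₀, wr_Br, coe_inclF, coeff_scale, coe_J1, coeff_jqModC_neg_one, mul_one,
      zpow_neg_one]
  intro i i' h
  have h3 : (levelEmb hr hrN ζ i x₀).coeff (-1) = (levelEmb hr hrN ζ i' x₀).coeff (-1) := by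
    rw [h]
  cases i with
  | none =>
    cases i' with
    | none => rfl
    | some b' =>
      rw [h1, h2] at h3
      exact absurd h3.symm (Units.ne_zero _)
  | some b =>
    cases i' with
    | none =>
      rw [h1, h2] at h3
      exact absurd h3 (Units.ne_zero _)
    | some b' =>
      rw [h2, h2] at h3
      have h4 : ζ ^ (b : ℕ) = ζ ^ (b' : ℕ) := inv_injective (Units.ext h3)
      exact congrArg some (Fin.ext (hζ.pow_inj b.2 b'.2 h4))

set_option synthInstance.maxHeartbeats 400000 in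
/-- **the norm formula** -/
theorem coe_norm_level (hr : r.Prime) (hrN : ¬ r ∣ N) {ζ : Kbˣ} (hζ : IsPrimitiveRoot ζ r)
    (x : FK Kb (N * r)) :
    letI : Algebra (FK Kb N) (FK Kb (N * r)) := (inclF Kb (dvd_mul_right N r)).toRingHom.toAlgebra
    ((Algebra.norm (FK Kb N) x : FK Kb N) : LaurentSeries Kb) =
      (x : LaurentSeries Kb) * normU r ζ (wr Kb hr hrN x : LaurentSeries Kb) := by
  letI : Algebra (FK Kb N) (FK Kb (N * r)) := (inclF Kb (dvd_mul_right N r)).toRingHom.toAlgebra
  have hfr : Module.finrank (FK Kb N) (FK Kb (N * r)) = r + 1 := Level.finrank_level N r hr hrN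
  haveI : FiniteDimensional (FK Kb N) (FK Kb (N * r)) :=
    Module.finite_of_finrank_pos (by rw [hfr]; omega)
  have h := norm_eq_prod_of_embeddings (F := FK Kb N) (E := FK Kb (N * r))
    (levelEmb hr hrN ζ) ((qExpand Kb r).comp (algebraMap (FK Kb N) (LaurentSeries Kb)))
    (fun i a => levelEmb_inclF hr hrN hζ.pow_eq_one i a) (levelEmb_injective hr hrN hζ)
    (by rw [Fintype.card_option, Fintype.card_fin, hfr]) x
  apply qExpand_injective (R := Kb) r
  rw [map_mul, qExpand_normU hζ, rotProd, ← Fin.prod_univ_eq_prod_range]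
  rw [Fintype.prod_option] at h
  exact h

end level

/-- the norm preserves "divisor divisible by `m`" -/
theorem mDiv_norm_of_isFF {K F F' : Type*} [Field K] [Field F] [Field F'] [Algebra K F]
    [Algebra K F'] [IsAlgClosed K] [CharZero K] [Algebra F F'] [IsScalarTower K F F']
    [Module.Finite F F'] (hFF : Fermat.Agent.S24RH.IsFF K F) (hFF' : Fermat.Agent.S24RH.IsFF K F')
    {m : ℕ} {x : F'} (hx : MDiv K m x) : MDiv K m (Algebra.norm F x) := by
  classical
  refine ⟨Algebra.norm_ne_zero_iff.2 hx.1, fun v => ?_⟩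
  obtain ⟨D, hD, -⟩ := (Fermat.Agent.S37lib.hasPrincipalDivisors_of_isFF hFF').exists_divisor x hx.1
  rw [← Fermat.Agent.S37lib.pushforwardNormFormula_of_isFF hFF hFF' x hx.1 D hD v,
    Divisor.pushforward_apply]
  refine Finset.dvd_sum fun w _ => ?_
  split_ifs
  · rw [hD]; exact Dvd.dvd.mul_right (hx.2 w) _
  · exact dvd_zero _

section level2

variable {N r : ℕ} [NeZero N] [NeZero r] [NeZero (N * r)]

set_option synthInstance.maxHeartbeats 400000 in
/-- `x * U_r (w_r x)` comes from level `N`, and its divisor there is divisible by `m` if the divisor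
of `x` is. -/
theorem exists_eq_mul_normU_wr (hr : r.Prime) (hrN : ¬ r ∣ N) {ζ : Kbˣ} (hζ : IsPrimitiveRoot ζ r)
    {m : ℕ} {x : FK Kb (N * r)} (hx : MDiv Kb m x) :
    ∃ g : FK Kb N, MDiv Kb m g ∧ (g : LaurentSeries Kb) =
      (x : LaurentSeries Kb) * normU r ζ (wr Kb hr hrN x : LaurentSeries Kb) := by
  letI : Algebra (FK Kb N) (FK Kb (N * r)) := (inclF Kb (dvd_mul_right N r)).toRingHom.toAlgebra
  haveI : IsScalarTower Kb (FK Kb N) (FK Kb (N * r)) :=
    IsScalarTower.of_algebraMap_eq fun a => ((inclF Kb (dvd_mul_right N r)).commutes a).symm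
  have hfr : Module.finrank (FK Kb N) (FK Kb (N * r)) = r + 1 := Level.finrank_level N r hr hrN
  haveI : FiniteDimensional (FK Kb N) (FK Kb (N * r)) :=
    Module.finite_of_finrank_pos (by rw [hfr]; omega)
  exact ⟨Algebra.norm (FK Kb N) x, mDiv_norm_of_isFF (isFF_FK N) (isFF_FK (N * r)) hx,
    coe_norm_level hr hrN hζ x⟩

end level2

end Fermat.Agent.UNIlib
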