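import Fermat.Agent.UNI.ToricU
import Fermat.Agent.UNI.GaussVal
import Fermat.Agent.ES.M.NFRing
import Fermat.Agent.ES.M.NFSeries

/-!
# T-UNI: integral representation of the elements of `F_{ℚ̄}(N)` at EVERY prime

`intRepAt` : `IntRepAt N A` for every valuation subring `A` of `ℚ̄` lying over a prime number `ℓ`
(no hypothesis `ℓ ∤ N`).  Every element of `F` is a quotient of two series of `A((q)) ∩ F`
(induction on the generators `j(dτ)`), and a nonzero series of `A((q)) ∩ F` has its coefficients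
in a number field, hence is a constant times a primitive series.
-/

set_option autoImplicit false

open ModularCurve Fermat.Agent.S28lib Fermat.Agent.ESlib

namespace Fermat.Agent.UNIlib

noncomputable section

/-- quotients of two series of `A((q)) ∩ F` -/
def IsQuotA (N : ℕ) (A : ValuationSubring Qb) (x : LaurentSeries Qb) : Prop :=
  ∃ s y : LaurentSeries A, s ≠ 0 ∧ incA A s ∈ modularFunctionFieldBar N ∧
    incA A y ∈ modularFunctionFieldBar N ∧ incA A s * x = incA A y

namespace IsQuotA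

variable {N : ℕ} {A : ValuationSubring Qb}

theorem add {x x' : LaurentSeries Qb} (hx : IsQuotA N A x) (hx' : IsQuotA N A x') :
    IsQuotA N A (x + x') := by
  obtain ⟨s, y, hs, hsF, hyF, h⟩ := hx
  obtain ⟨s', y', hs', hsF', hyF', h'⟩ := hx'
  refine ⟨s * s', y * s' + y' * s, mul_ne_zero hs hs', ?_, ?_, ?_⟩
  · rw [map_mul]; exact mul_mem hsF hsF'
  · rw [map_add, map_mul, map_mul]; exact add_mem (mul_mem hyF hsF') (mul_mem hyF' hsF)
  · rw [map_mul, map_add, map_mul, map_mul, ← h, ← h']; ring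

theorem mul {x x' : LaurentSeries Qb} (hx : IsQuotA N A x) (hx' : IsQuotA N A x') :
    IsQuotA N A (x * x') := by
  obtain ⟨s, y, hs, hsF, hyF, h⟩ := hx
  obtain ⟨s', y', hs', hsF', hyF', h'⟩ := hx'
  refine ⟨s * s', y * y', mul_ne_zero hs hs', ?_, ?_, ?_⟩
  · rw [map_mul]; exact mul_mem hsF hsF'
  · rw [map_mul]; exact mul_mem hyF hyF'
  · rw [map_mul, map_mul, ← h, ← h']; ring

theorem inv {x : LaurentSeries Qb} (hx : IsQuotA N A x) : IsQuotA N A x⁻¹ := by
  obtain ⟨s, y, hs, hsF, hyF, h⟩ := hx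
  by_cases hx0 : x = 0
  · exact ⟨1, 0, one_ne_zero, by rw [map_one]; exact one_mem _, by rw [map_zero]; exact zero_mem _,
      by simp [hx0]⟩
  · have hs' : incA A s ≠ 0 := fun h0 => hs (incA_injective A (by rw [h0, map_zero]))
    refine ⟨y, s, ?_, hyF, hsF, ?_⟩
    · rintro rfl
      rw [map_zero] at h
      exact mul_ne_zero hs' hx0 h
    · rw [← h, mul_assoc, mul_inv_cancel₀ hx0, mul_one]

theorem C_mem_bar (N : ℕ) (a : Qb) :
    (HahnSeries.C a : LaurentSeries Qb) ∈ modularFunctionFieldBar N := by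
  rw [HahnSeries.C_apply, ← algebraMap_laurentSeries_eq_single]
  exact (modularFunctionFieldBar N).algebraMap_mem a

theorem const (a : Qb) : IsQuotA N A (HahnSeries.C a) := by
  rcases A.mem_or_inv_mem a with ha | ha
  · refine ⟨1, HahnSeries.C ⟨a, ha⟩, one_ne_zero, by rw [map_one]; exact one_mem _, ?_, ?_⟩
    · rw [coeffMap_C']; exact C_mem_bar N _
    · rw [coeffMap_C', map_one, one_mul]; rfl
  · by_cases ha0 : a = 0
    · subst ha0
      exact ⟨1, 0, one_ne_zero, by rw [map_one]; exact one_mem _,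
        by rw [map_zero]; exact zero_mem _, by simp⟩
    · refine ⟨HahnSeries.C ⟨a⁻¹, ha⟩, 1, ?_, ?_, by rw [map_one]; exact one_mem _, ?_⟩
      · intro h0
        have h1 := HahnSeries.C_injective (h0.trans (map_zero _).symm)
        exact inv_ne_zero ha0 (congrArg Subtype.val h1)
      · rw [coeffMap_C']; exact C_mem_bar N _
      · rw [coeffMap_C', map_one, ← map_mul]
        show HahnSeries.C (a⁻¹ * a) = 1
        rw [inv_mul_cancel₀ ha0, map_one]

end IsQuotA

/-- every element of `F_{ℚ̄}(N)` is a quotient of two series of `A((q)) ∩ F` -/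
theorem isQuotA_of_mem (N : ℕ) [NeZero N] (A : ValuationSubring Qb) {x : LaurentSeries Qb}
    (hx : x ∈ modularFunctionFieldBar N) : IsQuotA N A x := by
  have hx' : x ∈ laurentBaseChange Qb (modularFunctionFieldFull N) := hx
  rw [FK_eq_adjoin] at hx'
  clear hx
  induction hx' using IntermediateField.adjoin_induction with
  | mem x hx1 =>
    have hxF : x ∈ laurentBaseChange Qb (modularFunctionFieldFull N) := by
      rw [FK_eq_adjoin]; exact IntermediateField.subset_adjoin _ _ hx1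
    obtain ⟨d, hd0, hd, rfl⟩ := hx1
    have h1 := S28lib.coeffMap_jAd A.subtype d
    have h2 : qExpand Qb d (jqModC Qb) = incA A (jAd A d) := h1.symm
    refine ⟨1, jAd A d, one_ne_zero, by rw [map_one]; exact one_mem _, ?_, ?_⟩
    · rw [← h2]; exact hxF
    · rw [map_one, one_mul, h2]
  | algebraMap a =>
    rw [algebraMap_laurentSeries_eq_single, ← HahnSeries.C_apply]
    exact IsQuotA.const a
  | add x y _ _ hx hy => exact hx.add hy
  | inv x _ hx => exact hx.inv
  | mul x y _ _ hx hy => exact hx.mul hy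

/-- a nonzero series of `A((q)) ∩ F` is a constant times a primitive series of `A((q)) ∩ F` -/
theorem exists_primitive_of_mem (N : ℕ) {ℓ : ℕ} (hℓ : ℓ.Prime) (A : ValuationSubring Qb)
    (hA : A.LiesOverPrime ℓ) {y : LaurentSeries A} (hy : y ≠ 0)
    (hyF : incA A y ∈ modularFunctionFieldBar N) :
    ∃ (c : Qb) (y₀ : LaurentSeries A), c ≠ 0 ∧ incA A y₀ ∈ modularFunctionFieldBar N ∧
      redA A y₀ ≠ 0 ∧ incA A y = HahnSeries.C c * incA A y₀ := by
  have halg : Algebra.IsAlgebraic ℚ Qb := AlgebraicClosure.isAlgebraic ℚ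
  obtain ⟨K, hK, hcoeff⟩ := exists_finiteDimensional_coeff_mem (L := Qb)
    (modularFunctionFieldFull N) hyF
  obtain ⟨Y, rfl⟩ := exists_coeffMap_RKtoA_eq A K y (fun n => by
    have := hcoeff n
    rwa [coeffMap_coeff] at this)
  have hdvr : IsDiscreteValuationRing (RK A K) := isDiscreteValuationRing_RK K hℓ hA
  obtain ⟨π, hπ⟩ := IsDiscreteValuationRing.exists_irreducible (RK A K)
  have hS := redSetup_of_dvr (K := K) hπ
  have hY : Y ≠ 0 := fun h0 => hy (by rw [h0, map_zero])
  obtain ⟨a, Y₀, rfl, hY₀⟩ := exists_pow_mul_primitive_series hS hY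
  set c : Qb := (((π ^ a : RK A K) : K) : Qb) with hc
  have hc0 : c ≠ 0 := by
    intro h0
    apply pow_ne_zero a hπ.ne_zero
    apply Subtype.ext
    apply Subtype.ext
    exact h0
  have hrel : incA A (coeffMap (RKtoA A K) (HahnSeries.C (π ^ a) * Y₀))
      = HahnSeries.C c * incA A (coeffMap (RKtoA A K) Y₀) := by
    rw [map_mul, map_mul, coeffMap_C', coeffMap_C']
    rfl
  have hCc : (HahnSeries.C c : LaurentSeries Qb) ≠ 0 := fun h =>
    hc0 (HahnSeries.C_injective (by rw [h, map_zero]))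
  refine ⟨c, coeffMap (RKtoA A K) Y₀, hc0, ?_, ?_, hrel⟩
  · have h1 : incA A (coeffMap (RKtoA A K) Y₀) = HahnSeries.C c⁻¹ *
        incA A (coeffMap (RKtoA A K) (HahnSeries.C (π ^ a) * Y₀)) := by
      rw [hrel, ← mul_assoc, ← map_mul, inv_mul_cancel₀ hc0, map_one, one_mul]
    rw [h1]
    exact mul_mem (IsQuotA.C_mem_bar N _) hyF
  · intro h0
    exact hY₀ ((coeffMap_residue_RK_eq_zero_iff A K Y₀).2 h0)

/-- **Integral representation at every prime.** -/
theorem intRepAt (N : ℕ) [NeZero N] {ℓ : ℕ} (hℓ : ℓ.Prime) (A : ValuationSubring Qb)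
    (hA : A.LiesOverPrime ℓ) : IntRepAt N A := by
  intro f hfF hf
  obtain ⟨s, y, hs, hsF, hyF, h⟩ := isQuotA_of_mem N A hfF
  have hs' : incA A s ≠ 0 := fun h0 => hs (incA_injective A (by rw [h0, map_zero]))
  have hy : y ≠ 0 := by
    rintro rfl
    rw [map_zero] at h
    exact mul_ne_zero hs' hf h
  obtain ⟨c₂, y₂, hc₂, h₂F, hr₂, e₂⟩ := exists_primitive_of_mem N hℓ A hA hs hsF
  obtain ⟨c₁, y₁, hc₁, h₁F, hr₁, e₁⟩ := exists_primitive_of_mem N hℓ A hA hy hyF
  refine ⟨c₁ / c₂, y₁, y₂, div_ne_zero hc₁ hc₂, h₁F, h₂F, hr₁, hr₂, ?_⟩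
  have hCc : (HahnSeries.C c₂ : LaurentSeries Qb) ≠ 0 := fun h =>
    hc₂ (HahnSeries.C_injective (by rw [h, map_zero]))
  rw [e₁, e₂] at h
  rw [map_div₀]
  field_simp
  linear_combination h

end

end Fermat.Agent.UNIlib
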