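import Fermat.Agent.UNI.S35Glue
import Fermat.Agent.UNI.S35Comm
import Fermat.Agent.UNI.IntRepBad

/-!
# T-UNI, S35: change of level for the Frobenius relation `FrobRel`

The geometry gives `ToricF` only at the levels `N * r` with an auxiliary prime `a ∈ {2, 3}`, `a ∣ N`,
`a ≠ r`.
-/

set_option autoImplicit false
set_option linter.unusedSectionVars false
set_option linter.style.haveILetI false

open ModularCurve AlgebraicCurve Fermat.Agent.S28lib

namespace Fermat.Agent.UNIlib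

open Fermat.Agent.ESlib Fermat.Agent.ESlib.PartD Fermat.Agent.S24lib

/-- the geometric input of S35 -/
def ToricFHaupt : Prop :=
  ∀ (N r : ℕ) [NeZero N] [NeZero r] [NeZero (N * r)] (a p : ℕ), (a = 2 ∨ a = 3) → a ∣ N → a ≠ r →
    p.Prime → ∀ (hr : r.Prime) (hrN : ¬ r ∣ N), r ≠ p →
    ∀ A : ValuationSubring Qb, A.LiesOverPrime r → ∀ n : ℕ,
      ToricF (N * r) A (p ^ n) r (wrB hr hrN)

/-- change of level, abstract form -/
theorem frobRel_of_mul (M a : ℕ) [NeZero M] [NeZero (M * a)] (ha : a.Prime) (haM : ¬ a ∣ M)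
    {m r : ℕ} [NeZero r] (hm : 0 < m) (hma : Nat.Coprime m (a + 1)) {ζ : Qbˣ}
    (hU : ∀ u ∈ modularFunctionFieldBar M, normU r ζ u ∈ modularFunctionFieldBar M)
    (hU' : ∀ u ∈ modularFunctionFieldBar (M * a), normU r ζ u ∈ modularFunctionFieldBar (M * a))
    (w : modularFunctionFieldBar M →+* modularFunctionFieldBar M)
    (w' : modularFunctionFieldBar (M * a) →+* modularFunctionFieldBar (M * a))
    (hww' : ∀ f, w' (LevelU.incl (dvd_mul_right M a) f) = LevelU.incl (dvd_mul_right M a) (w f))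
    {σ : GQ} (h : FrobRel (M * a) m r ζ hU' w' σ) : FrobRel M m r ζ hU w σ := by
  intro f hf h1 h2
  set ι := LevelU.incl (dvd_mul_right M a) with hι
  have hιU : ∀ g : modularFunctionFieldBar M,
      ι ⟨normU r ζ (g : LaurentSeries Qb), hU _ g.2⟩ =
        ⟨normU r ζ ((ι g : modularFunctionFieldBar (M * a)) : LaurentSeries Qb),
          hU' _ (ι g).2⟩ := by
    intro g
    apply Subtype.ext
    rw [LevelU.coe_incl]
    show normU r ζ (g : LaurentSeries Qb) = normU r ζ ((ι g : _) : LaurentSeries Qb)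
    rw [LevelU.coe_incl]
  have h1' := h1.map ι.toRingHom
  have h2' := h2.map ι.toRingHom
  have e1 : ι.toRingHom (f * ⟨normU r ζ (w f), hU _ (w f).2⟩) =
      ι f * ⟨normU r ζ ((w' (ι f) : modularFunctionFieldBar (M * a)) : LaurentSeries Qb),
        hU' _ (w' (ι f)).2⟩ := by
    show ι (f * ⟨normU r ζ (w f), hU _ (w f).2⟩) = _
    rw [map_mul, hιU]
    congr 1
    apply Subtype.ext
    show normU r ζ ((ι (w f) : _) : LaurentSeries Qb) = normU r ζ ((w' (ι f) : _) : LaurentSeries Qb)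
    rw [hww']
  have e2 : ι.toRingHom (w f * ⟨normU r ζ f, hU _ f.2⟩) =
      w' (ι f) * ⟨normU r ζ ((ι f : modularFunctionFieldBar (M * a)) : LaurentSeries Qb),
        hU' _ (ι f).2⟩ := by
    show ι (w f * ⟨normU r ζ f, hU _ f.2⟩) = _
    rw [map_mul, hιU, hww']
  rw [map_one, e1] at h1'
  rw [map_one, e2] at h2'
  have h3 := h (ι f) (LevelU.mDiv_incl _ hf) h1' h2'
  have hUf : (⟨normU r ζ f, hU _ f.2⟩ : modularFunctionFieldBar M) ≠ 0 :=
    right_ne_zero_of_mul (h2.ne_zero one_ne_zero)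
  have hσf : galF M σ f ≠ 0 := (map_ne_zero_iff _ (galF M σ).injective).2 hf.1
  have hq : galF M σ f / ⟨normU r ζ f, hU _ f.2⟩ ≠ 0 := div_ne_zero hσf hUf
  refine LevelU.sameClass_of_incl M a ha haM hm hma (pow_ne_zero _ hq)
    ((map_ne_zero_iff _ (galF M σ).injective).2 ((map_ne_zero_iff _ (galF M σ).injective).2 hq)) ?_
  rw [← hιU, LevelU.galF_incl, ← map_div₀, LevelU.galF_incl, LevelU.galF_incl, ← map_pow] at h3
  exact h3

/-- the Atkin-Lehner involution with all the properties needed, at a level which is only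
propositionally of the form `N' * r` -/
theorem exists_wrB_at (H : ToricFHaupt) {M' N' r a p : ℕ} [NeZero M'] [NeZero N'] [NeZero r]
    (hM : M' = N' * r) (ha23 : a = 2 ∨ a = 3) (haN' : a ∣ N') (har : a ≠ r) (hp : p.Prime)
    (hr : r.Prime) (hrN' : ¬ r ∣ N') (hrp : r ≠ p) (A : ValuationSubring Qb)
    (hA : A.LiesOverPrime r) (n : ℕ) :
    ∃ w' : modularFunctionFieldBar M' →+* modularFunctionFieldBar M',
      (∀ f, w' (w' f) = f) ∧ (∀ (σ : GQ) f, w' (galF M' σ f) = galF M' σ (w' f)) ∧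
      ToricF M' A (p ^ n) r w' ∧
      (∀ c : Qb, w' (algebraMap Qb _ c) = algebraMap Qb _ c) ∧
      ∀ d d' : Dv M', (r ∣ d.1 → d'.1 * r = d.1) → (¬ r ∣ d.1 → d'.1 = d.1 * r) →
        w' (ESlib.Jgen Qb M' d) = ESlib.Jgen Qb M' d' := by
  subst hM
  refine ⟨wrB hr hrN', wrB_wrB hr hrN', wrB_galF hr hrN',
    H N' r a p ha23 haN' har hp hr hrN' hrp A hA n, fun c => (wr Qb hr hrN').commutes c,
    fun d d' h1 h2 => ?_⟩
  rw [wrB_apply, wr_Jgen]
  congr 1
  apply Subtype.ext
  by_cases h : r ∣ d.1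
  · rw [alPerm_of_dvd hr d h, ← h1 h, Nat.mul_div_cancel _ hr.pos]
  · rw [alPerm_of_not_dvd hr d h, h2 h]

theorem incl_Jgen {N M : ℕ} [NeZero N] [NeZero M] (h : N ∣ M) (d : Dv N) :
    LevelU.incl h (ESlib.Jgen Qb N d) = ESlib.Jgen Qb M ⟨d.1, d.2.trans h⟩ :=
  Subtype.ext (LevelU.coe_incl h _)

/-- the Frobenius relation at every level `N * r` -/
theorem frobRel_of_toricFHaupt (H : ToricFHaupt) {N r p : ℕ} [NeZero N] [NeZero r]
    [NeZero (N * r)] (hp : p.Prime) (hr : r.Prime) (hrN : ¬ r ∣ N) (hrp : r ≠ p)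
    (A : ValuationSubring Qb) (hA : A.LiesOverPrime r) {σ : GQ} (hσ : A.IsFrobeniusAt σ r) (n : ℕ)
    {ζ : Qbˣ} (hζ : IsPrimitiveRoot ζ r)
    (hU : ∀ u ∈ modularFunctionFieldBar (N * r), normU r ζ u ∈ modularFunctionFieldBar (N * r)) :
    FrobRel (N * r) (p ^ n) r ζ hU (wrB hr hrN) σ := by
  haveI : Fact r.Prime := ⟨hr⟩
  have hm0 : p ^ n ≠ 0 := pow_ne_zero _ hp.ne_zero
  obtain ⟨a, ha23, har, hcop⟩ : ∃ a : ℕ, (a = 2 ∨ a = 3) ∧ a ≠ r ∧ Nat.Coprime p (a + 1) := by
    by_cases h2 : r = 2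
    · refine ⟨3, Or.inr rfl, by omega, ?_⟩
      have : Nat.Coprime p 2 := (Nat.coprime_primes hp Nat.prime_two).2 (by omega)
      exact Nat.Coprime.pow_right 2 this
    · by_cases h3 : r = 3
      · exact ⟨2, Or.inl rfl, by omega, (Nat.coprime_primes hp Nat.prime_three).2 (by omega)⟩
      · by_cases hp3 : p = 3
        · subst hp3
          exact ⟨3, Or.inr rfl, fun h => h3 h.symm, by decide⟩
        · exact ⟨2, Or.inl rfl, fun h => h2 h.symm, (Nat.coprime_primes hp Nat.prime_three).2 hp3⟩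
  have ha : a.Prime := by
    rcases ha23 with rfl | rfl
    · exact Nat.prime_two
    · exact Nat.prime_three
  by_cases haN : a ∣ N
  · exact frobRel_of_toricF (intRepAt (N * r) hr A hA) hA hζ hU
      (fun f hf => mDiv_normU_bar hm0 hr (dvd_mul_left r N) hζ hf) (wrB hr hrN) (wrB_wrB hr hrN)
      (wrB_galF hr hrN) (H N r a p ha23 haN har hp hr hrN hrp A hA n) hσ
  · haveI : NeZero a := ⟨ha.ne_zero⟩
    haveI : NeZero (N * a) := ⟨Nat.mul_ne_zero (NeZero.ne N) ha.ne_zero⟩
    haveI : NeZero (N * r * a) := ⟨Nat.mul_ne_zero (NeZero.ne (N * r)) ha.ne_zero⟩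
    have hra : ¬ r ∣ a := fun h => har ((Nat.prime_dvd_prime_iff_eq hr ha).1 h).symm
    have hrN' : ¬ r ∣ N * a := fun h => (hr.dvd_mul.1 h).elim hrN hra
    have haM : ¬ a ∣ N * r := fun h => (ha.dvd_mul.1 h).elim haN
      (fun h => har ((Nat.prime_dvd_prime_iff_eq ha hr).1 h))
    obtain ⟨w', hww, hwg, hT, hwc, hwJ⟩ := exists_wrB_at H (M' := N * r * a) (N' := N * a)
      (by ring) ha23 (dvd_mul_left a N) har hp hr hrN' hrp A hA n
    have hrM' : r ∣ N * r * a := (dvd_mul_left r N).mul_right a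
    have hU' : ∀ u ∈ modularFunctionFieldBar (N * r * a),
        normU r ζ u ∈ modularFunctionFieldBar (N * r * a) :=
      fun u hu => normU_mem_bar hr hrM' hζ u hu
    have hww' : ∀ f, w' (LevelU.incl (dvd_mul_right (N * r) a) f) =
        LevelU.incl (dvd_mul_right (N * r) a) (wrB hr hrN f) := by
      have hh : w'.comp (LevelU.incl (dvd_mul_right (N * r) a)).toRingHom =
          (LevelU.incl (dvd_mul_right (N * r) a)).toRingHom.comp (wrB hr hrN) := by
        apply ringHom_ext_JgenK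
        · intro c
          show w' (LevelU.incl (dvd_mul_right (N * r) a) _) =
            LevelU.incl (dvd_mul_right (N * r) a) (wr Qb hr hrN _)
          rw [AlgHom.commutes, AlgEquiv.commutes, AlgHom.commutes, hwc]
        · intro d
          show w' (LevelU.incl (dvd_mul_right (N * r) a) _) =
            LevelU.incl (dvd_mul_right (N * r) a) (wr Qb hr hrN _)
          rw [wr_Jgen, incl_Jgen, incl_Jgen]
          apply hwJ
          · intro h
            show (alPerm hr d).1 * r = d.1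
            rw [alPerm_of_dvd hr d h, Nat.div_mul_cancel h]
          · intro h
            exact alPerm_of_not_dvd hr d h
      exact fun f => DFunLike.congr_fun hh f
    refine frobRel_of_mul (N * r) a ha haM (pow_pos hp.pos n) (Nat.Coprime.pow_left n hcop) hU hU'
      (wrB hr hrN) w' hww' ?_
    exact frobRel_of_toricF (intRepAt (N * r * a) hr A hA) hA hζ hU'
      (fun f hf => mDiv_normU_bar hm0 hr hrM' hζ hf) w' hww hwg hT hσ

end Fermat.Agent.UNIlib
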