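import Fermat.Agent.UNI.S35Top
import Fermat.Agent.UNI.S35Level
import Fermat.Agent.UNI.S35Norm

/-!
# T-UNI, S35: `SteinbergAll` (hence S35) from the geometric input `ToricFHaupt`
-/

set_option autoImplicit false
set_option linter.unusedSectionVars false

open ModularCurve AlgebraicCurve Fermat.Agent.S28lib CongruenceSubgroup
open scoped TensorProduct

namespace Fermat.Agent.UNIlib

open Fermat.Agent.ESlib Fermat.Agent.ESlib.PartD IsLocalRing Fermat.Agent.S24lib

theorem commWT {N r : ℕ} [NeZero N] [NeZero r] [NeZero (N * r)] (hr : r.Prime) (hrN : ¬ r ∣ N) :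
    CommWT hr hrN := by
  intro ℓ _ hℓ hℓN ζ hζ f h
  exact congrArg Subtype.val (wr_heckeTS hr hrN hℓ hℓN hζ f)

theorem normLevel {N r : ℕ} [NeZero N] [NeZero r] [NeZero (N * r)] (hr : r.Prime)
    (hrN : ¬ r ∣ N) : NormLevel hr hrN := by
  intro ζ hζ m f hf
  exact exists_eq_mul_normU_wr hr hrN hζ hf

theorem steinbergAll_of_toricFHaupt (H : ToricFHaupt) : SteinbergAll := by
  intro M _ p hp g hg O _ _ _ _ _ hpO lam hlam q hq hqp hqM hq2 A hA σ hσ v hv
  obtain ⟨N, rfl⟩ : ∃ N, M = N * q := ⟨M / q, (Nat.div_mul_cancel hqM).symm⟩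
  have hN : NeZero N := ⟨fun h => NeZero.ne (N * q) (by rw [h, zero_mul])⟩
  have hq0 : NeZero q := ⟨hq.ne_zero⟩
  have hqN : ¬ q ∣ N := fun h => hq2 (by rw [pow_two]; exact mul_dvd_mul h (dvd_refl q))
  exact steinberg_of_fun hq hqN (thetaSys (N * q) p hp.pos) hp
    (fun ℓ hℓ hℓN hℓp A hA =>
      kilAt_of_kilHaupt hℓ (kilHaupt hℓ A hA) (N * q) hℓN p hp (fun h => hℓp h.symm))
    (thetaSys N p hp.pos) hpO hg lam
    hlam (commWT hq hqN) (normLevel hq hqN) σ
    (fun n ζ hζ => frobRel_of_toricFHaupt H hp hq hqN hqp A hA hσ n hζ _) v hv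

end Fermat.Agent.UNIlib
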