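import Fermat.Agent.ES.M.Final

/-!
# T-UNI, modular side: the two charts `t`, `t⁻¹` of `F_K(N)` are good charts at a prime of good
reduction (`N` a unit of `R`).  Hence `GoodChart.loc`: the special fibre of the integral closure of
`R[t]` (resp. `R[t⁻¹]`) in `F_K(N)` is normal.
-/

set_option autoImplicit false
set_option linter.unusedSectionVars false

open ModularCurve IntermediateField
open Fermat.Agent.S24lib

namespace Fermat.Agent.UNIlib

open Fermat.Agent.ESlib

theorem hhAt_of_hhAtF {K L Ch : Type*} [Field K] [Field L] [Algebra K L] [Field Ch] [Algebra K Ch]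
    {T f : L} {m : ℕ} {b : Ch} {M : ℕ} (h : HhAtF K Ch T f m b M) : HhAt K Ch T b M := by
  obtain ⟨w, hw, hs⟩ := h
  exact ⟨w, hw, fun σ hσ => (hs σ hσ).1⟩

variable {R K : Type} [CommRing R] [IsDomain R] [IsDiscreteValuationRing R] [Field K] [Algebra R K]
  [IsFractionRing R K] [CharZero K] [Algebra ℚ K] [Algebra K ℂ] [IsScalarTower ℚ K ℂ]
  [Algebra R ℂ] [IsScalarTower R K ℂ] (N : ℕ) [NeZero N]
  [Algebra R (FK K N)] [IsScalarTower R K (FK K N)]

theorem chartDiv_one_one : ChartDiv K N 1 1 := fun _ _ => by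
  rw [Nat.cast_one]; exact one_dvd _

/-- **good charts at the good level** -/
theorem goodChart_tF {π : R} (hπ : Irreducible π) (hN : IsUnit (N : R)) (a : ℕ) [NeZero a]
    (ha : a = 2 ∨ a = 3) (haN : a ∣ N) (hζN : ∃ z : K, IsPrimitiveRoot z N) :
    GoodChart K ℂ π (tF K N a ha haN) ∧ GoodChart K ℂ π (tF K N a ha haN)⁻¹ := by
  classical
  have hfd := (finiteDimensional_tF K N a ha haN).1
  obtain ⟨z, hz⟩ := hζN
  obtain ⟨k, hk⟩ := id haN
  have ha0 : 0 < a := Nat.pos_of_ne_zero (NeZero.ne a)
  have hk0 : 0 < k := by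
    rcases Nat.eq_zero_or_pos k with rfl | h
    · exact absurd hk (by simpa using NeZero.ne N)
    · exact h
  have hNa : N / a = k := by rw [hk, Nat.mul_div_cancel_left _ ha0]
  have hak : IsUnit ((a : R) * (k : R)) := by
    have := hN; rw [hk] at this; push_cast at this; exact this
  have haU : IsUnit (a : R) := isUnit_of_mul_isUnit_left hak
  have hkU : IsUnit (k : R) := isUnit_of_mul_isUnit_right hak
  have hN0 : 0 < N := Nat.pos_of_ne_zero (NeZero.ne N)
  set T := tF K N a ha haN with hT
  have htr : Transcendental K T := transcendental_tF K N a ha haN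
  have hU : UnitDiff K π T := unitDiff_tF N hπ hN a ha haN
  have hdiv : ChartDiv K N 1 1 := chartDiv_one_one N
  set a0R : R := ((a0 a : ℤ) : R) with ha0R
  have ha0u : IsUnit a0R := isUnit_a0 ha haU
  have ha00 : a0R ≠ 0 := ha0u.ne_zero
  have h0 : HhAt K ℂ T 0 (N / a) := hhAt_of_hhAtF (hhAtF_tF_zero a ha haN hdiv)
  have hA : HhAt K ℂ T (algebraMap R ℂ a0R) a := by
    rw [ha0R, map_intCast]
    exact hhAt_of_hhAtF (hhAtF_tF_a0 a ha haN hdiv)
  have hinf : HhAt K ℂ T⁻¹ 0 N := hhAt_of_hhAtF (hhAtF_tF_inv_zero a ha haN hdiv)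
  have hgen : ∀ b : ℂ, b ≠ 0 → b ≠ algebraMap R ℂ a0R → HhAt K ℂ T b 1 := fun b hb hb' =>
    hhAt_of_hhAtF (hhAtF_tF a ha haN hdiv b hb (by rwa [ha0R, map_intCast] at hb'))
  have hM0 : IsUnit ((N / a : ℕ) : R) := by rw [hNa]; exact hkU
  have hζ0 : ∃ z : K, IsPrimitiveRoot z (N / a) := ⟨z ^ a, by rw [hNa]; exact hz.pow hN0 hk⟩
  have hζa : ∃ z : K, IsPrimitiveRoot z a := ⟨z ^ k, hz.pow hN0 (by rw [hk, mul_comm])⟩
  constructor
  · refine ⟨htr, hfd, hU, {0, a0R}, fun b => if b = 0 then N / a else a, ?_, ?_, ?_, ?_, ?_⟩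
    · intro b hb b' hb' hne
      simp only [Finset.mem_insert, Finset.mem_singleton] at hb hb'
      rcases hb with rfl | rfl <;> rcases hb' with rfl | rfl
      · exact absurd rfl hne
      · rw [zero_sub]; exact ha0u.neg
      · rw [sub_zero]; exact ha0u
      · exact absurd rfl hne
    · intro b hb
      simp only [Finset.mem_insert, Finset.mem_singleton] at hb
      rcases hb with rfl | rfl
      · simpa using hM0
      · simpa [ha00] using haU
    · intro b hb
      simp only [Finset.mem_insert, Finset.mem_singleton] at hb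
      rcases hb with rfl | rfl
      · simpa using hζ0
      · simpa [ha00] using hζa
    · intro b hb
      simp only [Finset.mem_insert, Finset.mem_singleton] at hb
      rcases hb with rfl | rfl
      · simpa using h0
      · simpa [ha00] using hA
    · intro b hb
      refine hgen b ?_ ?_
      · have := hb 0 (by simp)
        rwa [map_zero] at this
      · exact hb a0R (by simp)
  · refine GoodChart.inv hπ htr hU {a0R} (fun _ => a) ?_ ?_ ?_ ?_ ?_ ?_ N hN ⟨z, hz⟩ hinf
    · intro b hb
      rw [Finset.mem_singleton] at hb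
      exact hb ▸ ha0u
    · intro b hb b' hb' hne
      rw [Finset.mem_singleton] at hb hb'
      exact absurd (hb.trans hb'.symm) hne
    · intro b _
      exact haU
    · intro b _
      exact hζa
    · intro b hb
      rw [Finset.mem_singleton] at hb
      exact hb ▸ hA
    · intro b hb hb'
      exact hgen b hb (hb' a0R (by simp))

end Fermat.Agent.UNIlib
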