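import Fermat.Agent.UNI.NodeLevel
import Fermat.Agent.UNI.GalK
import Fermat.Agent.UNI.TwoValPi
import Fermat.Agent.UNI.GoodLevel
import Fermat.Agent.ES.M.Top

/-!
# T-UNI, (Node): the modular inputs, part 2 (`K / ℚ` a normal number field, `R = A ∩ K`)

`γ = galK φ⁻¹`, `φ` a Frobenius element at `A`.
* `t5_galK` : `w_r g ≡ (γ g) ^ r` modulo `π` for `g` of level `N` in the Gauss ring;
* `nodeHyp_tF`, `nodeHyp_tF_inv` : `NodeHyp` in the two charts `t`, `1/t` of `X₀(N r)`.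
-/

set_option autoImplicit false
set_option linter.unusedSectionVars false
set_option linter.style.haveILetI false

open ModularCurve Polynomial
open scoped Pointwise

namespace Fermat.Agent.UNIlib

open Fermat.Agent.ESlib
open Fermat.Agent.S24lib (Dv Kb)

noncomputable section

section abstractR

variable {R K : Type} [CommRing R] [IsDomain R] [IsDiscreteValuationRing R] [Field K] [Algebra R K]
  [IsFractionRing R K] [CharZero K] [Algebra ℚ K] [Algebra K ℂ] [IsScalarTower ℚ K ℂ]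
  [Algebra R ℂ] [IsScalarTower R K ℂ] {N r : ℕ} [NeZero N] [NeZero r] [NeZero (N * r)]
  [Algebra R (FK K (N * r))] [IsScalarTower R K (FK K (N * r))]
  [CharP (IsLocalRing.ResidueField R) r]

/-- `NodeHyp` in both charts, from a semilinear automorphism `γ` ("inverse Frobenius") -/
theorem nodeHyp_of_gamma {π : R} (hπ : Irreducible π) (hr : r.Prime) (hrN : ¬ r ∣ N)
    (hN : IsUnit (N : R)) (a : ℕ) [NeZero a] (ha : a = 2 ∨ a = 3) (haN : a ∣ N)
    (hζN : ∃ z : K, IsPrimitiveRoot z N)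
    (γ : FK K (N * r) ≃+* FK K (N * r)) (γR : R →+* R)
    (hγ : ∀ c, γ (algebraMap R (FK K (N * r)) c) = algebraMap R (FK K (N * r)) (γR c))
    (hγT : γ (tF K (N * r) a ha (haN.mul_right r)) = tF K (N * r) a ha (haN.mul_right r))
    (hγV : ∀ x ∈ gaussSub R K (N * r), γ x ∈ gaussSub R K (N * r)) (hγπ : π ∣ γR π)
    (hγw : ∀ x, γ (wr K hr hrN x) = wr K hr hrN (γ x))
    (t5 : ∀ g ∈ gaussSub R K N, (wr K hr hrN (oldI K N r g) - γ (oldI K N r g) ^ r) /
      algebraMap R (FK K (N * r)) π ∈ gaussSub R K (N * r))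
    (ρ : FK K (N * r) →+* FK K (N * r)) (hρ : ∀ x, ρ x = γ (γ x)) :
    NodeHyp π (tF K (N * r) a ha (haN.mul_right r)) (gaussVal R K (N * r))
      ((gaussVal R K (N * r)).comap
        ((wr K hr hrN).toRingEquiv : FK K (N * r) →+* FK K (N * r))) (r ^ 2) ρ ∧
    NodeHyp π (tF K (N * r) a ha (haN.mul_right r))⁻¹ (gaussVal R K (N * r))
      ((gaussVal R K (N * r)).comap
        ((wr K hr hrN).toRingEquiv : FK K (N * r) →+* FK K (N * r))) (r ^ 2) ρ := by
  letI : Algebra R (FK K N) := ((algebraMap K (FK K N)).comp (algebraMap R K)).toAlgebra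
  haveI : IsScalarTower R K (FK K N) := IsScalarTower.of_algebraMap_eq fun _ => rfl
  have hN' := natCast_residueField_ne_zero_of_isUnit hN
  have haR : IsUnit (a : R) := by
    obtain ⟨k, rfl⟩ := haN
    rw [Nat.cast_mul] at hN
    exact isUnit_of_mul_isUnit_left hN
  obtain ⟨hG, hG'⟩ := goodChart_tF (R := R) (K := K) N hπ hN a ha haN hζN
  have ht0 := tF_ne_zero K N a ha haN
  have h1 : ∀ x ∈ gaussSub R K N, PiInt π (tF K N a ha haN) x := by
    intro x hx
    obtain ⟨P, e, hP, he, hrel⟩ := exists_tF_rel K N R a ha haN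
    exact piInt_haupt hN' (redSetup_of_dvr (K := K) hπ).red_unif ht0 hP he hrel hx
  have t3 : ∀ x ∈ gaussSub R K (N * r), ∃ x' : FK K N, x' ∈ gaussSub R K N ∧
      (x - oldI K N r x') / algebraMap R (FK K (N * r)) π ∈ gaussSub R K (N * r) := by
    intro x hx
    obtain ⟨x', hx', h⟩ := tv_t3 hr hrN hN' hπ x hx
    exact ⟨x', hx', by rw [oldI_apply]; exact h⟩
  have hI := oldI_tF (K := K) (N := N) (r := r) a ha haN
  have hI' : oldI K N r (tF K N a ha haN)⁻¹ = (tF K (N * r) a ha (haN.mul_right r))⁻¹ := by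
    rw [map_inv₀, hI]
  constructor
  · have D := nodeData_of_chart hπ hr hrN (tF K N a ha haN) (tF_mem_gaussSub N a ha haN) hG h1
      (fun x hx => mem_gaussSub_of_piInt N a ha haN hπ hx)
      (fun x hx => by
        rw [hI] at hx ⊢
        exact ((isIntegral_wr_iff K R hr hrN a ha haN haR x).1).2 hx)
      γ γR hγ (by rw [hI]; exact hγT) hγV hγπ hγw t3 t5
    rw [hI] at D
    exact D.nodeHyp ρ hρ
  · have D := nodeData_of_chart hπ hr hrN (tF K N a ha haN)⁻¹ (inv_tF_mem_gaussSub N a ha haN) hG'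
      (fun x hx => PiInt.inv ht0 (h1 x hx))
      (fun x hx => mem_gaussSub_of_piInt_inv N a ha haN hπ hx)
      (fun x hx => by
        rw [hI'] at hx ⊢
        exact ((isIntegral_wr_iff K R hr hrN a ha haN haR x).2).2 hx)
      γ γR hγ (by rw [hI', map_inv₀, hγT]) hγV hγπ hγw t3 t5
    rw [hI'] at D
    exact D.nodeHyp ρ hρ

end abstractR

variable (A : ValuationSubring Kb) (K : IntermediateField ℚ Kb) [Normal ℚ K]
  [IsDiscreteValuationRing (RA A K)] {N r : ℕ} [NeZero N] [NeZero r] [NeZero (N * r)]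

theorem wr_oldI_mem_gaussSub (hr : r.Prime) (hrN : ¬ r ∣ N) {g : FK K N}
    (hg : g ∈ gaussSub (RA A K) K N) :
    wr K hr hrN (oldI K N r g) ∈ gaussSub (RA A K) K (N * r) := by
  rw [mem_gaussSub_iff, oldI_apply, coe_wr_inclF]
  exact qExpand_mem_LamR r hg

theorem redG_of_coe_eq_qExpand {M : ℕ} [NeZero M] {G W : FK K M}
    (hG : G ∈ gaussSub (RA A K) K M) (hW : W ∈ gaussSub (RA A K) K M)
    (h : (W : LaurentSeries K) = qExpand K r (G : LaurentSeries K)) :
    redG A K M ⟨W, hW⟩ = qExpand _ r (redG A K M ⟨G, hG⟩) := by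
  have h1 := redR_qExpL (ι := algebraMap (RA A K) K) (ρ := IsLocalRing.residue (RA A K))
    (IsFractionRing.injective (RA A K) K) r ⟨(G : LaurentSeries K), hG⟩
  refine Eq.trans ?_ h1
  exact congrArg (redR (IsFractionRing.injective (RA A K) K)) (Subtype.ext h)

theorem t5_aux {M : ℕ} [NeZero M] (hr : r.Prime) (hA : A.LiesOverPrime r) {φ : Kb ≃ₐ[ℚ] Kb}
    (hφ : A.IsFrobeniusAt φ r) {π : RA A K} (hπ : Irreducible π) {G W : FK K M}
    (hG : G ∈ gaussSub (RA A K) K M) (hW : W ∈ gaussSub (RA A K) K M)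
    (h : (W : LaurentSeries K) = qExpand K r (G : LaurentSeries K)) :
    (W - galK K M φ⁻¹ G ^ r) / algebraMap K (FK K M) (π : K) ∈ gaussSub (RA A K) K M := by
  have : Fact r.Prime := ⟨hr⟩
  have := charP_resField_RA A K hr hA
  have hD := hφ.mem_decompositionSubgroup
  have hγG := galK_mem_gaussSub A K (inv_mem hD) hG
  have e1 := redG_of_coe_eq_qExpand A K hG hW h
  have e2 := redG_galK_of_frobenius A K hφ ⟨galK K M φ⁻¹ G, hγG⟩
  have e3 : (⟨galK K M φ (galK K M φ⁻¹ G), galK_mem_gaussSub A K hD hγG⟩ :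
      gaussSub (RA A K) K M) = ⟨G, hG⟩ := Subtype.ext (galK_galK_inv K M φ _)
  have key : redG A K M (⟨W, hW⟩ - ⟨galK K M φ⁻¹ G, hγG⟩ ^ r) = 0 := by
    rw [map_sub, map_pow, pow_char_eq_qExpand r, ← e2, e1, sub_eq_zero, e3]
  have h2 := div_mem_gaussSub_of_redG_eq_zero A K hπ key
  rw [AddSubgroupClass.coe_sub, SubmonoidClass.coe_pow] at h2
  exact h2

/-- **T5.**  `w_r g = g(q^r) ≡ (φ⁻¹ g)^r` modulo `π` -/
theorem t5_galK (hr : r.Prime) (hrN : ¬ r ∣ N) (hA : A.LiesOverPrime r) {φ : Kb ≃ₐ[ℚ] Kb}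
    (hφ : A.IsFrobeniusAt φ r) {π : RA A K} (hπ : Irreducible π) {g : FK K N}
    (hg : g ∈ gaussSub (RA A K) K N) :
    (wr K hr hrN (oldI K N r g) - galK K (N * r) φ⁻¹ (oldI K N r g) ^ r) /
      algebraMap K (FK K (N * r)) (π : K) ∈ gaussSub (RA A K) K (N * r) :=
  t5_aux A K hr hA hφ hπ (oldI_mem_gaussSub_iff.2 hg) (wr_oldI_mem_gaussSub A K hr hrN hg)
    (by rw [coe_oldI, oldI_apply, coe_wr_inclF])

variable [Algebra (RA A K) (FK K (N * r))] [IsScalarTower (RA A K) K (FK K (N * r))]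

theorem dvd_galRA_unif {σ : Kb ≃ₐ[ℚ] Kb} (hσ : σ ∈ A.decompositionSubgroup ℚ) {π : RA A K}
    (hπ : Irreducible π) : π ∣ galRA A K hσ π := by
  have h1 : galRA A K hσ π ∈ IsLocalRing.maximalIdeal (RA A K) := by
    rw [IsLocalRing.mem_maximalIdeal, mem_nonunits_iff]
    intro hu
    have := isLocalHom_galRA A K hσ
    exact hπ.not_isUnit (isUnit_of_map_unit (galRA A K hσ) π hu)
  rw [(IsDiscreteValuationRing.irreducible_iff_uniformizer π).1 hπ,
    Ideal.mem_span_singleton] at h1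
  exact h1

theorem galK_algebraMap_RA' {M : ℕ} [NeZero M] [Algebra (RA A K) (FK K M)]
    [IsScalarTower (RA A K) K (FK K M)] {σ : Kb ≃ₐ[ℚ] Kb}
    (hσ : σ ∈ A.decompositionSubgroup ℚ) (c : RA A K) :
    galK K M σ (algebraMap (RA A K) (FK K M) c) =
      algebraMap (RA A K) (FK K M) (galRA A K hσ c) := by
  rw [IsScalarTower.algebraMap_apply (RA A K) K (FK K M), galK_algebraMap,
    IsScalarTower.algebraMap_apply (RA A K) K (FK K M), algebraMap_galRA]
  rfl

/-- **`NodeHyp` in both charts of `X₀(N r)`** over `R = A ∩ K`, `A` over `r`, `φ` a Frobenius element;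
`q = r²`, `ρ = φ⁻²`. -/
theorem nodeHyp_tF (hr : r.Prime) (hrN : ¬ r ∣ N) (hA : A.LiesOverPrime r) {φ : Kb ≃ₐ[ℚ] Kb}
    (hφ : A.IsFrobeniusAt φ r) {π : RA A K} (hπ : Irreducible π)
    (a : ℕ) [NeZero a] (ha : a = 2 ∨ a = 3) (haN : a ∣ N) (hζN : ∃ z : K, IsPrimitiveRoot z N) :
    NodeHyp π (tF K (N * r) a ha (haN.mul_right r)) (gaussVal (RA A K) K (N * r))
      ((gaussVal (RA A K) K (N * r)).comap
        ((wr K hr hrN).toRingEquiv : FK K (N * r) →+* FK K (N * r))) (r ^ 2)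
      (galK K (N * r) (φ⁻¹ * φ⁻¹) : FK K (N * r) →+* FK K (N * r)) ∧
    NodeHyp π (tF K (N * r) a ha (haN.mul_right r))⁻¹ (gaussVal (RA A K) K (N * r))
      ((gaussVal (RA A K) K (N * r)).comap
        ((wr K hr hrN).toRingEquiv : FK K (N * r) →+* FK K (N * r))) (r ^ 2)
      (galK K (N * r) (φ⁻¹ * φ⁻¹) : FK K (N * r) →+* FK K (N * r)) := by
  have := charP_resField_RA A K hr hA
  have hD := inv_mem hφ.mem_decompositionSubgroup
  refine nodeHyp_of_gamma hπ hr hrN (isUnit_natCast_RA A hr hA K N hrN) a ha haN hζN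
    (galK K (N * r) φ⁻¹) (galRA A K hD) (galK_algebraMap_RA' A K hD)
    (galK_tF K (N * r) φ⁻¹ a ha (haN.mul_right r)) (fun x hx => galK_mem_gaussSub A K hD hx)
    (dvd_galRA_unif A K hD hπ) (fun x => galK_wr K φ⁻¹ hr hrN x) (fun g hg => ?_) _
    (fun x => galK_mul K (N * r) φ⁻¹ φ⁻¹ x)
  rw [IsScalarTower.algebraMap_apply (RA A K) K (FK K (N * r))]
  exact t5_galK A K hr hrN hA hφ hπ hg

end

end Fermat.Agent.UNIlib
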