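import Fermat.Agent.UNI.DescentF
import Fermat.Agent.UNI.NodeInputs

/-!
# T-UNI, row TORICF (c): `ToricF` at the levels `N * r` with `a ∣ N`, `a ∈ {2, 3}`
-/

set_option autoImplicit false
set_option linter.unusedSectionVars false
set_option linter.style.haveILetI false

open ModularCurve IntermediateField AlgebraicCurve
open Fermat.Agent.S24lib Fermat.Agent.ESlib

namespace Fermat.Agent.UNIlib

variable {N r : ℕ} [NeZero N] [NeZero r] [NeZero (N * r)]

set_option synthInstance.maxHeartbeats 400000 in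
/-- the modular inputs -/
theorem nodeInputsAt (hr : r.Prime) (hrN : ¬ r ∣ N) (A : ValuationSubring Kb)
    (hA : A.LiesOverPrime r) (a : ℕ) [NeZero a] (ha : a = 2 ∨ a = 3) (haN : a ∣ N)
    {φ : Kb ≃ₐ[ℚ] Kb} (hφ : A.IsFrobeniusAt φ r) :
    NodeInputsAt hr hrN A a ha (haN.mul_right r) φ := by
  intro K _ _ _ _ _ π hπ hζN _
  obtain ⟨H, H'⟩ := nodeHyp_tF A K hr hrN hA hφ hπ a ha haN hζN
  letI : Algebra (RA A K) (FK K N) :=
    ((algebraMap K (FK K N)).comp (algebraMap (RA A K) K)).toAlgebra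
  haveI : IsScalarTower (RA A K) K (FK K N) := IsScalarTower.of_algebraMap_eq fun _ => rfl
  haveI := charP_resField_RA A K hr hA
  have hN : (N : IsLocalRing.ResidueField (RA A K)) ≠ 0 := by
    rw [Ne, CharP.cast_eq_zero_iff (IsLocalRing.ResidueField (RA A K)) r]
    exact hrN
  have haR : IsUnit (a : RA A K) :=
    isUnit_natCast_RA A hr hA K a (fun h => hrN (h.trans haN))
  exact ⟨_, _, _, fun _ => Iff.rfl, fun _ => Iff.rfl, fun _ => rfl, H, H',
    fun x => tv_piInt_iff a ha haN hr hrN hN haR hπ x⟩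

/-- **TORIC-F** at the levels `N * r`, `a ∣ N` (= `ToricFHaupt` of `S35Level.lean`). -/
theorem toricF_haupt (a p : ℕ) (ha : a = 2 ∨ a = 3) (haN : a ∣ N) (hp : p.Prime)
    (hr : r.Prime) (hrN : ¬ r ∣ N) (hrp : r ≠ p) (A : ValuationSubring Kb)
    (hA : A.LiesOverPrime r) (n : ℕ)
    (w : modularFunctionFieldBar (N * r) →+* modularFunctionFieldBar (N * r))
    (hw : ∀ f, w f = wr Kb hr hrN f) : ToricF (N * r) A (p ^ n) r w := by
  haveI : NeZero a := ⟨by rcases ha with rfl | rfl <;> norm_num⟩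
  exact toricF_of_nodeInputs hr hrN A hA a ha (haN.mul_right r) (pow_pos hp.pos n)
    (fun h => hrp ((Nat.prime_dvd_prime_iff_eq hr hp).1 (hr.dvd_of_dvd_pow h)))
    (fun φ hφ => nodeInputsAt hr hrN A hA a ha haN hφ) w hw

end Fermat.Agent.UNIlib
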