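import Mathlib
import Fermat.Agent.ES.C.AKDefs
import Fermat.Agent.UNI.LPA0

/-!
# T-UNI, (LP) half A, part 2 (= S3, S4 of helper9 #462): comparison of lattices at a prime `ϱ`
-/

set_option autoImplicit false
set_option linter.unusedSectionVars false

namespace Fermat.Agent.UNIlib

open Fermat.Agent.ESlib

section

variable {P F Kt : Type*} [CommRing P] [IsDomain P] [IsIntegrallyClosed P] [Field Kt] [Field F]
  [Algebra P Kt] [IsFractionRing P Kt] [Algebra Kt F] [Algebra P F] [IsScalarTower P Kt F]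

/-- **(LPA2a)** localisation of a lattice given by a basis. -/
theorem exists_smul_iff_repr {ι : Type*} [Finite ι] (a : Module.Basis ι Kt F) (Λ : F → Prop)
    (ha : ∀ f, Λ f ↔ ∀ k, a.repr f k ∈ (algebraMap P Kt).range) {ϱ : P} (hϱ : Prime ϱ) (f : F) :
    (∃ r : P, ¬ ϱ ∣ r ∧ Λ (r • f)) ↔ ∀ k, LInt ϱ (a.repr f k) := by
  classical
  have hrepr : ∀ (r : P) (k), a.repr (r • f) k = algebraMap P Kt r * a.repr f k := by
    intro r k
    rw [← algebraMap_smul Kt r f, map_smul, Finsupp.smul_apply, smul_eq_mul]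
  constructor
  · rintro ⟨r, hr, h⟩ k
    obtain ⟨c, hc⟩ := (ha _).1 h k
    exact lInt_frac_iff.2 ⟨r, c, hr, by rw [hc, hrepr]⟩
  · intro h
    cases nonempty_fintype ι
    choose r c hr hc using fun k => lInt_frac_iff.1 (h k)
    refine ⟨∏ k, r k, ?_, (ha _).2 fun k => ?_⟩
    · intro hdvd
      obtain ⟨k, -, hk⟩ := (Prime.dvd_finsetProd_iff hϱ _).1 hdvd
      exact hr k hk
    · rw [hrepr, ← Finset.mul_prod_erase Finset.univ r (Finset.mem_univ k), map_mul, mul_right_comm,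
        hc k, ← map_mul]
      exact ⟨_, rfl⟩

/-- **(LPA2b)** -/
theorem lInt_iff_repr {ι : Type*} [Finite ι] (b : Module.Basis ι Kt F) (hb : IsIntBasis P b)
    {ϱ : P} (hϱ : Prime ϱ) (x : F) : LInt ϱ x ↔ ∀ k, LInt ϱ (b.repr x k) :=
  exists_smul_iff_repr b (fun x => IsIntegral P x) hb hϱ x

/-- a matrix with entries in a subring is the image of a matrix over the subring -/
theorem exists_map_subtype {ι : Type*} (S : Subring Kt) (M : Matrix ι ι Kt)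
    (h : ∀ i j, M i j ∈ S) : ∃ M' : Matrix ι ι S, M'.map S.subtype = M :=
  ⟨fun i j => ⟨M i j, h i j⟩, by ext i j; rfl⟩

theorem det_mem_of_forall_mem {ι : Type*} [Fintype ι] [DecidableEq ι] (S : Subring Kt)
    (M : Matrix ι ι Kt) (h : ∀ i j, M i j ∈ S) : M.det ∈ S := by
  obtain ⟨M', rfl⟩ := exists_map_subtype S M h
  rw [← RingHom.mapMatrix_apply, ← RingHom.map_det]
  exact (M'.det).2

theorem leftMulMatrix_mem {ι : Type*} [Fintype ι] [DecidableEq ι]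
    (b : Module.Basis ι Kt F) (hb : IsIntBasis P b) {ϱ : P} (hϱ : Prime ϱ) {x : F}
    (hx : LInt ϱ x) (i j : ι) : Algebra.leftMulMatrix b x i j ∈ lsub Kt hϱ := by
  rw [Algebra.leftMulMatrix_eq_repr_mul, mem_lsub]
  refine (lInt_iff_repr b hb hϱ _).1 (hx.mul hϱ (LInt.of_isIntegral hϱ ?_)) i
  rw [hb]
  intro k
  rw [b.repr_self, Finsupp.single_apply]
  split_ifs
  · exact ⟨1, map_one _⟩
  · exact ⟨0, map_zero _⟩

/-- **(LPA2c)** -/
theorem lInt_pow_div_iff_repr {ι : Type*} [Finite ι] (a : Module.Basis ι Kt F) {m : ℕ} (hm : 0 < m)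
    {g : F} (ha : ∀ f : F, IsIntegral P (f ^ m / g) ↔ ∀ k, a.repr f k ∈ (algebraMap P Kt).range)
    {ϱ : P} (hϱ : Prime ϱ) (x : F) : LInt ϱ (x ^ m / g) ↔ ∀ k, LInt ϱ (a.repr x k) := by
  rw [← exists_smul_iff_repr a (fun f => IsIntegral P (f ^ m / g)) ha hϱ x]
  have key : ∀ r : P, (r • x) ^ m / g = r ^ m • (x ^ m / g) := by
    intro r
    rw [smul_pow, smul_div_assoc]
  constructor
  · rintro ⟨r, hr, h⟩
    refine ⟨r, hr, ?_⟩
    change IsIntegral P ((r • x) ^ m / g)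
    have h3 : r ^ m = r ^ (m - 1) * r := by rw [← pow_succ, Nat.sub_add_cancel hm]
    rw [key, h3, mul_smul]
    exact IsIntegral.smul (r ^ (m - 1)) h
  · rintro ⟨r, hr, h⟩
    refine ⟨r ^ m, fun hd => hr (hϱ.dvd_of_dvd_pow hd), ?_⟩
    rw [← key]
    exact h

/-- **(LPA2d)** two bases, inclusion of the `S`-lattices: the determinant lies in `S`. -/
theorem det_toMatrix_mem {ι : Type*} [Fintype ι] [DecidableEq ι] (S : Subring Kt)
    (b b' : Module.Basis ι Kt F)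
    (h : ∀ x, (∀ k, b'.repr x k ∈ S) → ∀ k, b.repr x k ∈ S) : (b.toMatrix b').det ∈ S := by
  refine det_mem_of_forall_mem S _ fun i j => ?_
  rw [Module.Basis.toMatrix_apply]
  refine h (b' j) (fun k => ?_) i
  rw [b'.repr_self, Finsupp.single_apply]
  split_ifs
  · exact S.one_mem
  · exact S.zero_mem

/-- **(LPA2e)** the norm of an element integral over `P_(ϱ)` lies in `P_(ϱ)`. -/
theorem LInt.norm [FiniteDimensional Kt F] {ϱ : P} (hϱ : Prime ϱ) {x : F} (hx : LInt ϱ x) :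
    LInt ϱ (Algebra.norm Kt x) := by
  obtain ⟨r, hr, h⟩ := hx
  refine ⟨r ^ Module.finrank Kt F, fun hd => hr (hϱ.dvd_of_dvd_pow hd), ?_⟩
  have h1 : IsIntegral P (Algebra.norm Kt (r • x)) := Algebra.isIntegral_norm Kt h
  rwa [← algebraMap_smul Kt r x, Algebra.smul_def, map_mul, Algebra.norm_algebraMap, ← map_pow,
    ← Algebra.smul_def] at h1

/-- **(LPA2j)** `P = ⋂ P_(ϱ)` in a UFD. -/
theorem mem_range_of_forall_lInt [UniqueFactorizationMonoid P] (x : Kt)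
    (h : ∀ ϱ : P, Prime ϱ → LInt ϱ x) : x ∈ (algebraMap P Kt).range := by
  obtain ⟨a, b, hrel, rfl⟩ := IsFractionRing.exists_reduced_fraction (A := P) x
  have hb0 : (b : P) ≠ 0 := nonZeroDivisors.ne_zero b.2
  have hbK : algebraMap P Kt b ≠ 0 := by simp
  have hbu : IsUnit (b : P) := by
    by_contra hbu
    obtain ⟨ϱ, hϱ, hϱb⟩ := WfDvdMonoid.exists_irreducible_factor hbu hb0
    have hϱ' : Prime ϱ := hϱ.prime
    obtain ⟨r, c, hr, hc⟩ := lInt_frac_iff.1 (h ϱ hϱ')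
    have h1 : r * a = c * b := by
      apply IsFractionRing.injective P Kt
      rw [map_mul, map_mul, ← hc, IsFractionRing.mk'_eq_div]
      field_simp
    have h2 : ϱ ∣ a := (hϱ'.dvd_or_dvd (h1 ▸ Dvd.dvd.mul_left hϱb c)).resolve_left hr
    exact hϱ.not_isUnit (hrel h2 hϱb)
  obtain ⟨u, hu⟩ := hbu
  refine ⟨a * ((u⁻¹ : Pˣ) : P), ?_⟩
  rw [IsFractionRing.mk'_eq_div, eq_div_iff hbK, ← map_mul, ← hu, mul_assoc, Units.inv_mul,
    mul_one]

/-- the basis `f₀⁻¹ a` -/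
noncomputable def divBasis {ι : Type*} (a : Module.Basis ι Kt F) {f₀ : F} (hf₀ : f₀ ≠ 0) :
    Module.Basis ι Kt F :=
  a.map (LinearEquiv.ofLinearMap (LinearMap.mulLeft Kt f₀⁻¹) (LinearMap.mulLeft Kt f₀)
    (by ext x; simp [hf₀]) (by ext x; simp [hf₀]))

theorem divBasis_apply {ι : Type*} (a : Module.Basis ι Kt F) {f₀ : F} (hf₀ : f₀ ≠ 0) (j : ι) :
    divBasis a hf₀ j = f₀⁻¹ * a j := by
  simp [divBasis]

theorem divBasis_repr {ι : Type*} (a : Module.Basis ι Kt F) {f₀ : F} (hf₀ : f₀ ≠ 0) (x : F) :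
    (divBasis a hf₀).repr x = a.repr (f₀ * x) := by
  simp [divBasis]

/-- **(LPA2f)** (S4) if `𝔞_ϱ = f₀ O_ϱ` then `det (b | a) = unit_ϱ * N f₀`. -/
theorem det_toMatrix_eq_mul_norm {ι : Type*} [Fintype ι] [DecidableEq ι]
    (b a : Module.Basis ι Kt F) (hb : IsIntBasis P b) {m : ℕ} (hm : 0 < m) {g : F} (hg : g ≠ 0)
    (ha : ∀ f : F, IsIntegral P (f ^ m / g) ↔ ∀ k, a.repr f k ∈ (algebraMap P Kt).range)
    {ϱ : P} (hϱ : Prime ϱ) {f₀ : F} (hf₀ : f₀ ≠ 0) (h1 : LInt ϱ (f₀ ^ m / g))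
    (h2 : LInt ϱ (g / f₀ ^ m)) :
    ∃ u : Kt, LInt ϱ u ∧ LInt ϱ u⁻¹ ∧ (b.toMatrix a).det = u * Algebra.norm Kt f₀ := by
  set a' := divBasis a hf₀ with ha'
  have hlat : ∀ x : F, (∀ k, a'.repr x k ∈ lsub Kt hϱ) ↔ ∀ k, b.repr x k ∈ lsub Kt hϱ := by
    intro x
    simp only [mem_lsub]
    rw [← lInt_iff_repr b hb hϱ, ha', divBasis_repr, ← lInt_pow_div_iff_repr a hm ha hϱ]
    have hfm : f₀ ^ m ≠ 0 := pow_ne_zero _ hf₀
    constructor
    · intro h
      refine LInt.of_pow hm ?_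
      have : x ^ m = g / f₀ ^ m * ((f₀ * x) ^ m / g) := by
        rw [mul_pow]
        field_simp
      rw [this]
      exact h2.mul hϱ h
    · intro h
      have : (f₀ * x) ^ m / g = f₀ ^ m / g * x ^ m := by
        rw [mul_pow]
        field_simp
      rw [this]
      exact h1.mul hϱ (h.pow hϱ m)
  refine ⟨(b.toMatrix a').det, det_toMatrix_mem _ b a' fun x => (hlat x).1, ?_, ?_⟩
  · have h3 : (b.toMatrix a').det * (a'.toMatrix b).det = 1 := by
      rw [← Matrix.det_mul, Module.Basis.toMatrix_mul_toMatrix_flip, Matrix.det_one]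
    rw [← eq_inv_of_mul_eq_one_right h3]
    exact det_toMatrix_mem _ a' b fun x => (hlat x).2
  · have h4 : a'.toMatrix a = Algebra.leftMulMatrix a' f₀ := by
      ext i j
      rw [Module.Basis.toMatrix_apply, Algebra.leftMulMatrix_eq_repr_mul, ha', divBasis_apply,
        mul_inv_cancel_left₀ hf₀]
    rw [Algebra.norm_eq_matrix_det a', ← h4, ← Matrix.det_mul, Module.Basis.toMatrix_mul_toMatrix]

/-- **(LPA2g)** (S4) consequently `det (b | a) ^ m = unit_ϱ * N g`. -/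
theorem det_toMatrix_pow_eq_mul_norm [FiniteDimensional Kt F] {ι : Type*} [Fintype ι]
    [DecidableEq ι]
    (b a : Module.Basis ι Kt F) (hb : IsIntBasis P b) {m : ℕ} (hm : 0 < m) {g : F} (hg : g ≠ 0)
    (ha : ∀ f : F, IsIntegral P (f ^ m / g) ↔ ∀ k, a.repr f k ∈ (algebraMap P Kt).range)
    {ϱ : P} (hϱ : Prime ϱ) {f₀ : F} (hf₀ : f₀ ≠ 0) (h1 : LInt ϱ (f₀ ^ m / g))
    (h2 : LInt ϱ (g / f₀ ^ m)) :
    ∃ u : Kt, LInt ϱ u ∧ LInt ϱ u⁻¹ ∧ (b.toMatrix a).det ^ m = u * Algebra.norm Kt g := by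
  obtain ⟨u, hu, hu', hd⟩ := det_toMatrix_eq_mul_norm b a hb hm hg ha hϱ hf₀ h1 h2
  have hfm : f₀ ^ m ≠ 0 := pow_ne_zero _ hf₀
  refine ⟨u ^ m * Algebra.norm Kt (f₀ ^ m / g), (hu.pow hϱ m).mul hϱ (LInt.norm hϱ h1), ?_, ?_⟩
  · have : (u ^ m * Algebra.norm Kt (f₀ ^ m / g))⁻¹ = u⁻¹ ^ m * Algebra.norm Kt (g / f₀ ^ m) := by
      have h5 : Algebra.norm Kt (f₀ ^ m / g) * Algebra.norm Kt (g / f₀ ^ m) = 1 := by
        rw [← map_mul, div_mul_div_cancel₀ hg, div_self hfm, map_one]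
      rw [mul_inv, inv_pow, eq_inv_of_mul_eq_one_right h5]
    rw [this]
    exact (hu'.pow hϱ m).mul hϱ (LInt.norm hϱ h2)
  · rw [hd, mul_pow, ← map_pow, mul_assoc, ← map_mul, div_mul_cancel₀ _ hg]

end

end Fermat.Agent.UNIlib
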