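import Mathlib
import Fermat.Agent.ES.C.AKDefs
import Fermat.Agent.UNI.LPA0
import Fermat.Agent.UNI.LPA2

/-!
# T-UNI, (LP) half A, part 2N (= S5 of helper9 #462): `N g ≡ 1 mod π`, `g⁻¹ ∈ C`

Proof of (h): `leftMulMatrix b g = 1 + π • M`, `M = leftMulMatrix b ((g - 1) / π)` has its entries in
`S := lsub Kt hπ` by `lInt_iff_repr`; lift `M` to a matrix over `S` and reduce modulo `π`
(or `Matrix.det_one_add_smul`).
Proof of (i): `G = leftMulMatrix b g` has entries in `S` and `det G = N g ∈ 1 + π S ⊆ Sˣ`, so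
`G⁻¹ = leftMulMatrix b g⁻¹` has entries in `S`; `g⁻¹ = g⁻¹ * 1` and `lInt_iff_repr`.
-/

set_option autoImplicit false

namespace Fermat.Agent.UNIlib

open Fermat.Agent.ESlib

section

variable {P F Kt : Type*} [CommRing P] [IsDomain P] [IsIntegrallyClosed P] [Field Kt] [Field F]
  [Algebra P Kt] [IsFractionRing P Kt] [Algebra Kt F] [Algebra P F] [IsScalarTower P Kt F]

/-- **(LPA2h)** (S5) `g ≡ 1 mod π C` implies `N g ≡ 1 mod π P_(π)`. -/
theorem lInt_norm_sub_one_div {ι : Type*} [Fintype ι] [DecidableEq ι]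
    (b : Module.Basis ι Kt F) (hb : IsIntBasis P b) {π : P} (hπ : Prime π) {g : F}
    (hg : LInt π ((g - 1) / algebraMap P F π)) :
    LInt π ((Algebra.norm Kt g - 1) / algebraMap P Kt π) := by
  have hπK : algebraMap P Kt π ≠ 0 := by simpa using hπ.ne_zero
  have hπF : algebraMap P F π ≠ 0 := by
    rw [IsScalarTower.algebraMap_apply P Kt F]
    simpa using hπ.ne_zero
  set S := lsub Kt hπ with hS
  obtain ⟨M', hM'⟩ := exists_map_subtype S (Algebra.leftMulMatrix b ((g - 1) / algebraMap P F π))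
    (leftMulMatrix_mem b hb hπ hg)
  have hπS : algebraMap P Kt π ∈ S := LInt.algebraMap hπ π
  set π' : S := ⟨algebraMap P Kt π, hπS⟩ with hπ'
  have h1 : Algebra.leftMulMatrix b g = (1 + π' • M').map S.subtype := by
    have h2 : g = 1 + algebraMap Kt F (algebraMap P Kt π) * ((g - 1) / algebraMap P F π) := by
      rw [← IsScalarTower.algebraMap_apply P Kt F]
      field_simp
      ring
    conv_lhs => rw [h2]
    rw [map_add, map_one, ← Algebra.smul_def, map_smul, ← hM']
    ext i j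
    simp [Matrix.one_apply, Matrix.add_apply, Matrix.map_apply, hπ']
    split_ifs <;> simp [Algebra.smul_def]
  rw [Algebra.norm_eq_matrix_det b, h1, ← RingHom.mapMatrix_apply, ← RingHom.map_det,
    Matrix.det_one_add_smul]
  set y : S := (Matrix.det (1 + (Polynomial.X : Polynomial S) • M'.map Polynomial.C)).divX.divX.eval π'
  have h3 : (S.subtype (1 + M'.trace * π' + y * π' ^ 2) - 1) / algebraMap P Kt π =
      S.subtype (M'.trace + y * π') := by
    rw [div_eq_iff hπK]
    simp [hπ']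
    ring
  rw [h3]
  exact (M'.trace + y * π').2

/-- `1 + π y` is a unit of `P_(π)`. -/
theorem lInt_inv_of_sub_one_div_frac {π : P} (hπ : Prime π) {x : Kt}
    (hx : LInt π ((x - 1) / algebraMap P Kt π)) : LInt π x⁻¹ := by
  have hπK : algebraMap P Kt π ≠ 0 := by simpa using hπ.ne_zero
  obtain ⟨r, c, hr, h⟩ := lInt_frac_iff.1 hx
  have hr' : ¬ π ∣ r + π * c := fun hd => hr ((dvd_add_left (dvd_mul_right π c)).1 hd)
  have hr0 : algebraMap P Kt r ≠ 0 := by
    have : r ≠ 0 := fun h0 => hr (h0 ▸ dvd_zero π)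
    simpa using this
  have hne : algebraMap P Kt (r + π * c) ≠ 0 := by
    have : r + π * c ≠ 0 := fun h0 => hr' (h0 ▸ dvd_zero π)
    rwa [Ne, FaithfulSMul.algebraMap_eq_zero_iff]
  have hx' : algebraMap P Kt r * x = algebraMap P Kt (r + π * c) := by
    rw [map_add, map_mul, ← h]
    field_simp
    ring
  have hx0 : x ≠ 0 := by
    rintro rfl
    rw [mul_zero] at hx'
    exact hne hx'.symm
  refine lInt_frac_iff.2 ⟨r + π * c, r, hr', ?_⟩
  rw [← hx']
  field_simp

/-- **(LPA2i)** `g ≡ 1 mod π C` implies `g⁻¹ ∈ C`. -/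
theorem lInt_inv_of_sub_one_div {ι : Type*} [Fintype ι] [DecidableEq ι]
    (b : Module.Basis ι Kt F) (hb : IsIntBasis P b) {π : P} (hπ : Prime π) {g : F}
    (hg : LInt π ((g - 1) / algebraMap P F π)) : LInt π g⁻¹ := by
  have hfin : Module.Finite Kt F := Module.Finite.of_basis b
  have hπF : algebraMap P F π ≠ 0 := by
    rw [IsScalarTower.algebraMap_apply P Kt F]
    simpa using hπ.ne_zero
  have hgC : LInt π g := by
    have h1 : g = 1 + algebraMap P F π * ((g - 1) / algebraMap P F π) := by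
      field_simp
      ring
    rw [h1]
    exact (LInt.of_isIntegral hπ isIntegral_one).add hπ ((LInt.algebraMap hπ π).mul hπ hg)
  have hN := lInt_norm_sub_one_div b hb hπ hg
  have hNinv := lInt_inv_of_sub_one_div_frac hπ hN
  have hg0 : g ≠ 0 := by
    rintro rfl
    rw [Algebra.norm_zero, inv_zero] at hNinv
    rw [Algebra.norm_zero] at hN
    have h1 : LInt π ((algebraMap P Kt π)⁻¹) := by
      have : (algebraMap P Kt π)⁻¹ = -(((0 : Kt) - 1) / algebraMap P Kt π) := by
        rw [zero_sub, neg_div, neg_neg, one_div]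
      rw [this]
      exact hN.neg
    obtain ⟨r, c, hr, h⟩ := lInt_frac_iff.1 h1
    have hπK : algebraMap P Kt π ≠ 0 := by simpa using hπ.ne_zero
    apply hr
    refine ⟨c, IsFractionRing.injective P Kt ?_⟩
    rw [map_mul, ← h]
    field_simp
  set S := lsub Kt hπ with hS
  obtain ⟨G', hG'⟩ := exists_map_subtype S (Algebra.leftMulMatrix b g)
    (leftMulMatrix_mem b hb hπ hgC)
  have hdet : (G'.det : Kt) = Algebra.norm Kt g := by
    rw [Algebra.norm_eq_matrix_det b, ← hG', ← RingHom.mapMatrix_apply, ← RingHom.map_det]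
    rfl
  have hN0 : Algebra.norm Kt g ≠ 0 := Algebra.norm_ne_zero_iff.2 hg0
  have hunit : IsUnit G'.det := by
    refine IsUnit.of_mul_eq_one ⟨(Algebra.norm Kt g)⁻¹, hNinv⟩ (Subtype.ext ?_)
    change (G'.det : Kt) * (Algebra.norm Kt g)⁻¹ = 1
    rw [hdet, mul_inv_cancel₀ hN0]
  obtain ⟨H', hH'⟩ := ((Matrix.isUnit_iff_isUnit_det G').2 hunit).exists_left_inv
  have h1 : H'.map S.subtype * Algebra.leftMulMatrix b g = 1 := by
    rw [← hG', ← RingHom.mapMatrix_apply, ← RingHom.mapMatrix_apply, ← map_mul, hH', map_one]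
  have h2 : Algebra.leftMulMatrix b g * Algebra.leftMulMatrix b g⁻¹ = 1 := by
    rw [← map_mul, mul_inv_cancel₀ hg0, map_one]
  have h3 : Algebra.leftMulMatrix b g⁻¹ = H'.map S.subtype := by
    calc Algebra.leftMulMatrix b g⁻¹
        = (H'.map S.subtype * Algebra.leftMulMatrix b g) * Algebra.leftMulMatrix b g⁻¹ := by
          rw [h1, one_mul]
      _ = H'.map S.subtype := by rw [mul_assoc, h2, mul_one]
  rw [lInt_iff_repr b hb hπ]
  intro k
  have h4 : b.repr g⁻¹ k = ∑ j, Algebra.leftMulMatrix b g⁻¹ k j * b.repr 1 j := by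
    have := congrFun (Algebra.leftMulMatrix_mulVec_repr b g⁻¹ 1) k
    rw [mul_one] at this
    rw [← this]
    rfl
  rw [h4, ← mem_lsub hπ]
  refine Subring.sum_mem _ fun j _ => Subring.mul_mem _ ?_ ?_
  · rw [h3]
    exact (H' k j).2
  · exact (lInt_iff_repr b hb hπ 1).1 (LInt.of_isIntegral hπ isIntegral_one) j

end

end Fermat.Agent.UNIlib
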