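import Mathlib

/-!
# T-UNI, (LP) half B', Lemma U in symmetric form (Mathlib only)

`Tt` reduced, `T ⊆ Tt` a von Neumann regular subring, `u i`, `u' j ∈ Tt` finitely many elements with
`u i ^ n * u j ∈ T`, `u' i ^ n * u' j ∈ T`, `u i * u' j ∈ T`.  Then there is a unit `z` of `Tt` with
`z * u i ∈ T` and `z⁻¹ * u' j ∈ T`.

Proof.  A *partial solution* is `(ε, z, w)` with `ε ∈ T` idempotent, `z * w = 1 - ε`, `z * ε = 0`,
`w * ε = 0`, `z * u i ∈ T`, `w * u' j ∈ T`.  Start with `(1, 0, 0)`.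
Step for `u k`: `v := ε * u k`, `c := v ^ (n + 1) ∈ T`, `c * c' * c = c`, `e := c * c'` (idempotent of
`T`, `e * ε = e`, `(1 - e) * v = 0` because `Tt` is reduced); replace `(ε, z, w)` by
`(ε - e, z + e * c' * v ^ n, w + v)`; then `(ε - e) * u k = 0`.  Symmetrically for `u' k`.
At the end `ε * u i = 0 = ε * u' j` for all `i`, `j` and `(z + ε, w + ε)` is the solution.
-/

set_option autoImplicit false

namespace Fermat.Agent.UNIlib

/-- a partial solution of the twisting problem -/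
def TwistPS {Tt : Type*} [CommRing Tt] (T : Subring Tt) {ι ι' : Type*} (u : ι → Tt) (u' : ι' → Tt)
    (ε z w : Tt) : Prop :=
  ε ∈ T ∧ ε * ε = ε ∧ z * w = 1 - ε ∧ z * ε = 0 ∧ w * ε = 0 ∧ (∀ i, z * u i ∈ T) ∧
    ∀ j, w * u' j ∈ T

section

variable {Tt : Type*} [CommRing Tt] {T : Subring Tt} {ι ι' : Type*} {u : ι → Tt} {u' : ι' → Tt}
  {ε z w : Tt}

theorem TwistPS.symm (h : TwistPS T u u' ε z w) : TwistPS T u' u ε w z :=
  ⟨h.1, h.2.1, by rw [mul_comm]; exact h.2.2.1, h.2.2.2.2.1, h.2.2.2.1, h.2.2.2.2.2.2,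
    h.2.2.2.2.2.1⟩

theorem TwistPS.step [IsReduced Tt] (hT : ∀ c ∈ T, ∃ c' ∈ T, c * c' * c = c) (n : ℕ)
    (hU : ∀ i j, u i ^ n * u j ∈ T) (hUU' : ∀ i j, u i * u' j ∈ T) (h : TwistPS T u u' ε z w)
    (k : ι) :
    ∃ ε₁ z₁ w₁, TwistPS T u u' ε₁ z₁ w₁ ∧ ε₁ * u k = 0 ∧ ∀ x, ε * x = 0 → ε₁ * x = 0 := by
  obtain ⟨hεT, hε2, hzw, hzε, hwε, hzu, hwu⟩ := h
  set U := u k with hUdef
  obtain ⟨c, hc⟩ : ∃ c, c = ε * (U ^ n * U) := ⟨_, rfl⟩
  have hcT : c ∈ T := hc ▸ T.mul_mem hεT (hU k k)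
  obtain ⟨c', hc'T, hcc⟩ := hT c hcT
  obtain ⟨e, he⟩ : ∃ e, e = c * c' := ⟨_, rfl⟩
  have heT : e ∈ T := he ▸ T.mul_mem hcT hc'T
  have he2 : e * e = e := by
    rw [he]; linear_combination c' * hcc
  have hcε : c * ε = c := by
    rw [hc]; linear_combination (U ^ n * U) * hε2
  have heε : e * ε = e := by
    rw [he]; linear_combination c' * hcε
  have hεpow : ∀ N : ℕ, ε ^ (N + 1) = ε := by
    intro N
    induction N with
    | zero => simp
    | succ N ih => rw [pow_succ, ih, hε2]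
  have hv : (1 - e) * (ε * U) = 0 := by
    apply IsNilpotent.eq_zero
    refine ⟨n + 1, ?_⟩
    have h1 : (ε * U) ^ (n + 1) = c := by
      rw [mul_pow, hεpow n, hc, pow_succ U]
    rw [mul_pow, h1, pow_succ (1 - e), mul_assoc]
    have h2 : (1 - e) * c = 0 := by
      rw [he]; linear_combination -hcc
    rw [h2, mul_zero]
  have hec : e * c' * c = e := by
    linear_combination (-e) * he + he2
  refine ⟨ε - e, z + e * c' * U ^ n, w + ε * U,
    ⟨T.sub_mem hεT heT, ?_, ?_, ?_, ?_, ?_, ?_⟩, ?_, ?_⟩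
  · linear_combination hε2 - 2 * heε + he2
  · have h3 : e * c' * U ^ n * (ε * U) = e := by
      linear_combination hec - e * c' * hc
    have h4 : e * c' * U ^ n * w = 0 := by
      linear_combination e * c' * U ^ n * hwε - c' * U ^ n * w * heε
    linear_combination hzw + U * hzε + h3 + h4
  · have h5 : z * e = 0 := by
      linear_combination e * hzε - z * heε
    linear_combination hzε - h5 + c' * U ^ n * heε - c' * U ^ n * he2
  · have h5 : w * e = 0 := by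
      linear_combination e * hwε - w * heε
    linear_combination hwε - h5 + U * hε2 + hv
  · intro i
    rw [add_mul]
    refine T.add_mem (hzu i) ?_
    rw [mul_assoc]
    exact T.mul_mem (T.mul_mem heT hc'T) (hU k i)
  · intro j
    rw [add_mul]
    refine T.add_mem (hwu j) ?_
    rw [mul_assoc]
    exact T.mul_mem hεT (hUU' k j)
  · linear_combination hv + U * heε
  · intro x hx
    linear_combination hx - e * hx + x * heε

theorem TwistPS.kill [IsReduced Tt] [Finite ι] (hT : ∀ c ∈ T, ∃ c' ∈ T, c * c' * c = c) (n : ℕ)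
    (hU : ∀ i j, u i ^ n * u j ∈ T) (hUU' : ∀ i j, u i * u' j ∈ T) (h : TwistPS T u u' ε z w) :
    ∃ ε₁ z₁ w₁, TwistPS T u u' ε₁ z₁ w₁ ∧ (∀ i, ε₁ * u i = 0) ∧ ∀ x, ε * x = 0 → ε₁ * x = 0 := by
  classical
  cases nonempty_fintype ι
  suffices H : ∀ s : Finset ι, ∃ ε₁ z₁ w₁, TwistPS T u u' ε₁ z₁ w₁ ∧ (∀ i ∈ s, ε₁ * u i = 0) ∧
      ∀ x, ε * x = 0 → ε₁ * x = 0 by
    obtain ⟨ε₁, z₁, w₁, h1, h2, h3⟩ := H Finset.univ
    exact ⟨ε₁, z₁, w₁, h1, fun i => h2 i (Finset.mem_univ i), h3⟩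
  intro s
  induction s using Finset.induction_on with
  | empty => exact ⟨ε, z, w, h, fun i hi => absurd hi (Finset.notMem_empty i), fun x hx => hx⟩
  | insert k s _ ih =>
    obtain ⟨ε₁, z₁, w₁, h1, h2, h3⟩ := ih
    obtain ⟨ε₂, z₂, w₂, h4, h5, h6⟩ := h1.step hT n hU hUU' k
    refine ⟨ε₂, z₂, w₂, h4, fun i hi => ?_, fun x hx => h6 x (h3 x hx)⟩
    rcases Finset.mem_insert.1 hi with rfl | hi
    · exact h5
    · exact h6 _ (h2 i hi)

end

/-- **Lemma U, symmetric form.** -/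
theorem exists_twist_sym {Tt : Type*} [CommRing Tt] [IsReduced Tt] (T : Subring Tt)
    (hT : ∀ c ∈ T, ∃ c' ∈ T, c * c' * c = c) (n : ℕ) {ι ι' : Type*} [Finite ι] [Finite ι']
    (u : ι → Tt) (u' : ι' → Tt) (hU : ∀ i j, u i ^ n * u j ∈ T)
    (hU' : ∀ i j, u' i ^ n * u' j ∈ T) (hUU' : ∀ i j, u i * u' j ∈ T) :
    ∃ z w : Tt, z * w = 1 ∧ (∀ i, z * u i ∈ T) ∧ ∀ j, w * u' j ∈ T := by
  have h0 : TwistPS T u u' 1 0 0 :=
    ⟨T.one_mem, one_mul 1, by simp, by simp, by simp, fun i => by simp [T.zero_mem],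
      fun j => by simp [T.zero_mem]⟩
  obtain ⟨ε₁, z₁, w₁, h1, h2, -⟩ := h0.kill hT n hU hUU'
  obtain ⟨ε, w, z, h3, h4, h5⟩ := h1.symm.kill hT n hU' (fun i j => by
    rw [mul_comm]; exact hUU' j i)
  obtain ⟨-, hε2, hwz, hwε, hzε, hwu, hzu⟩ := h3
  refine ⟨z + ε, w + ε, ?_, fun i => ?_, fun j => ?_⟩
  · linear_combination hwz + hzε + hwε + hε2
  · rw [add_mul, h5 _ (h2 i), add_zero]
    exact hzu i
  · rw [add_mul, h4 j, add_zero]
    exact hwu j

end Fermat.Agent.UNIlib
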