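import Mathlib
import Fermat.Agent.UNI.LPA0
import Fermat.Agent.UNI.LPBU

/-!
# T-UNI, (LP) half B', part 1: the twist `z`

`C = {x | LInt π x}`, `Cq = C / π C`, `Õ` = integral closure of `P` in `Cq`, `𝔯 = √(s Õ)`,
`Tt = Õ / 𝔯` (reduced), `T` = image of `O` (von Neumann regular: integral over the field `P / 𝔪`).
`NodeLoc` says `𝔯 ⊆` image of `O`.  Lemma U (symmetric form) in `Tt`, then lift (`1 + 𝔯 ⊆ Õˣ`).
-/

set_option autoImplicit false

namespace Fermat.Agent.UNIlib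

open Polynomial IsLocalRing

/-- weak inverses in a reduced algebra over a local ring killed by the maximal ideal -/
theorem exists_weak_inv_aux {P A : Type*} [CommRing P] [IsLocalRing P] [CommRing A] [IsReduced A]
    [Algebra P A] (h0 : ∀ x ∈ maximalIdeal P, algebraMap P A x = 0) (c : A) (n : ℕ) :
    ∀ p : P[X], p.natDegree ≤ n → (∃ i, IsUnit (p.coeff i)) → ∀ j : ℕ, c ^ j * aeval c p = 0 →
      ∃ r : P[X], c * aeval c r * c = c := by
  induction n with
  | zero =>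
    intro p hp hu j hj
    obtain ⟨i, hi⟩ := hu
    have hpC : p = C (p.coeff 0) := Polynomial.eq_C_of_natDegree_le_zero hp
    have hi0 : IsUnit (p.coeff 0) := by
      rcases Nat.eq_zero_or_pos i with rfl | hpos
      · exact hi
      · rw [hpC, coeff_C, if_neg hpos.ne'] at hi
        exact absurd hi not_isUnit_zero
    obtain ⟨a, ha⟩ := hi0
    rw [hpC, aeval_C, ← ha] at hj
    have hcj : c ^ j = 0 := by
      have h1 : c ^ j * algebraMap P A (a : P) * algebraMap P A ((a⁻¹ : Pˣ) : P) = 0 := by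
        rw [hj, zero_mul]
      rwa [mul_assoc, ← map_mul, Units.mul_inv, map_one, mul_one] at h1
    have hc : c = 0 := by
      rcases Nat.eq_zero_or_pos j with rfl | hpos
      · rw [pow_zero] at hcj
        rw [← mul_one c, hcj, mul_zero]
      · exact pow_eq_zero_iff hpos.ne' |>.1 hcj
    exact ⟨0, by rw [hc]; simp⟩
  | succ n ih =>
    intro p hp hu j hj
    have hdec : aeval c p = aeval c p.divX * c + algebraMap P A (p.coeff 0) := by
      conv_lhs => rw [← Polynomial.divX_mul_X_add p]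
      simp
    by_cases h00 : IsUnit (p.coeff 0)
    · obtain ⟨a, ha⟩ := h00
      set y := aeval c p.divX with hy
      have h1 : c * (y * c + algebraMap P A (a : P)) = 0 := by
        have h2 : (c * (y * c + algebraMap P A (a : P))) ^ (j + 1) = 0 := by
          rw [mul_pow, pow_succ c j, pow_succ' (y * c + algebraMap P A (a : P)) j]
          rw [hdec, ← ha] at hj
          calc c ^ j * c * ((y * c + algebraMap P A (a : P)) *
                (y * c + algebraMap P A (a : P)) ^ j)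
              = (c ^ j * (y * c + algebraMap P A (a : P))) *
                (c * (y * c + algebraMap P A (a : P)) ^ j) := by ring
            _ = 0 := by rw [hj, zero_mul]
        exact pow_eq_zero_iff (Nat.succ_ne_zero j) |>.1 h2
      refine ⟨-(C ((a⁻¹ : Pˣ) : P)) * p.divX, ?_⟩
      rw [map_mul, map_neg, aeval_C, ← hy]
      have h3 : algebraMap P A ((a⁻¹ : Pˣ) : P) * algebraMap P A (a : P) = 1 := by
        rw [← map_mul, Units.inv_mul, map_one]
      calc c * (-algebraMap P A ((a⁻¹ : Pˣ) : P) * y) * c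
          = c * (algebraMap P A ((a⁻¹ : Pˣ) : P) * algebraMap P A (a : P))
            - algebraMap P A ((a⁻¹ : Pˣ) : P) * (c * (y * c + algebraMap P A (a : P))) := by ring
        _ = c := by rw [h3, h1, mul_one, mul_zero, sub_zero]
    · have hm : p.coeff 0 ∈ maximalIdeal P := (mem_maximalIdeal _).2 h00
      rw [hdec, h0 _ hm, add_zero] at hj
      refine ih p.divX ?_ ?_ (j + 1) ?_
      · rw [Polynomial.natDegree_divX_eq_natDegree_tsub_one]
        omega
      · obtain ⟨i, hi⟩ := hu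
        rcases Nat.eq_zero_or_pos i with rfl | hpos
        · exact absurd hi h00
        · refine ⟨i - 1, ?_⟩
          rw [Polynomial.coeff_divX, Nat.sub_add_cancel hpos]
          exact hi
      · rw [pow_succ, mul_assoc, mul_comm c]
        exact hj

theorem exists_weak_inv_of_isIntegral {P A : Type*} [CommRing P] [IsLocalRing P] [CommRing A]
    [IsReduced A] [Algebra P A] (h0 : ∀ x ∈ maximalIdeal P, algebraMap P A x = 0) {c : A}
    (hc : IsIntegral P c) : ∃ r : P[X], c * aeval c r * c = c := by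
  obtain ⟨p, hp, hpc⟩ := hc
  refine exists_weak_inv_aux h0 c p.natDegree p le_rfl ⟨p.natDegree, ?_⟩ 0 ?_
  · rw [coeff_natDegree, hp.leadingCoeff]
    exact isUnit_one
  · rw [pow_zero, one_mul]
    exact hpc

/-- the twist, in an abstract `P`-algebra `Q` (`= C / π C`). -/
theorem exists_twist_abs {P Q : Type*} [CommRing P] [IsLocalRing P] [CommRing Q] [Algebra P Q]
    (π s : P) (hmax : maximalIdeal P = Ideal.span {π, s}) (hπQ : algebraMap P Q π = 0)
    (Ob : Subalgebra P Q) (hOb : ∀ x ∈ Ob, IsIntegral P x)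
    (hnode : ∀ x y : Q, IsIntegral P x → IsIntegral P y → ∀ k : ℕ, x ^ (k + 1) = s • y → x ∈ Ob)
    (n : ℕ) {ι ι' : Type*} [Finite ι] [Finite ι'] (a : ι → Q) (a' : ι' → Q)
    (hU : ∀ i j, a i ^ n * a j ∈ Ob) (hU' : ∀ i j, a' i ^ n * a' j ∈ Ob)
    (hUU' : ∀ i j, a i * a' j ∈ Ob) :
    ∃ z w : Q, z * w = 1 ∧ (∀ i, z * a i ∈ Ob) ∧ ∀ j, w * a' j ∈ Ob := by
  classical
  -- the rings
  obtain ⟨Ot, hOt⟩ : ∃ Ot : Subalgebra P Q, Ot = integralClosure P Q := ⟨_, rfl⟩
  have hmemOt : ∀ x : Q, x ∈ Ot ↔ IsIntegral P x := fun x => by rw [hOt]; exact Iff.rfl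
  have hintOt : Algebra.IsIntegral P Ot := by rw [hOt]; infer_instance
  obtain ⟨𝔯, h𝔯⟩ : ∃ 𝔯 : Ideal Ot, 𝔯 = (Ideal.span {algebraMap P Ot s}).radical := ⟨_, rfl⟩
  have hred : IsReduced (Ot ⧸ 𝔯) := by
    rw [h𝔯]
    exact (Ideal.isRadical_iff_quotient_reduced _).mp (Ideal.radical_isRadical _)
  have hs𝔯 : algebraMap P Ot s ∈ 𝔯 := by
    rw [h𝔯]
    exact Ideal.le_radical (Ideal.subset_span rfl)
  have hπOt : algebraMap P Ot π = 0 := Subtype.ext hπQ
  have h0 : ∀ x ∈ maximalIdeal P, algebraMap P (Ot ⧸ 𝔯) x = 0 := by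
    intro x hx
    rw [hmax, Ideal.mem_span_pair] at hx
    obtain ⟨c, d, rfl⟩ := hx
    rw [IsScalarTower.algebraMap_apply P Ot (Ot ⧸ 𝔯), map_add, map_mul, map_mul, hπOt, mul_zero,
      zero_add, Ideal.Quotient.algebraMap_eq, Ideal.Quotient.eq_zero_iff_mem]
    exact 𝔯.mul_mem_left _ hs𝔯
  -- `𝔯` is contained in the Jacobson radical
  have hjac : 𝔯 ≤ Ideal.jacobson ⊥ := by
    intro x hx
    rw [Ideal.jacobson, Ideal.mem_sInf]
    rintro J ⟨-, hJ⟩
    have h1 : (J.comap (algebraMap P Ot)).IsMaximal :=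
      Ideal.isMaximal_comap_of_isIntegral_of_isMaximal J
    have h2 : J.comap (algebraMap P Ot) = maximalIdeal P := IsLocalRing.eq_maximalIdeal h1
    have h3 : s ∈ J.comap (algebraMap P Ot) := by
      rw [h2, hmax]
      exact Ideal.subset_span (by simp)
    have h4 : Ideal.span {algebraMap P Ot s} ≤ J := by
      rw [Ideal.span_singleton_le_iff_mem]
      exact h3
    rw [h𝔯] at hx
    exact (hJ.isPrime.radical_le_iff.2 h4) hx
  -- the subalgebra `T`
  obtain ⟨T, hT⟩ : ∃ T : Subalgebra P (Ot ⧸ 𝔯),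
      T = (Ob.comap Ot.val).map (Ideal.Quotient.mkₐ P 𝔯) := ⟨_, rfl⟩
  have hmemT : ∀ t, t ∈ T ↔ ∃ x : Ot, (x : Q) ∈ Ob ∧ Ideal.Quotient.mk 𝔯 x = t := by
    intro t
    rw [hT, Subalgebra.mem_map]
    rfl
  -- (K1)
  have hK1 : ∀ x : Ot, Ideal.Quotient.mk 𝔯 x ∈ T → (x : Q) ∈ Ob := by
    intro x hx
    obtain ⟨x₀, hx₀, h⟩ := (hmemT _).1 hx
    rw [Ideal.Quotient.eq, h𝔯] at h
    obtain ⟨k, hk⟩ := h
    have hk' : (x₀ - x) ^ (k + 1) ∈ Ideal.span {algebraMap P Ot s} := by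
      rw [pow_succ]
      exact Ideal.mul_mem_right _ _ hk
    obtain ⟨y, hy⟩ := Ideal.mem_span_singleton'.1 hk'
    have h1 : ((x₀ : Q) - x) ^ (k + 1) = s • (y : Q) := by
      have := congrArg (Subtype.val) hy
      rw [Algebra.smul_def, mul_comm]
      simpa using this.symm
    have h2 := hnode _ _ (((hmemOt _).1 x₀.2).sub ((hmemOt _).1 x.2)) ((hmemOt _).1 y.2) k h1
    have h3 : (x : Q) = x₀ - (x₀ - x) := by ring
    rw [h3]
    exact Ob.sub_mem hx₀ h2
  -- von Neumann regularity of `T`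
  have hVNR : ∀ c ∈ T.toSubring, ∃ c' ∈ T.toSubring, c * c' * c = c := by
    intro c hc
    have hcint : IsIntegral P c := by
      obtain ⟨x, rfl⟩ := Ideal.Quotient.mk_surjective c
      exact (Algebra.IsIntegral.isIntegral x).map (Ideal.Quotient.mkₐ P 𝔯)
    obtain ⟨r, hr⟩ := exists_weak_inv_of_isIntegral h0 hcint
    refine ⟨aeval c r, ?_, hr⟩
    have h1 : Algebra.adjoin P {c} ≤ T := Algebra.adjoin_le (by simpa using hc)
    apply h1
    rw [Algebra.adjoin_singleton_eq_range_aeval]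
    exact ⟨r, rfl⟩
  -- the families
  have haOt : ∀ i, a i ∈ Ot := fun i => by
    rw [hmemOt]
    refine IsIntegral.of_pow (Nat.succ_pos n) ?_
    rw [pow_succ]
    exact hOb _ (hU i i)
  have ha'Ot : ∀ j, a' j ∈ Ot := fun j => by
    rw [hmemOt]
    refine IsIntegral.of_pow (Nat.succ_pos n) ?_
    rw [pow_succ]
    exact hOb _ (hU' j j)
  obtain ⟨z, w, hzw, hz, hw⟩ := exists_twist_sym T.toSubring hVNR n
    (fun i => Ideal.Quotient.mk 𝔯 ⟨a i, haOt i⟩) (fun j => Ideal.Quotient.mk 𝔯 ⟨a' j, ha'Ot j⟩)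
    (fun i j => (hmemT _).2 ⟨⟨a i, haOt i⟩ ^ n * ⟨a j, haOt j⟩, by simpa using hU i j,
      by rw [map_mul, map_pow]⟩)
    (fun i j => (hmemT _).2 ⟨⟨a' i, ha'Ot i⟩ ^ n * ⟨a' j, ha'Ot j⟩, by simpa using hU' i j,
      by rw [map_mul, map_pow]⟩)
    (fun i j => (hmemT _).2 ⟨⟨a i, haOt i⟩ * ⟨a' j, ha'Ot j⟩, by simpa using hUU' i j,
      by rw [map_mul]⟩)
  obtain ⟨z₁, rfl⟩ := Ideal.Quotient.mk_surjective z
  obtain ⟨w₁, rfl⟩ := Ideal.Quotient.mk_surjective w
  have h1 : z₁ * w₁ - 1 ∈ 𝔯 := by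
    rw [← Ideal.Quotient.eq, map_mul, hzw, map_one]
  obtain ⟨v, hv⟩ := Ideal.isUnit_of_sub_one_mem_jacobson_bot _ (hjac h1)
  have hv1 : Ideal.Quotient.mk 𝔯 ((v⁻¹ : Otˣ) : Ot) = 1 := by
    have h2 : Ideal.Quotient.mk 𝔯 ((v⁻¹ : Otˣ) : Ot) * Ideal.Quotient.mk 𝔯 (v : Ot) = 1 := by
      rw [← map_mul, Units.inv_mul, map_one]
    rwa [hv, map_mul, hzw, mul_one] at h2
  refine ⟨z₁, (w₁ * ((v⁻¹ : Otˣ) : Ot) : Ot), ?_, fun i => ?_, fun j => ?_⟩
  · have h2 : z₁ * (w₁ * ((v⁻¹ : Otˣ) : Ot)) = 1 := by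
      rw [← mul_assoc, ← hv, Units.mul_inv]
    exact congrArg Subtype.val h2
  · have := hK1 (z₁ * ⟨a i, haOt i⟩) (by rw [map_mul]; exact hz i)
    simpa using this
  · have := hK1 (w₁ * ((v⁻¹ : Otˣ) : Ot) * ⟨a' j, ha'Ot j⟩) (by
      rw [map_mul, map_mul, hv1, mul_one]; exact hw j)
    simpa using this

/-- `Y ∈ C` and the class of `Y` in `C / π C` is integral over `P`. -/
def IntC {P F : Type*} [CommRing P] [Field F] [Algebra P F] (π : P) (Y : F) : Prop :=
  LInt π Y ∧ ∃ p : P[X], p.Monic ∧ LInt π (aeval Y p / algebraMap P F π)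

/-- **(Node)** at the closed point `(π, s)`: `rad Õ ⊆ Ō`. -/
def NodeLoc {P : Type*} (F : Type*) [CommRing P] [Field F] [Algebra P F] (π s : P) : Prop :=
  ∀ Z : F, IntC π Z → ∀ k : ℕ, 0 < k → ∀ Y : F, IntC π Y →
    LInt π ((Z ^ k - s • Y) / algebraMap P F π) →
      ∃ e : F, IsIntegral P e ∧ LInt π ((Z - e) / algebraMap P F π)

/-- **(B1)** the twist. -/
theorem exists_twist {P F : Type*} [CommRing P] [IsDomain P] [IsLocalRing P] [Field F]
    [Algebra P F] [FaithfulSMul P F] (π s : P) (hmax : maximalIdeal P = Ideal.span {π, s})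
    (hπ : Prime π) (hnode : NodeLoc F π s) (n : ℕ) {ι ι' : Type*} [Finite ι] [Finite ι']
    (a : ι → F) (a' : ι' → F) (ha : ∀ i, LInt π (a i)) (ha' : ∀ j, LInt π (a' j))
    (hU : ∀ i j, ∃ o : F, IsIntegral P o ∧ LInt π ((a i ^ n * a j - o) / algebraMap P F π))
    (hU' : ∀ i j, ∃ o : F, IsIntegral P o ∧ LInt π ((a' i ^ n * a' j - o) / algebraMap P F π))
    (hUU' : ∀ i j, ∃ o : F, IsIntegral P o ∧ LInt π ((a i * a' j - o) / algebraMap P F π)) :
    ∃ z w : F, LInt π z ∧ LInt π w ∧ LInt π ((z * w - 1) / algebraMap P F π) ∧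
      (∀ i, ∃ o : F, IsIntegral P o ∧ LInt π ((z * a i - o) / algebraMap P F π)) ∧
      ∀ j, ∃ o : F, IsIntegral P o ∧ LInt π ((w * a' j - o) / algebraMap P F π) := by
  classical
  have hπF : algebraMap P F π ≠ 0 := by
    rw [Ne, FaithfulSMul.algebraMap_eq_zero_iff]
    exact hπ.ne_zero
  obtain ⟨C, hC⟩ : ∃ C : Subalgebra P F, ∀ x, x ∈ C ↔ LInt π x :=
    ⟨{ lsub F hπ with algebraMap_mem' := fun c => LInt.algebraMap hπ c }, fun _ => Iff.rfl⟩
  obtain ⟨I, hI⟩ : ∃ I : Ideal C, I = Ideal.span {algebraMap P C π} := ⟨_, rfl⟩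
  have hq : ∀ x y : C, Ideal.Quotient.mk I x = Ideal.Quotient.mk I y ↔
      LInt π (((x : F) - y) / algebraMap P F π) := by
    intro x y
    rw [Ideal.Quotient.eq, hI, Ideal.mem_span_singleton']
    constructor
    · rintro ⟨c, hc⟩
      have h1 : (c : F) * algebraMap P F π = x - y := congrArg Subtype.val hc
      rw [← h1, mul_div_cancel_right₀ _ hπF]
      exact (hC _).1 c.2
    · intro h
      refine ⟨⟨_, (hC _).2 h⟩, Subtype.ext ?_⟩
      change ((x : F) - y) / algebraMap P F π * algebraMap P F π = x - y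
      rw [div_mul_cancel₀ _ hπF]
  have hintC : ∀ o : F, IsIntegral P o → o ∈ C := fun o ho => (hC _).2 (LInt.of_isIntegral hπ ho)
  obtain ⟨Ob, hOb⟩ : ∃ Ob : Subalgebra P (C ⧸ I),
      Ob = ((integralClosure P F).comap C.val).map (Ideal.Quotient.mkₐ P I) := ⟨_, rfl⟩
  have hmemOb : ∀ t, t ∈ Ob ↔ ∃ x : C, IsIntegral P (x : F) ∧ Ideal.Quotient.mk I x = t := by
    intro t
    rw [hOb, Subalgebra.mem_map]
    rfl
  have hIntC : ∀ X : C, IsIntegral P (Ideal.Quotient.mk I X) → IntC π (X : F) := by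
    intro X hX
    refine ⟨(hC _).1 X.2, ?_⟩
    obtain ⟨p, hp, h⟩ := hX
    refine ⟨p, hp, ?_⟩
    have h1 : Ideal.Quotient.mk I (aeval X p) = Ideal.Quotient.mk I 0 := by
      rw [map_zero]
      have h2 : aeval (Ideal.Quotient.mkₐ P I X) p = Ideal.Quotient.mkₐ P I (aeval X p) :=
        Polynomial.aeval_algHom_apply _ _ _
      exact h2.symm.trans h
    have h3 := (hq _ _).1 h1
    have h4 : ((aeval X p : C) : F) = aeval (X : F) p :=
      (Polynomial.aeval_algHom_apply C.val X p).symm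
    rwa [h4, ZeroMemClass.coe_zero, sub_zero] at h3
  obtain ⟨z, w, hzw, hz, hw⟩ := exists_twist_abs (Q := C ⧸ I) π s hmax
    (by
      rw [IsScalarTower.algebraMap_apply P C (C ⧸ I), Ideal.Quotient.algebraMap_eq,
        Ideal.Quotient.eq_zero_iff_mem, hI]
      exact Ideal.subset_span rfl)
    Ob
    (by
      intro t ht
      obtain ⟨x, hx, rfl⟩ := (hmemOb t).1 ht
      have h1 : IsIntegral P x := (isIntegral_algHom_iff C.val Subtype.val_injective).1 hx
      exact h1.map (Ideal.Quotient.mkₐ P I))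
    (by
      intro x y hx hy k hxy
      obtain ⟨X, rfl⟩ := Ideal.Quotient.mk_surjective x
      obtain ⟨Y, rfl⟩ := Ideal.Quotient.mk_surjective y
      have h1 : Ideal.Quotient.mk I (X ^ (k + 1)) = Ideal.Quotient.mk I (s • Y) := by
        rw [map_pow, hxy]
        rfl
      have h2 := (hq _ _).1 h1
      obtain ⟨e, he, h3⟩ := hnode X (hIntC X hx) (k + 1) (Nat.succ_pos k) Y (hIntC Y hy) h2
      exact (hmemOb _).2 ⟨⟨e, hintC e he⟩, he, ((hq _ _).2 h3).symm⟩)
    n (fun i => Ideal.Quotient.mk I ⟨a i, (hC _).2 (ha i)⟩)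
    (fun j => Ideal.Quotient.mk I ⟨a' j, (hC _).2 (ha' j)⟩)
    (by
      intro i j
      obtain ⟨o, ho, h⟩ := hU i j
      refine (hmemOb _).2 ⟨⟨o, hintC o ho⟩, ho, ?_⟩
      rw [← map_pow, ← map_mul]
      exact ((hq _ _).2 h).symm)
    (by
      intro i j
      obtain ⟨o, ho, h⟩ := hU' i j
      refine (hmemOb _).2 ⟨⟨o, hintC o ho⟩, ho, ?_⟩
      rw [← map_pow, ← map_mul]
      exact ((hq _ _).2 h).symm)
    (by
      intro i j
      obtain ⟨o, ho, h⟩ := hUU' i j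
      refine (hmemOb _).2 ⟨⟨o, hintC o ho⟩, ho, ?_⟩
      rw [← map_mul]
      exact ((hq _ _).2 h).symm)
  obtain ⟨Z, rfl⟩ := Ideal.Quotient.mk_surjective z
  obtain ⟨W, rfl⟩ := Ideal.Quotient.mk_surjective w
  refine ⟨Z, W, (hC _).1 Z.2, (hC _).1 W.2, ?_, fun i => ?_, fun j => ?_⟩
  · rw [← map_mul, ← map_one (Ideal.Quotient.mk I)] at hzw
    exact (hq _ _).1 hzw
  · obtain ⟨x, hx, h⟩ := (hmemOb _).1 (hz i)
    rw [← map_mul] at h
    exact ⟨x, hx, (hq _ _).1 h.symm⟩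
  · obtain ⟨x, hx, h⟩ := (hmemOb _).1 (hw j)
    rw [← map_mul] at h
    exact ⟨x, hx, (hq _ _).1 h.symm⟩

end Fermat.Agent.UNIlib
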