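import Mathlib
import Fermat.Agent.ES.C.AKDefs
import Fermat.Agent.UNI.LPA0
import Fermat.Agent.UNI.LPA2

/-!
# T-UNI, (LP) half B', part 2: matrices

`b` an integral basis, `a` a basis of the lattice `𝔞`, `z ∈ C` with `z 𝔞 ⊆ O + π C`.
`X := (b.repr (z * a j) k)_{k j} = Y + π W`, `Y` with entries in `P`, `W` with entries in `P_(π)`;
`det X = N z * det (b | a)`.  If `det Y` is a unit of `P` then `1 ∈ z 𝔞 + π C`.
-/

set_option autoImplicit false
set_option linter.unusedSectionVars false

namespace Fermat.Agent.UNIlib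

open Fermat.Agent.ESlib

/-- congruence of determinants -/
theorem det_add_smul_mem {K ι : Type*} [CommRing K] [Fintype ι] [DecidableEq ι] (S : Subring K)
    {π : K} (hπ : π ∈ S) (B W : Matrix ι ι K) (hB : ∀ i j, B i j ∈ S) (hW : ∀ i j, W i j ∈ S) :
    ∃ c ∈ S, (B + π • W).det = B.det + π * c := by
  set B' : Matrix ι ι S := fun i j => ⟨B i j, hB i j⟩ with hB'
  set W' : Matrix ι ι S := fun i j => ⟨W i j, hW i j⟩ with hW'
  set π' : S := ⟨π, hπ⟩ with hπ'
  have h1 : B = S.subtype.mapMatrix B' := by ext i j; rfl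
  have h2 : B + π • W = S.subtype.mapMatrix (B' + π' • W') := by ext i j; rfl
  have h3 : Ideal.Quotient.mk (Ideal.span {π'}) (B' + π' • W').det =
      Ideal.Quotient.mk (Ideal.span {π'}) B'.det := by
    rw [RingHom.map_det, RingHom.map_det]
    congr 1
    ext i j
    simp only [RingHom.mapMatrix_apply, Matrix.map_apply, Matrix.add_apply, Matrix.smul_apply,
      smul_eq_mul, map_add, map_mul]
    rw [Ideal.Quotient.eq_zero_iff_mem.2 (Ideal.mem_span_singleton_self π'), zero_mul, add_zero]
  rw [Ideal.Quotient.eq, Ideal.mem_span_singleton] at h3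
  obtain ⟨c, hc⟩ := h3
  refine ⟨c, c.2, ?_⟩
  rw [h2, h1, ← RingHom.map_det, ← RingHom.map_det]
  have : (B' + π' • W').det = B'.det + π' * c := by rw [← hc]; ring
  rw [this]
  rfl

section

variable {P F Kt : Type*} [CommRing P] [IsDomain P] [IsIntegrallyClosed P] [Field Kt] [Field F]
  [Algebra P Kt] [IsFractionRing P Kt] [Algebra Kt F] [Algebra P F] [IsScalarTower P Kt F]

/-- **(B2a)** `det (b.repr (z * a j) k) = N z * det (b | a)`. -/
theorem det_repr_mul_eq {ι : Type*} [Fintype ι] [DecidableEq ι] (b a : Module.Basis ι Kt F)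
    (z : F) : (Matrix.of fun k j => b.repr (z * a j) k).det
      = Algebra.norm Kt z * (b.toMatrix a).det := by
  rw [Algebra.norm_eq_matrix_det b, ← Matrix.det_mul]
  congr 1
  ext k j
  have := congrFun (Algebra.leftMulMatrix_mulVec_repr b z (a j)) k
  rw [Matrix.of_apply, ← this]
  rfl

/-- saturation: `x ∈ C`, `π x ∈ O` implies `x ∈ O`. -/
theorem isIntegral_of_lInt_of_smul {ι : Type*} [Finite ι] (b : Module.Basis ι Kt F)
    (hb : IsIntBasis P b) {π : P} (hπ : Prime π) {x : F} (hx : LInt π x)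
    (hx' : IsIntegral P (π • x)) : IsIntegral P x := by
  have hπK : algebraMap P Kt π ≠ 0 := by simpa using hπ.ne_zero
  rw [hb]
  intro k
  obtain ⟨r, p, hr, hp⟩ := lInt_frac_iff.1 ((lInt_iff_repr b hb hπ x).1 hx k)
  obtain ⟨p', hp'⟩ := (hb _).1 hx' k
  rw [← algebraMap_smul Kt π x, map_smul, Finsupp.smul_apply, smul_eq_mul] at hp'
  have h1 : r * p' = π * p := by
    apply IsFractionRing.injective P Kt
    rw [map_mul, map_mul, hp', ← hp]
    ring
  obtain ⟨p'', rfl⟩ : π ∣ p' := (hπ.dvd_or_dvd (h1 ▸ dvd_mul_right π p)).resolve_left hr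
  refine ⟨p'', ?_⟩
  rw [map_mul] at hp'
  exact mul_left_cancel₀ hπK hp'

/-- `1 + π O ⊆ Oˣ`. -/
theorem isIntegral_inv_one_add_smul [IsLocalRing P] {π : P} (hπ : π ∈ IsLocalRing.maximalIdeal P)
    {o : F} (ho : IsIntegral P o) : IsIntegral P (1 + π • o)⁻¹ := by
  set A := integralClosure P F with hA
  have hu : IsIntegral P (1 + π • o) := isIntegral_one.add (ho.smul π)
  set u : A := ⟨1 + π • o, hu⟩ with hu'
  have hunit : IsUnit u := by
    by_contra hn
    obtain ⟨M, hM, huM⟩ := exists_max_ideal_of_mem_nonunits hn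
    have hmax : (M.comap (algebraMap P A)).IsMaximal :=
      Ideal.isMaximal_comap_of_isIntegral_of_isMaximal (R := P) M
    have heq := IsLocalRing.eq_maximalIdeal hmax
    have hπM : algebraMap P A π ∈ M := by
      have : π ∈ M.comap (algebraMap P A) := heq ▸ hπ
      exact this
    have h1 : (1 : A) = u - algebraMap P A π * ⟨o, ho⟩ := by
      apply Subtype.ext
      change (1 : F) = (1 + π • o) - algebraMap P F π * o
      rw [Algebra.smul_def]
      ring
    exact hM.ne_top ((Ideal.eq_top_iff_one M).2 (h1 ▸ M.sub_mem huM (M.mul_mem_right _ hπM)))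
  obtain ⟨v, hv⟩ := hunit.exists_right_inv
  have h2 : (1 + π • o) * (v : F) = 1 := congrArg Subtype.val hv
  rw [← eq_inv_of_mul_eq_one_right h2]
  exact v.2

/-- **(B2b)** the matrix `Y`, and `det Y ≡ N z * det (b | a) mod π P_(π)`. -/
theorem exists_matrix_congr {ι : Type*} [Fintype ι] [DecidableEq ι] (b a : Module.Basis ι Kt F)
    (hb : IsIntBasis P b) {π : P} (hπ : Prime π) (z : F)
    (hza : ∀ j, ∃ o : F, IsIntegral P o ∧ LInt π ((z * a j - o) / algebraMap P F π)) :
    ∃ Y : Matrix ι ι P,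
      (∀ k j, LInt π ((b.repr (z * a j) k - algebraMap P Kt (Y k j)) / algebraMap P Kt π)) ∧
      LInt π ((Algebra.norm Kt z * (b.toMatrix a).det - algebraMap P Kt Y.det) /
        algebraMap P Kt π) := by
  have hπK : algebraMap P Kt π ≠ 0 := by simpa using hπ.ne_zero
  have hπF : algebraMap P F π ≠ 0 := by
    rw [IsScalarTower.algebraMap_apply P Kt F]
    simpa using hπ.ne_zero
  choose o ho hzo using hza
  choose Y hY using fun j => (hb (o j)).1 (ho j)
  have key : ∀ k j, (b.repr (z * a j) k - algebraMap P Kt (Y j k)) / algebraMap P Kt π =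
      b.repr ((z * a j - o j) / algebraMap P F π) k := by
    intro k j
    have h0 : z * a j - o j = algebraMap P Kt π • ((z * a j - o j) / algebraMap P F π) := by
      rw [Algebra.smul_def, ← IsScalarTower.algebraMap_apply, mul_div_cancel₀ _ hπF]
    rw [div_eq_iff hπK, hY j k, ← Finsupp.sub_apply, ← map_sub]
    conv_lhs => rw [h0]
    rw [map_smul, Finsupp.smul_apply, smul_eq_mul, mul_comm]
  have hW : ∀ k j, LInt π ((b.repr (z * a j) k - algebraMap P Kt (Y j k)) / algebraMap P Kt π) := by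
    intro k j
    rw [key]
    exact (lInt_iff_repr b hb hπ _).1 (hzo j) k
  refine ⟨Matrix.of fun k j => Y j k, hW, ?_⟩
  obtain ⟨c, hc, hdet⟩ := det_add_smul_mem (lsub Kt hπ) (LInt.algebraMap hπ π)
    ((algebraMap P Kt).mapMatrix (Matrix.of fun k j => Y j k))
    (Matrix.of fun k j => (b.repr (z * a j) k - algebraMap P Kt (Y j k)) / algebraMap P Kt π)
    (fun i j => LInt.algebraMap hπ _) hW
  have h1 : (algebraMap P Kt).mapMatrix (Matrix.of fun k j => Y j k) + algebraMap P Kt π •
      (Matrix.of fun k j => (b.repr (z * a j) k - algebraMap P Kt (Y j k)) / algebraMap P Kt π) =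
      Matrix.of fun k j => b.repr (z * a j) k := by
    ext k j
    simp only [RingHom.mapMatrix_apply, Matrix.add_apply, Matrix.map_apply, Matrix.of_apply,
      Matrix.smul_apply, smul_eq_mul]
    rw [mul_div_cancel₀ _ hπK]
    ring
  rw [h1, det_repr_mul_eq, ← RingHom.map_det] at hdet
  rw [hdet, add_sub_cancel_left, mul_div_cancel_left₀ _ hπK]
  exact hc

/-- **(B2c)** if `det Y` is a unit then `1 ∈ z 𝔞 + π C`. -/
theorem exists_mul_congr_one {ι : Type*} [Fintype ι] [DecidableEq ι] (b a : Module.Basis ι Kt F)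
    (hb : IsIntBasis P b) {π : P} (hπ : Prime π) (z : F) (Y : Matrix ι ι P)
    (hY : ∀ k j, LInt π ((b.repr (z * a j) k - algebraMap P Kt (Y k j)) / algebraMap P Kt π))
    (hdet : IsUnit Y.det) :
    ∃ f : F, (∀ k, a.repr f k ∈ (algebraMap P Kt).range) ∧
      LInt π ((z * f - 1) / algebraMap P F π) := by
  have hπK : algebraMap P Kt π ≠ 0 := by simpa using hπ.ne_zero
  have hπF : algebraMap P F π ≠ 0 := by
    rw [IsScalarTower.algebraMap_apply P Kt F]
    simpa using hπ.ne_zero
  choose e he using (hb 1).1 isIntegral_one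
  obtain ⟨Z, hZ⟩ := ((Matrix.isUnit_iff_isUnit_det Y).2 hdet).exists_right_inv
  set v : ι → P := Z.mulVec e with hv
  have hYv : Y.mulVec v = e := by
    rw [hv, Matrix.mulVec_mulVec, hZ, Matrix.one_mulVec]
  refine ⟨∑ j, algebraMap P Kt (v j) • a j, fun k => ⟨v k, ?_⟩, ?_⟩
  · rw [map_sum, Finsupp.finsetSum_apply]
    simp only [map_smul, Module.Basis.repr_self, Finsupp.smul_apply, Finsupp.single_apply,
      smul_eq_mul, mul_ite, mul_one, mul_zero]
    rw [Finset.sum_ite_eq' Finset.univ k]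
    simp
  · rw [lInt_iff_repr b hb hπ]
    intro k
    have h1 : b.repr ((z * ∑ j, algebraMap P Kt (v j) • a j - 1) / algebraMap P F π) k =
        ∑ j, algebraMap P Kt (v j) *
          ((b.repr (z * a j) k - algebraMap P Kt (Y k j)) / algebraMap P Kt π) := by
      have h2 : (z * ∑ j, algebraMap P Kt (v j) • a j - 1) / algebraMap P F π =
          (algebraMap P Kt π)⁻¹ • (z * ∑ j, algebraMap P Kt (v j) • a j - 1) := by
        rw [Algebra.smul_def, map_inv₀, ← IsScalarTower.algebraMap_apply, div_eq_inv_mul]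
      have h3 : algebraMap P Kt (e k) = ∑ j, algebraMap P Kt (v j) * algebraMap P Kt (Y k j) := by
        rw [← congrFun hYv k, Matrix.mulVec, dotProduct, map_sum]
        exact Finset.sum_congr rfl fun j _ => by rw [map_mul, mul_comm]
      rw [h2, map_smul, Finsupp.smul_apply, map_sub, Finsupp.sub_apply, ← he k, h3, Finset.mul_sum,
        map_sum, Finsupp.finsetSum_apply, ← Finset.sum_sub_distrib, smul_eq_mul, Finset.mul_sum]
      refine Finset.sum_congr rfl fun j _ => ?_
      rw [mul_smul_comm, map_smul, Finsupp.smul_apply, smul_eq_mul]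
      field_simp
    rw [h1, ← mem_lsub hπ]
    exact Subring.sum_mem _ fun j _ => Subring.mul_mem _ (LInt.algebraMap hπ _) (hY k j)

end

end Fermat.Agent.UNIlib
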