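import Mathlib
import Fermat.Agent.ES.C.AKDefs
import Fermat.Agent.UNI.LPA0
import Fermat.Agent.UNI.LPA2
import Fermat.Agent.UNI.LPA2N
import Fermat.Agent.UNI.LPB1
import Fermat.Agent.UNI.LPB2

/-!
# T-UNI, (LP) half B' : local principality from half A (for `g` and `g⁻¹`) and (Node)

No reduction of bases, no `P / π`, no `Õ`-basis: `𝔞 = {f | f ^ m / g ∈ O}`,
`𝔞' = {f | f ^ m / g⁻¹ ∈ O}`, `z`, `w` from `exists_twist` (`z w ≡ 1`, `z 𝔞 ⊆ O + π C`,
`w 𝔞' ⊆ O + π C`).  `Y`, `Y'` from `exists_matrix_congr`: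
`det Y * det Y' ≡ N (z w) d d' ≡ c c'` is a unit, so `det Y`, `det Y'` are units of `P`;
`exists_mul_congr_one` gives `f ∈ 𝔞`, `f' ∈ 𝔞'` with `z f ≡ 1 ≡ w f'`; `e := f f' ∈ O`, `e ≡ 1 mod π C`,
so `e ∈ 1 + π O ⊆ Oˣ`; `H := f`: `g / f ^ m = (f' ^ m / g⁻¹) * e⁻¹ ^ m`.
-/

set_option autoImplicit false
set_option linter.unusedSectionVars false

namespace Fermat.Agent.UNIlib

open Fermat.Agent.ESlib IsLocalRing

/-- the output of half A (`lp_halfA`) -/
def HalfA (P Kt : Type*) {F : Type*} [CommRing P] [Field Kt] [Field F] [Algebra P Kt]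
    [Algebra Kt F] [Algebra P F] (π : P) (m : ℕ) (g : F) : Prop :=
  ∃ b a : Module.Basis (Fin (Module.finrank Kt F)) Kt F, IsIntBasis P b ∧
    (∀ f : F, IsIntegral P (f ^ m / g) ↔ ∀ k, a.repr f k ∈ (algebraMap P Kt).range) ∧
    ∃ c : Pˣ, ∃ r : P, ¬ π ∣ r ∧ ∃ w : P,
      algebraMap P Kt r * ((b.toMatrix a).det - algebraMap P Kt c) = algebraMap P Kt (π * w)

section aux

variable {P F Kt : Type*} [CommRing P] [IsDomain P] [IsIntegrallyClosed P] [Field Kt] [Field F]
  [Algebra P Kt] [IsFractionRing P Kt] [Algebra Kt F] [Algebra P F] [IsScalarTower P Kt F]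

/-- `π⁻¹ ∉ C` -/
theorem not_lInt_inv_unif {P F : Type*} (Kt : Type*) [CommRing P] [IsDomain P]
    [IsIntegrallyClosed P] [Field Kt] [Field F] [Algebra P Kt] [IsFractionRing P Kt] [Algebra Kt F]
    [Algebra P F] [IsScalarTower P Kt F] {π : P} (hπ : Prime π) :
    ¬ LInt π ((algebraMap P F π)⁻¹) := by
  rintro ⟨r, hr, h⟩
  have hπK : algebraMap P Kt π ≠ 0 := by simpa using hπ.ne_zero
  have h1 : r • (algebraMap P F π)⁻¹ =
      algebraMap Kt F (algebraMap P Kt r / algebraMap P Kt π) := by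
    rw [Algebra.smul_def, map_div₀, ← IsScalarTower.algebraMap_apply,
      ← IsScalarTower.algebraMap_apply, div_eq_mul_inv]
  rw [h1, isIntegral_algebraMap_iff (algebraMap Kt F).injective] at h
  obtain ⟨c, hc⟩ := IsIntegrallyClosed.isIntegral_iff.1 h
  apply hr
  refine ⟨c, IsFractionRing.injective P Kt ?_⟩
  rw [map_mul, hc]
  field_simp

/-- `π P_(π) ∩ P = π P` -/
theorem dvd_of_lInt_div {π : P} (hπ : Prime π) {x : P}
    (h : LInt π (algebraMap P Kt x / algebraMap P Kt π)) : π ∣ x := by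
  have hπK : algebraMap P Kt π ≠ 0 := by simpa using hπ.ne_zero
  obtain ⟨r, p, hr, hp⟩ := lInt_frac_iff.1 h
  have h1 : r * x = π * p := by
    apply IsFractionRing.injective P Kt
    rw [map_mul, map_mul, ← hp]
    field_simp
  exact (hπ.dvd_or_dvd (h1 ▸ dvd_mul_right π p)).resolve_left hr

/-- products of elements of the two lattices -/
theorem isIntegral_pow_mul_div {m : ℕ} (hm : 0 < m) {g x y : F}
    (hx : IsIntegral P (x ^ m / g)) (hy : IsIntegral P (y ^ m / g)) :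
    IsIntegral P (x ^ (m - 1) * y / g) := by
  refine IsIntegral.of_pow hm ?_
  have : (x ^ (m - 1) * y / g) ^ m = (x ^ m / g) ^ (m - 1) * (y ^ m / g) := by
    obtain ⟨n, rfl⟩ : ∃ n, m = n + 1 := ⟨m - 1, by omega⟩
    simp only [Nat.add_sub_cancel]
    rw [div_pow, mul_pow, div_pow, ← pow_mul, ← pow_mul, mul_comm n (n + 1), pow_succ g n]
    rw [div_mul_div_comm]
  rw [this]
  exact (hx.pow _).mul hy

theorem isIntegral_mul_of_div_inv {m : ℕ} (hm : 0 < m) {g x y : F} (hg : g ≠ 0)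
    (hx : IsIntegral P (x ^ m / g)) (hy : IsIntegral P (y ^ m / g⁻¹)) : IsIntegral P (x * y) := by
  refine IsIntegral.of_pow hm ?_
  have : (x * y) ^ m = (x ^ m / g) * (y ^ m / g⁻¹) := by
    rw [mul_pow]
    field_simp
  rw [this]
  exact hx.mul hy

end aux

/-- **(LP), local form**, from half A for `g` and for `g⁻¹` and (Node). -/
theorem lp_local_of_halfA {P F Kt : Type*} [CommRing P] [IsDomain P] [IsLocalRing P]
    [IsIntegrallyClosed P] [Field Kt] [Field F] [Algebra P Kt]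
    [IsFractionRing P Kt] [Algebra Kt F] [Algebra P F] [IsScalarTower P Kt F]
    [FiniteDimensional Kt F]
    (π s : P) (hmax : maximalIdeal P = Ideal.span {π, s}) (hπ : Prime π)
    {m : ℕ} (hm : 0 < m) {g : F} (hg0 : g ≠ 0)
    (hg : LInt π ((g - 1) / algebraMap P F π))
    (hA : HalfA P Kt π m g) (hA' : HalfA P Kt π m g⁻¹) (hnode : NodeLoc F π s) :
    ∃ H : F, H ≠ 0 ∧ IsIntegral P (H ^ m / g) ∧ IsIntegral P (g / H ^ m) := by
  classical
  obtain ⟨b, a, hb, ha, c, r, hr, w₀, hdet⟩ := hA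
  obtain ⟨b', a', hb', ha', c', r', hr', w₀', hdet'⟩ := hA'
  have hinj := IsFractionRing.injective P Kt
  have hπK : algebraMap P Kt π ≠ 0 := by simpa using hπ.ne_zero
  have hπF : algebraMap P F π ≠ 0 := by
    rw [IsScalarTower.algebraMap_apply P Kt F]
    simpa using hπ.ne_zero
  have hfaith : FaithfulSMul P F := by
    rw [faithfulSMul_iff_algebraMap_injective, IsScalarTower.algebraMap_eq P Kt F]
    exact (algebraMap Kt F).injective.comp hinj
  have hπmax : π ∈ maximalIdeal P := by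
    rw [hmax]
    exact Ideal.subset_span (by simp)
  set ϖ : F := algebraMap P F π with hϖ
  -- `g`, `g⁻¹ ∈ C`
  have hgC : LInt π g := by
    have h1 : g = 1 + ϖ * ((g - 1) / ϖ) := by
      field_simp
      ring
    rw [h1]
    exact (LInt.of_isIntegral hπ isIntegral_one).add hπ ((LInt.algebraMap hπ π).mul hπ hg)
  have hgC' : LInt π g⁻¹ := lInt_inv_of_sub_one_div b hb hπ hg
  -- the basis elements lie in the lattices
  have hmem : ∀ i, IsIntegral P (a i ^ m / g) := by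
    intro i
    rw [ha]
    intro k
    rw [a.repr_self, Finsupp.single_apply]
    split_ifs
    · exact ⟨1, map_one _⟩
    · exact ⟨0, map_zero _⟩
  have hmem' : ∀ i, IsIntegral P (a' i ^ m / g⁻¹) := by
    intro i
    rw [ha']
    intro k
    rw [a'.repr_self, Finsupp.single_apply]
    split_ifs
    · exact ⟨1, map_one _⟩
    · exact ⟨0, map_zero _⟩
  have haC : ∀ i, LInt π (a i) := by
    intro i
    refine LInt.of_pow hm ?_
    have : a i ^ m = a i ^ m / g * g := by field_simp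
    rw [this]
    exact (LInt.of_isIntegral hπ (hmem i)).mul hπ hgC
  have haC' : ∀ i, LInt π (a' i) := by
    intro i
    refine LInt.of_pow hm ?_
    have : a' i ^ m = a' i ^ m / g⁻¹ * g⁻¹ := by field_simp
    rw [this]
    exact (LInt.of_isIntegral hπ (hmem' i)).mul hπ hgC'
  have hU : ∀ i j, ∃ o : F, IsIntegral P o ∧ LInt π ((a i ^ (m - 1) * a j - o) / ϖ) := by
    intro i j
    have ho := isIntegral_pow_mul_div hm (hmem i) (hmem j)
    refine ⟨_, ho, ?_⟩
    have : (a i ^ (m - 1) * a j - a i ^ (m - 1) * a j / g) / ϖ =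
        a i ^ (m - 1) * a j / g * ((g - 1) / ϖ) := by
      field_simp
    rw [this]
    exact (LInt.of_isIntegral hπ ho).mul hπ hg
  have hU' : ∀ i j, ∃ o : F, IsIntegral P o ∧ LInt π ((a' i ^ (m - 1) * a' j - o) / ϖ) := by
    intro i j
    have ho := isIntegral_pow_mul_div hm (hmem' i) (hmem' j)
    refine ⟨_, ho, ?_⟩
    have : (a' i ^ (m - 1) * a' j - a' i ^ (m - 1) * a' j / g⁻¹) / ϖ =
        -(a' i ^ (m - 1) * a' j / g⁻¹ * (((g - 1) / ϖ) * g⁻¹)) := by
      field_simp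
      ring
    rw [this]
    exact ((LInt.of_isIntegral hπ ho).mul hπ (hg.mul hπ hgC')).neg
  have hUU' : ∀ i j, ∃ o : F, IsIntegral P o ∧ LInt π ((a i * a' j - o) / ϖ) := by
    intro i j
    refine ⟨_, isIntegral_mul_of_div_inv hm hg0 (hmem i) (hmem' j), ?_⟩
    rw [sub_self, zero_div]
    exact LInt.of_isIntegral hπ isIntegral_zero
  obtain ⟨z, w, hz, hw, hzw, hza, hwa'⟩ :=
    exists_twist π s hmax hπ hnode (m - 1) a a' haC haC' hU hU' hUU'
  obtain ⟨Y, hY, hYdet⟩ := exists_matrix_congr b a hb hπ z hza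
  obtain ⟨Y', hY', hYdet'⟩ := exists_matrix_congr b' a' hb' hπ w hwa'
  -- the determinants are units
  have hN : LInt π ((Algebra.norm Kt (z * w) - 1) / algebraMap P Kt π) :=
    lInt_norm_sub_one_div b hb hπ hzw
  set d : Kt := (b.toMatrix a).det with hd
  set d' : Kt := (b'.toMatrix a').det with hd'
  set ϖK : Kt := algebraMap P Kt π with hϖK
  have hr0 : algebraMap P Kt r ≠ 0 := by
    have : r ≠ 0 := fun h0 => hr (h0 ▸ dvd_zero π)
    simpa using this
  have hr0' : algebraMap P Kt r' ≠ 0 := by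
    have : r' ≠ 0 := fun h0 => hr' (h0 ▸ dvd_zero π)
    simpa using this
  have hdc : LInt π ((d - algebraMap P Kt c) / ϖK) := by
    refine lInt_frac_iff.2 ⟨r, w₀, hr, ?_⟩
    rw [← mul_div_assoc, hdet, map_mul, mul_div_cancel_left₀ _ hπK]
  have hdc' : LInt π ((d' - algebraMap P Kt c') / ϖK) := by
    refine lInt_frac_iff.2 ⟨r', w₀', hr', ?_⟩
    rw [← mul_div_assoc, hdet', map_mul, mul_div_cancel_left₀ _ hπK]
  have hprod : π ∣ Y.det * Y'.det - c * c' := by
    apply dvd_of_lInt_div (Kt := Kt) hπ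
    obtain ⟨e₁, he₁, h1⟩ : ∃ e, LInt π e ∧
        Algebra.norm Kt z * d = algebraMap P Kt Y.det + ϖK * e :=
      ⟨_, hYdet, by field_simp; ring⟩
    obtain ⟨e₂, he₂, h2⟩ : ∃ e, LInt π e ∧
        Algebra.norm Kt w * d' = algebraMap P Kt Y'.det + ϖK * e :=
      ⟨_, hYdet', by field_simp; ring⟩
    obtain ⟨e₃, he₃, h3⟩ : ∃ e, LInt π e ∧ d = algebraMap P Kt c + ϖK * e :=
      ⟨_, hdc, by field_simp; ring⟩
    obtain ⟨e₄, he₄, h4⟩ : ∃ e, LInt π e ∧ d' = algebraMap P Kt c' + ϖK * e :=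
      ⟨_, hdc', by field_simp; ring⟩
    obtain ⟨e₅, he₅, h5⟩ : ∃ e, LInt π e ∧
        Algebra.norm Kt z * Algebra.norm Kt w = 1 + ϖK * e :=
      ⟨_, hN, by rw [← map_mul]; field_simp; ring⟩
    have hcS : LInt π (algebraMap P Kt c) := LInt.algebraMap hπ _
    have hcS' : LInt π (algebraMap P Kt c') := LInt.algebraMap hπ _
    have hYS : LInt π (algebraMap P Kt Y.det) := LInt.algebraMap hπ _
    have hYS' : LInt π (algebraMap P Kt Y'.det) := LInt.algebraMap hπ _
    have hϖS : LInt π ϖK := LInt.algebraMap hπ _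
    have hdS : LInt π d := h3 ▸ hcS.add hπ (hϖS.mul hπ he₃)
    have hdS' : LInt π d' := h4 ▸ hcS'.add hπ (hϖS.mul hπ he₄)
    have key : algebraMap P Kt (Y.det * Y'.det - c * c') / ϖK =
        (e₅ * d * d' + e₃ * d' + algebraMap P Kt c * e₄)
          - (e₁ * algebraMap P Kt Y'.det + algebraMap P Kt Y.det * e₂ + ϖK * e₁ * e₂) := by
      have h6 : (algebraMap P Kt Y.det + ϖK * e₁) * (algebraMap P Kt Y'.det + ϖK * e₂) =
          (1 + ϖK * e₅) * (d * d') := by
        rw [← h1, ← h2, ← h5]; ring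
      rw [div_eq_iff hπK, map_sub, map_mul, map_mul]
      linear_combination h6 + d' * h3 + algebraMap P Kt c * h4
    rw [key]
    exact ((((he₅.mul hπ hdS).mul hπ hdS').add hπ (he₃.mul hπ hdS')).add hπ (hcS.mul hπ he₄)).sub hπ
      (((he₁.mul hπ hYS').add hπ (hYS.mul hπ he₂)).add hπ ((hϖS.mul hπ he₁).mul hπ he₂))
  have hunit : IsUnit (Y.det * Y'.det) := by
    by_contra hn
    have h1 : Y.det * Y'.det ∈ maximalIdeal P := (mem_maximalIdeal _).2 hn
    obtain ⟨x, hx⟩ := hprod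
    have h2 : (c : P) * c' ∈ maximalIdeal P := by
      have : (c : P) * c' = Y.det * Y'.det - π * x := by rw [← hx]; ring
      rw [this]
      exact Ideal.sub_mem _ h1 (Ideal.mul_mem_right _ _ hπmax)
    exact (mem_maximalIdeal _).1 h2 (c * c').isUnit
  have hYu : IsUnit Y.det := isUnit_of_mul_isUnit_left hunit
  have hYu' : IsUnit Y'.det := isUnit_of_mul_isUnit_right hunit
  obtain ⟨f, hf, hzf⟩ := exists_mul_congr_one b a hb hπ z Y hY hYu
  obtain ⟨f', hf', hwf'⟩ := exists_mul_congr_one b' a' hb' hπ w Y' hY' hYu'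
  have hfI : IsIntegral P (f ^ m / g) := (ha f).2 hf
  have hfI' : IsIntegral P (f' ^ m / g⁻¹) := (ha' f').2 hf'
  have heI : IsIntegral P (f * f') := isIntegral_mul_of_div_inv hm hg0 hfI hfI'
  have he1 : LInt π ((f * f' - 1) / ϖ) := by
    have : (f * f' - 1) / ϖ = (z * f - 1) / ϖ + (w * f' - 1) / ϖ
        + ϖ * ((z * f - 1) / ϖ) * ((w * f' - 1) / ϖ) - (z * w - 1) / ϖ * (f * f') := by
      field_simp
      ring
    rw [this]
    exact (((hzf.add hπ hwf').add hπ (((LInt.algebraMap hπ π).mul hπ hzf).mul hπ hwf')).sub hπ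
      (hzw.mul hπ (LInt.of_isIntegral hπ heI)))
  have ho : IsIntegral P ((f * f' - 1) / ϖ) := by
    refine isIntegral_of_lInt_of_smul b hb hπ he1 ?_
    rw [Algebra.smul_def, mul_div_cancel₀ _ hπF]
    exact heI.sub isIntegral_one
  have heinv : IsIntegral P (f * f')⁻¹ := by
    have h1 := isIntegral_inv_one_add_smul hπmax ho
    rwa [Algebra.smul_def, mul_div_cancel₀ _ hπF, add_sub_cancel] at h1
  have hf0 : f ≠ 0 := by
    rintro rfl
    apply not_lInt_inv_unif Kt (F := F) hπ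
    have : (algebraMap P F π)⁻¹ = -((z * 0 - 1) / ϖ) := by
      rw [mul_zero, zero_sub, neg_div, neg_neg, one_div]
    rw [this]
    exact hzf.neg
  have hf0' : f' ≠ 0 := by
    rintro rfl
    apply not_lInt_inv_unif Kt (F := F) hπ
    have : (algebraMap P F π)⁻¹ = -((w * 0 - 1) / ϖ) := by
      rw [mul_zero, zero_sub, neg_div, neg_neg, one_div]
    rw [this]
    exact hwf'.neg
  refine ⟨f, hf0, hfI, ?_⟩
  have : g / f ^ m = f' ^ m / g⁻¹ * (f * f')⁻¹ ^ m := by
    rw [inv_pow, mul_pow]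
    field_simp
  rw [this]
  exact hfI'.mul (heinv.pow m)

end Fermat.Agent.UNIlib
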