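import Mathlib
import Fermat.Agent.ES.C.AK2Free
import Fermat.Agent.ES.C.Ufd
import Fermat.Agent.ES.C.AKLoc

/-!
# T-UNI, (C) local principality, HALF A (generic side): S2 - S5

`P` a two-dimensional regular local ring with maximal ideal `(π, s)`, `Kt = Frac P`, `F / Kt` finite
(char. 0), `g ∈ F`.  `𝔞 = {f | f ^ m / g integral over P}`.
-/

set_option autoImplicit false

namespace Fermat.Agent.UNIlib

open IsLocalRing Fermat.Agent.ESlib

universe u

section S2

variable {P F : Type u} {Kt : Type*} [CommRing P] [IsDomain P] [IsLocalRing P]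
    [IsNoetherianRing P] [IsIntegrallyClosed P] [Field Kt] [Field F] [Algebra P Kt]
    [IsFractionRing P Kt] [Algebra Kt F] [Algebra P F] [IsScalarTower P Kt F]
    [FiniteDimensional Kt F] [CharZero Kt]

/-- `f ^ m / g` is integral iff `f / y` is, `y ^ m = g`. -/
theorem isIntegral_pow_div_iff {P F E : Type*} [CommRing P] [Field F] [Field E] [Algebra P F]
    [Algebra F E] [Algebra P E] [IsScalarTower P F E] {m : ℕ} (hm : 0 < m) {g : F} {y : E}
    (hy : y ^ m = algebraMap F E g) (f : F) :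
    IsIntegral P (f ^ m / g) ↔ IsIntegral P (y⁻¹ * algebraMap F E f) := by
  have h1 : (y⁻¹ * algebraMap F E f) ^ m = algebraMap F E (f ^ m / g) := by
    rw [mul_pow, inv_pow, hy, map_div₀, map_pow, div_eq_inv_mul]
  constructor
  · intro h
    refine IsIntegral.of_pow hm ?_
    rw [h1]
    exact h.algebraMap
  · intro h
    have h2 := h.pow m
    rw [h1] at h2
    exact (isIntegral_algebraMap_iff (algebraMap F E).injective).1 h2

/-- **S2.** `𝔞 = {f | f ^ m / g integral}` is a free `P`-module, a lattice in `F`. -/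
theorem exists_rootBasis (π s : P) (hmax : maximalIdeal P = Ideal.span {π, s}) (hπ : Prime π)
    (hs : ¬ π ∣ s) {m : ℕ} (hm : 0 < m) {g : F} (hg0 : g ≠ 0) :
    ∃ a : Module.Basis (Fin (Module.finrank Kt F)) Kt F,
      ∀ f, IsIntegral P (f ^ m / g) ↔ ∀ k, a.repr f k ∈ (algebraMap P Kt).range := by
  classical
  have hTF : Module.IsTorsionFree P F := .trans_faithfulSMul P Kt F
  let E := AlgebraicClosure F
  have hTE : Module.IsTorsionFree P E := .trans_faithfulSMul P F E
  obtain ⟨y, hy⟩ := IsAlgClosed.exists_pow_nat_eq (algebraMap F E g) hm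
  have hy0 : y ≠ 0 := by
    rintro rfl
    rw [zero_pow hm.ne'] at hy
    exact hg0 ((map_eq_zero _).1 hy.symm)
  let φ : F →ₗ[P] E := (LinearMap.mulLeft P (y⁻¹ : E)).comp (IsScalarTower.toAlgHom P F E).toLinearMap
  have hφ : ∀ f, φ f = y⁻¹ * algebraMap F E f := fun f => rfl
  let 𝔞 : Submodule P F := Submodule.comap φ (Subalgebra.toSubmodule (integralClosure P E))
  have hmem : ∀ f, f ∈ 𝔞 ↔ IsIntegral P (f ^ m / g) := fun f =>
    (isIntegral_pow_div_iff hm hy f).symm
  have hfinO : Module.Finite P (integralClosure P F) :=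
    IsIntegralClosure.finite P Kt F (integralClosure P F)
  have halg : Algebra.IsAlgebraic P F := by
    have : Algebra.IsAlgebraic Kt F := Algebra.IsAlgebraic.of_finite Kt F
    exact (IsFractionRing.comap_isAlgebraic_iff (A := P) (K := Kt) (C := F)).2 this
  have hπ0 : π ≠ 0 := hπ.ne_zero
  have hπF : algebraMap P F π ≠ 0 := by
    rw [Ne, FaithfulSMul.algebraMap_eq_zero_iff]
    exact hπ0
  -- scaling: `c • (x ^ m / g)` integral ⟹ `c • x ∈ 𝔞`
  have hscale : ∀ (c : P) (x : F), IsIntegral P (c • (x ^ m / g)) → c • x ∈ 𝔞 := by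
    intro c x hx
    rw [hmem]
    have : (c • x) ^ m / g = c ^ (m - 1) • (c • (x ^ m / g)) := by
      rw [smul_smul, ← pow_succ, Nat.sub_add_cancel hm, smul_pow, smul_div_assoc]
    rw [this]
    exact hx.smul _
  -- finiteness
  have hfin : Module.Finite P 𝔞 := by
    obtain ⟨c, hc0, hc⟩ := (halg.1 g).exists_integral_multiple
    have hcx : ∀ x : 𝔞, IsIntegral P (c • (x : F)) := by
      intro x
      refine IsIntegral.of_pow hm ?_
      have h1 : (c • (x : F)) ^ m = c ^ (m - 1) • (((x : F) ^ m / g) * (c • g)) := by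
        rw [mul_smul_comm, div_mul_cancel₀ _ hg0, smul_smul, ← pow_succ, Nat.sub_add_cancel hm,
          smul_pow]
      rw [h1]
      exact (((hmem x).1 x.2).mul hc).smul _
    let ψ : 𝔞 →ₗ[P] integralClosure P F :=
      { toFun := fun x => ⟨c • (x : F), hcx x⟩
        map_add' := fun x x' => Subtype.ext (by simp [smul_add])
        map_smul' := fun r x => Subtype.ext (by simp [smul_comm c r]) }
    have hψ : Function.Injective ψ := by
      intro x x' h
      have h1 : c • (x : F) = c • (x' : F) := congrArg Subtype.val h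
      exact Subtype.ext (smul_right_injective F hc0 h1)
    have : IsNoetherian P (integralClosure P F) := isNoetherian_of_isNoetherianRing_of_finite P _
    exact Module.Finite.of_injective ψ hψ
  -- the regular sequence
  have hreg : RingTheory.Sequence.IsWeaklyRegular 𝔞 [π, s] := by
    rw [RingTheory.Sequence.isWeaklyRegular_cons_iff,
      RingTheory.Sequence.isWeaklyRegular_singleton_iff]
    constructor
    · intro x y hxy
      have h1 : π • (x : F) = π • (y : F) := congrArg Subtype.val hxy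
      exact Subtype.ext (smul_right_injective F hπ0 h1)
    · rw [isSMulRegular_iff_right_eq_zero_of_smul]
      intro x hx
      obtain ⟨x, rfl⟩ := Submodule.Quotient.mk_surjective _ x
      rw [← Submodule.Quotient.mk_smul, Submodule.Quotient.mk_eq_zero] at hx
      rw [Submodule.Quotient.mk_eq_zero]
      obtain ⟨z, -, hz⟩ := (Submodule.mem_smul_pointwise_iff_exists _ _ _).1 hx
      have hz' : π • (z : F) = s • (x : F) := congrArg Subtype.val hz
      have hy' : (x : F) / algebraMap P F π ∈ 𝔞 := by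
        change IsIntegral P (φ ((x : F) / algebraMap P F π))
        refine S28lib.isIntegral_of_isIntegral_smul hπ hs ?_ ?_
        · rw [← map_smul, Algebra.smul_def, mul_div_cancel₀ _ hπF]
          exact x.2
        · have : s • ((x : F) / algebraMap P F π) = z := by
            rw [eq_comm, Algebra.smul_def, ← mul_div_assoc, eq_div_iff hπF, ← Algebra.smul_def,
              ← hz', Algebra.smul_def, mul_comm]
          rw [← map_smul, this]
          exact z.2
      refine (Submodule.mem_smul_pointwise_iff_exists _ _ _).2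
        ⟨⟨_, hy'⟩, Submodule.mem_top, Subtype.ext ?_⟩
      change π • ((x : F) / algebraMap P F π) = x
      rw [Algebra.smul_def, mul_div_cancel₀ _ hπF]
  have hfree : Module.Free P 𝔞 := by
    refine S57Lib.free_of_isWeaklyRegular 2 P 𝔞 {π, s} Finset.card_le_two
      ?_ [π, s] rfl ?_ hreg
    · rw [hmax]
      simp
    · intro r hr
      rw [hmax]
      simp only [List.mem_cons, List.not_mem_nil, or_false] at hr
      rcases hr with rfl | rfl
      · exact Ideal.subset_span (by simp)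
      · exact Ideal.subset_span (by simp)
  have hloc : IsLocalizedModule (nonZeroDivisors P) 𝔞.subtype := by
    refine ⟨fun c => ?_, fun x => ?_, fun {x₁ x₂} h => ⟨1, ?_⟩⟩
    · have hc0 : algebraMap P F c ≠ 0 := by
        rw [Ne, FaithfulSMul.algebraMap_eq_zero_iff]
        exact nonZeroDivisors.ne_zero c.2
      rw [Module.End.isUnit_iff]
      constructor
      · intro x x' h
        have h1 : (c : P) • x = (c : P) • x' := h
        exact smul_right_injective F (nonZeroDivisors.ne_zero c.2) h1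
      · intro x
        refine ⟨(algebraMap P F c)⁻¹ * x, ?_⟩
        change (c : P) • ((algebraMap P F c)⁻¹ * x) = x
        rw [Algebra.smul_def, mul_inv_cancel_left₀ hc0]
    · obtain ⟨c, hc0, hc⟩ := (halg.1 (x ^ m / g)).exists_integral_multiple
      exact ⟨⟨⟨c • x, hscale c x hc⟩, ⟨c, mem_nonZeroDivisors_of_ne_zero hc0⟩⟩, rfl⟩
    · rw [Subtype.ext h]
  let b0 := Module.Free.chooseBasis P 𝔞
  let b1 : Module.Basis _ Kt F := b0.ofIsLocalizedModule Kt (nonZeroDivisors P) 𝔞.subtype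
  have hcard : Fintype.card (Module.Free.ChooseBasisIndex P 𝔞) =
      Module.finrank Kt F := (Module.finrank_eq_card_basis b1).symm
  let e := Fintype.equivFinOfCardEq hcard
  refine ⟨b1.reindex e, fun x => ⟨fun hx k => ?_, fun hx => ?_⟩⟩
  · have h1 := b0.ofIsLocalizedModule_repr_apply Kt (nonZeroDivisors P) 𝔞.subtype
      ⟨x, (hmem x).2 hx⟩ (e.symm k)
    rw [Module.Basis.repr_reindex_apply]
    exact ⟨_, h1.symm⟩
  · rw [← hmem, ← (b1.reindex e).sum_repr x]
    refine Submodule.sum_mem _ fun k _ => ?_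
    obtain ⟨c, hc⟩ := hx k
    rw [← hc, algebraMap_smul]
    refine Submodule.smul_mem _ _ ?_
    rw [Module.Basis.reindex_apply, Module.Basis.ofIsLocalizedModule_apply]
    exact (b0 (e.symm k)).2

end S2

section LocSub

variable {P : Type*} (Kt : Type*) [CommRing P] [Field Kt] [Algebra P Kt]

/-- `P_(ϱ)` as a subring of `Kt`. -/
def locSub {ϱ : P} (hϱ : Prime ϱ) : Subring Kt where
  carrier := {x | ∃ c p : P, ¬ ϱ ∣ c ∧ algebraMap P Kt c * x = algebraMap P Kt p}
  mul_mem' := by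
    rintro x y ⟨c, p, hc, h⟩ ⟨c', p', hc', h'⟩
    exact ⟨c * c', p * p', fun hd => (hϱ.dvd_or_dvd hd).elim hc hc', by
      rw [map_mul, map_mul, ← h, ← h']; ring⟩
  one_mem' := ⟨1, 1, hϱ.not_dvd_one, by simp⟩
  add_mem' := by
    rintro x y ⟨c, p, hc, h⟩ ⟨c', p', hc', h'⟩
    exact ⟨c * c', p * c' + p' * c, fun hd => (hϱ.dvd_or_dvd hd).elim hc hc', by
      rw [map_mul, map_add, map_mul, map_mul, ← h, ← h']; ring⟩
  zero_mem' := ⟨1, 0, hϱ.not_dvd_one, by simp⟩
  neg_mem' := by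
    rintro x ⟨c, p, hc, h⟩
    exact ⟨c, -p, hc, by rw [map_neg, ← h]; ring⟩

variable {Kt}

theorem mem_locSub {ϱ : P} (hϱ : Prime ϱ) {x : Kt} :
    x ∈ locSub Kt hϱ ↔ ∃ c p : P, ¬ ϱ ∣ c ∧ algebraMap P Kt c * x = algebraMap P Kt p := Iff.rfl

theorem algebraMap_mem_locSub {ϱ : P} (hϱ : Prime ϱ) (p : P) : algebraMap P Kt p ∈ locSub Kt hϱ :=
  ⟨1, p, hϱ.not_dvd_one, by simp⟩

/-- the determinant of a matrix with entries in a subring lies in the subring -/
theorem det_mem_subring {A n : Type*} [CommRing A] [Fintype n] [DecidableEq n] (S : Subring A)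
    (M : Matrix n n A) (h : ∀ i j, M i j ∈ S) : M.det ∈ S := by
  let M' : Matrix n n S := fun i j => ⟨M i j, h i j⟩
  have h1 : M = S.subtype.mapMatrix M' := by
    ext i j
    rfl
  rw [h1, ← RingHom.map_det]
  exact (M'.det).2

end LocSub

section IntAt

variable {P F : Type*} [CommRing P] [Field F] [Algebra P F]

/-- `x` is integral over `P_(ϱ)`. -/
def IntAt (ϱ : P) (x : F) : Prop := ∃ c : P, ¬ ϱ ∣ c ∧ IsIntegral P (c • x)

theorem IntAt.of_isIntegral {ϱ : P} (hϱ : Prime ϱ) {x : F} (h : IsIntegral P x) : IntAt ϱ x :=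
  ⟨1, hϱ.not_dvd_one, by rwa [one_smul]⟩

theorem IntAt.mul {ϱ : P} (hϱ : Prime ϱ) {x y : F} (hx : IntAt ϱ x) (hy : IntAt ϱ y) :
    IntAt ϱ (x * y) := by
  obtain ⟨c, hc, h⟩ := hx
  obtain ⟨c', hc', h'⟩ := hy
  refine ⟨c * c', fun hd => (hϱ.dvd_or_dvd hd).elim hc hc', ?_⟩
  have : (c * c') • (x * y) = (c • x) * (c' • y) := by
    rw [smul_mul_smul_comm]
  rw [this]
  exact h.mul h'

theorem IntAt.add {ϱ : P} (hϱ : Prime ϱ) {x y : F} (hx : IntAt ϱ x) (hy : IntAt ϱ y) :
    IntAt ϱ (x + y) := by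
  obtain ⟨c, hc, h⟩ := hx
  obtain ⟨c', hc', h'⟩ := hy
  refine ⟨c * c', fun hd => (hϱ.dvd_or_dvd hd).elim hc hc', ?_⟩
  have : (c * c') • (x + y) = c' • (c • x) + c • (c' • y) := by
    rw [smul_add, smul_smul, smul_smul, mul_comm c' c]
  rw [this]
  exact (h.smul _).add (h'.smul _)

theorem IntAt.pow {ϱ : P} (hϱ : Prime ϱ) {x : F} (hx : IntAt ϱ x) (n : ℕ) : IntAt ϱ (x ^ n) := by
  induction n with
  | zero => rw [pow_zero]; exact IntAt.of_isIntegral hϱ isIntegral_one
  | succ n ih => rw [pow_succ]; exact ih.mul hϱ hx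

theorem IntAt.of_pow {ϱ : P} {x : F} {n : ℕ} (hn : 0 < n) (hx : IntAt ϱ (x ^ n)) : IntAt ϱ x := by
  obtain ⟨c, hc, h⟩ := hx
  refine ⟨c, hc, IsIntegral.of_pow hn ?_⟩
  have : (c • x) ^ n = c ^ (n - 1) • (c • x ^ n) := by
    rw [smul_smul, ← pow_succ, Nat.sub_add_cancel hn, smul_pow]
  rw [this]
  exact h.smul _

theorem IntAt.smul {ϱ : P} {x : F} (hx : IntAt ϱ x) (r : P) : IntAt ϱ (r • x) := by
  obtain ⟨c, hc, h⟩ := hx
  exact ⟨c, hc, by rw [smul_comm]; exact h.smul _⟩

end IntAt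

section S4

variable {P F Kt : Type*} [CommRing P] [IsDomain P] [Field Kt] [Field F] [Algebra P Kt]
    [IsFractionRing P Kt] [Algebra Kt F] [Algebra P F] [IsScalarTower P Kt F]
    {ι : Type*} [Fintype ι] [DecidableEq ι]

omit [IsDomain P] [IsFractionRing P Kt] [Fintype ι] [DecidableEq ι] in
theorem repr_smul_apply (a : Module.Basis ι Kt F) (c : P) (x : F) (k : ι) :
    a.repr (c • x) k = algebraMap P Kt c * a.repr x k := by
  rw [← algebraMap_smul Kt c x, map_smul, Finsupp.smul_apply, smul_eq_mul]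

omit [IsDomain P] [IsFractionRing P Kt] [Fintype ι] [DecidableEq ι] in
/-- coordinates of an element of the localised lattice -/
theorem repr_mem_locSub (a : Module.Basis ι Kt F) {ϱ : P} (hϱ : Prime ϱ) {x : F} {c : P}
    (hc : ¬ ϱ ∣ c) (h : ∀ k, a.repr (c • x) k ∈ (algebraMap P Kt).range) (k : ι) :
    a.repr x k ∈ locSub Kt hϱ := by
  obtain ⟨p, hp⟩ := h k
  exact ⟨c, p, hc, by rw [hp, repr_smul_apply]⟩

omit [IsDomain P] [IsFractionRing P Kt] [DecidableEq ι] in
/-- common denominator -/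
theorem exists_smul_repr_mem_range (a : Module.Basis ι Kt F) {ϱ : P} (hϱ : Prime ϱ) {x : F}
    (h : ∀ k, a.repr x k ∈ locSub Kt hϱ) :
    ∃ c : P, ¬ ϱ ∣ c ∧ ∀ k, a.repr (c • x) k ∈ (algebraMap P Kt).range := by
  classical
  choose c p hc hp using h
  refine ⟨∏ k, c k, ?_, fun k => ?_⟩
  · intro hd
    obtain ⟨k, -, hk⟩ := hϱ.exists_mem_finset_dvd hd
    exact hc k hk
  · refine ⟨(∏ j ∈ Finset.univ.erase k, c j) * p k, ?_⟩
    rw [repr_smul_apply, ← Finset.mul_prod_erase Finset.univ c (Finset.mem_univ k), map_mul,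
      map_mul, ← hp k]
    ring

omit [IsDomain P] [IsFractionRing P Kt] [Fintype ι] [IsScalarTower P Kt F] [Algebra P F] in
theorem repr_self_mem_range (a : Module.Basis ι Kt F) (j k : ι) :
    a.repr (a j) k ∈ (algebraMap P Kt).range := by
  rw [a.repr_self, Finsupp.single_apply]
  split_ifs
  · exact ⟨1, map_one _⟩
  · exact ⟨0, map_zero _⟩

omit [IsDomain P] [IsFractionRing P Kt] [Fintype ι] [DecidableEq ι] in
theorem repr_mem_locSub_of_intAt {b : Module.Basis ι Kt F} (hb : IsIntBasis P b) {ϱ : P}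
    (hϱ : Prime ϱ) {x : F} (hx : IntAt ϱ x) (k : ι) : b.repr x k ∈ locSub Kt hϱ := by
  obtain ⟨c, hc, h⟩ := hx
  exact repr_mem_locSub b hϱ hc ((hb _).1 h) k

omit [IsDomain P] [IsFractionRing P Kt] in
theorem norm_mem_locSub {b : Module.Basis ι Kt F} (hb : IsIntBasis P b) {ϱ : P}
    (hϱ : Prime ϱ) {x : F} (hx : IntAt ϱ x) : Algebra.norm Kt x ∈ locSub Kt hϱ := by
  rw [Algebra.norm_eq_matrix_det b]
  refine det_mem_subring _ _ fun i j => ?_
  rw [Algebra.leftMulMatrix_eq_repr_mul]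
  refine repr_mem_locSub_of_intAt hb hϱ (hx.mul hϱ (IntAt.of_isIntegral hϱ ?_)) i
  exact (hb _).2 fun k => repr_self_mem_range b j k

omit [IsDomain P] [IsFractionRing P Kt] in
/-- **S4, local form.** -/
theorem det_pow_eq_at (b a : Module.Basis ι Kt F) (hb : IsIntBasis P b) {m : ℕ} (hm : 0 < m)
    {g : F} (hg0 : g ≠ 0)
    (ha : ∀ f, IsIntegral P (f ^ m / g) ↔ ∀ k, a.repr f k ∈ (algebraMap P Kt).range)
    {ϱ : P} (hϱ : Prime ϱ) {f : F} (hf0 : f ≠ 0) (h1 : IntAt ϱ (f ^ m / g))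
    (h2 : IntAt ϱ (g / f ^ m)) :
    ∃ u ∈ locSub Kt hϱ, ∃ v ∈ locSub Kt hϱ, u * v = 1 ∧
      (b.toMatrix a).det ^ m = u * Algebra.norm Kt g ∧
      ∃ u' ∈ locSub Kt hϱ, (b.toMatrix a).det = Algebra.norm Kt f * u' := by
  let Lf : F →ₗ[Kt] F := LinearMap.mulLeft Kt f
  let Lf' : F →ₗ[Kt] F := LinearMap.mulLeft Kt f⁻¹
  let U := LinearMap.toMatrix a b Lf'
  let U' := LinearMap.toMatrix b a Lf
  have hc1 : Lf' ∘ₗ Lf = LinearMap.id := by
    ext x
    simp [Lf, Lf', hf0]
  have hc2 : Lf ∘ₗ Lf' = LinearMap.id := by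
    ext x
    simp [Lf, Lf', hf0]
  have hUU' : U * U' = 1 := by
    rw [← LinearMap.toMatrix_comp b a b Lf' Lf, hc1, LinearMap.toMatrix_id]
  have hM : b.toMatrix a = LinearMap.toMatrix b b Lf * U := by
    rw [← LinearMap.toMatrix_comp a b b Lf Lf', hc2, LinearMap.toMatrix_id_eq_basis_toMatrix]
  have hN : (LinearMap.toMatrix b b Lf).det = Algebra.norm Kt f := by
    rw [Algebra.norm_eq_matrix_det b, Algebra.leftMulMatrix_apply]
    rfl
  have hfm : f ^ m ≠ 0 := pow_ne_zero _ hf0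
  have hU : U.det ∈ locSub Kt hϱ := by
    refine det_mem_subring _ _ fun i j => ?_
    change LinearMap.toMatrix a b Lf' i j ∈ _
    rw [LinearMap.toMatrix_apply]
    refine repr_mem_locSub_of_intAt hb hϱ (IntAt.of_pow hm ?_) i
    have h3 : (Lf' (a j)) ^ m = (a j ^ m / g) * (g / f ^ m) := by
      change (f⁻¹ * a j) ^ m = _
      rw [mul_pow, inv_pow]
      field_simp
    rw [h3]
    exact (IntAt.of_isIntegral hϱ ((ha _).2 fun k => repr_self_mem_range a j k)).mul hϱ h2
  have hU' : U'.det ∈ locSub Kt hϱ := by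
    refine det_mem_subring _ _ fun i j => ?_
    change LinearMap.toMatrix b a Lf i j ∈ _
    rw [LinearMap.toMatrix_apply]
    have hbj : IsIntegral P (b j) := (hb _).2 fun k => repr_self_mem_range b j k
    have h3 : IntAt ϱ ((f * b j) ^ m / g) := by
      have : (f * b j) ^ m / g = (f ^ m / g) * b j ^ m := by
        rw [mul_pow]
        ring
      rw [this]
      exact h1.mul hϱ (IntAt.of_isIntegral hϱ (hbj.pow m))
    obtain ⟨c, hc, h4⟩ := h3
    refine repr_mem_locSub a hϱ hc ((ha _).1 ?_) i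
    have : (c • Lf (b j)) ^ m / g = c ^ (m - 1) • (c • ((f * b j) ^ m / g)) := by
      change (c • (f * b j)) ^ m / g = _
      rw [smul_smul, ← pow_succ, Nat.sub_add_cancel hm, smul_pow, smul_div_assoc]
    rw [this]
    exact h4.smul _
  have hdet : U.det * U'.det = 1 := by rw [← Matrix.det_mul, hUU', Matrix.det_one]
  refine ⟨Algebra.norm Kt (f ^ m / g) * U.det ^ m,
    Subring.mul_mem _ (norm_mem_locSub hb hϱ h1) (Subring.pow_mem _ hU m),
    Algebra.norm Kt (g / f ^ m) * U'.det ^ m,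
    Subring.mul_mem _ (norm_mem_locSub hb hϱ h2) (Subring.pow_mem _ hU' m), ?_, ?_, U.det, hU, ?_⟩
  · have h5 : Algebra.norm Kt (f ^ m / g) * Algebra.norm Kt (g / f ^ m) = 1 := by
      rw [← map_mul]
      have : f ^ m / g * (g / f ^ m) = 1 := by field_simp
      rw [this, map_one]
    calc _ = (Algebra.norm Kt (f ^ m / g) * Algebra.norm Kt (g / f ^ m)) * (U.det * U'.det) ^ m := by
          ring
      _ = 1 := by rw [h5, hdet, one_pow, one_mul]
  · rw [hM, Matrix.det_mul, hN, mul_pow, ← map_pow]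
    have h6 : Algebra.norm Kt (f ^ m) = Algebra.norm Kt (f ^ m / g) * Algebra.norm Kt g := by
      rw [← map_mul, div_mul_cancel₀ _ hg0]
    rw [h6]
    ring
  · rw [hM, Matrix.det_mul, hN]

omit [Fintype ι] [DecidableEq ι] [Field F] [Algebra Kt F] [Algebra P F] [IsScalarTower P Kt F] in
/-- **S4, UFD step**: `P = ⋂ P_(ϱ)`. -/
theorem mem_range_of_forall_locSub [UniqueFactorizationMonoid P] {x : Kt}
    (h : ∀ (ϱ : P) (hϱ : Prime ϱ), x ∈ locSub Kt hϱ) : x ∈ (algebraMap P Kt).range := by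
  obtain ⟨a, b, hrel, hx⟩ := IsFractionRing.exists_reduced_fraction P x
  have hb0 : (b : P) ≠ 0 := nonZeroDivisors.ne_zero b.2
  have hspec : x * algebraMap P Kt b = algebraMap P Kt a := by
    rw [← hx]
    exact IsLocalization.mk'_spec Kt a b
  by_cases hb : IsUnit (b : P)
  · obtain ⟨u, hu⟩ := hb
    refine ⟨a * (↑u⁻¹ : P), ?_⟩
    rw [map_mul, ← hspec, ← hu, mul_assoc, ← map_mul, Units.mul_inv, map_one, mul_one]
  · exfalso
    obtain ⟨ϱ, hϱ, hdvd⟩ := WfDvdMonoid.exists_irreducible_factor hb hb0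
    have hϱp : Prime ϱ := UniqueFactorizationMonoid.irreducible_iff_prime.1 hϱ
    obtain ⟨c, p, hc, hcp⟩ := h ϱ hϱp
    have h1 : c * a = p * b := by
      apply IsFractionRing.injective P Kt
      rw [map_mul, map_mul, ← hspec, ← hcp]
      ring
    have h2 : ϱ ∣ c * a := h1 ▸ Dvd.dvd.mul_left hdvd p
    have h3 : ϱ ∣ a := (hϱp.dvd_or_dvd h2).resolve_left hc
    exact hϱ.not_isUnit (hrel h3 hdvd)

omit [IsDomain P] [Fintype ι] [DecidableEq ι] [Field F] [Algebra Kt F] [Algebra P F]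
  [IsScalarTower P Kt F] in
/-- `1 + π θ` is a unit of `P_(π)`. -/
theorem exists_mul_one_add_eq_one {π : P} (hπ : Prime π) {θ : Kt} (hθ : θ ∈ locSub Kt hπ) :
    ∃ v ∈ locSub Kt hπ, (1 + algebraMap P Kt π * θ) * v = 1 := by
  obtain ⟨e, t, he, het⟩ := hθ
  have hd : ¬ π ∣ e + π * t := fun h => he ((dvd_add_left (dvd_mul_right π t)).1 h)
  have hd0 : algebraMap P Kt (e + π * t) ≠ 0 := by
    rw [Ne, map_eq_zero_iff _ (IsFractionRing.injective P Kt)]
    rintro h0
    exact hd (h0 ▸ dvd_zero π)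
  have he0 : algebraMap P Kt e ≠ 0 := by
    rw [Ne, map_eq_zero_iff _ (IsFractionRing.injective P Kt)]
    rintro h0
    exact he (h0 ▸ dvd_zero π)
  refine ⟨algebraMap P Kt e / algebraMap P Kt (e + π * t), ⟨e + π * t, e, hd, ?_⟩, ?_⟩
  · rw [mul_div_cancel₀ _ hd0]
  · have h1 : algebraMap P Kt (e + π * t) = algebraMap P Kt e * (1 + algebraMap P Kt π * θ) := by
      rw [map_add, map_mul, ← het]
      ring
    rw [h1]
    have h2 : (1 + algebraMap P Kt π * θ) ≠ 0 := by
      intro h0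
      rw [h0, mul_zero] at h1
      exact hd0 h1
    field_simp

omit [IsDomain P] [IsFractionRing P Kt] in
/-- **S5.** `g = 1 + π β`, `β ∈ C`: the matrix of `g` is `1 + π B'` with `B'` over `P_(π)`. -/
theorem exists_matrix_one_add {b : Module.Basis ι Kt F} (hb : IsIntBasis P b) {π : P}
    (hπ : Prime π) {β : F} (hβ : IntAt π β) :
    ∃ B' : Matrix ι ι (locSub Kt hπ),
      Algebra.leftMulMatrix b (1 + π • β) =
        (locSub Kt hπ).subtype.mapMatrix
          (1 + (⟨algebraMap P Kt π, algebraMap_mem_locSub hπ π⟩ : locSub Kt hπ) • B') := by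
  have hent : ∀ i j, Algebra.leftMulMatrix b β i j ∈ locSub Kt hπ := by
    intro i j
    rw [Algebra.leftMulMatrix_eq_repr_mul]
    refine repr_mem_locSub_of_intAt hb hπ (hβ.mul hπ (IntAt.of_isIntegral hπ ?_)) i
    exact (hb _).2 fun k => repr_self_mem_range b j k
  refine ⟨fun i j => ⟨_, hent i j⟩, ?_⟩
  rw [← algebraMap_smul Kt π β, map_add, map_one, map_smul, map_add, map_one]
  congr 1

omit [IsDomain P] [IsFractionRing P Kt] in
/-- **S5.** `N(1 + π β) ≡ 1 mod π`. -/
theorem norm_one_add {b : Module.Basis ι Kt F} (hb : IsIntBasis P b) {π : P}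
    (hπ : Prime π) {β : F} (hβ : IntAt π β) :
    ∃ θ ∈ locSub Kt hπ, Algebra.norm Kt (1 + π • β) = 1 + algebraMap P Kt π * θ := by
  obtain ⟨B', hB'⟩ := exists_matrix_one_add hb hπ hβ
  rw [Algebra.norm_eq_matrix_det b, hB', ← RingHom.map_det, Matrix.det_one_add_smul]
  set π' : locSub Kt hπ := ⟨algebraMap P Kt π, algebraMap_mem_locSub hπ π⟩ with hπ'
  set q := Polynomial.eval π' (1 + (Polynomial.X : Polynomial (locSub Kt hπ)) •
    B'.map Polynomial.C).det.divX.divX with hq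
  refine ⟨((B'.trace + q * π' : locSub Kt hπ) : Kt), (B'.trace + q * π').2, ?_⟩
  have : 1 + B'.trace * π' + q * π' ^ 2 = 1 + π' * (B'.trace + q * π') := by ring
  rw [this]
  rfl

omit [IsDomain P] in
/-- **S5'.** `1 + π β` is a unit of `C`. -/
theorem intAt_inv_one_add {b : Module.Basis ι Kt F} (hb : IsIntBasis P b) {π : P}
    (hπ : Prime π) {β : F} (hβ : IntAt π β) : IntAt π (1 + π • β)⁻¹ := by
  obtain ⟨B', hB'⟩ := exists_matrix_one_add hb hπ hβ
  obtain ⟨θ, hθ, hN⟩ := norm_one_add hb hπ hβ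
  obtain ⟨v, hv, hθv⟩ := exists_mul_one_add_eq_one hπ hθ
  set π' : locSub Kt hπ := ⟨algebraMap P Kt π, algebraMap_mem_locSub hπ π⟩ with hπ'
  set L' : Matrix ι ι (locSub Kt hπ) := 1 + π' • B' with hL'
  have hdet : ((L'.det : locSub Kt hπ) : Kt) = 1 + algebraMap P Kt π * θ := by
    rw [← hN, Algebra.norm_eq_matrix_det b, hB', ← RingHom.map_det]
    rfl
  have hdetU : IsUnit L'.det := by
    refine IsUnit.of_mul_eq_one ⟨v, hv⟩ (Subtype.ext ?_)
    change ((L'.det : locSub Kt hπ) : Kt) * v = 1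
    rw [hdet, hθv]
  have h1int : IsIntegral P (1 : F) := isIntegral_one
  let r' : ι → locSub Kt hπ := fun k =>
    ⟨b.repr 1 k, repr_mem_locSub_of_intAt hb hπ (IntAt.of_isIntegral hπ h1int) k⟩
  let v' : ι → locSub Kt hπ := L'⁻¹.mulVec r'
  have h1 : L'.mulVec v' = r' := by
    rw [Matrix.mulVec_mulVec, Matrix.mul_nonsing_inv _ hdetU, Matrix.one_mulVec]
  let lam : F := b.equivFun.symm fun k => (v' k : Kt)
  have hlam : ∀ k, b.repr lam k = v' k := by
    intro k
    have := congrFun (b.equivFun.apply_symm_apply fun k => (v' k : Kt)) k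
    rwa [Module.Basis.equivFun_apply] at this
  have hmul : (1 + π • β) * lam = 1 := by
    apply b.repr.injective
    ext i
    have h2 := congrFun (Algebra.leftMulMatrix_mulVec_repr b (1 + π • β) lam) i
    rw [← h2, hB']
    have h3 := RingHom.map_mulVec (locSub Kt hπ).subtype L' v' i
    rw [h1] at h3
    have h4 : ((locSub Kt hπ).subtype ∘ v') = fun k => b.repr lam k := by
      ext k
      exact (hlam k).symm
    rw [h4] at h3
    exact h3.symm
  have hinv : (1 + π • β)⁻¹ = lam := (eq_inv_of_mul_eq_one_right hmul).symm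
  rw [hinv]
  obtain ⟨c, hc, h⟩ := exists_smul_repr_mem_range b hπ (x := lam) fun k => by
    rw [hlam k]
    exact (v' k).2
  exact ⟨c, hc, (hb _).2 h⟩

end S4

section Main

variable {P F : Type u} {Kt : Type*} [CommRing P] [IsDomain P] [IsLocalRing P]
    [IsNoetherianRing P] [IsIntegrallyClosed P] [Field Kt] [Field F] [Algebra P Kt]
    [IsFractionRing P Kt] [Algebra Kt F] [Algebra P F] [IsScalarTower P Kt F]
    [FiniteDimensional Kt F] [CharZero Kt]

theorem IntAt.congr {P F : Type*} [CommRing P] [Field F] [Algebra P F] {ϱ ϱ' : P}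
    (h : Associated ϱ ϱ') {x : F} (hx : IntAt ϱ' x) : IntAt ϱ x := by
  obtain ⟨c, hc, hi⟩ := hx
  exact ⟨c, fun hd => hc (h.dvd_iff_dvd_left.1 hd), hi⟩

/-- **HALF A of (C)** (S2 - S5): integral bases `b` of `O`, `a` of `𝔞 = {f | f ^ m / g ∈ O}`, whose
transition determinant is a unit of `P` modulo `π P_(π)`. -/
theorem exists_bases_det (π s : P) (hmax : maximalIdeal P = Ideal.span {π, s}) (hπ : Prime π)
    (hs : ¬ π ∣ s) {m : ℕ} (hm : 0 < m) {g : F} (hg0 : g ≠ 0)
    (hg1 : ∃ r : P, ¬ π ∣ r ∧ IsIntegral P (r • ((g - 1) / algebraMap P F π)))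
    (hdiv : ∀ ϱ : P, Prime ϱ → ¬ Associated ϱ π → ∃ f : F, f ≠ 0 ∧ ∃ c : P, ¬ ϱ ∣ c ∧
      IsIntegral P (c • (f ^ m / g)) ∧ IsIntegral P (c • (g / f ^ m))) :
    ∃ b a : Module.Basis (Fin (Module.finrank Kt F)) Kt F, IsIntBasis P b ∧
      (∀ f, IsIntegral P (f ^ m / g) ↔ ∀ k, a.repr f k ∈ (algebraMap P Kt).range) ∧
      ∃ c : Pˣ, ∃ r : P, ¬ π ∣ r ∧ ∃ w : P,
        algebraMap P Kt r * ((b.toMatrix a).det - algebraMap P Kt c) =
          algebraMap P Kt (π * w) := by
  classical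
  have hufd := ufd_of_regular_two π s hmax hπ hs
  have hinj := IsFractionRing.injective P Kt
  obtain ⟨b, hb⟩ := exists_isIntBasis (Kt := Kt) (L := F) π s hmax hπ hs
  obtain ⟨a, ha⟩ := exists_rootBasis (Kt := Kt) π s hmax hπ hs hm hg0
  refine ⟨b, a, hb, ha, ?_⟩
  set d := (b.toMatrix a).det with hd
  have hTF : Module.IsTorsionFree P F := .trans_faithfulSMul P Kt F
  have hπF : algebraMap P F π ≠ 0 := by
    rw [Ne, FaithfulSMul.algebraMap_eq_zero_iff]
    exact hπ.ne_zero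
  set β := (g - 1) / algebraMap P F π with hβdef
  have hβ : IntAt π β := hg1
  have hgβ : g = 1 + π • β := by
    rw [Algebra.smul_def, mul_div_cancel₀ _ hπF]
    ring
  have hgI : IntAt π g := by
    rw [hgβ]
    exact (IntAt.of_isIntegral hπ isIntegral_one).add hπ (hβ.smul π)
  have hgI' : IntAt π g⁻¹ := by
    rw [hgβ]
    exact intAt_inv_one_add hb hπ hβ
  -- the local statement at all primes
  have hloc : ∀ (ϱ : P) (hϱ : Prime ϱ), ∃ u ∈ locSub Kt hϱ, ∃ v ∈ locSub Kt hϱ, u * v = 1 ∧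
      d ^ m = u * Algebra.norm Kt g := by
    intro ϱ hϱ
    by_cases has : Associated ϱ π
    · obtain ⟨u, hu, v, hv, huv, h, -⟩ := det_pow_eq_at b a hb hm hg0 ha hϱ (f := 1) one_ne_zero
        (by rw [one_pow, one_div]; exact hgI'.congr has)
        (by rw [one_pow, div_one]; exact hgI.congr has)
      exact ⟨u, hu, v, hv, huv, h⟩
    · obtain ⟨f, hf0, c, hc, h1, h2⟩ := hdiv ϱ hϱ has
      obtain ⟨u, hu, v, hv, huv, h, -⟩ := det_pow_eq_at b a hb hm hg0 ha hϱ hf0 ⟨c, hc, h1⟩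
        ⟨c, hc, h2⟩
      exact ⟨u, hu, v, hv, huv, h⟩
  have hN0 : Algebra.norm Kt g ≠ 0 := Algebra.norm_ne_zero_iff.2 hg0
  have hx : d ^ m / Algebra.norm Kt g ∈ (algebraMap P Kt).range :=
    mem_range_of_forall_locSub fun ϱ hϱ => by
      obtain ⟨u, hu, v, hv, huv, h⟩ := hloc ϱ hϱ
      rw [h, mul_div_cancel_right₀ _ hN0]
      exact hu
  have hx' : (d ^ m / Algebra.norm Kt g)⁻¹ ∈ (algebraMap P Kt).range :=
    mem_range_of_forall_locSub fun ϱ hϱ => by
      obtain ⟨u, hu, v, hv, huv, h⟩ := hloc ϱ hϱ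
      rw [h, mul_div_cancel_right₀ _ hN0, ← eq_inv_of_mul_eq_one_right huv]
      exact hv
  obtain ⟨υ, hυ⟩ := hx
  obtain ⟨υ', hυ'⟩ := hx'
  have hd0 : d ^ m / Algebra.norm Kt g ≠ 0 := by
    intro h0
    obtain ⟨u, hu, v, hv, huv, h⟩ := hloc π hπ
    rw [h, mul_div_cancel_right₀ _ hN0] at h0
    rw [h0, zero_mul] at huv
    exact zero_ne_one huv
  have hυυ' : υ * υ' = 1 := by
    apply hinj
    rw [map_mul, hυ, hυ', map_one, mul_inv_cancel₀ hd0]
  have hdm : d ^ m = algebraMap P Kt υ * Algebra.norm Kt g := by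
    rw [hυ, div_mul_cancel₀ _ hN0]
  -- `d ∈ P_(π)`
  obtain ⟨e, a0, he, hea⟩ : d ∈ locSub Kt hπ := by
    obtain ⟨-, -, -, -, -, -, u', hu', h⟩ := det_pow_eq_at b a hb hm hg0 ha hπ (f := 1) one_ne_zero
      (by rw [one_pow, one_div]; exact hgI') (by rw [one_pow, div_one]; exact hgI)
    rw [map_one, one_mul] at h
    rw [hd, h]
    exact hu'
  obtain ⟨θ, ⟨e', t, he', het⟩, hN⟩ := norm_one_add hb hπ hβ
  rw [← hgβ] at hN
  -- the congruence in `P`
  have hcong : e' * (a0 ^ m - υ * e ^ m) = π * (υ * e ^ m * t) := by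
    apply hinj
    simp only [map_mul, map_sub, map_pow]
    rw [← hea, ← het, mul_pow, hdm, hN]
    ring
  have hdvd : π ∣ a0 ^ m - υ * e ^ m :=
    (hπ.dvd_or_dvd ⟨_, hcong⟩).resolve_left he'
  -- pass to `P ⧸ π`
  have hprime : (Ideal.span {π}).IsPrime := (Ideal.span_singleton_prime hπ.ne_zero).2 hπ
  have hdom : IsDomain (P ⧸ Ideal.span {π}) := Ideal.Quotient.isDomain _
  have hic : IsIntegrallyClosed (P ⧸ Ideal.span {π}) :=
    isIntegrallyClosed_quotient_of_regular_two π s hmax hπ hs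
  let q := Ideal.Quotient.mk (Ideal.span {π})
  have hq0 : ∀ x : P, q x = 0 ↔ π ∣ x := fun x => by
    rw [Ideal.Quotient.eq_zero_iff_mem, Ideal.mem_span_singleton]
  have hqe : q e ≠ 0 := fun h => he ((hq0 e).1 h)
  have h1 : q a0 ^ m = q υ * q e ^ m := by
    rw [← map_pow, ← map_pow, ← map_mul, ← sub_eq_zero, ← map_sub]
    exact (hq0 _).2 hdvd
  have h2 : q e ∣ q a0 := by
    rw [← IsIntegrallyClosed.pow_dvd_pow_iff hm.ne', h1]
    exact dvd_mul_left _ _
  obtain ⟨c', hc'⟩ := h2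
  obtain ⟨c, rfl⟩ := Ideal.Quotient.mk_surjective c'
  have h3 : q c ^ m = q υ := by
    have : q e ^ m * q c ^ m = q e ^ m * q υ := by
      rw [← mul_pow, ← hc', h1, mul_comm]
    exact mul_left_cancel₀ (pow_ne_zero _ hqe) this
  have hcu : IsUnit c := by
    by_contra hcn
    have hcm : c ∈ maximalIdeal P := (mem_maximalIdeal c).2 hcn
    have h4 : π ∣ c ^ m - υ := by
      rw [← hq0, map_sub, map_pow, h3, sub_self]
    have hπm : π ∈ maximalIdeal P := by
      rw [hmax]
      exact Ideal.subset_span (by simp)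
    have h5 : υ ∈ maximalIdeal P := by
      have h6 : c ^ m - υ ∈ maximalIdeal P := Ideal.mem_of_dvd _ h4 hπm
      have h7 : c ^ m ∈ maximalIdeal P := Ideal.pow_mem_of_mem _ hcm m hm
      have : υ = c ^ m - (c ^ m - υ) := by ring
      rw [this]
      exact Ideal.sub_mem _ h7 h6
    exact (mem_maximalIdeal υ).1 h5 (IsUnit.of_mul_eq_one υ' hυυ')
  have h8 : π ∣ a0 - e * c := by
    rw [← hq0, map_sub, map_mul, hc', sub_self]
  obtain ⟨w, hw⟩ := h8
  refine ⟨hcu.unit, e, he, w, ?_⟩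
  rw [← hw, mul_sub, hea, map_sub, map_mul]
  rfl

end Main

end Fermat.Agent.UNIlib
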