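import Mathlib
import Fermat.Agent.UNI.LPChart
import Fermat.Agent.UNI.LPGen
import Fermat.Agent.UNI.Node
import Fermat.Agent.UNI.LPB
import Fermat.Agent.UNI.Wrap

/-!
# T-UNI, (C): local principality in chart form
-/

set_option autoImplicit false
set_option linter.unusedSectionVars false

namespace Fermat.Agent.UNIlib

open Polynomial IntermediateField Fermat.Agent.ESlib IsLocalRing

universe u

/-- the chart form of (Node) from `NodeHyp` and `C = V₁ ∩ V₂` -/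
theorem nodeChartAt_of_nodeHyp {R F : Type*} [CommRing R] [IsDomain R] [IsDiscreteValuationRing R]
    [Field F] [Algebra R F] {π : R} {T : F} {V₁ V₂ : ValuationSubring F} {q : ℕ} {ρ : F →+* F}
    (H : NodeHyp π T V₁ V₂ q ρ) (hπ : Irreducible π)
    (hC : ∀ x, PiInt π T x ↔ x ∈ V₁ ∧ x ∈ V₂)
    (𝔪 : Ideal R[X]) (h𝔪 : 𝔪.IsMaximal) (hπ𝔪 : C π ∈ 𝔪) : NodeChartAt π T 𝔪 := by
  intro Z Y k s hk hs hZ hY h
  have key : ∀ W : F, (∃ u : R[X], u ∉ 𝔪 ∧ PiInt π T (aeval T u * W) ∧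
      IntModPi π T (aeval T u * W)) →
      ∃ u : R[X], u ∉ 𝔪 ∧ IntV π T V₁ (aeval T u * W) ∧ IntV π T V₂ (aeval T u * W) := by
    rintro W ⟨u, hu, h1, p, hp, hpc, h2⟩
    exact ⟨u, hu, ⟨((hC _).1 h1).1, p, hp, hpc, ((hC _).1 h2).1⟩,
      ⟨((hC _).1 h1).2, p, hp, hpc, ((hC _).1 h2).2⟩⟩
  obtain ⟨a, ha, e, he, h1, h2⟩ := node_local H hπ 𝔪 h𝔪 hπ𝔪 hk hs (key Z hZ) (key Y hY)
    ((hC _).1 h).1 ((hC _).1 h).2
  exact ⟨a, ha, e, he, (hC _).2 ⟨h1, h2⟩⟩

section Aux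

variable {R K F Kt O : Type u} [CommRing R] [IsDomain R] [IsDiscreteValuationRing R]
  [Field K] [Algebra R K] [IsFractionRing R K] [Field F] [Algebra K F] [Algebra R F]
  [IsScalarTower R K F]
  [Field Kt] [Algebra K Kt] [Algebra Kt F] [IsScalarTower K Kt F]
  [Algebra R[X] Kt] [IsFractionRing R[X] Kt] [Algebra R[X] F] [IsScalarTower R[X] Kt F]
  [CommRing O] [Algebra R[X] O] [Algebra O Kt] [IsScalarTower R[X] O Kt]
  (𝔪 : Ideal R[X]) [𝔪.IsPrime] [IsLocalization.AtPrime O 𝔪]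

theorem lp_chart_aux [CharZero K] [Algebra O F] [IsScalarTower O Kt F] [FiniteDimensional Kt F]
    {π : R} (hπ : Irreducible π) (T : F) (hTalg : ∀ p : R[X], algebraMap R[X] F p = aeval T p)
    (h𝔪 : 𝔪.IsMaximal) (hπ𝔪 : C π ∈ 𝔪) {m : ℕ} (hm : 0 < m) {g : F} (hg : MDiv K m g)
    (hg1 : PiInt π T ((g - 1) / algebraMap R F π)) (hnode : NodeChartAt π T 𝔪) :
    ∃ H : F, H ≠ 0 ∧ ∃ s : R[X], s ∉ 𝔪 ∧
      IsIntegral (Algebra.adjoin R {T}) (aeval T s * (H ^ m / g)) ∧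
      IsIntegral (Algebra.adjoin R {T}) (aeval T s * (g / H ^ m)) := by
  classical
  have hπp : Prime π := hπ.prime
  have hCπ : Prime (C π : R[X]) := prime_C_of_prime hπp
  obtain ⟨g₀, hg₀, hπg₀⟩ := exists_maximal_eq_span_pair hπ 𝔪 h𝔪 hπ𝔪
  have i1 : IsLocalRing O := IsLocalization.AtPrime.isLocalRing O 𝔪
  have i2 : IsDomain O := IsLocalization.isDomain_of_atPrime O 𝔪
  have i3 : IsNoetherianRing O := IsLocalization.isNoetherianRing 𝔪.primeCompl O inferInstance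
  have i4 : IsIntegrallyClosed R[X] := inferInstance
  have i5 : IsIntegrallyClosed O := isIntegrallyClosed_of_isLocalization O 𝔪.primeCompl
    (Ideal.primeCompl_le_nonZeroDivisors 𝔪)
  have i6 : IsFractionRing O Kt :=
    IsFractionRing.isFractionRing_of_isDomain_of_isLocalization 𝔪.primeCompl O Kt
  have i7 : CharZero Kt := charZero_of_injective_algebraMap (algebraMap K Kt).injective
  have i8 : IsScalarTower R[X] O F := IsScalarTower.of_algebraMap_eq fun x => by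
    rw [IsScalarTower.algebraMap_apply R[X] Kt F, IsScalarTower.algebraMap_apply R[X] O Kt,
      ← IsScalarTower.algebraMap_apply O Kt F]
  set πO : O := algebraMap R[X] O (C π) with hπOdef
  set gO : O := algebraMap R[X] O g₀ with hgOdef
  have hmax : IsLocalRing.maximalIdeal O = Ideal.span {πO, gO} :=
    atPrime_maximalIdeal_eq_span_pair 𝔪 hg₀
  have hπO : Prime πO := atPrime_prime 𝔪 hCπ hπ𝔪
  have hgO : ¬ πO ∣ gO := by rw [atPrime_dvd_iff 𝔪 hCπ hπ𝔪]; exact hπg₀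
  have hg₀𝔪 : g₀ ∈ 𝔪 := by
    rw [hg₀]
    exact Ideal.subset_span (by simp)
  have hπF : algebraMap O F πO = algebraMap R F π := algebraMap_C_eq hTalg π
  have hg1' : LInt πO ((g - 1) / algebraMap O F πO) := by
    rw [hπF, lInt_atPrime_iff 𝔪 hTalg hπp hπ𝔪]
    exact hg1
  have hdiv : ∀ g : F, MDiv K m g → ∀ ϱ : O, Prime ϱ → ¬ Associated ϱ πO →
      ∃ f : F, f ≠ 0 ∧ ∃ c : O, ¬ ϱ ∣ c ∧
      IsIntegral O (c • (f ^ m / g)) ∧ IsIntegral O (c • (g / f ^ m)) := by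
    intro g hg ϱ hϱ hass
    refine exists_hdiv Kt (π := πO) hϱ (fun hdvd => hass ?_) hg.1 ?_
    · exact hϱ.associated_of_dvd hπO hdvd
    · intro V hP hinv htop hpir
      refine exists_unit_of_mdiv hg V (fun a => ?_) htop hpir
      refine algebraMap_mem_of_inv_mem hπ V (fun x => ?_) ?_ a
      · rw [← algebraMap_C_eq (O := O) hTalg x]
        exact hP _
      · rw [← hπF]
        exact hinv
  have hA : HalfA O Kt πO m g :=
    exists_bases_det (Kt := Kt) πO gO hmax hπO hgO hm hg.1 hg1' (hdiv g hg)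
  have hginv : MDiv K m g⁻¹ := ⟨inv_ne_zero hg.1, fun v => by
    rw [AlgebraicCurve.Place.ord_inv]
    exact (dvd_neg).2 (hg.2 v)⟩
  have hπ0 : algebraMap R F π ≠ 0 := by
    rw [IsScalarTower.algebraMap_apply R K F]
    simpa using hπ.ne_zero
  have hg2 : PiInt π T ((g⁻¹ - 1) / algebraMap R F π) := by
    have h3 : (g⁻¹ - 1) / algebraMap R F π = -(g⁻¹ * ((g - 1) / algebraMap R F π)) := by
      have := hg.1
      field_simp
      ring
    rw [h3]
    exact ((piInt_inv_of_sub_one_div hπp hπ0 hg1).mul hπp hg1).neg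
  have hg2' : LInt πO ((g⁻¹ - 1) / algebraMap O F πO) := by
    rw [hπF, lInt_atPrime_iff 𝔪 hTalg hπp hπ𝔪]
    exact hg2
  have hA' : HalfA O Kt πO m g⁻¹ :=
    exists_bases_det (Kt := Kt) πO gO hmax hπO hgO hm hginv.1 hg2' (hdiv g⁻¹ hginv)
  have hnodeP := nodeP_of_nodeChartAt (O := O) 𝔪 hTalg hπp hπ𝔪 hg₀𝔪 hnode
  have hnode' : NodeLoc F πO gO := fun Z hZ k hk Y hY h => hnodeP Z hZ ⟨k, hk, Y, hY, h⟩
  obtain ⟨H, hH0, h1, h2⟩ := lp_local_of_halfA (Kt := Kt) πO gO hmax hπO hm hg.1 hg1' hA hA' hnode'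
  obtain ⟨a1, ha1, h1⟩ := (isIntegral_atPrime_iff 𝔪 hTalg _).1 h1
  obtain ⟨a2, ha2, h2⟩ := (isIntegral_atPrime_iff 𝔪 hTalg _).1 h2
  have hint : ∀ p : R[X], IsIntegral (Algebra.adjoin R {T}) (aeval T p) := by
    intro p
    rw [← hTalg, isIntegral_adjoin_iff_poly hTalg]
    exact isIntegral_algebraMap
  refine ⟨H, hH0, a1 * a2, fun hmem => ?_, ?_, ?_⟩
  · rcases (inferInstance : 𝔪.IsPrime).mem_or_mem hmem with h | h
    · exact ha1 h
    · exact ha2 h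
  · rw [map_mul, mul_comm (aeval T a1), mul_assoc]
    exact (hint a2).mul h1
  · rw [map_mul, mul_assoc]
    exact (hint a1).mul h2

end Aux

/-- **(C), chart form.**  `g ≡ 1 mod π`, `m ∣ div g` on the generic fibre, and (Node) at every closed
point of the special fibre of the chart `T`: then `g` is locally a unit times an `m`-th power. -/
theorem locPrin_of_nodeChartAt {R K F : Type u} [CommRing R] [IsDomain R] [IsDiscreteValuationRing R]
    [Field K] [Algebra R K] [IsFractionRing R K] [CharZero K] [Field F] [Algebra K F] [Algebra R F]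
    [IsScalarTower R K F] {π : R} (hπ : Irreducible π) (T : F) (hT : Transcendental K T)
    [FiniteDimensional K⟮T⟯ F] {m : ℕ} (hm : 0 < m) {g : F} (hg : MDiv K m g)
    (hg1 : PiInt π T ((g - 1) / algebraMap R F π))
    (hnode : ∀ 𝔪 : Ideal R[X], 𝔪.IsMaximal → C π ∈ 𝔪 → NodeChartAt π T 𝔪) :
    LocPrin π T g m := by
  intro 𝔪 h𝔪 hπ𝔪
  let algK : Algebra R[X] K⟮T⟯ := polyAlgebra K T
  have : IsFractionRing R[X] K⟮T⟯ := isFractionRing_polyAlgebra hT
  let algL : Algebra R[X] F := ((aeval T : R[X] →ₐ[R] F) : R[X] →+* F).toAlgebra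
  have : IsScalarTower R[X] K⟮T⟯ F :=
    IsScalarTower.of_algebraMap_eq fun p => (polyAlgebra_algebraMap_coe T p).symm
  have := h𝔪.isPrime
  exact lp_chart_aux (K := K) (Kt := K⟮T⟯)
    (O := Localization.subalgebra.ofField K⟮T⟯ 𝔪.primeCompl (Ideal.primeCompl_le_nonZeroDivisors 𝔪))
    𝔪 hπ T (fun p => rfl) h𝔪 hπ𝔪 hm hg hg1 (hnode 𝔪 h𝔪 hπ𝔪)

/-- **(C), chart form**, from `NodeHyp`. -/
theorem locPrin_of_nodeHyp {R K F : Type u} [CommRing R] [IsDomain R] [IsDiscreteValuationRing R]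
    [Field K] [Algebra R K] [IsFractionRing R K] [CharZero K] [Field F] [Algebra K F] [Algebra R F]
    [IsScalarTower R K F] {π : R} (hπ : Irreducible π) (T : F) (hT : Transcendental K T)
    [FiniteDimensional K⟮T⟯ F] {V₁ V₂ : ValuationSubring F} {q : ℕ} {ρ : F →+* F}
    (H : NodeHyp π T V₁ V₂ q ρ) (hC : ∀ x, PiInt π T x ↔ x ∈ V₁ ∧ x ∈ V₂)
    {m : ℕ} (hm : 0 < m) {g : F} (hg : MDiv K m g)
    (hg1 : PiInt π T ((g - 1) / algebraMap R F π)) : LocPrin π T g m :=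
  locPrin_of_nodeChartAt hπ T hT hm hg hg1 fun 𝔪 h𝔪 hπ𝔪 => nodeChartAt_of_nodeHyp H hπ hC 𝔪 h𝔪 hπ𝔪

end Fermat.Agent.UNIlib
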