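import Fermat.Agent.UNI.ToricLevel
import Fermat.Agent.UNI.LPFinal
import Fermat.Agent.UNI.AL2

/-!
# T-UNI, (COREK-I): the toric part at the level of a number field, inertia case

`g ≡ 1 mod π` at the two Gauss valuations `V_∞`, `V_0 = w_r⁻¹ V_∞` of `F_K(N r)`, `m ∣ div g` on the
generic fibre, the leading coefficient of `g` an `m`-th power in `K`, `σ` in the inertia group:
then `σ g / g` is an `m`-th power in `F_K(N r)`.  Inputs: `NodeHyp` in both charts and
`PiInt ↔ V_∞ ∧ V_0` (T2).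
-/

set_option autoImplicit false
set_option linter.unusedSectionVars false

open ModularCurve IntermediateField AlgebraicCurve
open Fermat.Agent.S24lib Fermat.Agent.ESlib

namespace Fermat.Agent.UNIlib

section

variable (A : ValuationSubring Kb) (K : IntermediateField ℚ Kb) [Normal ℚ K]
  [IsDiscreteValuationRing (RA A K)] {N r : ℕ} [NeZero (N * r)]
  [Algebra (RA A K) (FK K (N * r))] [IsScalarTower (RA A K) K (FK K (N * r))]

/-- **(COREK-I)** -/
theorem coreK_inertia (hr : r.Prime) (hrN : ¬ r ∣ N) {π : RA A K} (hπ : Irreducible π)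
    (a : ℕ) [NeZero a] (ha : a = 2 ∨ a = 3) (haM : a ∣ N * r) (m : ℕ)
    (hm : IsUnit (m : RA A K)) (ζ : RA A K) (hζ : IsPrimitiveRoot ζ m)
    {σ : Kb ≃ₐ[ℚ] Kb} (hI : σ ∈ A.inertiaSubgroupIn ℚ)
    {V₁ V₂ : ValuationSubring (FK K (N * r))}
    (hV₁ : ∀ x, x ∈ V₁ ↔ x ∈ gaussSub (RA A K) K (N * r))
    (hV₂ : ∀ x, x ∈ V₂ ↔ wr K hr hrN x ∈ gaussSub (RA A K) K (N * r))
    {q q' : ℕ} {ρ ρ' : FK K (N * r) →+* FK K (N * r)}
    (H : NodeHyp π (tF K (N * r) a ha haM) V₁ V₂ q ρ)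
    (H' : NodeHyp π (tF K (N * r) a ha haM)⁻¹ V₁ V₂ q' ρ')
    (hC : ∀ x, PiInt π (tF K (N * r) a ha haM) x ↔ x ∈ V₁ ∧ x ∈ V₂)
    (g : FK K (N * r)) (hg : MDiv K m g)
    (h1 : (g - 1) / algebraMap K (FK K (N * r)) (π : K) ∈ gaussSub (RA A K) K (N * r))
    (h2 : (wr K hr hrN g - 1) / algebraMap K (FK K (N * r)) (π : K) ∈
      gaussSub (RA A K) K (N * r))
    (c₀ : K) (hc₀ : c₀ ^ m = (g : LaurentSeries K).leadingCoeff) :
    ∃ ψ : FK K (N * r), ψ ≠ 0 ∧ galK K (N * r) σ g = g * ψ ^ m := by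
  have hp : Prime π := hπ.prime
  have hm0 : 0 < m := by
    rcases Nat.eq_zero_or_pos m with rfl | h
    · simp at hm
    · exact h
  have ht := transcendental_tF K (N * r) a ha haM
  have ht' : Transcendental K (tF K (N * r) a ha haM)⁻¹ := by
    intro h
    exact ht (by simpa using h.inv)
  have hfd := (finiteDimensional_tF K (N * r) a ha haM).1
  have hfd' := (finiteDimensional_tF K (N * r) a ha haM).2
  have hπe : algebraMap (RA A K) (FK K (N * r)) π = algebraMap K (FK K (N * r)) (π : K) :=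
    algebraMap_RA_eq A K π
  have hπ0 : algebraMap (RA A K) (FK K (N * r)) π ≠ 0 := by
    rw [hπe]
    intro h0
    have h3 : (π : K) = 0 := (map_eq_zero _).1 h0
    exact hπ.ne_zero (Subtype.ext h3)
  have hC' : ∀ x, PiInt π (tF K (N * r) a ha haM)⁻¹ x ↔ x ∈ V₁ ∧ x ∈ V₂ := fun x =>
    (piInt_inv_iff hp ht).trans (hC x)
  -- `g ≡ 1`
  have hg1 : PiInt π (tF K (N * r) a ha haM)
      ((g - 1) / algebraMap (RA A K) (FK K (N * r)) π) := by
    rw [hC, hV₁, hV₂, hπe, map_div₀, map_sub, map_one, AlgEquiv.commutes]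
    exact ⟨h1, h2⟩
  have hg1' : PiInt π (tF K (N * r) a ha haM)⁻¹
      ((g - 1) / algebraMap (RA A K) (FK K (N * r)) π) := (piInt_inv_iff hp ht).2 hg1
  -- local principality
  have hloc := locPrin_of_nodeHyp (K := K) hπ _ ht H hC hm0 hg hg1
  have hloc' := locPrin_of_nodeHyp (K := K) hπ _ ht' H' hC' hm0 hg hg1'
  -- the facts on `σ`
  have hσ := mem_decomposition_of_mem_inertiaIn A hI
  have hσC : ∀ x, PiInt π (tF K (N * r) a ha haM) x → PiInt π (tF K (N * r) a ha haM)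
      ((((galK K (N * r) σ : FK K (N * r) ≃+* FK K (N * r)) : FK K (N * r) →+* FK K (N * r)) x
        - x) / algebraMap (RA A K) (FK K (N * r)) π) := by
    intro x hx
    rw [hC, hV₁, hV₂] at hx ⊢
    rw [hπe]
    exact ⟨galK_sub_div_mem_gaussSub A K hπ hI hx.1,
      wr_galK_sub_div_mem_gaussSub A K hr hrN hπ hI hx.2⟩
  have hσC' : ∀ x, PiInt π (tF K (N * r) a ha haM)⁻¹ x → PiInt π (tF K (N * r) a ha haM)⁻¹
      ((((galK K (N * r) σ : FK K (N * r) ≃+* FK K (N * r)) : FK K (N * r) →+* FK K (N * r)) x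
        - x) / algebraMap (RA A K) (FK K (N * r)) π) := fun x hx =>
    (piInt_inv_iff hp ht).2 (hσC x ((piInt_inv_iff hp ht).1 hx))
  have hT : ((galK K (N * r) σ : FK K (N * r) ≃+* FK K (N * r)) : FK K (N * r) →+* FK K (N * r))
      (tF K (N * r) a ha haM) = tF K (N * r) a ha haM := galK_tF K (N * r) σ a ha haM
  have hT' : ((galK K (N * r) σ : FK K (N * r) ≃+* FK K (N * r)) : FK K (N * r) →+* FK K (N * r))
      (tF K (N * r) a ha haM)⁻¹ = (tF K (N * r) a ha haM)⁻¹ := by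
    rw [map_inv₀, hT]
  obtain ⟨k1, k2⟩ := locPow_of_locPrin hp hπ0
    (σ := ((galK K (N * r) σ : FK K (N * r) ≃+* FK K (N * r)) : FK K (N * r) →+* FK K (N * r)))
    (σR := galRA A K hσ) (fun x => galK_algebraMap_RA A K hσ x) (dvd_galRA_sub A K hπ hI) hT hσC
    hm0 hg1 hloc
  obtain ⟨-, k3⟩ := locPow_of_locPrin hp hπ0
    (σ := ((galK K (N * r) σ : FK K (N * r) ≃+* FK K (N * r)) : FK K (N * r) →+* FK K (N * r)))
    (σR := galRA A K hσ) (fun x => galK_algebraMap_RA A K hσ x) (dvd_galRA_sub A K hπ hI) hT' hσC'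
    hm0 hg1' hloc'
  exact toric_level A K hπ a ha haM m hm ζ hζ σ g hg.1 k1 k2 k3 c₀ hc₀

end

end Fermat.Agent.UNIlib
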