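import Fermat.Agent.UNI.Descent
import Fermat.Agent.UNI.CoreKI
import Fermat.Agent.UNI.ToricU
import Fermat.Agent.UNI.DescentF

/-!
# T-UNI: `ToricI` over `ℚ̄` from the statement over the normal number fields
-/

set_option autoImplicit false
set_option linter.unusedSectionVars false
set_option linter.style.haveILetI false

open ModularCurve IntermediateField AlgebraicCurve
open Fermat.Agent.S24lib Fermat.Agent.ESlib Fermat.Agent.ESlib.PartD

namespace Fermat.Agent.UNIlib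

/-- the statement (COREK-I) over all the normal number fields containing the constants `cs` -/
def CoreKIAt (N r : ℕ) [NeZero (N * r)] (hr : r.Prime) (hrN : ¬ r ∣ N) (A : ValuationSubring Kb)
    (m : ℕ) (cs : Finset Kb) : Prop :=
  ∀ (K : IntermediateField ℚ Kb) [FiniteDimensional ℚ K] [Normal ℚ K]
    [IsDiscreteValuationRing (RA A K)], (∀ a ∈ cs, a ∈ K) → ∀ π : RA A K, Irreducible π →
    ∀ σ : Kb ≃ₐ[ℚ] Kb, σ ∈ A.inertiaSubgroupIn ℚ → ∀ g : FK K (N * r), MDiv K m g →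
      (g - 1) / algebraMap K (FK K (N * r)) (π : K) ∈ gaussSub (RA A K) K (N * r) →
      (wr K hr hrN g - 1) / algebraMap K (FK K (N * r)) (π : K) ∈ gaussSub (RA A K) K (N * r) →
      (∃ d : K, d ^ m = (g : LaurentSeries K).leadingCoeff) →
      ∃ ψ : FK K (N * r), ψ ≠ 0 ∧ galK K (N * r) σ g = g * ψ ^ m

/-- **descent**: `ToricI` from (COREK-I) -/
theorem toricI_of_coreKIAt {N r : ℕ} [NeZero (N * r)] (hr : r.Prime) (hrN : ¬ r ∣ N)
    (A : ValuationSubring Kb) (hA : A.LiesOverPrime r) {m : ℕ} (hm : 0 < m) (cs : Finset Kb)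
    (H : CoreKIAt N r hr hrN A m cs) :
    ToricI (N * r) A m (wr Kb hr hrN).toAlgHom.toRingHom := by
  intro σ hσ f hf h1 h2
  obtain ⟨K, hKfd, hKn, hdvr, hcs, π, g, Ψ, hπ, hΨ, hbc, hg, hg1, hg2, hd⟩ :=
    exists_descent hr hrN A hA hm cs hf h1 h2
  obtain ⟨ψ, hψ, hrel⟩ := H K hcs π hπ σ hσ g hg hg1 hg2 hd
  have h3 := congrArg (bc K Kb (modularFunctionFieldFull (N * r))) hrel
  rw [bc_galK, map_mul, map_pow, hbc, map_mul, map_pow] at h3
  have hσΨ : galF (N * r) σ Ψ ≠ 0 := (map_ne_zero_iff _ (galF (N * r) σ).injective).2 hΨ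
  have hbψ : bc K Kb (modularFunctionFieldFull (N * r)) ψ ≠ 0 :=
    (map_ne_zero_iff _ (bc K Kb (modularFunctionFieldFull (N * r))).injective).2 hψ
  refine ⟨Ψ * bc K Kb (modularFunctionFieldFull (N * r)) ψ / galF (N * r) σ Ψ,
    div_ne_zero (mul_ne_zero hΨ hbψ) hσΨ, ?_⟩
  rw [div_pow, mul_pow]
  field_simp
  linear_combination h3

set_option synthInstance.maxHeartbeats 400000 in
/-- **TORIC-I** from the modular inputs only -/
theorem toricI_of_nodeInputs {N r : ℕ} [NeZero (N * r)] (hr : r.Prime) (hrN : ¬ r ∣ N)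
    (A : ValuationSubring Kb) (hA : A.LiesOverPrime r) (a : ℕ) [NeZero a] (ha : a = 2 ∨ a = 3)
    (haM : a ∣ N * r) {m : ℕ} (hm : 0 < m) (hmr : ¬ r ∣ m) {φ : Kb ≃ₐ[ℚ] Kb}
    (hI : NodeInputsAt hr hrN A a ha haM φ) :
    ToricI (N * r) A m (wr Kb hr hrN).toAlgHom.toRingHom := by
  classical
  have hN0 : N ≠ 0 := by
    rintro rfl
    exact NeZero.ne (0 * r) (zero_mul r)
  haveI : NeZero N := ⟨hN0⟩
  haveI : NeZero (m : Kb) := ⟨Nat.cast_ne_zero.2 hm.ne'⟩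
  haveI : NeZero (N : Kb) := ⟨Nat.cast_ne_zero.2 hN0⟩
  haveI : NeZero ((N * r : ℕ) : Kb) := ⟨Nat.cast_ne_zero.2 (NeZero.ne (N * r))⟩
  obtain ⟨zm, hzm⟩ := HasEnoughRootsOfUnity.exists_primitiveRoot Kb m
  obtain ⟨zN, hzN⟩ := HasEnoughRootsOfUnity.exists_primitiveRoot Kb N
  obtain ⟨zM, hzM⟩ := HasEnoughRootsOfUnity.exists_primitiveRoot Kb (N * r)
  refine toricI_of_coreKIAt hr hrN A hA hm {zm, zN, zM} ?_
  intro K _ _ _ hKc π hπ σ hσ g hg h1 h2 hd
  obtain ⟨d, hd⟩ := hd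
  have hzmK : zm ∈ K := hKc zm (by simp)
  have hzNK : zN ∈ K := hKc zN (by simp)
  have hzMK : zM ∈ K := hKc zM (by simp)
  letI : Algebra (RA A K) (FK K (N * r)) :=
    ((algebraMap K (FK K (N * r))).comp (algebraMap (RA A K) K)).toAlgebra
  haveI : IsScalarTower (RA A K) K (FK K (N * r)) := IsScalarTower.of_algebraMap_eq fun _ => rfl
  have hKinj : Function.Injective (algebraMap K Kb) := (algebraMap K Kb).injective
  obtain ⟨V₁, V₂, ρ, hV₁, hV₂, -, H, H', hC⟩ := hI K π hπ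
    ⟨⟨zN, hzNK⟩, IsPrimitiveRoot.of_map_of_injective (f := algebraMap K Kb) (hf := hKinj) hzN⟩
    ⟨⟨zM, hzMK⟩, IsPrimitiveRoot.of_map_of_injective (f := algebraMap K Kb) (hf := hKinj) hzM⟩
  obtain ⟨ζ, hζ⟩ := exists_primitiveRoot_RA A K hm zm hzm hzmK
  exact coreK_inertia A K hr hrN hπ a ha haM m (isUnit_natCast_RA A hr hA K m hmr) ζ hζ hσ
    hV₁ hV₂ H H' hC g hg h1 h2 d hd

end Fermat.Agent.UNIlib
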