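import Fermat.Agent.UNI.TopS34
import Fermat.Agent.UNI.ToricIFin
import Fermat.Agent.UNI.ToricFTop
import Fermat.Agent.S54lib.FrobExists

/-!
# T-UNI: inertia acts trivially on the toric part (`ToricIAll`), hence `UnipInput`
-/

set_option autoImplicit false

open ModularCurve AlgebraicCurve

namespace Fermat.Agent.UNIlib

open Fermat.Agent.ESlib Fermat.Agent.ESlib.PartD

theorem toricIAll : ToricIAll := by
  intro N r _ a p ha haN _ hp hr hrN hrp A hA n
  have : NeZero a := ⟨by rcases ha with rfl | rfl <;> norm_num⟩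
  have : NeZero r := ⟨hr.ne_zero⟩
  have : NeZero N := ⟨by
    rintro rfl
    exact NeZero.ne (0 * r) (zero_mul r)⟩
  obtain ⟨φ, hφ⟩ := Fermat.Agent.FrobExists.exists_isFrobeniusAt A hr hA
  exact toricI_of_nodeInputs hr hrN A hA a ha (haN.mul_right r) (pow_pos hp.pos n)
    (fun h => hrp ((Nat.prime_dvd_prime_iff_eq hr hp).1 (hr.dvd_of_dvd_pow h)))
    (nodeInputsAt hr hrN A hA a ha haN hφ)

theorem unipInput : UnipInput :=
  unipInput_of_unipHaupt (unipHaupt_of_toricIAll toricIAll)

end Fermat.Agent.UNIlib
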