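import Fermat.Agent.UNI.ToricFTop
import Fermat.Agent.UNI.S35Level

/-!
# T-UNI, S35: `ToricFHaupt`
-/

set_option autoImplicit false
set_option linter.unusedSectionVars false

namespace Fermat.Agent.UNIlib

theorem toricFHaupt : ToricFHaupt := by
  intro N r _ _ _ a p ha haN _ hp hr hrN hrp A hA n
  exact toricF_haupt a p ha haN hp hr hrN hrp A hA n (wrB hr hrN) (fun _ => rfl)

end Fermat.Agent.UNIlib
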