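import Fermat.Agent.UNI.AL2
import Fermat.Prelude.Def_ModularCurve_HeckeOperator

/-!
# T-UNI: the Atkin-Lehner involution `w_r` at an arbitrary level `M` with `r ∥ M`

`wrG K hr hrM hr2 : F_K(M) ≃ₐ[K] F_K(M)` for `r ∣ M`, `¬ r ^ 2 ∣ M` (no need to write `M = N * r`),
and its compatibility with the two degeneracy maps `α` (inclusion) and `β` (`q ↦ q^ℓ`).
-/

set_option autoImplicit false
set_option linter.unusedSectionVars false
set_option linter.style.haveILetI false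

open ModularCurve Fermat.Agent.S24lib Fermat.Agent.ESlib

namespace Fermat.Agent.UNIlib

section perm

variable {M r : ℕ}

theorem not_dvd_div_of_sq (hrM : r ∣ M) (hr2 : ¬ r ^ 2 ∣ M) : ¬ r ∣ M / r := by
  intro h
  apply hr2
  obtain ⟨c, hc⟩ := h
  refine ⟨c, ?_⟩
  rw [← Nat.div_mul_cancel hrM, hc]
  ring

/-- the permutation `d ↔ d r` of the divisors of `M`, `r ∥ M` -/
def alPermG (hr : r.Prime) (hrM : r ∣ M) (d : Dv M) : Dv M :=
  if h : r ∣ d.1 then ⟨d.1 / r, (Nat.div_dvd_of_dvd h).trans d.2⟩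
  else ⟨d.1 * r, Nat.Coprime.mul_dvd_of_dvd_of_dvd
    ((Nat.Prime.coprime_iff_not_dvd hr).2 h).symm d.2 hrM⟩

theorem alPermG_of_dvd (hr : r.Prime) (hrM : r ∣ M) (d : Dv M) (h : r ∣ d.1) :
    (alPermG hr hrM d).1 = d.1 / r := by
  rw [alPermG, dif_pos h]

theorem alPermG_of_not_dvd (hr : r.Prime) (hrM : r ∣ M) (d : Dv M) (h : ¬ r ∣ d.1) :
    (alPermG hr hrM d).1 = d.1 * r := by
  rw [alPermG, dif_neg h]

end perm

section cast

variable (K : Type) [Field K] [Algebra ℚ K]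

/-- `F_K(M) = F_K(M')` for `M = M'` -/
noncomputable def castF {M M' : ℕ} (h : M = M') : FK K M ≃ₐ[K] FK K M' :=
  IntermediateField.equivOfEq (by rw [h])

@[simp]
theorem coe_castF {M M' : ℕ} (h : M = M') (x : FK K M) :
    ((castF K h x : FK K M') : LaurentSeries K) = (x : LaurentSeries K) := by
  subst h
  rfl

theorem Jgen_ext {M : ℕ} [NeZero M] {d d' : Dv M} (h : d.1 = d'.1) :
    ESlib.Jgen K M d = ESlib.Jgen K M d' := by
  rw [Subtype.ext h]

theorem coe_Jgen_congr {M M' : ℕ} [NeZero M] [NeZero M'] {d : Dv M} {d' : Dv M'} (h : d.1 = d'.1) :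
    ((ESlib.Jgen K M d : FK K M) : LaurentSeries K) = (ESlib.Jgen K M' d' : FK K M') := by
  show coeffEmb K (qExpand ℚ d.1 jq) = coeffEmb K (qExpand ℚ d'.1 jq)
  rw [qExpand_congr h]

end cast

section wrG

variable (K : Type) [Field K] [Algebra ℚ K] [Algebra K ℂ] [IsScalarTower ℚ K ℂ]
variable {M r : ℕ} [NeZero M]

theorem neZero_div_mul (hrM : r ∣ M) : NeZero (M / r * r) :=
  ⟨by rw [Nat.div_mul_cancel hrM]; exact NeZero.ne M⟩

/-- the Atkin-Lehner involution `w_r` of `F_K(M)`, `r ∥ M` -/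
noncomputable def wrG (hr : r.Prime) (hrM : r ∣ M) (hr2 : ¬ r ^ 2 ∣ M) : FK K M ≃ₐ[K] FK K M :=
  haveI := neZero_div_mul hrM
  ((castF K (Nat.div_mul_cancel hrM).symm).trans
    (wr K hr (not_dvd_div_of_sq hrM hr2))).trans (castF K (Nat.div_mul_cancel hrM))

theorem wrG_apply (hr : r.Prime) (hrM : r ∣ M) (hr2 : ¬ r ^ 2 ∣ M) (x : FK K M) :
    haveI := neZero_div_mul hrM
    wrG K hr hrM hr2 x = castF K (Nat.div_mul_cancel hrM)
      (wr K hr (not_dvd_div_of_sq hrM hr2) (castF K (Nat.div_mul_cancel hrM).symm x)) := rfl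

theorem coe_wrG (hr : r.Prime) (hrM : r ∣ M) (hr2 : ¬ r ^ 2 ∣ M) (x : FK K M) :
    haveI := neZero_div_mul hrM
    ((wrG K hr hrM hr2 x : FK K M) : LaurentSeries K) =
      (wr K hr (not_dvd_div_of_sq hrM hr2) (castF K (Nat.div_mul_cancel hrM).symm x) :
        FK K (M / r * r)) := by
  rw [wrG_apply, coe_castF]

theorem wrG_Jgen (hr : r.Prime) (hrM : r ∣ M) (hr2 : ¬ r ^ 2 ∣ M) (d : Dv M) :
    wrG K hr hrM hr2 (ESlib.Jgen K M d) = ESlib.Jgen K M (alPermG hr hrM d) := by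
  haveI := neZero_div_mul hrM
  apply Subtype.ext
  rw [coe_wrG]
  have h1 : castF K (Nat.div_mul_cancel hrM).symm (ESlib.Jgen K M d) =
      ESlib.Jgen K (M / r * r) ⟨d.1, by rw [Nat.div_mul_cancel hrM]; exact d.2⟩ :=
    Subtype.ext ((coe_castF K _ _).trans (coe_Jgen_congr K rfl))
  rw [h1, wr_Jgen]
  apply coe_Jgen_congr
  by_cases h : r ∣ d.1
  · rw [alPerm_of_dvd hr _ h, alPermG_of_dvd hr hrM d h]
  · rw [alPerm_of_not_dvd hr _ h, alPermG_of_not_dvd hr hrM d h]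

theorem wrG_wrG (hr : r.Prime) (hrM : r ∣ M) (hr2 : ¬ r ^ 2 ∣ M) (x : FK K M) :
    wrG K hr hrM hr2 (wrG K hr hrM hr2 x) = x := by
  haveI := neZero_div_mul hrM
  apply Subtype.ext
  rw [coe_wrG]
  have h1 : castF K (Nat.div_mul_cancel hrM).symm (wrG K hr hrM hr2 x) =
      wr K hr (not_dvd_div_of_sq hrM hr2) (castF K (Nat.div_mul_cancel hrM).symm x) :=
    Subtype.ext ((coe_castF K _ _).trans (coe_wrG K hr hrM hr2 x))
  rw [h1, wr_wr, coe_castF]

theorem wrG_symm (hr : r.Prime) (hrM : r ∣ M) (hr2 : ¬ r ^ 2 ∣ M) :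
    (wrG K hr hrM hr2).symm = wrG K hr hrM hr2 := by
  refine AlgEquiv.ext fun x => ?_
  rw [AlgEquiv.symm_apply_eq, wrG_wrG]

/-- characterisation: a ring hom which is `K`-linear and acts on the generators as `w_r` -/
theorem eq_wrG (hr : r.Prime) (hrM : r ∣ M) (hr2 : ¬ r ^ 2 ∣ M) (s : FK K M →+* FK K M)
    (hK : ∀ a : K, s (algebraMap K _ a) = algebraMap K _ a)
    (hJ : ∀ d, s (ESlib.Jgen K M d) = ESlib.Jgen K M (alPermG hr hrM d)) (x : FK K M) :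
    s x = wrG K hr hrM hr2 x := by
  have h : s = (wrG K hr hrM hr2).toAlgHom.toRingHom := by
    apply ringHom_ext_JgenK
    · intro a
      rw [hK]
      exact ((wrG K hr hrM hr2).commutes a).symm
    · intro d
      rw [hJ]
      exact (wrG_Jgen K hr hrM hr2 d).symm
  rw [h]
  rfl

/-- `wrG` at the level `N * r` is `wr` -/
theorem wrG_eq_wr {N : ℕ} [NeZero (N * r)] (hr : r.Prime) (hrN : ¬ r ∣ N)
    (hrM : r ∣ N * r) (hr2 : ¬ r ^ 2 ∣ N * r) (x : FK K (N * r)) :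
    wrG K hr hrM hr2 x = wr K hr hrN x := by
  refine (eq_wrG K hr hrM hr2 (wr K hr hrN).toAlgHom.toRingHom (wr K hr hrN).commutes ?_ x).symm
  intro d
  show wr K hr hrN _ = _
  rw [wr_Jgen]
  apply Jgen_ext
  by_cases h : r ∣ d.1
  · rw [alPerm_of_dvd hr _ h, alPermG_of_dvd hr hrM d h]
  · rw [alPerm_of_not_dvd hr _ h, alPermG_of_not_dvd hr hrM d h]

/-- functoriality (base change, Galois action) -/
theorem map_wrG (K' : Type) [Field K'] [Algebra ℚ K'] [Algebra K' ℂ] [IsScalarTower ℚ K' ℂ]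
    (hr : r.Prime) (hrM : r ∣ M) (hr2 : ¬ r ^ 2 ∣ M) (s : FK K M →+* FK K' M) (σ : K →+* K')
    (hK : ∀ a : K, s (algebraMap K _ a) = algebraMap K' _ (σ a))
    (hJ : ∀ d, s (ESlib.Jgen K M d) = ESlib.Jgen K' M d) (x : FK K M) :
    s (wrG K hr hrM hr2 x) = wrG K' hr hrM hr2 (s x) := by
  have h : s.comp (wrG K hr hrM hr2).toAlgHom.toRingHom =
      ((wrG K' hr hrM hr2).toAlgHom.toRingHom).comp s := by
    apply ringHom_ext_JgenK
    · intro a
      show s (wrG K hr hrM hr2 _) = wrG K' hr hrM hr2 (s _)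
      rw [AlgEquiv.commutes, hK, AlgEquiv.commutes]
    · intro d
      show s (wrG K hr hrM hr2 _) = wrG K' hr hrM hr2 (s _)
      rw [wrG_Jgen, hJ, hJ, wrG_Jgen]
  exact DFunLike.congr_fun h x

theorem bc_wrG (K' : Type) [Field K'] [Algebra ℚ K'] [Algebra K' ℂ] [IsScalarTower ℚ K' ℂ]
    [Algebra K K'] [IsScalarTower ℚ K K'] (hr : r.Prime) (hrM : r ∣ M) (hr2 : ¬ r ^ 2 ∣ M)
    (x : FK K M) :
    bc K K' (modularFunctionFieldFull M) (wrG K hr hrM hr2 x) =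
      wrG K' hr hrM hr2 (bc K K' (modularFunctionFieldFull M) x) :=
  map_wrG K K' hr hrM hr2 (bc K K' _) (algebraMap K K') (bc_algebraMap K K' _) (bc_Jgen K K' _) x

/-- `w_r` commutes with the (coefficientwise) Galois action -/
theorem arithmeticRingAut_wrG (hr : r.Prime) (hrM : r ∣ M) (hr2 : ¬ r ^ 2 ∣ M) (σ : K ≃ₐ[ℚ] K)
    (x : FK K M) :
    arithmeticRingAut (modularFunctionFieldFull M) σ (wrG K hr hrM hr2 x) =
      wrG K hr hrM hr2 (arithmeticRingAut (modularFunctionFieldFull M) σ x) :=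
  map_wrG K K hr hrM hr2 (arithmeticRingAut (modularFunctionFieldFull M) σ).toRingHom
    (σ : K →+* K) (arithmeticRingAut_algebraMap _ σ) (arithmeticRingAut_Jgen K _ σ) x

theorem mDiv_wrG (hr : r.Prime) (hrM : r ∣ M) (hr2 : ¬ r ^ 2 ∣ M) {m : ℕ} {f : FK K M}
    (hf : MDiv K m f) : MDiv K m (wrG K hr hrM hr2 f) := mDiv_algEquiv _ hf

theorem sameClass_wrG (hr : r.Prime) (hrM : r ∣ M) (hr2 : ¬ r ^ 2 ∣ M) {m : ℕ} {f g : FK K M}
    (h : SameClass m f g) : SameClass m (wrG K hr hrM hr2 f) (wrG K hr hrM hr2 g) :=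
  h.map (wrG K hr hrM hr2).toAlgHom.toRingHom

end wrG

section degeneracy

variable (K : Type) [Field K] [Algebra ℚ K] [Algebra K ℂ] [IsScalarTower ℚ K ℂ]
variable {M M' r : ℕ} [NeZero M] [NeZero M']

/-- `w_r` is compatible with the inclusion `F_K(M) ⊆ F_K(M')`, `M ∣ M'`, `r ∥ M`, `r ∥ M'` -/
theorem wrG_inclF (hr : r.Prime) (hrM : r ∣ M) (hr2 : ¬ r ^ 2 ∣ M) (hrM' : r ∣ M')
    (hr2' : ¬ r ^ 2 ∣ M') (h : M ∣ M') (x : FK K M) :
    wrG K hr hrM' hr2' (inclF K h x) = inclF K h (wrG K hr hrM hr2 x) := by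
  have e : ((wrG K hr hrM' hr2').toAlgHom.toRingHom).comp (inclF K h).toRingHom =
      (inclF K h).toRingHom.comp (wrG K hr hrM hr2).toAlgHom.toRingHom := by
    apply ringHom_ext_JgenK
    · intro a
      show wrG K hr hrM' hr2' (inclF K h _) = inclF K h (wrG K hr hrM hr2 _)
      rw [AlgHom.commutes, AlgEquiv.commutes, AlgEquiv.commutes, AlgHom.commutes]
    · intro d
      show wrG K hr hrM' hr2' (inclF K h _) = inclF K h (wrG K hr hrM hr2 _)
      rw [inclF_Jgen, wrG_Jgen, wrG_Jgen, inclF_Jgen]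
      apply Jgen_ext
      by_cases hd : r ∣ d.1
      · rw [alPermG_of_dvd hr hrM' _ hd]
        exact (alPermG_of_dvd hr hrM d hd).symm
      · rw [alPermG_of_not_dvd hr hrM' _ hd]
        exact (alPermG_of_not_dvd hr hrM d hd).symm
  exact DFunLike.congr_fun e x

variable {ℓ : ℕ} [NeZero ℓ] [NeZero (M * ℓ)]

/-- `w_r` commutes with `α : F_K(M) → F_K(M ℓ)` -/
theorem wrG_heckeAlphaBar (hr : r.Prime) (hrM : r ∣ M) (hr2 : ¬ r ^ 2 ∣ M)
    (hr2' : ¬ r ^ 2 ∣ M * ℓ) (x : FK K M) :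
    wrG K hr (hrM.mul_right ℓ) hr2' (heckeAlphaBar K M ℓ x) =
      heckeAlphaBar K M ℓ (wrG K hr hrM hr2 x) :=
  wrG_inclF K hr hrM hr2 (hrM.mul_right ℓ) hr2' (dvd_mul_right M ℓ) x

theorem heckeBetaBar_Jgen (d : Dv M) :
    heckeBetaBar K M ℓ (ESlib.Jgen K M d) =
      ESlib.Jgen K (M * ℓ) ⟨d.1 * ℓ, Nat.mul_dvd_mul_right d.2 ℓ⟩ := by
  apply Subtype.ext
  rw [coe_heckeBetaBar]
  show qExpand K ℓ (coeffEmb K (qExpand ℚ d.1 jq)) = coeffEmb K (qExpand ℚ (d.1 * ℓ) jq)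
  rw [← coeffEmb_qExpand, qExpand_qExpand]
  congr 1
  exact qExpand_congr (mul_comm _ _) _

/-- `w_r` commutes with `β : F_K(M) → F_K(M ℓ)`, `f(q) ↦ f(q^ℓ)` (`r ∤ ℓ`) -/
theorem wrG_heckeBetaBar (hr : r.Prime) (hrM : r ∣ M) (hr2 : ¬ r ^ 2 ∣ M)
    (hr2' : ¬ r ^ 2 ∣ M * ℓ) (hrℓ : ¬ r ∣ ℓ) (x : FK K M) :
    wrG K hr (hrM.mul_right ℓ) hr2' (heckeBetaBar K M ℓ x) =
      heckeBetaBar K M ℓ (wrG K hr hrM hr2 x) := by
  have e : ((wrG K hr (hrM.mul_right ℓ) hr2').toAlgHom.toRingHom).comp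
      (heckeBetaBar K M ℓ).toRingHom =
      (heckeBetaBar K M ℓ).toRingHom.comp (wrG K hr hrM hr2).toAlgHom.toRingHom := by
    apply ringHom_ext_JgenK
    · intro a
      show wrG K hr (hrM.mul_right ℓ) hr2' (heckeBetaBar K M ℓ _) =
        heckeBetaBar K M ℓ (wrG K hr hrM hr2 _)
      rw [AlgHom.commutes, AlgEquiv.commutes, AlgEquiv.commutes, AlgHom.commutes]
    · intro d
      show wrG K hr (hrM.mul_right ℓ) hr2' (heckeBetaBar K M ℓ _) =
        heckeBetaBar K M ℓ (wrG K hr hrM hr2 _)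
      rw [heckeBetaBar_Jgen, wrG_Jgen, wrG_Jgen, heckeBetaBar_Jgen]
      apply Jgen_ext
      by_cases hd : r ∣ d.1
      · rw [alPermG_of_dvd hr _ _ (show r ∣ d.1 * ℓ from hd.mul_right ℓ)]
        show d.1 * ℓ / r = (alPermG hr hrM d).1 * ℓ
        rw [alPermG_of_dvd hr hrM d hd]
        exact (Nat.div_mul_right_comm hd ℓ).symm
      · rw [alPermG_of_not_dvd hr _ _ (show ¬ r ∣ d.1 * ℓ from fun h =>
          (hr.dvd_mul.1 h).elim hd hrℓ)]
        show d.1 * ℓ * r = (alPermG hr hrM d).1 * ℓ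
        rw [alPermG_of_not_dvd hr hrM d hd]
        ring
  exact DFunLike.congr_fun e x

end degeneracy

section oldlevel

variable (K : Type) [Field K] [Algebra ℚ K] [Algebra K ℂ] [IsScalarTower ℚ K ℂ]
variable {N M r : ℕ} [NeZero N] [NeZero M] [NeZero r]

/-- **`w_r` is `B_r` on the old part**: if `N ∣ M`, `r ∤ N`, `r ∥ M` then the `q`-expansion of
`w_r f`, `f ∈ F_K(N)`, is `f(q^r)`. -/
theorem coe_wrG_inclF (hr : r.Prime) (hrM : r ∣ M) (hr2 : ¬ r ^ 2 ∣ M) (h : N ∣ M) (hrN : ¬ r ∣ N)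
    (x : FK K N) :
    ((wrG K hr hrM hr2 (inclF K h x) : FK K M) : LaurentSeries K) =
      qExpand K r (x : LaurentSeries K) := by
  haveI := neZero_div_mul hrM
  haveI : NeZero (M / r) := ⟨fun h0 => NeZero.ne (M / r * r) (by rw [h0, zero_mul])⟩
  have hN : N ∣ M / r := by
    have h1 : N ∣ M / r * r := by rw [Nat.div_mul_cancel hrM]; exact h
    exact Nat.Coprime.dvd_of_dvd_mul_right ((Nat.Prime.coprime_iff_not_dvd hr).2 hrN).symm h1
  rw [coe_wrG]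
  have h1 : castF K (Nat.div_mul_cancel hrM).symm (inclF K h x) =
      inclF K (dvd_mul_right (M / r) r) (inclF K hN x) :=
    Subtype.ext (by rw [coe_castF, coe_inclF, coe_inclF, coe_inclF])
  rw [h1, coe_wr_inclF, coe_inclF]

end oldlevel

end Fermat.Agent.UNIlib
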