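import Mathlib
import Fermat.Agent.ES.C.AKLoc
import Fermat.Agent.ES.C.Ufd

/-!
# T-UNI, abstract side, (C) local principality: the generic half (S2 - S5)

`O` a two-dimensional regular local ring with maximal ideal `(π, s)`, `Kt = Frac O`, `L / Kt` finite,
characteristic zero.  For `c ∈ L` (`c = g⁻¹`) and `m > 0`:
`rootLat O c m = {f ∈ L | f ^ m * c integral over O}`.
-/

set_option autoImplicit false
set_option linter.unusedSectionVars false

namespace Fermat.Agent.UNIlib

open IsLocalRing Fermat.Agent.ESlib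

universe u

section basic

variable (O : Type*) {L : Type*} [CommRing O] [Field L] [Algebra O L]

/-- `{f | f ^ m * c` integral over `O}` -/
def rootLat (c : L) {m : ℕ} (hm : 0 < m) : Submodule O L where
  carrier := {f | IsIntegral O (f ^ m * c)}
  zero_mem' := by
    show IsIntegral O ((0 : L) ^ m * c)
    rw [zero_pow hm.ne', zero_mul]
    exact isIntegral_zero
  add_mem' := by
    intro f₁ f₂ h₁ h₂
    show IsIntegral O ((f₁ + f₂) ^ m * c)
    rw [add_pow, Finset.sum_mul]
    refine IsIntegral.sum _ fun k hk => ?_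
    have hk' : k ≤ m := Nat.lt_succ_iff.1 (Finset.mem_range.1 hk)
    have h3 : IsIntegral O (f₁ ^ k * f₂ ^ (m - k) * c) := by
      apply IsIntegral.of_pow hm
      have : (f₁ ^ k * f₂ ^ (m - k) * c) ^ m = (f₁ ^ m * c) ^ k * (f₂ ^ m * c) ^ (m - k) := by
        have hc : c ^ m = c ^ k * c ^ (m - k) := by rw [← pow_add, Nat.add_sub_cancel' hk']
        rw [mul_pow, mul_pow, mul_pow, mul_pow, hc, ← pow_mul, ← pow_mul, ← pow_mul, ← pow_mul,
          mul_comm k m, mul_comm (m - k) m]
        ring
      rw [this]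
      exact (h₁.pow k).mul (h₂.pow (m - k))
    have : f₁ ^ k * f₂ ^ (m - k) * (m.choose k : L) * c
        = (m.choose k : L) * (f₁ ^ k * f₂ ^ (m - k) * c) := by ring
    rw [this]
    exact (isIntegral_natCast _).mul h3
  smul_mem' := by
    intro a f h
    show IsIntegral O ((a • f) ^ m * c)
    rw [smul_pow, smul_mul_assoc]
    exact h.smul _

variable {O}

theorem mem_rootLat {c : L} {m : ℕ} {hm : 0 < m} {f : L} :
    f ∈ rootLat O c hm ↔ IsIntegral O (f ^ m * c) := Iff.rfl

theorem mul_mem_rootLat {c : L} {m : ℕ} {hm : 0 < m} {f b : L} (hb : IsIntegral O b)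
    (hf : f ∈ rootLat O c hm) : b * f ∈ rootLat O c hm := by
  rw [mem_rootLat] at hf ⊢
  rw [mul_pow, mul_assoc]
  exact (hb.pow m).mul hf

/-- products of `m` elements -/
theorem isIntegral_prod_mul_of_mem_rootLat {c : L} {m : ℕ} {hm : 0 < m} (f : Fin m → L)
    (hf : ∀ i, f i ∈ rootLat O c hm) : IsIntegral O ((∏ i, f i) * c) := by
  apply IsIntegral.of_pow hm
  have : ((∏ i, f i) * c) ^ m = ∏ i, (f i ^ m * c) := by
    rw [mul_pow, Finset.prod_mul_distrib, Finset.prod_pow, Finset.prod_const, Finset.card_univ,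
      Fintype.card_fin]
  rw [this]
  exact IsIntegral.prod _ fun i _ => hf i

end basic

section free

variable {O L : Type u} {Kt : Type*} [CommRing O] [IsDomain O] [IsLocalRing O]
    [IsNoetherianRing O] [IsIntegrallyClosed O] [Field Kt] [Field L] [Algebra O Kt]
    [IsFractionRing O Kt] [Algebra Kt L] [Algebra O L] [IsScalarTower O Kt L]
    [FiniteDimensional Kt L] [CharZero Kt]

theorem isIntegral_of_forall_pow_smul [Module.IsTorsionFree O L] {π s : O} (hπ : Prime π)
    (hs : ¬ π ∣ s) (n : ℕ) :
    ∀ {w : L}, (∀ a b, a + b = n → IsIntegral O ((π ^ a * s ^ b) • w)) → IsIntegral O w := by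
  induction n with
  | zero =>
    intro w h
    simpa using h 0 0 rfl
  | succ n ih =>
    intro w h
    apply ih
    intro a b hab
    refine S28lib.isIntegral_of_isIntegral_smul hπ hs ?_ ?_
    · have := h (a + 1) b (by omega)
      rwa [pow_succ, mul_right_comm, mul_comm _ π, mul_smul] at this
    · have := h a (b + 1) (by omega)
      rwa [pow_succ, ← mul_assoc, mul_comm _ s, mul_smul] at this

theorem isIntegral_of_pow_smul [Module.IsTorsionFree O L] {π s : O} (hπ : Prime π)
    (hs : ¬ π ∣ s) (m : ℕ) {w : L} (h1 : IsIntegral O (π ^ m • w)) (h2 : IsIntegral O (s ^ m • w)) :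
    IsIntegral O w := by
  apply isIntegral_of_forall_pow_smul hπ hs (2 * m)
  intro a b hab
  rcases le_total m a with h | h
  · obtain ⟨a', rfl⟩ := Nat.exists_eq_add_of_le h
    have : (π ^ (m + a') * s ^ b) • w = (π ^ a' * s ^ b) • (π ^ m • w) := by
      rw [smul_smul]; congr 1; ring
    rw [this]
    exact h1.smul _
  · have hb : m ≤ b := by omega
    obtain ⟨b', rfl⟩ := Nat.exists_eq_add_of_le hb
    have : (π ^ a * s ^ (m + b')) • w = (π ^ a * s ^ b') • (s ^ m • w) := by
      rw [smul_smul]; congr 1; ring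
    rw [this]
    exact h2.smul _

/-- a common denominator -/
theorem exists_smul_isIntegral_of_mem_rootLat [halg : Algebra.IsAlgebraic O L] {c : L} (hc : c ≠ 0)
    {m : ℕ} (hm : 0 < m) :
    ∃ d : O, d ≠ 0 ∧ ∀ f ∈ rootLat O c hm, IsIntegral O (d • f) := by
  obtain ⟨d, hd0, hd⟩ := (halg.isAlgebraic c⁻¹).exists_integral_multiple
  refine ⟨d, hd0, fun f hf => ?_⟩
  apply IsIntegral.of_pow hm
  obtain ⟨m', rfl⟩ : ∃ m', m = m' + 1 := ⟨m - 1, by omega⟩
  have : (d • f) ^ (m' + 1) = d ^ m' • ((f ^ (m' + 1) * c) * (d • c⁻¹)) := by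
    rw [smul_pow, pow_succ d, mul_smul, mul_smul_comm, mul_assoc, mul_inv_cancel₀ hc, mul_one]
  rw [this]
  exact ((mem_rootLat.1 hf).mul hd).smul _

theorem exists_smul_mem_rootLat [halg : Algebra.IsAlgebraic O L] (c : L) {m : ℕ} (hm : 0 < m)
    (y : L) : ∃ e : O, e ≠ 0 ∧ e • y ∈ rootLat O c hm := by
  obtain ⟨e, he0, he⟩ := (halg.isAlgebraic (y ^ m * c)).exists_integral_multiple
  refine ⟨e, he0, ?_⟩
  obtain ⟨m', rfl⟩ : ∃ m', m = m' + 1 := ⟨m - 1, by omega⟩
  rw [mem_rootLat, smul_pow, pow_succ e, mul_smul, smul_mul_assoc, smul_mul_assoc]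
  exact he.smul _

/-- **(S2)** the lattice `{f | f ^ m * c integral}` is free over `O`. -/
theorem exists_rootLat_basis (π s : O) (hmax : maximalIdeal O = Ideal.span {π, s}) (hπ : Prime π)
    (hs : ¬ π ∣ s) {c : L} (hc : c ≠ 0) {m : ℕ} (hm : 0 < m) :
    ∃ a : Module.Basis (Fin (Module.finrank Kt L)) Kt L,
      ∀ f : L, IsIntegral O (f ^ m * c) ↔ ∀ k, a.repr f k ∈ (algebraMap O Kt).range := by
  classical
  have hTF : Module.IsTorsionFree O L := .trans_faithfulSMul O Kt L
  have halg : Algebra.IsAlgebraic O L := by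
    have : Algebra.IsAlgebraic Kt L := Algebra.IsAlgebraic.of_finite Kt L
    exact (IsFractionRing.comap_isAlgebraic_iff (A := O) (K := Kt) (C := L)).2 this
  have hfinB : Module.Finite O (integralClosure O L) :=
    IsIntegralClosure.finite O Kt L (integralClosure O L)
  set M := rootLat O c hm with hM
  have hπ0 : π ≠ 0 := hπ.ne_zero
  have hπL : algebraMap O L π ≠ 0 := by
    rw [Ne, FaithfulSMul.algebraMap_eq_zero_iff]
    exact hπ0
  -- finiteness
  have hfin : Module.Finite O M := by
    obtain ⟨d, hd0, hd⟩ := exists_smul_isIntegral_of_mem_rootLat (O := O) hc hm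
    let φ : M →ₗ[O] integralClosure O L :=
      { toFun := fun f => ⟨d • (f : L), hd f f.2⟩
        map_add' := fun f g => Subtype.ext (by simp [smul_add])
        map_smul' := fun a f => Subtype.ext (by simp [smul_comm d a]) }
    have hφ : Function.Injective φ := by
      intro f g hfg
      have h1 : d • (f : L) = d • (g : L) := congrArg Subtype.val hfg
      exact Subtype.ext (smul_right_injective L hd0 h1)
    exact Module.Finite.of_injective φ hφ
  -- the regular sequence
  have hreg : RingTheory.Sequence.IsWeaklyRegular M [π, s] := by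
    rw [RingTheory.Sequence.isWeaklyRegular_cons_iff,
      RingTheory.Sequence.isWeaklyRegular_singleton_iff]
    constructor
    · intro x y hxy
      have h1 : π • (x : L) = π • (y : L) := congrArg Subtype.val hxy
      exact Subtype.ext (smul_right_injective L hπ0 h1)
    · rw [isSMulRegular_iff_right_eq_zero_of_smul]
      intro x hx
      obtain ⟨x, rfl⟩ := Submodule.Quotient.mk_surjective _ x
      rw [← Submodule.Quotient.mk_smul, Submodule.Quotient.mk_eq_zero] at hx
      rw [Submodule.Quotient.mk_eq_zero]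
      obtain ⟨z, -, hz⟩ := (Submodule.mem_smul_pointwise_iff_exists _ _ _).1 hx
      have hz' : π • (z : L) = s • (x : L) := congrArg Subtype.val hz
      have hy : (x : L) / algebraMap O L π ∈ M := by
        show IsIntegral O (((x : L) / algebraMap O L π) ^ m * c)
        refine isIntegral_of_pow_smul hπ hs m ?_ ?_
        · have : π ^ m • (((x : L) / algebraMap O L π) ^ m * c) = (x : L) ^ m * c := by
            rw [Algebra.smul_def, map_pow, ← mul_assoc, ← mul_pow, mul_div_cancel₀ _ hπL]
          rw [this]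
          exact x.2
        · have h1 : s • ((x : L) / algebraMap O L π) = z := by
            rw [eq_comm, Algebra.smul_def, ← mul_div_assoc, eq_div_iff hπL, ← Algebra.smul_def,
              ← hz', Algebra.smul_def, mul_comm]
          have : s ^ m • (((x : L) / algebraMap O L π) ^ m * c) = (z : L) ^ m * c := by
            rw [← h1, smul_pow, smul_mul_assoc]
          rw [this]
          exact z.2
      refine (Submodule.mem_smul_pointwise_iff_exists _ _ _).2
        ⟨⟨_, hy⟩, Submodule.mem_top, Subtype.ext ?_⟩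
      change π • ((x : L) / algebraMap O L π) = x
      rw [Algebra.smul_def, mul_div_cancel₀ _ hπL]
  have hfree : Module.Free O M := by
    refine S57Lib.free_of_isWeaklyRegular 2 O M {π, s} Finset.card_le_two
      ?_ [π, s] rfl ?_ hreg
    · rw [hmax]
      simp
    · intro r hr
      rw [hmax]
      simp only [List.mem_cons, List.not_mem_nil, or_false] at hr
      rcases hr with rfl | rfl
      · exact Ideal.subset_span (by simp)
      · exact Ideal.subset_span (by simp)
  have hlocM : IsLocalizedModule (nonZeroDivisors O) M.subtype := by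
    refine ⟨fun x => ?_, fun y => ?_, fun {x₁ x₂} h => ⟨1, ?_⟩⟩
    · have hx0 : algebraMap O L (x : O) ≠ 0 := by
        rw [Ne, FaithfulSMul.algebraMap_eq_zero_iff]
        exact nonZeroDivisors.ne_zero x.2
      rw [Module.End.isUnit_iff]
      constructor
      · intro a b hab
        simp only [Module.algebraMap_end_apply] at hab
        exact smul_right_injective L (nonZeroDivisors.ne_zero x.2) hab
      · intro a
        refine ⟨(algebraMap O L (x : O))⁻¹ * a, ?_⟩
        simp only [Module.algebraMap_end_apply]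
        rw [Algebra.smul_def, ← mul_assoc, mul_inv_cancel₀ hx0, one_mul]
    · obtain ⟨e, he0, he⟩ := exists_smul_mem_rootLat (O := O) c hm y
      exact ⟨(⟨_, he⟩, ⟨e, mem_nonZeroDivisors_of_ne_zero he0⟩), rfl⟩
    · rw [Subtype.ext h]
  let b0 := Module.Free.chooseBasis O M
  let b1 : Module.Basis _ Kt L := b0.ofIsLocalizedModule Kt (nonZeroDivisors O) M.subtype
  have hcard : Fintype.card (Module.Free.ChooseBasisIndex O M) =
      Module.finrank Kt L := (Module.finrank_eq_card_basis b1).symm
  let e := Fintype.equivFinOfCardEq hcard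
  refine ⟨b1.reindex e, fun x => ⟨fun hx k => ?_, fun hx => ?_⟩⟩
  · have h1 := b0.ofIsLocalizedModule_repr_apply Kt (nonZeroDivisors O) M.subtype ⟨x, hx⟩
      (e.symm k)
    rw [Module.Basis.repr_reindex_apply]
    exact ⟨_, h1.symm⟩
  · have hx' : x ∈ M := by
      rw [← (b1.reindex e).sum_repr x]
      refine Submodule.sum_mem _ fun k _ => ?_
      obtain ⟨c', hc'⟩ := hx k
      rw [← hc', algebraMap_smul]
      refine Submodule.smul_mem _ _ ?_
      rw [Module.Basis.reindex_apply, Module.Basis.ofIsLocalizedModule_apply]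
      exact (b0 (e.symm k)).2
    exact hx'

/-- (S2) in the shape `f ^ m / g`. -/
theorem exists_rootLat_basis_div (π s : O) (hmax : maximalIdeal O = Ideal.span {π, s})
    (hπ : Prime π) (hs : ¬ π ∣ s) {g : L} (hg : g ≠ 0) {m : ℕ} (hm : 0 < m) :
    ∃ a : Module.Basis (Fin (Module.finrank Kt L)) Kt L,
      ∀ f : L, IsIntegral O (f ^ m / g) ↔ ∀ k, a.repr f k ∈ (algebraMap O Kt).range := by
  obtain ⟨a, ha⟩ := exists_rootLat_basis (Kt := Kt) π s hmax hπ hs (inv_ne_zero hg) hm
  exact ⟨a, fun f => by rw [div_eq_mul_inv]; exact ha f⟩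

end free

end Fermat.Agent.UNIlib
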