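import Mathlib
import Fermat.Agent.UNI.CLat
import Fermat.Agent.UNI.LPA0

/-!
# T-UNI, abstract side, (C) local principality: (S3) + (S4), the determinant of the lattice
-/

set_option autoImplicit false
set_option linter.unusedSectionVars false

namespace Fermat.Agent.UNIlib

open IsLocalRing Fermat.Agent.ESlib Matrix

universe u

section ufd

variable {O Kt : Type*} [CommRing O] [IsDomain O] [Field Kt] [Algebra O Kt] [IsFractionRing O Kt]

/-- an element of `Frac O` which is a unit at all the primes of the UFD `O` is a unit of `O` -/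
theorem exists_unit_of_forall_prime [UniqueFactorizationMonoid O] {x : Kt} (hx : x ≠ 0)
    (h : ∀ ϱ : O, Prime ϱ → ∃ t : O, ¬ ϱ ∣ t ∧
      (∃ A : O, algebraMap O Kt A = algebraMap O Kt t * x) ∧
      (∃ A : O, algebraMap O Kt A = algebraMap O Kt t * x⁻¹)) :
    ∃ u : Oˣ, algebraMap O Kt u = x := by
  obtain ⟨a, ⟨b, hb⟩, hrel, hab⟩ := IsFractionRing.exists_reduced_fraction O x
  have hb0 : b ≠ 0 := nonZeroDivisors.ne_zero hb
  have hbK : algebraMap O Kt b ≠ 0 := by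
    rwa [Ne, FaithfulSMul.algebraMap_eq_zero_iff]
  have hxab : x = algebraMap O Kt a / algebraMap O Kt b := by
    rw [← hab, IsFractionRing.mk'_eq_div]
  have ha0 : a ≠ 0 := by
    rintro rfl
    apply hx
    rw [hxab, map_zero, zero_div]
  have haK : algebraMap O Kt a ≠ 0 := by
    rwa [Ne, FaithfulSMul.algebraMap_eq_zero_iff]
  have hinj := IsFractionRing.injective O Kt
  have hbu : IsUnit b := by
    by_contra hnu
    obtain ⟨ϱ, hϱ, hϱb⟩ := WfDvdMonoid.exists_irreducible_factor hnu hb0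
    have hϱp : Prime ϱ := hϱ.prime
    obtain ⟨t, ht, ⟨A, hA⟩, -⟩ := h ϱ hϱp
    have h1 : t * a = A * b := by
      apply hinj
      rw [map_mul, map_mul, hA, hxab]
      field_simp
    have h2 : ϱ ∣ t * a := h1 ▸ Dvd.dvd.mul_left hϱb A
    have h3 : ϱ ∣ a := (hϱp.dvd_or_dvd h2).resolve_left ht
    exact hϱ.not_isUnit (hrel h3 hϱb)
  have hau : IsUnit a := by
    by_contra hnu
    obtain ⟨ϱ, hϱ, hϱa⟩ := WfDvdMonoid.exists_irreducible_factor hnu ha0
    have hϱp : Prime ϱ := hϱ.prime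
    obtain ⟨t, ht, -, ⟨A, hA⟩⟩ := h ϱ hϱp
    have h1 : t * b = A * a := by
      apply hinj
      rw [map_mul, map_mul, hA, hxab]
      field_simp
    have h2 : ϱ ∣ t * b := h1 ▸ Dvd.dvd.mul_left hϱa A
    have h3 : ϱ ∣ b := (hϱp.dvd_or_dvd h2).resolve_left ht
    exact hϱ.not_isUnit (hrel hϱa h3)
  obtain ⟨ua, rfl⟩ := hau
  obtain ⟨ub, rfl⟩ := hbu
  refine ⟨ua * ub⁻¹, ?_⟩
  rw [hxab, eq_div_iff hbK, ← map_mul]
  congr 1
  rw [Units.val_mul, mul_assoc, Units.inv_mul, mul_one]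

/-- the determinant of a matrix whose entries have the common denominator `t` -/
theorem exists_eq_pow_mul_det {ι : Type*} [Fintype ι] [DecidableEq ι] (t : O) (Y : Matrix ι ι Kt)
    (h : ∀ i j, ∃ y : O, algebraMap O Kt y = algebraMap O Kt t * Y i j) :
    ∃ A : O, algebraMap O Kt A = algebraMap O Kt t ^ Fintype.card ι * Y.det := by
  choose Y0 hY0 using h
  refine ⟨(Matrix.of Y0).det, ?_⟩
  rw [RingHom.map_det, ← Matrix.det_smul]
  congr 1
  ext i j
  simp [hY0]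

end ufd

section det

variable {O L Kt ι : Type*} [CommRing O] [IsDomain O] [IsIntegrallyClosed O] [Field Kt] [Field L]
    [Algebra O Kt] [IsFractionRing O Kt] [Algebra Kt L] [Algebra O L] [IsScalarTower O Kt L]
    [Fintype ι] [DecidableEq ι]

theorem exists_eq_norm_of_isIntegral {x : L} (hx : IsIntegral O x) :
    ∃ A : O, algebraMap O Kt A = Algebra.norm Kt x :=
  IsIntegrallyClosed.isIntegral_iff.1 (Algebra.isIntegral_norm Kt hx)

/-- **local computation** at a "prime" where `f ^ m * c` is a unit up to the denominator `t`. -/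
theorem exists_pow_mul_det_pow (b a : Module.Basis ι Kt L) (hb : IsIntBasis O b) {c : L} {m : ℕ}
    (hm : 0 < m) (hc : c ≠ 0)
    (ha : ∀ f : L, IsIntegral O (f ^ m * c) ↔ ∀ k, a.repr f k ∈ (algebraMap O Kt).range)
    {f : L} (hf : f ≠ 0) (t : O) (h1 : IsIntegral O (t • (f ^ m * c)))
    (h2 : IsIntegral O (t • (f ^ m * c)⁻¹)) :
    ∃ N : ℕ,
      (∃ A : O, algebraMap O Kt A =
        algebraMap O Kt (t ^ N) * ((b.toMatrix a).det ^ m * Algebra.norm Kt c)) ∧
      (∃ A : O, algebraMap O Kt A =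
        algebraMap O Kt (t ^ N) * ((b.toMatrix a).det ^ m * Algebra.norm Kt c)⁻¹) := by
  obtain ⟨m', rfl⟩ : ∃ m', m = m' + 1 := ⟨m - 1, by omega⟩
  have hfinL : Module.Finite Kt L := Module.Finite.of_basis b
  set n := Fintype.card ι with hn
  set u := f ^ (m' + 1) * c with hu
  have hu0 : u ≠ 0 := mul_ne_zero (pow_ne_zero _ hf) hc
  set Mf := Algebra.leftMulMatrix b f with hMf
  set M := b.toMatrix a with hM
  set Y := b.toMatrix (fun j => a j / f) with hY
  set X := a.toMatrix (fun i => f * b i) with hX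
  have hNf : Algebra.norm Kt f = Mf.det := Algebra.norm_eq_matrix_det b f
  have hNf0 : Algebra.norm Kt f ≠ 0 := Algebra.norm_ne_zero_iff.2 hf
  -- `M = Mf * Y`
  have hMY : M = Mf * Y := by
    ext k j
    have h3 := congrFun (Algebra.leftMulMatrix_mulVec_repr b f (a j / f)) k
    rw [mul_div_cancel₀ _ hf] at h3
    rw [hM, Module.Basis.toMatrix_apply, ← h3, Matrix.mul_apply]
    rfl
  -- `Mf = M * X`
  have hMX : Mf = M * X := by
    rw [hM, hX, Module.Basis.toMatrix_mul_toMatrix]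
    ext k i
    rw [hMf, Algebra.leftMulMatrix_eq_repr_mul, Module.Basis.toMatrix_apply]
  have hdY : M.det = Algebra.norm Kt f * Y.det := by rw [hNf, hMY, Matrix.det_mul]
  have hdX : Algebra.norm Kt f = M.det * X.det := by rw [hNf, hMX, Matrix.det_mul]
  have hd0 : M.det ≠ 0 := by
    intro h
    rw [h, zero_mul] at hdX
    exact hNf0 hdX
  -- integrality of the entries
  have hYint : ∀ k j, ∃ y : O, algebraMap O Kt y = algebraMap O Kt t * Y k j := by
    intro k j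
    have haj : IsIntegral O (a j ^ (m' + 1) * c) := by
      rw [ha]
      intro k'
      rw [a.repr_self, Finsupp.single_apply]
      split_ifs
      · exact ⟨1, map_one _⟩
      · exact ⟨0, map_zero _⟩
    have h3 : IsIntegral O (t • (a j / f)) := by
      apply IsIntegral.of_pow (Nat.succ_pos m')
      have : (t • (a j / f)) ^ (m' + 1) = t ^ m' • ((a j ^ (m' + 1) * c) * (t • u⁻¹)) := by
        rw [smul_pow, pow_succ t, mul_smul, mul_smul_comm, hu, div_pow]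
        congr 2
        field_simp
      rw [this]
      exact (haj.mul h2).smul _
    obtain ⟨y, hy⟩ := (hb _).1 h3 k
    refine ⟨y, ?_⟩
    rw [hy, hY, Module.Basis.toMatrix_apply, ← algebraMap_smul Kt t (a j / f), map_smul,
      Finsupp.smul_apply, smul_eq_mul]
  have hXint : ∀ k i, ∃ y : O, algebraMap O Kt y = algebraMap O Kt t * X k i := by
    intro k i
    have h3 : IsIntegral O ((t • (f * b i)) ^ (m' + 1) * c) := by
      have : (t • (f * b i)) ^ (m' + 1) * c = t ^ m' • (b i ^ (m' + 1) * (t • u)) := by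
        rw [smul_pow, pow_succ t, mul_smul, mul_smul_comm, hu, smul_mul_assoc, smul_mul_assoc]
        congr 2
        ring
      rw [this]
      exact (((hb.isIntegral i).pow _).mul h1).smul _
    obtain ⟨y, hy⟩ := (ha _).1 h3 k
    refine ⟨y, ?_⟩
    rw [hy, hX, Module.Basis.toMatrix_apply, ← algebraMap_smul Kt t (f * b i), map_smul,
      Finsupp.smul_apply, smul_eq_mul]
  obtain ⟨AY, hAY⟩ := exists_eq_pow_mul_det t Y hYint
  obtain ⟨AX, hAX⟩ := exists_eq_pow_mul_det t X hXint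
  obtain ⟨Au, hAu⟩ := exists_eq_norm_of_isIntegral (Kt := Kt) h1
  obtain ⟨Au', hAu'⟩ := exists_eq_norm_of_isIntegral (Kt := Kt) h2
  have hnorm_smul : ∀ z : L, Algebra.norm Kt (t • z) = algebraMap O Kt t ^ n * Algebra.norm Kt z := by
    intro z
    rw [← algebraMap_smul Kt t z, Algebra.smul_def, map_mul, Algebra.norm_algebraMap_of_basis b]
  rw [hnorm_smul] at hAu hAu'
  have hNu : Algebra.norm Kt u = Algebra.norm Kt f ^ (m' + 1) * Algebra.norm Kt c := by
    rw [hu, map_mul, map_pow]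
  have hNc0 : Algebra.norm Kt c ≠ 0 := Algebra.norm_ne_zero_iff.2 hc
  refine ⟨n + n * (m' + 1), ⟨Au * AY ^ (m' + 1), ?_⟩, ⟨Au' * AX ^ (m' + 1), ?_⟩⟩
  · rw [map_mul, map_pow, hAu, hAY, hNu, hdY, map_pow]
    ring
  · have hNinv : Algebra.norm Kt u⁻¹ = (Algebra.norm Kt u)⁻¹ := by
      apply eq_inv_of_mul_eq_one_left
      rw [← map_mul, inv_mul_cancel₀ hu0, map_one]
    rw [map_mul, map_pow, hAu', hAX, hNinv, hNu, map_pow]
    have hX' : X.det = Algebra.norm Kt f / M.det := by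
      rw [hdX]; field_simp
    rw [hX', ← hn]
    generalize M.det = D at hd0 ⊢
    generalize Algebra.norm Kt f = Nf at hNf0 ⊢
    generalize Algebra.norm Kt c = Nc at hNc0 ⊢
    generalize algebraMap O Kt t = T
    generalize m' + 1 = μ
    rw [pow_add T n, pow_mul, mul_pow, div_pow, mul_inv, mul_inv]
    have h5 : Nf ^ μ ≠ 0 := pow_ne_zero _ hNf0
    have h6 : D ^ μ ≠ 0 := pow_ne_zero _ hd0
    field_simp

end det

section lint

variable {P F Kt : Type*} [CommRing P] [IsDomain P] [IsIntegrallyClosed P] [Field Kt] [Field F]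
  [Algebra P Kt] [IsFractionRing P Kt] [Algebra Kt F] [Algebra P F] [IsScalarTower P Kt F]

/-- the norm of an element integral over `P_(ϱ)` lies in `P_(ϱ)` -/
theorem lInt_norm [FiniteDimensional Kt F] {ϱ : P} (hϱ : Prime ϱ) {x : F} (hx : LInt ϱ x) :
    LInt ϱ (Algebra.norm Kt x) := by
  obtain ⟨r, hr, h⟩ := hx
  obtain ⟨A, hA⟩ := exists_eq_norm_of_isIntegral (Kt := Kt) h
  rw [← algebraMap_smul Kt r x, Algebra.smul_def, map_mul, Algebra.norm_algebraMap] at hA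
  rw [lInt_frac_iff]
  exact ⟨r ^ Module.finrank Kt F, A, fun h => hr (hϱ.dvd_of_dvd_pow h), by rw [hA, map_pow]⟩

/-- (S4), local form, with the signature of `LPA2g` -/
theorem lInt_det_pow_div_norm {ι : Type*} [Fintype ι] [DecidableEq ι]
    (b a : Module.Basis ι Kt F) (hb : IsIntBasis P b) {m : ℕ} (hm : 0 < m) {g : F} (hg : g ≠ 0)
    (ha : ∀ f : F, IsIntegral P (f ^ m / g) ↔ ∀ k, a.repr f k ∈ (algebraMap P Kt).range)
    {ϱ : P} (hϱ : Prime ϱ) {f₀ : F} (hf₀ : f₀ ≠ 0) (h1 : LInt ϱ (f₀ ^ m / g))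
    (h2 : LInt ϱ (g / f₀ ^ m)) :
    ∃ u : Kt, LInt ϱ u ∧ LInt ϱ u⁻¹ ∧ (b.toMatrix a).det ^ m = u * Algebra.norm Kt g := by
  obtain ⟨r1, hr1, h1⟩ := h1
  obtain ⟨r2, hr2, h2⟩ := h2
  have hfinF : Module.Finite Kt F := Module.Finite.of_basis b
  have hN0 : Algebra.norm Kt g ≠ 0 := Algebra.norm_ne_zero_iff.2 hg
  have hNinv : Algebra.norm Kt g⁻¹ = (Algebra.norm Kt g)⁻¹ := by
    apply eq_inv_of_mul_eq_one_left
    rw [← map_mul, inv_mul_cancel₀ hg, map_one]
  have ha' : ∀ f : F, IsIntegral P (f ^ m * g⁻¹) ↔ ∀ k, a.repr f k ∈ (algebraMap P Kt).range := by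
    intro f
    rw [← div_eq_mul_inv]
    exact ha f
  have h1' : IsIntegral P ((r1 * r2) • (f₀ ^ m * g⁻¹)) := by
    rw [← div_eq_mul_inv, mul_comm r1 r2, mul_smul]
    exact h1.smul _
  have h2' : IsIntegral P ((r1 * r2) • (f₀ ^ m * g⁻¹)⁻¹) := by
    rw [mul_inv, inv_inv, mul_comm _ g, ← div_eq_mul_inv, mul_smul]
    exact h2.smul _
  obtain ⟨N, ⟨A, hA⟩, ⟨B, hB⟩⟩ :=
    exists_pow_mul_det_pow b a hb hm (inv_ne_zero hg) ha' hf₀ (r1 * r2) h1' h2'
  have hr : ¬ ϱ ∣ (r1 * r2) ^ N := fun h =>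
    (hϱ.dvd_or_dvd (hϱ.dvd_of_dvd_pow h)).elim hr1 hr2
  refine ⟨(b.toMatrix a).det ^ m * Algebra.norm Kt g⁻¹, lInt_frac_iff.2 ⟨_, A, hr, hA.symm⟩,
    lInt_frac_iff.2 ⟨_, B, hr, hB.symm⟩, ?_⟩
  rw [hNinv, inv_mul_cancel_right₀ hN0]

/-- `P = ⋂ P_(ϱ)` in a UFD (signature of `LPA2j`). -/
theorem mem_range_of_forall_prime_lInt [UniqueFactorizationMonoid P] (x : Kt)
    (h : ∀ ϱ : P, Prime ϱ → LInt ϱ x) : x ∈ (algebraMap P Kt).range := by
  obtain ⟨a, ⟨b, hb⟩, hrel, hab⟩ := IsFractionRing.exists_reduced_fraction P x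
  have hb0 : b ≠ 0 := nonZeroDivisors.ne_zero hb
  have hbK : algebraMap P Kt b ≠ 0 := by
    rwa [Ne, FaithfulSMul.algebraMap_eq_zero_iff]
  have hxab : x = algebraMap P Kt a / algebraMap P Kt b := by
    rw [← hab, IsFractionRing.mk'_eq_div]
  have hinj := IsFractionRing.injective P Kt
  have hbu : IsUnit b := by
    by_contra hnu
    obtain ⟨ϱ, hϱ, hϱb⟩ := WfDvdMonoid.exists_irreducible_factor hnu hb0
    have hϱp : Prime ϱ := hϱ.prime
    obtain ⟨t, A, ht, hA⟩ := lInt_frac_iff.1 (h ϱ hϱp)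
    have h1 : t * a = A * b := by
      apply hinj
      rw [map_mul, map_mul, ← hA, hxab]
      field_simp
    have h2 : ϱ ∣ t * a := h1 ▸ Dvd.dvd.mul_left hϱb A
    have h3 : ϱ ∣ a := (hϱp.dvd_or_dvd h2).resolve_left ht
    exact hϱ.not_isUnit (hrel h3 hϱb)
  obtain ⟨ub, rfl⟩ := hbu
  refine ⟨a * (ub⁻¹ : Pˣ), ?_⟩
  rw [hxab, eq_div_iff hbK, ← map_mul, mul_assoc, Units.inv_mul, mul_one]

/-- an element which is a unit of all the `P_(ϱ)` is a unit of `P` -/
theorem exists_unit_of_forall_prime_lInt [UniqueFactorizationMonoid P] {x : Kt} (hx : x ≠ 0)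
    (h : ∀ ϱ : P, Prime ϱ → LInt ϱ x ∧ LInt ϱ x⁻¹) : ∃ ε : Pˣ, x = algebraMap P Kt ε := by
  obtain ⟨e, he⟩ := mem_range_of_forall_prime_lInt x (fun ϱ hϱ => (h ϱ hϱ).1)
  obtain ⟨e', he'⟩ := mem_range_of_forall_prime_lInt x⁻¹ (fun ϱ hϱ => (h ϱ hϱ).2)
  have hee : e * e' = 1 := by
    apply IsFractionRing.injective P Kt
    rw [map_mul, he, he', map_one, mul_inv_cancel₀ hx]
  exact ⟨⟨e, e', hee, by rw [mul_comm, hee]⟩, he.symm⟩

/-- a unit of `P_(ϱ)`, as a fraction -/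
theorem exists_frac_of_lInt_inv {ϱ : P} (hϱ : Prime ϱ) {x : Kt} (hx0 : x ≠ 0) (hx : LInt ϱ x)
    (hx' : LInt ϱ x⁻¹) :
    ∃ r c : P, ¬ ϱ ∣ r ∧ ¬ ϱ ∣ c ∧ algebraMap P Kt r * x = algebraMap P Kt c := by
  obtain ⟨r, c, hr, hc⟩ := lInt_frac_iff.1 hx
  obtain ⟨r', c', hr', hc'⟩ := lInt_frac_iff.1 hx'
  refine ⟨r, c, hr, fun h => ?_, hc⟩
  have h1 : r * r' = c * c' := by
    apply IsFractionRing.injective P Kt
    rw [map_mul, map_mul, ← hc, ← hc']
    field_simp
  exact (hϱ.dvd_or_dvd (h1 ▸ Dvd.dvd.mul_right h c')).elim hr hr'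

/-- **(S4)**, global form: `det (b | a) ^ m = ε * N g` with `ε` a unit of `P`. -/
theorem exists_unit_det_pow_eq [UniqueFactorizationMonoid P] {ι : Type*} [Fintype ι]
    [DecidableEq ι] (b a : Module.Basis ι Kt F) (hb : IsIntBasis P b) {m : ℕ} (hm : 0 < m) {g : F}
    (hg : g ≠ 0)
    (ha : ∀ f : F, IsIntegral P (f ^ m / g) ↔ ∀ k, a.repr f k ∈ (algebraMap P Kt).range)
    (hH : ∀ ϱ : P, Prime ϱ → ∃ f : F, f ≠ 0 ∧ LInt ϱ (f ^ m / g) ∧ LInt ϱ (g / f ^ m)) :
    ∃ ε : Pˣ, (b.toMatrix a).det ^ m = algebraMap P Kt ε * Algebra.norm Kt g := by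
  have hfinF : Module.Finite Kt F := Module.Finite.of_basis b
  have hN0 : Algebra.norm Kt g ≠ 0 := Algebra.norm_ne_zero_iff.2 hg
  have hd0 : (b.toMatrix a).det ≠ 0 := by
    have h := Module.Basis.toMatrix_mul_toMatrix_flip b a
    intro h0
    have h2 := congrArg Matrix.det h
    rw [Matrix.det_mul, h0, zero_mul, Matrix.det_one] at h2
    exact zero_ne_one h2
  obtain ⟨ε, hε⟩ := exists_unit_of_forall_prime_lInt (P := P)
    (x := (b.toMatrix a).det ^ m / Algebra.norm Kt g) (div_ne_zero (pow_ne_zero _ hd0) hN0)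
    (fun ϱ hϱ => by
      obtain ⟨f, hf0, h1, h2⟩ := hH ϱ hϱ
      obtain ⟨u, hu, hu', h⟩ := lInt_det_pow_div_norm b a hb hm hg ha hϱ hf0 h1 h2
      rw [h, mul_div_cancel_right₀ _ hN0]
      exact ⟨hu, hu'⟩)
  exact ⟨ε, by rw [← hε, div_mul_cancel₀ _ hN0]⟩

/-- **(S3)**: if `g` is a unit over `P_(π)`, `det (b | a)` is a unit of `P_(π)`. -/
theorem exists_frac_det [FiniteDimensional Kt F] {ι : Type*} [Fintype ι]
    [DecidableEq ι] (b a : Module.Basis ι Kt F) (hb : IsIntBasis P b) {m : ℕ} (hm : 0 < m) {g : F}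
    (hg : g ≠ 0)
    (ha : ∀ f : F, IsIntegral P (f ^ m / g) ↔ ∀ k, a.repr f k ∈ (algebraMap P Kt).range)
    {π : P} (hπ : Prime π) (h1 : LInt π g) (h2 : LInt π g⁻¹) :
    ∃ r c : P, ¬ π ∣ r ∧ ¬ π ∣ c ∧
      algebraMap P Kt r * (b.toMatrix a).det = algebraMap P Kt c := by
  have hN0 : Algebra.norm Kt g ≠ 0 := Algebra.norm_ne_zero_iff.2 hg
  have hNinv : Algebra.norm Kt g⁻¹ = (Algebra.norm Kt g)⁻¹ := by
    apply eq_inv_of_mul_eq_one_left
    rw [← map_mul, inv_mul_cancel₀ hg, map_one]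
  have hd0 : (b.toMatrix a).det ≠ 0 := by
    have h := Module.Basis.toMatrix_mul_toMatrix_flip b a
    intro h0
    have h2 := congrArg Matrix.det h
    rw [Matrix.det_mul, h0, zero_mul, Matrix.det_one] at h2
    exact zero_ne_one h2
  obtain ⟨u, hu, hu', h⟩ := lInt_det_pow_div_norm b a hb hm hg ha hπ one_ne_zero
    (by rwa [one_pow, one_div]) (by rwa [one_pow, div_one])
  refine exists_frac_of_lInt_inv hπ hd0 (LInt.of_pow hm ?_) (LInt.of_pow hm ?_)
  · rw [h]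
    exact hu.mul hπ (lInt_norm hπ h1)
  · rw [inv_pow, h, mul_inv, ← hNinv]
    exact hu'.mul hπ (lInt_norm hπ h2)

end lint

end Fermat.Agent.UNIlib
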