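import Fermat.Agent.UNI.WrapF
import Fermat.Agent.UNI.LPFinal
import Fermat.Agent.ES.M.Final

/-!
# T-UNI, row TORICF (a): the criteria `crit_frob`, `crit_inertia` on `F = F_K(M)`

`E = F(y) ⊆ K((q))`, as in `ES/M/Final.kil_level`.
-/

set_option autoImplicit false
set_option linter.unusedSectionVars false
set_option linter.style.haveILetI false

open ModularCurve IntermediateField Polynomial
open Fermat.Agent.S24lib

namespace Fermat.Agent.UNIlib

open Fermat.Agent.ESlib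

section level

variable {R K : Type} [CommRing R] [IsDomain R] [IsDiscreteValuationRing R] [Field K] [Algebra R K]
  [IsFractionRing R K] [CharZero K] [Algebra ℚ K] {M : ℕ} [NeZero M]
  [Algebra R (FK K M)] [IsScalarTower R K (FK K M)]

/-- extraction of an `m`-th root in `F_K(M)` by a criterion valid for the subextensions
`E = F(y) ⊆ K((q))` -/
theorem exists_root_FK (m : ℕ) (hmK : (m : K) ≠ 0) (f : FK K M) (hf0 : f ≠ 0)
    (hord : (m : ℤ) ∣ (f : LaurentSeries K).order) (c : K)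
    (hc : c ^ m = (f : LaurentSeries K).leadingCoeff)
    (key : ∀ (E : IntermediateField (FK K M) (LaurentSeries K)) (y : E),
      y ^ m = algebraMap (FK K M) E f → IntermediateField.adjoin (FK K M) {y} = ⊤ →
      (∀ z : E, IsIntegral K z → ∃ c : K, algebraMap K E c = z) →
      ∃ x : FK K M, algebraMap (FK K M) E x = y) :
    ∃ ψ : FK K M, ψ ^ m = f := by
  classical
  obtain ⟨y, hy⟩ := laurent_exists_pow_eq_of_leadingCoeff hmK (f : LaurentSeries K)
    (by simpa using hf0) hord c hc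
  let E : IntermediateField (FK K M) (LaurentSeries K) := IntermediateField.adjoin (FK K M) {y}
  let yE : E := ⟨y, IntermediateField.mem_adjoin_simple_self _ y⟩
  obtain ⟨x, hx⟩ := key E yE (Subtype.ext hy) (adjoin_simple_gen_eq_top y) (by
    intro w hw
    have h5 : IsIntegral K (w : LaurentSeries K) := by
      obtain ⟨p, hp, hp0⟩ := hw
      refine ⟨p, hp, ?_⟩
      have h6 := congrArg E.val hp0
      rw [Polynomial.eval₂_eq_sum_range, map_sum, map_zero] at h6
      rw [Polynomial.eval₂_eq_sum_range, ← h6]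
      rfl
    obtain ⟨a, ha⟩ := exists_eq_C_of_isAlgebraic (w : LaurentSeries K) h5.isAlgebraic
    refine ⟨a, Subtype.ext ?_⟩
    rw [ha]
    show algebraMap K (LaurentSeries K) a = _
    rw [algebraMap_laurentSeries_eq_single]
    rfl)
  refine ⟨x, ?_⟩
  have h3 : (x : LaurentSeries K) = y := congrArg Subtype.val hx
  apply Subtype.ext
  show (x : LaurentSeries K) ^ m = _
  rw [h3, hy]

/-- **`crit_frob` on `F_K(M)`.** -/
theorem root_frob_FK {π : R} (hπ : Irreducible π) (t : FK K M) (ht : Transcendental K t)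
    [FiniteDimensional K⟮t⟯ (FK K M)] [FiniteDimensional K⟮t⁻¹⟯ (FK K M)]
    (m : ℕ) (hm : IsUnit (m : R)) (ζ : R) (hζ : IsPrimitiveRoot ζ m)
    {V₁ V₂ : ValuationSubring (FK K M)} {q : ℕ} {ρ : FK K M →+* FK K M}
    (H : NodeHyp π t V₁ V₂ q ρ) (H' : NodeHyp π t⁻¹ V₁ V₂ q ρ)
    (hC : ∀ x, PiInt π t x ↔ x ∈ V₁ ∧ x ∈ V₂)
    (g : FK K M)
    (hg1 : (g - 1) / algebraMap R (FK K M) π ∈ V₁) (hg2 : (g - 1) / algebraMap R (FK K M) π ∈ V₂)
    (hρ1 : (ρ g - 1) / algebraMap R (FK K M) π ∈ V₁)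
    (hρ2 : (ρ g - 1) / algebraMap R (FK K M) π ∈ V₂)
    (hdiv : MDiv K m g) (hdivρ : MDiv K m (ρ g))
    (hord : (m : ℤ) ∣ ((g / ρ g ^ q : FK K M) : LaurentSeries K).order)
    (c : K) (hc : c ^ m = ((g / ρ g ^ q : FK K M) : LaurentSeries K).leadingCoeff) :
    ∃ x : FK K M, x ^ m = g / ρ g ^ q := by
  have hp : Prime π := hπ.prime
  have hm0 : 0 < m := by
    rcases Nat.eq_zero_or_pos m with rfl | h
    · simp at hm
    · exact h
  have hmK : (m : K) ≠ 0 := by
    have := hm.map (algebraMap R K)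
    rw [map_natCast] at this
    exact this.ne_zero
  have ht' : Transcendental K t⁻¹ := by
    intro h
    exact ht (by simpa using h.inv)
  have hC' : ∀ x, PiInt π t⁻¹ x ↔ x ∈ V₁ ∧ x ∈ V₂ := fun x =>
    (piInt_inv_iff hp ht).trans (hC x)
  have hgP : PiInt π t ((g - 1) / algebraMap R (FK K M) π) := (hC _).2 ⟨hg1, hg2⟩
  have hρP : PiInt π t ((ρ g - 1) / algebraMap R (FK K M) π) := (hC _).2 ⟨hρ1, hρ2⟩
  have hloc := locPrin_of_nodeHyp hπ t ht H hC hm0 hdiv hgP
  have hloc' := locPrin_of_nodeHyp hπ t⁻¹ ht' H' hC' hm0 hdiv ((hC' _).2 ⟨hg1, hg2⟩)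
  have hlocρ := locPrin_of_nodeHyp hπ t ht H hC hm0 hdivρ hρP
  have hlocρ' := locPrin_of_nodeHyp hπ t⁻¹ ht' H' hC' hm0 hdivρ ((hC' _).2 ⟨hρ1, hρ2⟩)
  refine exists_root_FK m hmK _ (div_ne_zero hdiv.1 (pow_ne_zero _ hdivρ.1)) hord c hc ?_
  intro E y hy hE hK
  letI : Algebra R E := ((algebraMap K E).comp (algebraMap R K)).toAlgebra
  haveI : IsScalarTower R K E := IsScalarTower.of_algebraMap_eq fun _ => rfl
  haveI : IsScalarTower R (FK K M) E := IsScalarTower.of_algebraMap_eq fun a => by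
    show algebraMap K E (algebraMap R K a) = algebraMap (FK K M) E (algebraMap R (FK K M) a)
    rw [IsScalarTower.algebraMap_apply R K (FK K M), ← IsScalarTower.algebraMap_apply K (FK K M) E]
  exact crit_frob (R := R) (K := K) (F := FK K M) (E := E) hπ t ht m hm ζ hζ H H' hC g hgP
    hloc hloc' hlocρ hlocρ' y hy hE hK

/-- **`crit_inertia` on `F_K(M)`.** -/
theorem root_inertia_FK {π : R} (hπ : Irreducible π) (t : FK K M) (ht : Transcendental K t)
    [FiniteDimensional K⟮t⟯ (FK K M)] [FiniteDimensional K⟮t⁻¹⟯ (FK K M)]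
    (m : ℕ) (hm : IsUnit (m : R)) (ζ : R) (hζ : IsPrimitiveRoot ζ m)
    {V₁ V₂ : ValuationSubring (FK K M)} {q : ℕ} {ρ : FK K M →+* FK K M}
    (H : NodeHyp π t V₁ V₂ q ρ) (H' : NodeHyp π t⁻¹ V₁ V₂ q ρ)
    (hC : ∀ x, PiInt π t x ↔ x ∈ V₁ ∧ x ∈ V₂)
    {σ : FK K M →+* FK K M} {σR : R →+* R}
    (hσ : ∀ a, σ (algebraMap R (FK K M) a) = algebraMap R (FK K M) (σR a))
    (hσπ : ∀ a, π ∣ σR a - a) (hσt : σ t = t)
    (hσ1 : ∀ x, x ∈ V₁ → (σ x - x) / algebraMap R (FK K M) π ∈ V₁)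
    (hσ2 : ∀ x, x ∈ V₂ → (σ x - x) / algebraMap R (FK K M) π ∈ V₂)
    (g : FK K M)
    (hg1 : (g - 1) / algebraMap R (FK K M) π ∈ V₁) (hg2 : (g - 1) / algebraMap R (FK K M) π ∈ V₂)
    (hdiv : MDiv K m g)
    (hord : (m : ℤ) ∣ ((σ g / g : FK K M) : LaurentSeries K).order)
    (c : K) (hc : c ^ m = ((σ g / g : FK K M) : LaurentSeries K).leadingCoeff) :
    ∃ x : FK K M, x ^ m = σ g / g := by
  have hp : Prime π := hπ.prime
  have hm0 : 0 < m := by
    rcases Nat.eq_zero_or_pos m with rfl | h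
    · simp at hm
    · exact h
  have hmK : (m : K) ≠ 0 := by
    have := hm.map (algebraMap R K)
    rw [map_natCast] at this
    exact this.ne_zero
  have ht' : Transcendental K t⁻¹ := by
    intro h
    exact ht (by simpa using h.inv)
  have hC' : ∀ x, PiInt π t⁻¹ x ↔ x ∈ V₁ ∧ x ∈ V₂ := fun x =>
    (piInt_inv_iff hp ht).trans (hC x)
  have hgP : PiInt π t ((g - 1) / algebraMap R (FK K M) π) := (hC _).2 ⟨hg1, hg2⟩
  have hloc := locPrin_of_nodeHyp hπ t ht H hC hm0 hdiv hgP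
  have hloc' := locPrin_of_nodeHyp hπ t⁻¹ ht' H' hC' hm0 hdiv ((hC' _).2 ⟨hg1, hg2⟩)
  have hσg0 : σ g ≠ 0 := by
    rw [Ne, map_eq_zero]
    exact hdiv.1
  refine exists_root_FK m hmK _ (div_ne_zero hσg0 hdiv.1) hord c hc ?_
  intro E y hy hE hK
  letI : Algebra R E := ((algebraMap K E).comp (algebraMap R K)).toAlgebra
  haveI : IsScalarTower R K E := IsScalarTower.of_algebraMap_eq fun _ => rfl
  haveI : IsScalarTower R (FK K M) E := IsScalarTower.of_algebraMap_eq fun a => by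
    show algebraMap K E (algebraMap R K a) = algebraMap (FK K M) E (algebraMap R (FK K M) a)
    rw [IsScalarTower.algebraMap_apply R K (FK K M), ← IsScalarTower.algebraMap_apply K (FK K M) E]
  exact crit_inertia (R := R) (K := K) (F := FK K M) (E := E) hπ t ht m hm ζ hζ hσ hσπ hσt
    (fun x hx => (hC _).2 ⟨hσ1 x ((hC x).1 hx).1, hσ2 x ((hC x).1 hx).2⟩) g hgP
    hloc hloc' y hy hE hK

end level

end Fermat.Agent.UNIlib
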