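import Mathlib

/-!
# T-UNI, endgame, part 0: linear algebra in rank two
-/

set_option autoImplicit false

namespace Fermat.Agent.UNIlib

open Polynomial

/-- the characteristic polynomial of an endomorphism of a free module of rank two -/
theorem charpoly_eq_of_finrank_two {R V : Type*} [CommRing R] [Nontrivial R] [AddCommGroup V]
    [Module R V] [Module.Free R V] [Module.Finite R V] (h2 : Module.finrank R V = 2)
    (f : Module.End R V) :
    LinearMap.charpoly f = X ^ 2 - C (LinearMap.trace R V f) * X + C (LinearMap.det f) := by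
  let b : Module.Basis (Fin 2) R V := Module.finBasisOfFinrankEq R V h2
  rw [← LinearMap.charpoly_toMatrix f b, Matrix.charpoly_fin_two,
    LinearMap.trace_eq_matrix_trace R b f, ← LinearMap.det_toMatrix b f]

/-- `(f - 1) ^ 2 = 0` implies `charpoly f = (X - 1) ^ 2` (rank two, over a domain). -/
theorem charpoly_eq_of_sub_one_sq {R V : Type*} [CommRing R] [IsDomain R] [AddCommGroup V]
    [Module R V] [Module.Free R V] [Module.Finite R V] (h2 : Module.finrank R V = 2)
    (f : Module.End R V) (h : (f - 1) * (f - 1) = 0) :
    LinearMap.charpoly f = (X - 1) ^ 2 := by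
  have hn : IsNilpotent (f - 1) := ⟨2, by rw [pow_two, h]⟩
  have h1 := hn.charpoly_eq_X_pow_finrank
  rw [h2] at h1
  have h3 := LinearMap.charpoly_sub_smul f (1 : R)
  rw [one_smul, h1] at h3
  have h4 := congrArg (fun P : R[X] => P.comp (X - C 1)) h3
  simp only [Polynomial.comp_assoc] at h4
  have h5 : (X + C (1 : R)).comp (X - C 1) = X := by simp
  rw [h5, Polynomial.comp_X] at h4
  rw [← h4]
  simp

/-- trace and determinant from `charpoly f = (X - 1) ^ 2` -/
theorem trace_det_of_charpoly {R V : Type*} [CommRing R] [Nontrivial R] [AddCommGroup V]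
    [Module R V] [Module.Free R V] [Module.Finite R V] (h2 : Module.finrank R V = 2)
    (f : Module.End R V) (h : LinearMap.charpoly f = (X - 1) ^ 2) :
    LinearMap.trace R V f = 2 ∧ LinearMap.det f = 1 := by
  rw [charpoly_eq_of_finrank_two h2 f] at h
  have e : ((X : R[X]) - 1) ^ 2 = X ^ 2 - C 2 * X + C 1 := by
    simp only [map_ofNat, map_one]; ring
  rw [e] at h
  constructor
  · have := congrArg (fun P : R[X] => P.coeff 1) h
    simp only [coeff_add, coeff_sub, coeff_X_pow, coeff_C_mul, coeff_X_one, coeff_C] at this
    norm_num at this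
    exact this
  · have := congrArg (fun P : R[X] => P.coeff 0) h
    simp only [coeff_add, coeff_sub, coeff_X_pow, coeff_C_mul, coeff_X_zero, coeff_C] at this
    norm_num at this
    exact this

end Fermat.Agent.UNIlib
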