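import Fermat.Agent.ES.D.Main
import Fermat.Agent.UNI.End0

/-!
# T-UNI, endgame, part 1: Part D re-run.
`TateDatum` + `TateUnip` (inertia at `r ∥ N` acts unipotently on `Λ / p ^ n`) gives `S30Plus`.
-/

set_option autoImplicit false

namespace Fermat.Agent.UNIlib

open Fermat.Agent.ESlib.PartD IsLocalRing Polynomial TensorProduct

local notation "Qb" => AlgebraicClosure ℚ
local notation "GalQ" => (AlgebraicClosure ℚ ≃ₐ[ℚ] AlgebraicClosure ℚ)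

/-- **(U)** transported to the Tate datum: inertia at `r ∥ N`, `r ≠ p`, is unipotent of
exponent two on every `Λ / p ^ n`. -/
def TateUnip {N : ℕ} [NeZero N] {p : ℕ} (D : TateDatum N p) : Prop :=
  ∀ (n r : ℕ), r.Prime → r ∣ N → ¬ r ^ 2 ∣ N → r ≠ p →
    ∀ A : ValuationSubring (AlgebraicClosure ℚ), A.LiesOverPrime r →
      ∀ σ ∈ A.inertiaSubgroupIn ℚ, (D.gal n σ - 1) * (D.gal n σ - 1) = 0

section Tate

variable {N : ℕ} [NeZero N] {p : ℕ} (D : TateDatum N p)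
variable {O : Type} [CommRing O] [IsLocalRing O] [IsNoetherianRing O]
  [IsAdicComplete (maximalIdeal O) O] (hp : (p : O) ∈ maximalIdeal O)

lemma rhoM_unip (σ : GQ) (h : ∀ n, (D.gal n σ - 1) * (D.gal n σ - 1) = 0) :
    (rhoM D hp σ - 1) * (rhoM D hp σ - 1) = 0 := by
  refine eq_of_forall_smodEq (I := maximalIdeal O) fun n x => ?_
  obtain ⟨y, hy⟩ := Submodule.Quotient.mk_surjective _ (D.gal n σ (Submodule.Quotient.mk x))
  obtain ⟨z, hz⟩ := Submodule.Quotient.mk_surjective _ (D.gal n σ (Submodule.Quotient.mk y))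
  have h0 := congrArg (fun f => f (Submodule.Quotient.mk x)) (h n)
  simp only [Module.End.mul_apply, LinearMap.sub_apply, Module.End.one_apply, map_sub,
    LinearMap.zero_apply] at h0
  rw [← hy, ← hz, ← Submodule.Quotient.mk_sub, ← Submodule.Quotient.mk_sub,
    ← Submodule.Quotient.mk_sub, Submodule.Quotient.mk_eq_zero] at h0
  have h1 : rhoM D hp σ (1 ⊗ₜ x) ≡ 1 ⊗ₜ y [SMOD powTop D.Λ (maximalIdeal O) n] :=
    limRho_smodEq D hp σ hy.symm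
  have h2 : rhoM D hp σ (rhoM D hp σ (1 ⊗ₜ x)) ≡ 1 ⊗ₜ z [SMOD powTop D.Λ (maximalIdeal O) n] :=
    (smodEq_map _ h1).trans (limRho_smodEq D hp σ hz.symm)
  have h5 : ((rhoM D hp σ - 1) * (rhoM D hp σ - 1)) ((1 : O) ⊗ₜ[ℤ] x) =
      rhoM D hp σ (rhoM D hp σ (1 ⊗ₜ x)) - rhoM D hp σ (1 ⊗ₜ x)
        - (rhoM D hp σ (1 ⊗ₜ x) - (1 : O) ⊗ₜ[ℤ] x) := by
    simp only [Module.End.mul_apply, LinearMap.sub_apply, Module.End.one_apply, map_sub]
  rw [h5, LinearMap.zero_apply]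
  refine ((h2.sub h1).sub (h1.sub (SModEq.refl _))).trans ?_
  rw [← TensorProduct.tmul_sub, ← TensorProduct.tmul_sub, ← TensorProduct.tmul_sub, SModEq.zero]
  exact one_tmul_mem_powTop hp h0

end Tate

section Eigen

variable {N : ℕ} [NeZero N] {p : ℕ} (D : TateDatum N p)
variable {O : Type} [CommRing O] [IsDomain O] [IsDiscreteValuationRing O]
  [IsAdicComplete (maximalIdeal O) O] (hp : (p : O) ∈ maximalIdeal O)
  (lam : FullHecke N →+* O)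

lemma repV_unip (hrank : Module.finrank O (eigenO D lam) = 2) (σ : GQ)
    (h : ∀ n, (D.gal n σ - 1) * (D.gal n σ - 1) = 0) :
    ((repV D hp lam hrank).ρ σ - 1) * ((repV D hp lam hrank).ρ σ - 1) = 0 := by
  refine LinearMap.ext fun (v : eigenO D lam) => Subtype.ext ?_
  have h1 := congrArg (fun f => f (v : O ⊗[ℤ] D.Λ)) (rhoM_unip D hp σ h)
  simp only [Module.End.mul_apply, LinearMap.sub_apply, Module.End.one_apply, map_sub,
    LinearMap.zero_apply] at h1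
  have h2 : ((rhoV D hp lam σ - 1) * (rhoV D hp lam σ - 1)) v =
      rhoV D hp lam σ (rhoV D hp lam σ v) - rhoV D hp lam σ v - (rhoV D hp lam σ v - v) := by
    simp only [Module.End.mul_apply, LinearMap.sub_apply, Module.End.one_apply, map_sub]
  show (((rhoV D hp lam σ - 1) * (rhoV D hp lam σ - 1)) v : O ⊗[ℤ] D.Λ) = 0
  rw [h2]
  exact h1

end Eigen

section scalar

/-- `exists_rep_of_scalar` (ES/D/TwoDimA) with one more conclusion. -/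
theorem exists_rep_of_scalar' (p : ℕ) [Fact p.Prime] (O : Type) [CommRing O] [IsLocalRing O]
    [IsAdicComplete (IsLocalRing.maximalIdeal O) O]
    (hp : (p : O) ∈ IsLocalRing.maximalIdeal O) (T : Finset ℕ) (hpT : p ∈ T) (a : ℕ → O)
    (ρ : GaloisRepAdic O) (hunr : ∀ ℓ : ℕ, ℓ.Prime → ℓ ∉ T → ρ.IsUnramifiedAt ℓ)
    (hfrob : ∀ ℓ : ℕ, ℓ.Prime → ℓ ∉ T → ∀ A : ValuationSubring (AlgebraicClosure ℚ),
      A.LiesOverPrime ℓ → ∀ σ, A.IsFrobeniusAt σ ℓ →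
        ρ.ρ σ * ρ.ρ σ - a ℓ • ρ.ρ σ + (ℓ : O) • 1 = 0)
    (hsc : ∀ σ, ∃ c : O, ρ.ρ σ = c • 1) :
    ∃ ρ' : GaloisRepAdic O, (∀ ℓ : ℕ, ℓ.Prime → ℓ ∉ T → ρ'.IsUnramifiedAt ℓ) ∧
      (∀ ℓ : ℕ, ℓ.Prime → ℓ ∉ T → ∀ A : ValuationSubring (AlgebraicClosure ℚ),
        A.LiesOverPrime ℓ → ∀ σ, A.IsFrobeniusAt σ ℓ →
          LinearMap.charpoly (ρ'.ρ σ) = X ^ 2 - C (a ℓ) * X + C ((ℓ : O))) ∧
      (∀ σ, ρ.ρ σ = 1 → cycloZp p σ = 1 → ρ'.ρ σ = 1) := by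
  classical
  let b : Module.Basis (Fin 2) O ρ.V := Module.finBasisOfFinrankEq O ρ.V ρ.finrank_eq
  let sc : Module.End O ρ.V → O := fun f => b.coord 0 (f (b 0))
  have hsc1 : ∀ c : O, sc (c • 1) = c := by
    intro c
    simp [sc]
  have hsc' : ∀ σ, ρ.ρ σ = sc (ρ.ρ σ) • 1 := by
    intro σ
    obtain ⟨c, hc⟩ := hsc σ
    rw [hc, hsc1]
  let ψ₀ : GalQ →* O :=
    { toFun := fun σ => sc (ρ.ρ σ)
      map_one' := by
        have := hsc1 1
        rwa [one_smul, ← map_one ρ.ρ] at this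
      map_mul' := fun σ τ => by
        have h1 : ρ.ρ (σ * τ) = (sc (ρ.ρ σ) * sc (ρ.ρ τ)) • 1 := by
          rw [map_mul]
          conv_lhs => rw [hsc' σ, hsc' τ]
          rw [smul_mul_smul_comm, one_mul]
        rw [h1, hsc1] }
  let ψ : GalQ →* Oˣ := ψ₀.toHomUnits
  have hψ : ∀ σ, ρ.ρ σ = ((ψ σ : Oˣ) : O) • 1 := hsc'
  have hψc : CharCont ψ := by
    intro n
    obtain ⟨L, hL, h⟩ := ρ.isAdicContinuous n
    refine ⟨L, hL, fun σ hσ => ?_⟩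
    have h1 := apply_mem_of_mem_smul_top _ (b.coord 0) (h σ hσ (b 0))
    have h2 : b.coord 0 (ρ.ρ σ (b 0) - b 0) = ((ψ σ : Oˣ) : O) - 1 := by
      rw [map_sub]
      congr 1
      simp
    rwa [h2] at h1
  obtain ⟨ι⟩ := exists_padicHom p O (maximalIdeal O) hp
  have hεc : CharCont (cycloO ι) := cycloO_sub_one_mem ι (maximalIdeal O) hp
  have hne : ∀ ℓ : ℕ, ℓ ∉ T → ℓ ≠ p := fun ℓ hℓ h => hℓ (h ▸ hpT)
  have hψ1 : ∀ σ, ρ.ρ σ = 1 → ψ σ = 1 := by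
    intro σ hσ
    apply Units.ext
    have h2 : ((ψ σ : Oˣ) : O) = sc (ρ.ρ σ) := rfl
    rw [h2, hσ, Units.val_one]
    have := hsc1 1
    rwa [one_smul] at this
  refine ⟨diagRep ψ (cycloO ι / ψ) hψc (hεc.div hψc), ?_, ?_, ?_⟩
  · intro ℓ hℓ hℓT A hA σ hσ
    have h1 : ψ σ = 1 := hψ1 σ (hunr ℓ hℓ hℓT A hA σ hσ)
    refine diagRep_eq_one _ _ _ _ h1 ?_
    rw [MonoidHom.div_apply, h1, cycloO_inertia ι hℓ (hne ℓ hℓT) A hA σ hσ, div_one]
  · intro ℓ hℓ hℓT A hA σ hσ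
    rw [charpoly_diagRep]
    have he : ((cycloO ι σ : Oˣ) : O) = ℓ := cycloO_frob ι hℓ (hne ℓ hℓT) A hA σ hσ
    have hrel : ((ψ σ : Oˣ) : O) * ((ψ σ : Oˣ) : O) - a ℓ * ((ψ σ : Oˣ) : O) + (ℓ : O) = 0 := by
      have h1 := hfrob ℓ hℓ hℓT A hA σ hσ
      rw [hψ σ, smul_mul_smul_comm, one_mul, smul_smul, ← sub_smul, ← add_smul] at h1
      have h2 := hsc1 (((ψ σ : Oˣ) : O) * ((ψ σ : Oˣ) : O) - a ℓ * ((ψ σ : Oˣ) : O) + (ℓ : O))
      rw [h1] at h2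
      rw [← h2]
      simp [sc]
    set c : Oˣ := ψ σ with hc
    have hd : (((cycloO ι / ψ) σ : Oˣ) : O) = (ℓ : O) * ((c⁻¹ : Oˣ) : O) := by
      rw [MonoidHom.div_apply, div_eq_mul_inv, Units.val_mul, he]
    have hcc : (c : O) * ((c⁻¹ : Oˣ) : O) = 1 := Units.mul_inv c
    have hsum : (c : O) + (ℓ : O) * ((c⁻¹ : Oˣ) : O) = a ℓ := by
      linear_combination ((c⁻¹ : Oˣ) : O) * hrel + (a ℓ - (c : O)) * hcc
    have hprod : (c : O) * ((ℓ : O) * ((c⁻¹ : Oˣ) : O)) = ℓ := by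
      linear_combination (ℓ : O) * hcc
    have key : ∀ x y : O, (X - C x) * (X - C y) = X ^ 2 - C (x + y) * X + C (x * y) := by
      intro x y
      simp only [map_add, map_mul]
      ring
    rw [hd, key, hsum, hprod]
  · intro σ hσ hc
    have h1 : ψ σ = 1 := hψ1 σ hσ
    refine diagRep_eq_one _ _ _ _ h1 ?_
    have h2 : cycloO ι σ = 1 := by
      show (Units.map (ι : ℤ_[p] →* O)) (cycloZp p σ) = 1
      rw [hc, map_one]
    rw [MonoidHom.div_apply, h1, h2, div_one]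

end scalar

/-- `exists_rep_charpoly` (ES/D/TwoDim) with one more conclusion: unipotent elements with trivial
cyclotomic character stay unipotent. -/
theorem exists_rep_charpoly' (p : ℕ) [Fact p.Prime] (O : Type) [CommRing O] [IsDomain O]
    [IsDiscreteValuationRing O] [IsAdicComplete (IsLocalRing.maximalIdeal O) O]
    (hp : (p : O) ∈ IsLocalRing.maximalIdeal O) (T : Finset ℕ) (hpT : p ∈ T) (a : ℕ → O)
    (ρ : GaloisRepAdic O) (hunr : ∀ ℓ : ℕ, ℓ.Prime → ℓ ∉ T → ρ.IsUnramifiedAt ℓ)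
    (hfrob : ∀ ℓ : ℕ, ℓ.Prime → ℓ ∉ T → ∀ A : ValuationSubring (AlgebraicClosure ℚ),
      A.LiesOverPrime ℓ → ∀ σ, A.IsFrobeniusAt σ ℓ →
        ρ.ρ σ * ρ.ρ σ - a ℓ • ρ.ρ σ + (ℓ : O) • 1 = 0) :
    ∃ ρ' : GaloisRepAdic O, (∀ ℓ : ℕ, ℓ.Prime → ℓ ∉ T → ρ'.IsUnramifiedAt ℓ) ∧
      (∀ ℓ : ℕ, ℓ.Prime → ℓ ∉ T → ∀ A : ValuationSubring (AlgebraicClosure ℚ),
        A.LiesOverPrime ℓ → ∀ σ, A.IsFrobeniusAt σ ℓ →
          LinearMap.charpoly (ρ'.ρ σ) = X ^ 2 - C (a ℓ) * X + C ((ℓ : O))) ∧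
      (∀ σ, (ρ.ρ σ - 1) * (ρ.ρ σ - 1) = 0 → cycloZp p σ = 1 →
        LinearMap.charpoly (ρ'.ρ σ) = (X - 1) ^ 2) := by
  rcases forall_scalar_or_charpoly p O hp T hpT a ρ hfrob with hsc | hch
  · obtain ⟨ρ', h1, h2, h3⟩ := exists_rep_of_scalar' p O hp T hpT a ρ hunr hfrob hsc
    refine ⟨ρ', h1, h2, fun σ hσ hc => ?_⟩
    have h4 : ρ.ρ σ = 1 := by
      obtain ⟨c, hc'⟩ := hsc σ
      have hV : Nontrivial ρ.V := Module.nontrivial_of_finrank_pos (R := O) (by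
        rw [ρ.finrank_eq]; norm_num)
      have e1 : ρ.ρ σ - 1 = (c - 1) • (1 : Module.End O ρ.V) := by
        rw [hc', sub_smul, one_smul]
      rw [e1, smul_mul_smul_comm, one_mul] at hσ
      have e2 : (c - 1) * (c - 1) = 0 := by
        by_contra hne
        exact one_ne_zero ((smul_eq_zero.mp hσ).resolve_left hne)
      have e3 : c = 1 := by
        have := mul_self_eq_zero.mp e2
        exact sub_eq_zero.mp this
      rw [hc', e3, one_smul]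
    rw [h3 σ h4 hc, LinearMap.charpoly_one, ρ'.finrank_eq]
  · exact ⟨ρ, hunr, hch, fun σ hσ _ => charpoly_eq_of_sub_one_sq ρ.finrank_eq _ hσ⟩

end Fermat.Agent.UNIlib
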