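import Fermat.Agent.UNI.End1
import Fermat.Prelude.Def_GaloisRep_LocalConditions

/-!
# T-UNI, endgame, part 2: `S30Plus` (= S30 + unipotent inertia at `q ∥ N`) from a unipotent
Tate datum
-/

set_option autoImplicit false

namespace Fermat.Agent.UNIlib

open Fermat.Agent.ESlib.PartD IsLocalRing Polynomial

/-- The statement of S30 with one more clause: the representation is unipotent on inertia at every
prime `q ≠ p` exactly dividing `N`. -/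
def S30Plus : Prop :=
    ∀ (p : ℕ) [Fact p.Prime] (N : ℕ) [NeZero N] (S : Finset ℕ)
      (_hpS : p ∈ S) (_hNS : ∀ q : ℕ, q.Prime → q ∣ N → q ∈ S)
      (𝒪' : Type) [CommRing 𝒪'] [IsDomain 𝒪'] [IsDiscreteValuationRing 𝒪']
      [IsAdicComplete (IsLocalRing.maximalIdeal 𝒪') 𝒪'] [Finite (IsLocalRing.ResidueField 𝒪')]
      [CharZero 𝒪'] (_hp𝒪' : (p : 𝒪') ∈ IsLocalRing.maximalIdeal 𝒪')
      (χ : CuspForm.heckeAlgebra N 2 (↑S : Set ℕ) →+* 𝒪'),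
      ∃ (𝒪'' : Type) (_ : CommRing 𝒪'') (_ : IsDomain 𝒪'') (_ : IsDiscreteValuationRing 𝒪'')
        (_ : IsAdicComplete (IsLocalRing.maximalIdeal 𝒪'') 𝒪'')
        (_ : Finite (IsLocalRing.ResidueField 𝒪'')) (_ : CharZero 𝒪'')
        (_ : Algebra 𝒪' 𝒪'') (_ : Module.Finite 𝒪' 𝒪'') (_ : IsLocalHom (algebraMap 𝒪' 𝒪'')),
      Function.Injective (algebraMap 𝒪' 𝒪'') ∧
      ∃ ρ : GaloisRepAdic 𝒪'',
        (∀ (ℓ : ℕ) (hℓ : ℓ.Prime) (hℓN : ¬ ℓ ∣ N) (hℓS : ℓ ∉ (↑S : Set ℕ)),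
          ∀ A : ValuationSubring (AlgebraicClosure ℚ), A.LiesOverPrime ℓ →
            ∀ σ : AlgebraicClosure ℚ ≃ₐ[ℚ] AlgebraicClosure ℚ, A.IsFrobeniusAt σ ℓ →
              LinearMap.charpoly (ρ.ρ σ) =
                X ^ 2 - C (algebraMap 𝒪' 𝒪'' (χ (CuspForm.heckeAlgebra.T hℓ hℓN hℓS))) * X
                  + C ((ℓ : 𝒪''))) ∧
        (∀ q : ℕ, q.Prime → ¬ q ∣ N → q ≠ p → ρ.IsUnramifiedAt q) ∧
        (∀ q : ℕ, q.Prime → q ∣ N → ¬ q ^ 2 ∣ N → q ≠ p → ρ.IsUnipotentOnInertiaAt q)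

theorem exists_rep_of_fullHecke' {N : ℕ} [NeZero N] {p : ℕ} [Fact p.Prime] (D : TateDatum N p)
    (hU : TateUnip D)
    (O : Type) [CommRing O] [IsDomain O] [IsDiscreteValuationRing O]
    [IsAdicComplete (maximalIdeal O) O] [CharZero O] (hp : (p : O) ∈ maximalIdeal O)
    (lam : FullHecke N →+* O) :
    ∃ ρ : GaloisRepAdic O,
      (∀ (ℓ : ℕ) (hℓ : ℓ.Prime) (hℓN : ¬ ℓ ∣ N), ℓ ≠ p →
        ∀ A : ValuationSubring (AlgebraicClosure ℚ), A.LiesOverPrime ℓ →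
          ∀ σ : AlgebraicClosure ℚ ≃ₐ[ℚ] AlgebraicClosure ℚ, A.IsFrobeniusAt σ ℓ →
            LinearMap.charpoly (ρ.ρ σ) =
              X ^ 2 - C (lam (CuspForm.heckeAlgebra.T hℓ hℓN (Set.notMem_empty ℓ))) * X
                + C ((ℓ : O))) ∧
      (∀ q : ℕ, q.Prime → ¬ q ∣ N → q ≠ p → ρ.IsUnramifiedAt q) ∧
      (∀ q : ℕ, q.Prime → q ∣ N → ¬ q ^ 2 ∣ N → q ≠ p → ρ.IsUnipotentOnInertiaAt q) := by
  classical
  have : Module.Finite ℤ (FullHecke N) := Fermat.Agent.S22b.finite_heckeAlgebra N 2 ∅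
  have hrank : Module.finrank O (eigenO D lam) = 2 := finrank_eigenO_eq_two D lam
  let T : Finset ℕ := insert p N.primeFactors
  have hT : ∀ ℓ : ℕ, ℓ.Prime → ℓ ∉ T → ¬ ℓ ∣ N ∧ ℓ ≠ p := by
    intro ℓ hℓ hℓT
    rw [Finset.mem_insert, not_or] at hℓT
    refine ⟨fun hdvd => hℓT.2 ?_, hℓT.1⟩
    exact Nat.mem_primeFactors.mpr ⟨hℓ, hdvd, NeZero.ne N⟩
  have hT' : ∀ ℓ : ℕ, ℓ.Prime → ¬ ℓ ∣ N → ℓ ≠ p → ℓ ∉ T := by
    intro ℓ _ hℓN hℓp hℓT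
    rcases Finset.mem_insert.mp hℓT with h | h
    · exact hℓp h
    · exact hℓN (Nat.dvd_of_mem_primeFactors h)
  let a : ℕ → O := fun ℓ =>
    if h : ℓ.Prime ∧ ¬ ℓ ∣ N then lam (CuspForm.heckeAlgebra.T h.1 h.2 (Set.notMem_empty ℓ)) else 0
  have ha : ∀ (ℓ : ℕ) (hℓ : ℓ.Prime) (hℓN : ¬ ℓ ∣ N),
      a ℓ = lam (CuspForm.heckeAlgebra.T hℓ hℓN (Set.notMem_empty ℓ)) := by
    intro ℓ hℓ hℓN
    exact dif_pos ⟨hℓ, hℓN⟩
  obtain ⟨ρ', hunr, hch, huni⟩ := exists_rep_charpoly' p O hp T (Finset.mem_insert_self p _) a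
    (repV D hp lam hrank)
    (fun ℓ hℓ hℓT => repV_unram D hp lam hrank hℓ (hT ℓ hℓ hℓT).1 (hT ℓ hℓ hℓT).2)
    (fun ℓ hℓ hℓT A hA σ hσ => by
      rw [ha ℓ hℓ (hT ℓ hℓ hℓT).1]
      exact repV_frob D hp lam hrank hℓ (hT ℓ hℓ hℓT).1 (hT ℓ hℓ hℓT).2 A hA σ hσ)
  refine ⟨ρ', fun ℓ hℓ hℓN hℓp A hA σ hσ => ?_, fun q hq hqN hqp => hunr q hq (hT' q hq hqN hqp),
    fun q hq hqN hq2 hqp A hA σ hσ => ?_⟩
  · rw [hch ℓ hℓ (hT' ℓ hℓ hℓN hℓp) A hA σ hσ, ha ℓ hℓ hℓN]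
  · exact huni σ (repV_unip D hp lam hrank σ fun n => hU n q hq hqN hq2 hqp A hA σ hσ)
      (cycloZp_inertia p hq hqp A hA σ hσ)

/-- a family of unipotent Tate data gives `S30Plus`. -/
theorem s30Plus_of_tateDatum
    (H : ∀ (N : ℕ) [NeZero N] (p : ℕ) [Fact p.Prime], ∃ D : TateDatum N p, TateUnip D) :
    S30Plus := by
  intro p _ N _ S hpS _hNS 𝒪' _ _ _ _ _ _ hp𝒪' χ
  obtain ⟨D, hU⟩ := H N p
  obtain ⟨O'', i1, i2, i3, i4, i5, i6, i7, i8, i9, hinj, lam, hlam⟩ :=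
    exists_extend N (↑S : Set ℕ) 𝒪' χ
  have hp'' : (p : O'') ∈ maximalIdeal O'' := by
    have h1 : (p : O'') = algebraMap 𝒪' O'' (p : 𝒪') := by rw [map_natCast]
    rw [h1]
    exact map_nonunit (algebraMap 𝒪' O'') _ hp𝒪'
  obtain ⟨ρ, hch, hunr, huni⟩ := exists_rep_of_fullHecke' D hU O'' hp'' lam
  refine ⟨O'', i1, i2, i3, i4, i5, i6, i7, i8, i9, hinj, ρ, ?_, hunr, huni⟩
  intro ℓ hℓ hℓN hℓS A hA σ hσ
  have hℓp : ℓ ≠ p := by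
    rintro rfl
    exact hℓS (Finset.mem_coe.mpr hpS)
  rw [hch ℓ hℓ hℓN hℓp A hA σ hσ, ← hlam]
  rfl

end Fermat.Agent.UNIlib
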