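import Fermat.Agent.UNI.End2
import Fermat.Agent.S31.Main

/-!
# T-UNI, endgame, part 3: S34 from `S30Plus` (S31-style comparison of traces and determinants)
-/

set_option autoImplicit false

namespace Fermat.Agent.UNIlib

open Fermat.Agent.S31lib IsLocalRing Polynomial CuspForm

/-- adic continuity of the determinant -/
theorem exists_level_det {A : Type} [CommRing A] [IsLocalRing A] (ρ : GaloisRepAdic A) (n : ℕ) :
    ∃ L : IntermediateField ℚ Qb, FiniteDimensional ℚ L ∧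
      ∀ σ σ' : GQ, (∀ x ∈ L, σ x = σ' x) →
        LinearMap.det (ρ.ρ σ) - LinearMap.det (ρ.ρ σ') ∈ IsLocalRing.maximalIdeal A ^ n := by
  classical
  obtain ⟨L, hL, hcont⟩ := ρ.isAdicContinuous n
  refine ⟨L, hL, fun σ σ' hσ => ?_⟩
  let b : Module.Basis (Fin 2) A ρ.V := Module.finBasisOfFinrankEq A ρ.V ρ.finrank_eq
  have hδ : ∀ x ∈ L, (σ'⁻¹ * σ) x = x := by
    intro x hx
    rw [AlgEquiv.mul_apply, hσ x hx]
    exact σ'.symm_apply_apply x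
  have hσσ : σ = σ' * (σ'⁻¹ * σ) := by group
  set h : GQ := σ'⁻¹ * σ with hh
  set M : Matrix (Fin 2) (Fin 2) A := LinearMap.toMatrix b b (ρ.ρ h) with hM
  have hent : ∀ i j, M i j - (1 : Matrix (Fin 2) (Fin 2) A) i j ∈ maximalIdeal A ^ n := by
    intro i j
    have h1 := repr_mem_of_mem_smul_top b _ (hcont h hδ (b j)) i
    rw [map_sub, Finsupp.sub_apply, Module.Basis.repr_self, Finsupp.single_apply] at h1
    rw [hM, LinearMap.toMatrix_apply, Matrix.one_apply]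
    have e : (if j = i then (1 : A) else 0) = if i = j then 1 else 0 := by
      by_cases hij : i = j
      · rw [if_pos hij, if_pos hij.symm]
      · rw [if_neg hij, if_neg (fun h => hij h.symm)]
    rwa [e] at h1
  have hdet : LinearMap.det (ρ.ρ h) - 1 ∈ maximalIdeal A ^ n := by
    rw [← LinearMap.det_toMatrix b, ← hM, Matrix.det_fin_two]
    have h00 := hent 0 0
    have h11 := hent 1 1
    have h01 := hent 0 1
    simp only [Matrix.one_apply_eq] at h00 h11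
    rw [Matrix.one_apply_ne (by decide), sub_zero] at h01
    have e : M 0 0 * M 1 1 - M 0 1 * M 1 0 - 1 =
        (M 0 0 - 1) * M 1 1 + (M 1 1 - 1) - M 0 1 * M 1 0 := by ring
    rw [e]
    exact Ideal.sub_mem _ (Ideal.add_mem _ (Ideal.mul_mem_right _ _ h00) h11)
      (Ideal.mul_mem_right _ _ h01)
  have e : LinearMap.det (ρ.ρ σ) - LinearMap.det (ρ.ρ σ') =
      LinearMap.det (ρ.ρ σ') * (LinearMap.det (ρ.ρ h) - 1) := by
    rw [hσσ, map_mul, map_mul]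
    ring
  rw [e]
  exact Ideal.mul_mem_left _ _ hdet

section

variable {p : ℕ} {N : ℕ} [NeZero N] {S : Finset ℕ}

set_option maxHeartbeats 1000000 in
/-- the consequence of `S30Plus` for one `p`-adic character -/
theorem exists_level_char_unip (hS : S30Plus) [Fact p.Prime] (hpS : p ∈ S)
    (hNS : ∀ q : ℕ, q.Prime → q ∣ N → q ∈ S)
    (𝒪' : Type) [CommRing 𝒪'] [IsDomain 𝒪'] [IsDiscreteValuationRing 𝒪']
    [IsAdicComplete (maximalIdeal 𝒪') 𝒪'] [Finite (ResidueField 𝒪')]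
    [CharZero 𝒪'] (hp𝒪' : (p : 𝒪') ∈ maximalIdeal 𝒪')
    (χ : heckeAlgebra N 2 (↑S : Set ℕ) →+* 𝒪')
    (q : ℕ) (hq : q.Prime) (hqp : q ≠ p) (hqN : q ∣ N) (hq2 : ¬ q ^ 2 ∣ N)
    (P : ValuationSubring Qb) (hP : P.LiesOverPrime q)
    (τ : GQ) (hτ : τ ∈ P.inertiaSubgroupIn ℚ) (n : ℕ) :
    ∃ L : IntermediateField ℚ Qb, FiniteDimensional ℚ L ∧ ∀
      (ℓ : ℕ) (hℓ : ℓ.Prime) (hℓN : ¬ ℓ ∣ N) (hℓS : ℓ ∉ (↑S : Set ℕ))
      (A : ValuationSubring Qb) (_ : A.LiesOverPrime ℓ) (σ : GQ) (_ : A.IsFrobeniusAt σ ℓ) (b : ℕ),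
      (∀ x ∈ L, (σ ^ b) x = τ x) →
      χ (frobTr N S hℓ hℓN hℓS b - 2) ∈ maximalIdeal 𝒪' ^ n := by
  obtain ⟨𝒪'', _, _, _, _, _, _, _, _, _, hinj, ρ, hfrob, -, huni⟩ :=
    hS p N S hpS hNS 𝒪' hp𝒪' χ
  obtain ⟨k, hk⟩ := exists_pow_comap hinj n
  obtain ⟨L, hLfin, hL⟩ := exists_level_trace ρ k
  refine ⟨L, hLfin, ?_⟩
  intro ℓ hℓ hℓN hℓS A hA σ hσ b h1
  apply hk
  have htr : ρ.trace τ = 2 :=
    (trace_det_of_charpoly ρ.finrank_eq _ (huni q hq hqN hq2 hqp P hP τ hτ)).1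
  have e1 : algebraMap 𝒪' 𝒪'' (χ (frobTr N S hℓ hℓN hℓS b)) = ρ.trace (σ ^ b) := by
    rw [trace_pow_frob ρ σ _ _ (hfrob ℓ hℓ hℓN hℓS A hA σ hσ) b, frobTr, map_lucas, map_lucas,
      map_natCast, map_natCast]
  rw [map_sub, map_sub, e1, map_ofNat, map_ofNat, ← htr]
  exact hL (σ ^ b) τ h1

end

variable {p : ℕ} {N : ℕ} [NeZero N] {S : Finset ℕ}
  {𝒪 : Type} [CommRing 𝒪] [IsDomain 𝒪] [IsDiscreteValuationRing 𝒪]
  [IsAdicComplete (IsLocalRing.maximalIdeal 𝒪) 𝒪]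
  {θ : CuspForm.heckeAlgebra N 2 (↑S : Set ℕ) →+* IsLocalRing.ResidueField 𝒪}
  {T : Type} [CommRing T] [IsLocalRing T] [IsNoetherianRing T]
  [IsAdicComplete (IsLocalRing.maximalIdeal T) T] [Algebra 𝒪 T] [IsLocalHom (algebraMap 𝒪 T)]
  [Module.Finite 𝒪 T] [Module.Free 𝒪 T]

set_option maxHeartbeats 2000000 in
/-- **S34 from `S30Plus`.** -/
theorem s34_of_s30Plus (hS : S30Plus) (hp : p.Prime)
    (hp𝒪 : (p : 𝒪) ∈ IsLocalRing.maximalIdeal 𝒪) (hpS : p ∈ S)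
    (hNS : ∀ q : ℕ, q.Prime → q ∣ N → q ∈ S)
    (H : CuspForm.HeckeGaloisRepDatum N (↑S : Set ℕ) 𝒪 θ T)
    (q : ℕ) (hq : q.Prime) (hqp : q ≠ p) (hqN : q ∣ N) (hq2 : ¬ q ^ 2 ∣ N) :
    H.ρ.IsUnipotentOnInertiaAt q := by
  have : Fact p.Prime := ⟨hp⟩
  have hfin : Module.Finite ℤ (heckeAlgebra N 2 (↑S : Set ℕ)) := Fermat.Agent.S22.result N 2 _
  have hfree : Module.Free ℤ (heckeAlgebra N 2 (↑S : Set ℕ)) :=
    Module.free_of_finite_type_torsion_free'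
  have hred : IsReduced (heckeAlgebra N 2 (↑S : Set ℕ)) :=
    isReduced_heckeAlgebra N _ (fun q hq hqN => Finset.mem_coe.mpr (hNS q hq hqN))
  have hpT : (p : T) ∈ maximalIdeal T := by
    have h1 : algebraMap 𝒪 T (p : 𝒪) ∈ maximalIdeal T := by
      rw [IsLocalRing.mem_maximalIdeal, mem_nonunits_iff] at hp𝒪 ⊢
      exact fun h => hp𝒪 (isUnit_of_map_unit (algebraMap 𝒪 T) _ h)
    simpa using h1
  have hkrull : (⨅ i : ℕ, maximalIdeal T ^ i) = ⊥ :=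
    Ideal.iInf_pow_eq_bot_of_isLocalRing _ (Ideal.IsPrime.ne_top inferInstance)
  intro P hP τ hτ
  -- the trace
  have htr : LinearMap.trace T H.ρ.V (H.ρ.ρ τ) = 2 := by
    rw [← sub_eq_zero, ← Ideal.mem_bot, ← hkrull, Ideal.mem_iInf]
    intro n
    obtain ⟨𝒪', _, _, _, _, _, _, hp𝒪', r, χ, hχ⟩ :=
      exists_chars p (heckeAlgebra N 2 (↑S : Set ℕ))
    obtain ⟨n', hn'⟩ := hχ n
    choose L hLfin hL using fun i : Fin r =>
      exists_level_char_unip hS hpS hNS 𝒪' hp𝒪' (χ i) q hq hqp hqN hq2 P hP τ hτ n'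
    obtain ⟨L₀, hL₀fin, hL₀⟩ := exists_level_trace H.ρ n
    let LL : IntermediateField ℚ Qb := L₀ ⊔ ⨆ i, L i
    have : FiniteDimensional ℚ LL := by
      have := hL₀fin
      have := hLfin
      have : FiniteDimensional ℚ (⨆ i, L i : IntermediateField ℚ Qb) :=
        IntermediateField.finiteDimensional_iSup_of_finite
      exact IntermediateField.finiteDimensional_sup _ _
    have hL₀le : L₀ ≤ LL := le_sup_left
    have hLle : ∀ i, L i ≤ LL := fun i => (le_iSup L i).trans le_sup_right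
    obtain ⟨ℓ, hℓ, hℓS, A, hA, σ, hσ, b, hb⟩ := exists_frobenius_pow LL τ S
    have hℓN : ¬ ℓ ∣ N := fun h => hℓS (hNS ℓ hℓ h)
    have hℓS₁ : ℓ ∉ (↑S : Set ℕ) := fun h => hℓS (Finset.mem_coe.mp h)
    obtain ⟨y, hy⟩ := hn' (frobTr N S hℓ hℓN hℓS₁ b - 2) (fun i =>
      hL i ℓ hℓ hℓN hℓS₁ A hA σ hσ b (fun x hx => hb x (hLle i hx)))
    have e1 : H.π (frobTr N S hℓ hℓN hℓS₁ b) = H.ρ.trace (σ ^ b) := by
      rw [trace_pow_frob H.ρ σ _ _ (H.charpoly_frob ℓ hℓ hℓN hℓS₁ A hA σ hσ) b, frobTr, map_lucas,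
        map_natCast]
    have h5 : H.ρ.trace (σ ^ b) - 2 ∈ maximalIdeal T ^ n := by
      have : H.ρ.trace (σ ^ b) - 2 = H.π (frobTr N S hℓ hℓN hℓS₁ b - 2) := by
        rw [map_sub, e1, map_ofNat]
      rw [this, hy, map_mul, map_pow, map_natCast]
      exact Ideal.mul_mem_right _ _ (Ideal.pow_mem_pow hpT n)
    have h3 := hL₀ (σ ^ b) τ (fun x hx => hb x (hL₀le hx))
    have h6 : LinearMap.trace T H.ρ.V (H.ρ.ρ τ) - 2 =
        (H.ρ.trace (σ ^ b) - 2) - (H.ρ.trace (σ ^ b) - H.ρ.trace τ) := by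
      rw [GaloisRepAdic.trace, GaloisRepAdic.trace]; ring
    rw [h6]
    exact Ideal.sub_mem _ h5 h3
  -- the determinant
  have hdet : LinearMap.det (H.ρ.ρ τ) = 1 := by
    rw [← sub_eq_zero, ← Ideal.mem_bot, ← hkrull, Ideal.mem_iInf]
    intro n
    obtain ⟨ι⟩ := Fermat.Agent.ESlib.PartD.exists_padicHom p T (maximalIdeal T) hpT
    obtain ⟨L₀, hL₀fin, hL₀⟩ := exists_level_det H.ρ n
    obtain ⟨L₁, hL₁fin, hL₁⟩ :=
      Fermat.Agent.ESlib.PartD.cycloO_sub_one_mem ι (maximalIdeal T) hpT n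
    let LL : IntermediateField ℚ Qb := L₀ ⊔ L₁
    have : FiniteDimensional ℚ LL := IntermediateField.finiteDimensional_sup _ _
    have hL₀le : L₀ ≤ LL := le_sup_left
    have hL₁le : L₁ ≤ LL := le_sup_right
    obtain ⟨ℓ, hℓ, hℓS, A, hA, σ, hσ, b, hb⟩ := exists_frobenius_pow LL τ S
    have hℓN : ¬ ℓ ∣ N := fun h => hℓS (hNS ℓ hℓ h)
    have hℓS₁ : ℓ ∉ (↑S : Set ℕ) := fun h => hℓS (Finset.mem_coe.mp h)
    have hℓp : ℓ ≠ p := fun h => hℓS (h ▸ hpS)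
    have h3 := hL₀ (σ ^ b) τ (fun x hx => hb x (hL₀le hx))
    -- `det (σ ^ b) = ℓ ^ b`
    have hd1 : LinearMap.det (H.ρ.ρ σ) = (ℓ : T) := by
      have h1 := H.charpoly_frob ℓ hℓ hℓN hℓS₁ A hA σ hσ
      rw [charpoly_eq_of_finrank_two H.ρ.finrank_eq] at h1
      have := congrArg (fun Q : T[X] => Q.coeff 0) h1
      simp only [coeff_add, coeff_sub, coeff_X_pow, coeff_C_mul, coeff_X_zero, coeff_C] at this
      norm_num at this
      exact this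
    have hd2 : LinearMap.det (H.ρ.ρ (σ ^ b)) = (ℓ : T) ^ b := by
      rw [map_pow, map_pow, hd1]
    -- `cyclo (σ ^ b) = ℓ ^ b`, `cyclo τ = 1`
    have hc1 : ((Fermat.Agent.ESlib.PartD.cycloO ι (σ ^ b) : Tˣ) : T) = (ℓ : T) ^ b := by
      rw [map_pow, Units.val_pow_eq_pow_val,
        Fermat.Agent.ESlib.PartD.cycloO_frob ι hℓ hℓp A hA σ hσ]
    have hc2 : Fermat.Agent.ESlib.PartD.cycloO ι τ = 1 :=
      Fermat.Agent.ESlib.PartD.cycloO_inertia ι hq hqp P hP τ hτ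
    have hδ : ∀ x ∈ L₁, (τ⁻¹ * σ ^ b) x = x := by
      intro x hx
      rw [AlgEquiv.mul_apply, hb x (hL₁le hx)]
      exact τ.symm_apply_apply x
    have h4 := hL₁ _ hδ
    rw [map_mul, map_inv, hc2, inv_one, one_mul, hc1] at h4
    have h6 : LinearMap.det (H.ρ.ρ τ) - 1 =
        ((ℓ : T) ^ b - 1) - (LinearMap.det (H.ρ.ρ (σ ^ b)) - LinearMap.det (H.ρ.ρ τ)) := by
      rw [hd2]; ring
    rw [h6]
    exact Ideal.sub_mem _ h4 h3
  rw [charpoly_eq_of_finrank_two H.ρ.finrank_eq, htr, hdet]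
  simp only [map_ofNat, map_one]
  ring

end Fermat.Agent.UNIlib
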