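import Fermat.Agent.UNI.End3
import Fermat.Agent.ES.E.S30Glue
import Fermat.Agent.ES.M.KilHaupt

/-!
# T-UNI, endgame, part 4: `TateUnip` from the function level statement `FunUnip`, and S34 from
`FunUnip`.
-/

set_option autoImplicit false

open ModularCurve AlgebraicCurve

namespace Fermat.Agent.UNIlib

open Fermat.Agent.ESlib Fermat.Agent.ESlib.PartD

/-- **(U)**, function level: for `σ` in the inertia group of `A`, `(σ - 1)² = 0` on
`W_m(ℚ̄, N) = {f : m ∣ div f} / m`-th powers, i.e. `σ²f · f` and `(σ f)²` differ by an `m`-th power. -/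
def FunUnip (N m : ℕ) (A : ValuationSubring Qb) : Prop :=
  ∀ σ ∈ A.inertiaSubgroupIn ℚ, ∀ f : modularFunctionFieldBar N, MDiv Qb m f →
    SameClass m (galF N σ f * galF N σ f) (galF N σ (galF N σ f) * f)

theorem ThetaSys.gal_unip {N : ℕ} [NeZero N] {p : ℕ} (D : ThetaSys N p) (n : ℕ)
    {A : ValuationSubring Qb} (hU : FunUnip N (p ^ n) A) {σ : GQ}
    (hσ : σ ∈ A.inertiaSubgroupIn ℚ) : (D.gal n σ - 1) * (D.gal n σ - 1) = 0 := by
  refine LinearMap.ext fun X => ?_
  obtain ⟨x, rfl⟩ := Submodule.Quotient.mk_surjective _ X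
  obtain ⟨f, hf, hx⟩ := (D.isTheta n).exists_left x
  obtain ⟨y, hy⟩ := (D.isTheta n).exists_right (mDiv_galF hf σ)
  obtain ⟨z, hz⟩ := (D.isTheta n).exists_right (mDiv_galF (mDiv_galF hf σ) σ)
  have e1 := (D.gal_mk_iff n σ hf hx).2 hy
  have e2 := (D.gal_mk_iff n σ (mDiv_galF hf σ) hy).2 hz
  simp only [Module.End.mul_apply, LinearMap.sub_apply, Module.End.one_apply, map_sub,
    LinearMap.zero_apply]
  rw [e1, e2, ← Submodule.Quotient.mk_sub, ← Submodule.Quotient.mk_sub,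
    ← Submodule.Quotient.mk_sub, Submodule.Quotient.mk_eq_zero]
  have h4 : D.rel n (galF N σ (galF N σ f) * f) (z + x) :=
    (D.isTheta n).mul (mDiv_galF (mDiv_galF hf σ) σ) hf hz hx
  have h5 : D.rel n (galF N σ f * galF N σ f) (y + y) :=
    (D.isTheta n).mul (mDiv_galF hf σ) (mDiv_galF hf σ) hy hy
  have h6 := ((D.isTheta n).sameClass_iff ((mDiv_galF hf σ).mul' (mDiv_galF hf σ))
    ((mDiv_galF (mDiv_galF hf σ) σ).mul' hf) h5 h4).1 (hU σ hσ f hf)
  have e : z - y - (y - x) = z + x - (y + y) := by abel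
  rw [e]
  exact h6

/-- the hypothesis to be provided by the geometric part of T-UNI -/
def FunUnipAll : Prop :=
  ∀ (N : ℕ) [NeZero N] (p : ℕ), p.Prime → ∀ (n r : ℕ), r.Prime → r ∣ N → ¬ r ^ 2 ∣ N → r ≠ p →
    ∀ A : ValuationSubring Qb, A.LiesOverPrime r → FunUnip N (p ^ n) A

theorem exists_tateUnip (hU : FunUnipAll) (N : ℕ) [NeZero N] (p : ℕ) [Fact p.Prime] :
    ∃ D : TateDatum N p, TateUnip D :=
  ⟨tateDatumOfKILHaupt (fun _ hl A hA => kilHaupt hl A hA) N p Fact.out,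
    fun n r hr hrN hr2 hrp A hA _ hσ =>
      ThetaSys.gal_unip (thetaSys N p (Fact.out : p.Prime).pos) n
        (hU N p Fact.out n r hr hrN hr2 hrp A hA) hσ⟩

theorem s30Plus_of_funUnip (hU : FunUnipAll) : S30Plus :=
  s30Plus_of_tateDatum fun N _ p _ => exists_tateUnip hU N p

end Fermat.Agent.UNIlib
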