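import Mathlib
import Fermat.Agent.ES.D.TwoDim
import Fermat.Agent.ES.Z.Cheb

/-!
# T-UNI, endgame (representation theory), part 1

* `eq_zero_of_adicCont`: an adically continuous function on `G_ℚ` vanishing on all powers of
  Frobenius elements (outside a finite set of primes) vanishes.
* `det_eq_cycloO`: a two-dimensional adic representation with `det (Frob_ℓ) = ℓ` has determinant the
  cyclotomic character.
* `exists_rep_charpoly_eigen`: the refinement of `exists_rep_charpoly` which keeps track of the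
  eigenvalues of all `ρ σ`.
* `charpoly_eq_of_hasEigenvalue`: the characteristic polynomial from one eigenvalue and the
  determinant.
-/

set_option autoImplicit false

namespace Fermat.Agent.UNIlib

open Polynomial IsLocalRing Fermat.Agent.ESlib Fermat.Agent.ESlib.PartD

local notation "Qb" => AlgebraicClosure ℚ
local notation "GalQ" => (AlgebraicClosure ℚ ≃ₐ[ℚ] AlgebraicClosure ℚ)

section Cont

variable {O : Type} [CommRing O] [IsLocalRing O]

theorem eq_zero_of_adicCont [IsHausdorff (maximalIdeal O) O] {f : GalQ → O} (hf : AdicCont f)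
    (T : Finset ℕ)
    (h : ∀ ℓ : ℕ, ℓ.Prime → ℓ ∉ T → ∀ A : ValuationSubring Qb, A.LiesOverPrime ℓ →
      ∀ σ : GalQ, A.IsFrobeniusAt σ ℓ → ∀ b : ℕ, f (σ ^ b) = 0) (g : GalQ) : f g = 0 := by
  refine IsHausdorff.haus (I := maximalIdeal O) inferInstance (f g) fun n => ?_
  rw [SModEq.zero, smul_eq_mul, Ideal.mul_top]
  obtain ⟨L, hL, hLf⟩ := hf n
  obtain ⟨ℓ, hℓ, hℓT, A, hA, σ, hσ, b, hb⟩ := exists_frobenius_pow_eq L g T
  have h1 := hLf (σ ^ b) ((σ ^ b)⁻¹ * g) (fun x hx => by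
    rw [AlgEquiv.mul_apply, ← hb x hx]
    exact (σ ^ b).symm_apply_apply x)
  rwa [mul_inv_cancel_left, h ℓ hℓ hℓT A hA σ hσ b, sub_zero] at h1

theorem adicCont_det (ρ : GaloisRepAdic O) : AdicCont (fun σ => (mat ρ σ).det) := by
  have := ((adicCont_mat ρ 0 0).mul (adicCont_mat ρ 1 1)).sub
    ((adicCont_mat ρ 0 1).mul (adicCont_mat ρ 1 0))
  have e : (fun σ => (mat ρ σ).det) =
      fun σ => mat ρ σ 0 0 * mat ρ σ 1 1 - mat ρ σ 0 1 * mat ρ σ 1 0 :=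
    funext fun σ => Matrix.det_fin_two _
  rw [e]
  exact this

theorem det_mat (ρ : GaloisRepAdic O) (σ : GalQ) : (mat ρ σ).det = LinearMap.det (ρ.ρ σ) := by
  rw [mat, LinearMap.det_toMatrix]

theorem trace_mat (ρ : GaloisRepAdic O) (σ : GalQ) : (mat ρ σ).trace = ρ.trace σ := by
  rw [mat, GaloisRepAdic.trace, LinearMap.trace_eq_matrix_trace O (rbasis ρ)]

theorem charpoly_eq_trace_det (ρ : GaloisRepAdic O) (σ : GalQ) :
    LinearMap.charpoly (ρ.ρ σ) = X ^ 2 - C (ρ.trace σ) * X + C (LinearMap.det (ρ.ρ σ)) := by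
  rw [charpoly_eq_mat, det_mat, trace_mat]

theorem det_of_charpoly (ρ : GaloisRepAdic O) (σ : GalQ) {t d : O}
    (h : LinearMap.charpoly (ρ.ρ σ) = X ^ 2 - C t * X + C d) : LinearMap.det (ρ.ρ σ) = d := by
  rw [charpoly_eq_trace_det] at h
  have := congrArg (fun P => coeff P 0) h
  simpa using this

/-- **The determinant is the cyclotomic character.** -/
theorem det_eq_cycloO [IsHausdorff (maximalIdeal O) O] {p : ℕ} [Fact p.Prime]
    (hp : (p : O) ∈ maximalIdeal O) (ι : ℤ_[p] →+* O) (ρ : GaloisRepAdic O) (T : Finset ℕ)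
    (hpT : p ∈ T)
    (h : ∀ ℓ : ℕ, ℓ.Prime → ℓ ∉ T → ∀ A : ValuationSubring Qb, A.LiesOverPrime ℓ →
      ∀ σ : GalQ, A.IsFrobeniusAt σ ℓ → LinearMap.det (ρ.ρ σ) = (ℓ : O)) (g : GalQ) :
    LinearMap.det (ρ.ρ g) = ((cycloO ι g : Oˣ) : O) := by
  rw [← sub_eq_zero, ← det_mat]
  refine eq_zero_of_adicCont (f := fun σ => (mat ρ σ).det - ((cycloO ι σ : Oˣ) : O))
    ((adicCont_det ρ).sub (adicCont_cycloO ι hp)) T ?_ g
  intro ℓ hℓ hℓT A hA σ hσ b
  have hℓp : ℓ ≠ p := fun e => hℓT (e ▸ hpT)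
  show (mat ρ (σ ^ b)).det - ((cycloO ι (σ ^ b) : Oˣ) : O) = 0
  rw [det_mat, map_pow, map_pow, map_pow, Units.val_pow_eq_pow_val, h ℓ hℓ hℓT A hA σ hσ,
    cycloO_frob ι hℓ hℓp A hA σ hσ, sub_self]

end Cont

section Eigen

variable {O : Type} [CommRing O] [IsDomain O] [IsLocalRing O]

/-- the characteristic polynomial from one eigenvalue and the determinant -/
theorem charpoly_eq_of_hasEigenvalue (ρ : GaloisRepAdic O) (σ : GalQ) {c c' : O}
    (hc : Module.End.HasEigenvalue (ρ.ρ σ) c) (hdet : LinearMap.det (ρ.ρ σ) = c * c') :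
    LinearMap.charpoly (ρ.ρ σ) = X ^ 2 - C (c + c') * X + C (c * c') := by
  have hroot := (Module.End.hasEigenvalue_iff_isRoot_charpoly _ _).1 hc
  rw [charpoly_eq_trace_det, hdet] at hroot ⊢
  have h1 : c ^ 2 - ρ.trace σ * c + c * c' = 0 := by
    simpa [IsRoot.def] using hroot
  have hu : IsUnit (c * c') := by
    rw [← hdet]
    have : LinearMap.det (ρ.ρ σ) * LinearMap.det (ρ.ρ σ⁻¹) = 1 := by
      rw [← map_mul, ← map_mul, mul_inv_cancel, map_one, map_one]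
    exact IsUnit.of_mul_eq_one _ this
  have hc0 : c ≠ 0 := by
    rintro rfl
    rw [zero_mul] at hu
    exact not_isUnit_zero hu
  have h2 : ρ.trace σ = c + c' := by
    apply mul_left_cancel₀ hc0
    linear_combination -h1
  rw [h2]

omit [IsDomain O] [IsLocalRing O] in
/-- an endomorphism with `(f - 1)² = 0` has the eigenvalue `1` -/
theorem hasEigenvalue_one_of_sq {V : Type*} [AddCommGroup V] [Module O V] [Nontrivial V]
    (f : Module.End O V) (h : (f - 1) * (f - 1) = 0) : Module.End.HasEigenvalue f 1 := by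
  obtain ⟨v, hv⟩ := exists_ne (0 : V)
  by_cases h1 : (f - 1) v = 0
  · refine Module.End.hasEigenvalue_of_hasEigenvector (x := v) ⟨?_, hv⟩
    rw [Module.End.mem_eigenspace_iff, one_smul]
    simpa [sub_eq_zero] using h1
  · refine Module.End.hasEigenvalue_of_hasEigenvector (x := (f - 1) v) ⟨?_, h1⟩
    rw [Module.End.mem_eigenspace_iff, one_smul]
    have := congrArg (fun g => g v) h
    simpa [sub_eq_zero] using this

end Eigen

section scalar

/-- the scalar case of `exists_rep_charpoly`, keeping track of the eigenvalues -/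
theorem exists_rep_of_scalar_eigen (p : ℕ) [Fact p.Prime] (O : Type) [CommRing O] [IsDomain O]
    [IsLocalRing O] [IsAdicComplete (IsLocalRing.maximalIdeal O) O]
    (hp : (p : O) ∈ IsLocalRing.maximalIdeal O) (T : Finset ℕ) (hpT : p ∈ T) (a : ℕ → O)
    (ρ : GaloisRepAdic O) (hunr : ∀ ℓ : ℕ, ℓ.Prime → ℓ ∉ T → ρ.IsUnramifiedAt ℓ)
    (hfrob : ∀ ℓ : ℕ, ℓ.Prime → ℓ ∉ T → ∀ A : ValuationSubring (AlgebraicClosure ℚ),
      A.LiesOverPrime ℓ → ∀ σ, A.IsFrobeniusAt σ ℓ →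
        ρ.ρ σ * ρ.ρ σ - a ℓ • ρ.ρ σ + (ℓ : O) • 1 = 0)
    (hsc : ∀ σ, ∃ c : O, ρ.ρ σ = c • 1) :
    ∃ ρ' : GaloisRepAdic O, (∀ ℓ : ℕ, ℓ.Prime → ℓ ∉ T → ρ'.IsUnramifiedAt ℓ) ∧
      (∀ ℓ : ℕ, ℓ.Prime → ℓ ∉ T → ∀ A : ValuationSubring (AlgebraicClosure ℚ),
        A.LiesOverPrime ℓ → ∀ σ, A.IsFrobeniusAt σ ℓ →
          LinearMap.charpoly (ρ'.ρ σ) = X ^ 2 - C (a ℓ) * X + C ((ℓ : O))) ∧
      ∀ (σ : GalQ) (c : O), Module.End.HasEigenvalue (ρ.ρ σ) c →
        Module.End.HasEigenvalue (ρ'.ρ σ) c := by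
  classical
  let b : Module.Basis (Fin 2) O ρ.V := Module.finBasisOfFinrankEq O ρ.V ρ.finrank_eq
  let sc : Module.End O ρ.V → O := fun f => b.coord 0 (f (b 0))
  have hsc1 : ∀ c : O, sc (c • 1) = c := by
    intro c
    simp [sc]
  have hsc' : ∀ σ, ρ.ρ σ = sc (ρ.ρ σ) • 1 := by
    intro σ
    obtain ⟨c, hc⟩ := hsc σ
    rw [hc, hsc1]
  let ψ₀ : GalQ →* O :=
    { toFun := fun σ => sc (ρ.ρ σ)
      map_one' := by
        have := hsc1 1
        rwa [one_smul, ← map_one ρ.ρ] at this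
      map_mul' := fun σ τ => by
        have h1 : ρ.ρ (σ * τ) = (sc (ρ.ρ σ) * sc (ρ.ρ τ)) • 1 := by
          rw [map_mul]
          conv_lhs => rw [hsc' σ, hsc' τ]
          rw [smul_mul_smul_comm, one_mul]
        rw [h1, hsc1] }
  let ψ : GalQ →* Oˣ := ψ₀.toHomUnits
  have hψ : ∀ σ, ρ.ρ σ = ((ψ σ : Oˣ) : O) • 1 := hsc'
  have hψc : CharCont ψ := by
    intro n
    obtain ⟨L, hL, h⟩ := ρ.isAdicContinuous n
    refine ⟨L, hL, fun σ hσ => ?_⟩
    have h1 := apply_mem_of_mem_smul_top _ (b.coord 0) (h σ hσ (b 0))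
    have h2 : b.coord 0 (ρ.ρ σ (b 0) - b 0) = ((ψ σ : Oˣ) : O) - 1 := by
      rw [map_sub]
      congr 1
      simp
    rwa [h2] at h1
  obtain ⟨ι⟩ := exists_padicHom p O (maximalIdeal O) hp
  have hεc : CharCont (cycloO ι) := cycloO_sub_one_mem ι (maximalIdeal O) hp
  have hne : ∀ ℓ : ℕ, ℓ ∉ T → ℓ ≠ p := fun ℓ hℓ h => hℓ (h ▸ hpT)
  refine ⟨diagRep ψ (cycloO ι / ψ) hψc (hεc.div hψc), ?_, ?_, ?_⟩
  · intro ℓ hℓ hℓT A hA σ hσ
    have h1 : ψ σ = 1 := by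
      apply Units.ext
      have h2 : ((ψ σ : Oˣ) : O) = sc (ρ.ρ σ) := rfl
      rw [h2, hunr ℓ hℓ hℓT A hA σ hσ, Units.val_one]
      have := hsc1 1
      rwa [one_smul] at this
    refine diagRep_eq_one _ _ _ _ h1 ?_
    rw [MonoidHom.div_apply, h1, cycloO_inertia ι hℓ (hne ℓ hℓT) A hA σ hσ, div_one]
  · intro ℓ hℓ hℓT A hA σ hσ
    rw [charpoly_diagRep]
    have he : ((cycloO ι σ : Oˣ) : O) = ℓ := cycloO_frob ι hℓ (hne ℓ hℓT) A hA σ hσ
    have hrel : ((ψ σ : Oˣ) : O) * ((ψ σ : Oˣ) : O) - a ℓ * ((ψ σ : Oˣ) : O) + (ℓ : O) = 0 := by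
      have h1 := hfrob ℓ hℓ hℓT A hA σ hσ
      rw [hψ σ, smul_mul_smul_comm, one_mul, smul_smul, ← sub_smul, ← add_smul] at h1
      have h2 := hsc1 (((ψ σ : Oˣ) : O) * ((ψ σ : Oˣ) : O) - a ℓ * ((ψ σ : Oˣ) : O) + (ℓ : O))
      rw [h1] at h2
      rw [← h2]
      simp [sc]
    set c : Oˣ := ψ σ with hc
    have hd : (((cycloO ι / ψ) σ : Oˣ) : O) = (ℓ : O) * ((c⁻¹ : Oˣ) : O) := by
      rw [MonoidHom.div_apply, div_eq_mul_inv, Units.val_mul, he]
    have hcc : (c : O) * ((c⁻¹ : Oˣ) : O) = 1 := Units.mul_inv c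
    have hsum : (c : O) + (ℓ : O) * ((c⁻¹ : Oˣ) : O) = a ℓ := by
      linear_combination ((c⁻¹ : Oˣ) : O) * hrel + (a ℓ - (c : O)) * hcc
    have hprod : (c : O) * ((ℓ : O) * ((c⁻¹ : Oˣ) : O)) = ℓ := by
      linear_combination (ℓ : O) * hcc
    have key : ∀ x y : O, (X - C x) * (X - C y) = X ^ 2 - C (x + y) * X + C (x * y) := by
      intro x y
      simp only [map_add, map_mul]
      ring
    rw [hd, key, hsum, hprod]
  · intro σ c hc
    obtain ⟨v, hv⟩ := hc.exists_hasEigenvector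
    have h1 : ρ.ρ σ v = c • v := Module.End.mem_eigenspace_iff.1 hv.1
    rw [hψ σ, LinearMap.smul_apply, Module.End.one_apply, ← sub_eq_zero, ← sub_smul] at h1
    have h2 : ((ψ σ : Oˣ) : O) = c := by
      rcases smul_eq_zero.1 h1 with h | h
      · exact sub_eq_zero.1 h
      · exact absurd h hv.2
    rw [Module.End.hasEigenvalue_iff_isRoot_charpoly, charpoly_diagRep, ← h2]
    simp [IsRoot.def]

end scalar

/-- **D3b with eigenvalues.**  The refinement of `exists_rep_charpoly`: all eigenvalues of all `ρ σ`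
are eigenvalues of `ρ' σ`. -/
theorem exists_rep_charpoly_eigen (p : ℕ) [Fact p.Prime] (O : Type) [CommRing O] [IsDomain O]
    [IsDiscreteValuationRing O] [IsAdicComplete (IsLocalRing.maximalIdeal O) O]
    (hp : (p : O) ∈ IsLocalRing.maximalIdeal O) (T : Finset ℕ) (hpT : p ∈ T) (a : ℕ → O)
    (ρ : GaloisRepAdic O) (hunr : ∀ ℓ : ℕ, ℓ.Prime → ℓ ∉ T → ρ.IsUnramifiedAt ℓ)
    (hfrob : ∀ ℓ : ℕ, ℓ.Prime → ℓ ∉ T → ∀ A : ValuationSubring (AlgebraicClosure ℚ),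
      A.LiesOverPrime ℓ → ∀ σ, A.IsFrobeniusAt σ ℓ →
        ρ.ρ σ * ρ.ρ σ - a ℓ • ρ.ρ σ + (ℓ : O) • 1 = 0) :
    ∃ ρ' : GaloisRepAdic O, (∀ ℓ : ℕ, ℓ.Prime → ℓ ∉ T → ρ'.IsUnramifiedAt ℓ) ∧
      (∀ ℓ : ℕ, ℓ.Prime → ℓ ∉ T → ∀ A : ValuationSubring (AlgebraicClosure ℚ),
        A.LiesOverPrime ℓ → ∀ σ, A.IsFrobeniusAt σ ℓ →
          LinearMap.charpoly (ρ'.ρ σ) = X ^ 2 - C (a ℓ) * X + C ((ℓ : O))) ∧
      ∀ (σ : GalQ) (c : O), Module.End.HasEigenvalue (ρ.ρ σ) c →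
        Module.End.HasEigenvalue (ρ'.ρ σ) c := by
  rcases forall_scalar_or_charpoly p O hp T hpT a ρ hfrob with hsc | hch
  · exact exists_rep_of_scalar_eigen p O hp T hpT a ρ hunr hfrob hsc
  · exact ⟨ρ, hunr, hch, fun _ _ h => h⟩

/-- the characteristic polynomial of `ρ σ` from one eigenvalue, for a representation with the
right Frobenius determinants -/
theorem charpoly_eq_of_eigen_of_cyclo {p : ℕ} [Fact p.Prime] {O : Type} [CommRing O] [IsDomain O]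
    [IsLocalRing O] [IsHausdorff (maximalIdeal O) O]
    (hp : (p : O) ∈ maximalIdeal O) (ι : ℤ_[p] →+* O) (ρ : GaloisRepAdic O) (T : Finset ℕ)
    (hpT : p ∈ T)
    (h : ∀ ℓ : ℕ, ℓ.Prime → ℓ ∉ T → ∀ A : ValuationSubring Qb, A.LiesOverPrime ℓ →
      ∀ σ : GalQ, A.IsFrobeniusAt σ ℓ → LinearMap.det (ρ.ρ σ) = (ℓ : O)) (σ : GalQ) {c c' : O}
    (hc : Module.End.HasEigenvalue (ρ.ρ σ) c) (hcc : ((cycloO ι σ : Oˣ) : O) = c * c') :
    LinearMap.charpoly (ρ.ρ σ) = X ^ 2 - C (c + c') * X + C (c * c') :=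
  charpoly_eq_of_hasEigenvalue ρ σ hc (by rw [det_eq_cycloO hp ι ρ T hpT h σ, hcc])

end Fermat.Agent.UNIlib
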