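import Mathlib
import Fermat.Agent.UNI.EndRep
import Fermat.Agent.ES.E.S30Glue

/-!
# T-UNI, endgame, part 2: from `(σ - 1)² = 0` on `W_{p^n}(ℚ̄, N)` to `S30U`

`UnipAt N A m` is the only geometric input of S34: for `σ` in the inertia group of `A`, the operator
`(σ - 1)²` kills `W_m(ℚ̄, N)`.
-/

set_option autoImplicit false

open ModularCurve AlgebraicCurve Fermat.Agent.S28lib

namespace Fermat.Agent.UNIlib

open Polynomial IsLocalRing TensorProduct Fermat.Agent.ESlib Fermat.Agent.ESlib.PartD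

/-- **(U)**: `(σ - 1)² = 0` on `W_m(ℚ̄, N)` for `σ` in the inertia group of `A`. -/
def UnipAt (N : ℕ) (A : ValuationSubring Qb) (m : ℕ) : Prop :=
  ∀ σ ∈ A.inertiaSubgroupIn ℚ, ∀ f : modularFunctionFieldBar N, MDiv Qb m f →
    SameClass m (galF N σ f ^ 2) (galF N σ (galF N σ f) * f)

section Theta

variable {N : ℕ} [NeZero N] {p : ℕ} (D : ThetaSys N p)

theorem thetaSys_gal_unip (n : ℕ) {σ : GQ}
    (hU : ∀ f : modularFunctionFieldBar N, MDiv Qb (p ^ n) f →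
      SameClass (p ^ n) (galF N σ f ^ 2) (galF N σ (galF N σ f) * f)) :
    (D.gal n σ - 1) * (D.gal n σ - 1) = 0 := by
  refine LinearMap.ext fun X => ?_
  obtain ⟨x, rfl⟩ := Submodule.Quotient.mk_surjective _ X
  obtain ⟨f, hf, hx⟩ := (D.isTheta n).exists_left x
  obtain ⟨y, hy⟩ := (D.isTheta n).exists_right (mDiv_galF hf σ)
  obtain ⟨z, hz⟩ := (D.isTheta n).exists_right (mDiv_galF (mDiv_galF hf σ) σ)
  have e1 := (D.gal_mk_iff n σ hf hx).2 hy
  have e2 := (D.gal_mk_iff n σ (mDiv_galF hf σ) hy).2 hz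
  have h1 : D.rel n (galF N σ f ^ 2) (2 • y) := (D.isTheta n).rel_npow (mDiv_galF hf σ) hy 2
  have h2 : D.rel n (galF N σ (galF N σ f) * f) (z + x) :=
    (D.isTheta n).mul (mDiv_galF (mDiv_galF hf σ) σ) hf hz hx
  have h3 := ((D.isTheta n).sameClass_iff ((mDiv_galF hf σ).pow' 2)
    ((mDiv_galF (mDiv_galF hf σ) σ).mul' hf) h1 h2).1 (hU f hf)
  simp only [Module.End.mul_apply, LinearMap.sub_apply, Module.End.one_apply, map_sub, e1, e2,
    LinearMap.zero_apply]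
  rw [← Submodule.Quotient.mk_sub, ← Submodule.Quotient.mk_sub, ← Submodule.Quotient.mk_sub,
    Submodule.Quotient.mk_eq_zero]
  have e : z - y - (y - x) = z + x - 2 • y := by
    rw [two_smul]; abel
  rw [e]
  exact h3

end Theta

section Tate

variable {N : ℕ} [NeZero N] {p : ℕ} (D : TateDatum N p)
variable {O : Type} [CommRing O] [IsLocalRing O] [IsNoetherianRing O]
  [IsAdicComplete (maximalIdeal O) O] (hp : (p : O) ∈ maximalIdeal O)

theorem rhoM_unip_sq {σ : GQ} (h : ∀ n, (D.gal n σ - 1) * (D.gal n σ - 1) = 0) :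
    (rhoM D hp σ - 1) * (rhoM D hp σ - 1) = 0 := by
  refine eq_of_forall_smodEq (I := maximalIdeal O) fun n x => ?_
  obtain ⟨y, hy⟩ := Submodule.Quotient.mk_surjective _ (D.gal n σ (Submodule.Quotient.mk x))
  obtain ⟨z, hz⟩ := Submodule.Quotient.mk_surjective _ (D.gal n σ (Submodule.Quotient.mk y))
  have h0 := congrArg (fun g => g (Submodule.Quotient.mk x)) (h n)
  simp only [Module.End.mul_apply, LinearMap.sub_apply, Module.End.one_apply, map_sub, ← hy, ← hz,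
    LinearMap.zero_apply] at h0
  rw [← Submodule.Quotient.mk_sub, ← Submodule.Quotient.mk_sub, ← Submodule.Quotient.mk_sub,
    Submodule.Quotient.mk_eq_zero] at h0
  have h1 : rhoM D hp σ (1 ⊗ₜ x) ≡ 1 ⊗ₜ y [SMOD powTop D.Λ (maximalIdeal O) n] :=
    limRho_smodEq D hp σ hy.symm
  have h2 : rhoM D hp σ (rhoM D hp σ (1 ⊗ₜ x)) ≡ 1 ⊗ₜ z [SMOD powTop D.Λ (maximalIdeal O) n] :=
    (smodEq_map _ h1).trans (limRho_smodEq D hp σ hz.symm)
  have h5 : ((rhoM D hp σ - 1) * (rhoM D hp σ - 1)) ((1 : O) ⊗ₜ[ℤ] x)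
      = rhoM D hp σ (rhoM D hp σ (1 ⊗ₜ x)) - rhoM D hp σ (1 ⊗ₜ x)
        - (rhoM D hp σ (1 ⊗ₜ x) - (1 : O) ⊗ₜ[ℤ] x) := by
    simp only [Module.End.mul_apply, LinearMap.sub_apply, Module.End.one_apply, map_sub]
  rw [h5, LinearMap.zero_apply]
  refine ((h2.sub h1).sub (h1.sub (SModEq.refl _))).trans ?_
  rw [← TensorProduct.tmul_sub, ← TensorProduct.tmul_sub, ← TensorProduct.tmul_sub, SModEq.zero]
  exact one_tmul_mem_powTop hp h0

end Tate

section Eigen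

variable {N : ℕ} [NeZero N] {p : ℕ} (D : TateDatum N p)
variable {O : Type} [CommRing O] [IsDomain O] [IsDiscreteValuationRing O]
  [IsAdicComplete (maximalIdeal O) O] (hp : (p : O) ∈ maximalIdeal O)
  (lam : FullHecke N →+* O)

theorem repV_unip_sq (hrank : Module.finrank O (eigenO D lam) = 2) {σ : GQ}
    (h : ∀ n, (D.gal n σ - 1) * (D.gal n σ - 1) = 0) :
    ((repV D hp lam hrank).ρ σ - 1) * ((repV D hp lam hrank).ρ σ - 1) = 0 := by
  refine LinearMap.ext fun (v : eigenO D lam) => Subtype.ext ?_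
  have h1 := congrArg (fun f => f (v : O ⊗[ℤ] D.Λ)) (rhoM_unip_sq D hp h)
  simp only [Module.End.mul_apply, LinearMap.sub_apply, Module.End.one_apply, map_sub,
    LinearMap.zero_apply] at h1
  have h3 : ((rhoV D hp lam σ - 1) * (rhoV D hp lam σ - 1)) v
      = rhoV D hp lam σ (rhoV D hp lam σ v) - rhoV D hp lam σ v - (rhoV D hp lam σ v - v) := by
    simp only [Module.End.mul_apply, LinearMap.sub_apply, Module.End.one_apply, map_sub]
  show (((rhoV D hp lam σ - 1) * (rhoV D hp lam σ - 1)) v : O ⊗[ℤ] D.Λ) = 0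
  rw [h3]
  exact h1

end Eigen

section Main

/-- VERSION A with eigenvalues: the representation attached to a character of the full Hecke
algebra; every eigenvalue of `σ` on the eigenspace of the Tate module is an eigenvalue of `ρ σ`. -/
theorem exists_rep_of_fullHecke_eigen {N : ℕ} [NeZero N] {p : ℕ} [Fact p.Prime] (D : TateDatum N p)
    (O : Type) [CommRing O] [IsDomain O] [IsDiscreteValuationRing O]
    [IsAdicComplete (maximalIdeal O) O] [CharZero O] (hp : (p : O) ∈ maximalIdeal O)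
    (lam : FullHecke N →+* O) :
    ∃ ρ : GaloisRepAdic O,
      (∀ (ℓ : ℕ) (hℓ : ℓ.Prime) (hℓN : ¬ ℓ ∣ N), ℓ ≠ p →
        ∀ A : ValuationSubring (AlgebraicClosure ℚ), A.LiesOverPrime ℓ →
          ∀ σ : AlgebraicClosure ℚ ≃ₐ[ℚ] AlgebraicClosure ℚ, A.IsFrobeniusAt σ ℓ →
            LinearMap.charpoly (ρ.ρ σ) =
              X ^ 2 - C (lam (CuspForm.heckeAlgebra.T hℓ hℓN (Set.notMem_empty ℓ))) * X
                + C ((ℓ : O))) ∧
      (∀ q : ℕ, q.Prime → ¬ q ∣ N → q ≠ p → ρ.IsUnramifiedAt q) ∧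
      (∀ (σ : GQ) (c : O), Module.End.HasEigenvalue (rhoV D hp lam σ) c →
        Module.End.HasEigenvalue (ρ.ρ σ) c) := by
  classical
  have : Module.Finite ℤ (FullHecke N) := Fermat.Agent.S22b.finite_heckeAlgebra N 2 ∅
  have hrank : Module.finrank O (eigenO D lam) = 2 := finrank_eigenO_eq_two D lam
  let T : Finset ℕ := insert p N.primeFactors
  have hT : ∀ ℓ : ℕ, ℓ.Prime → ℓ ∉ T → ¬ ℓ ∣ N ∧ ℓ ≠ p := by
    intro ℓ hℓ hℓT
    rw [Finset.mem_insert, not_or] at hℓT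
    refine ⟨fun hdvd => hℓT.2 ?_, hℓT.1⟩
    exact Nat.mem_primeFactors.mpr ⟨hℓ, hdvd, NeZero.ne N⟩
  have hT' : ∀ ℓ : ℕ, ℓ.Prime → ¬ ℓ ∣ N → ℓ ≠ p → ℓ ∉ T := by
    intro ℓ _ hℓN hℓp hℓT
    rcases Finset.mem_insert.mp hℓT with h | h
    · exact hℓp h
    · exact hℓN (Nat.dvd_of_mem_primeFactors h)
  let a : ℕ → O := fun ℓ =>
    if h : ℓ.Prime ∧ ¬ ℓ ∣ N then lam (CuspForm.heckeAlgebra.T h.1 h.2 (Set.notMem_empty ℓ)) else 0
  have ha : ∀ (ℓ : ℕ) (hℓ : ℓ.Prime) (hℓN : ¬ ℓ ∣ N),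
      a ℓ = lam (CuspForm.heckeAlgebra.T hℓ hℓN (Set.notMem_empty ℓ)) := by
    intro ℓ hℓ hℓN
    exact dif_pos ⟨hℓ, hℓN⟩
  obtain ⟨ρ', hunr, hch, heig⟩ := exists_rep_charpoly_eigen p O hp T (Finset.mem_insert_self p _) a
    (repV D hp lam hrank)
    (fun ℓ hℓ hℓT => repV_unram D hp lam hrank hℓ (hT ℓ hℓ hℓT).1 (hT ℓ hℓ hℓT).2)
    (fun ℓ hℓ hℓT A hA σ hσ => by
      rw [ha ℓ hℓ (hT ℓ hℓ hℓT).1]
      exact repV_frob D hp lam hrank hℓ (hT ℓ hℓ hℓT).1 (hT ℓ hℓ hℓT).2 A hA σ hσ)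
  refine ⟨ρ', fun ℓ hℓ hℓN hℓp A hA σ hσ => ?_, fun q hq hqN hqp => hunr q hq (hT' q hq hqN hqp),
    fun σ c h => heig σ c h⟩
  rw [hch ℓ hℓ (hT' ℓ hℓ hℓN hℓp) A hA σ hσ, ha ℓ hℓ hℓN]

/-- unipotence of `ρ σ` from `(σ - 1)² = 0` at all finite levels and `ε(σ) = 1` -/
theorem exists_rep_of_fullHecke_unip {N : ℕ} [NeZero N] {p : ℕ} [Fact p.Prime] (D : TateDatum N p)
    (O : Type) [CommRing O] [IsDomain O] [IsDiscreteValuationRing O]
    [IsAdicComplete (maximalIdeal O) O] [CharZero O] (hp : (p : O) ∈ maximalIdeal O)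
    (lam : FullHecke N →+* O) :
    ∃ ρ : GaloisRepAdic O,
      (∀ (ℓ : ℕ) (hℓ : ℓ.Prime) (hℓN : ¬ ℓ ∣ N), ℓ ≠ p →
        ∀ A : ValuationSubring (AlgebraicClosure ℚ), A.LiesOverPrime ℓ →
          ∀ σ : AlgebraicClosure ℚ ≃ₐ[ℚ] AlgebraicClosure ℚ, A.IsFrobeniusAt σ ℓ →
            LinearMap.charpoly (ρ.ρ σ) =
              X ^ 2 - C (lam (CuspForm.heckeAlgebra.T hℓ hℓN (Set.notMem_empty ℓ))) * X
                + C ((ℓ : O))) ∧
      (∀ q : ℕ, q.Prime → ¬ q ∣ N → q ≠ p → ρ.IsUnramifiedAt q) ∧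
      (∀ σ : GQ, (∀ n, (D.gal n σ - 1) * (D.gal n σ - 1) = 0) → cycloZp p σ = 1 →
        LinearMap.charpoly (ρ.ρ σ) = (X - 1) ^ 2) := by
  classical
  have : Module.Finite ℤ (FullHecke N) := Fermat.Agent.S22b.finite_heckeAlgebra N 2 ∅
  have hrank : Module.finrank O (eigenO D lam) = 2 := finrank_eigenO_eq_two D lam
  obtain ⟨ρ, hch, hunr, heig⟩ := exists_rep_of_fullHecke_eigen D O hp lam
  refine ⟨ρ, hch, hunr, fun σ hσ hε => ?_⟩
  obtain ⟨ι⟩ := exists_padicHom p O (maximalIdeal O) hp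
  have hnt : Nontrivial (eigenO D lam) := Module.nontrivial_of_finrank_pos (R := O) (by omega)
  have h1 : Module.End.HasEigenvalue (ρ.ρ σ) 1 :=
    heig σ 1 (hasEigenvalue_one_of_sq _ (repV_unip_sq D hp lam hrank hσ))
  have h2 := charpoly_eq_of_eigen_of_cyclo hp ι ρ (insert p N.primeFactors)
    (Finset.mem_insert_self p _) (fun ℓ hℓ hℓT A hA τ hτ => by
      rw [Finset.mem_insert, not_or] at hℓT
      have hℓN : ¬ ℓ ∣ N := fun hdvd =>
        hℓT.2 (Nat.mem_primeFactors.mpr ⟨hℓ, hdvd, NeZero.ne N⟩)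
      exact det_of_charpoly ρ τ (hch ℓ hℓ hℓN hℓT.1 A hA τ hτ)) σ (c := 1) (c' := 1) h1
    (by rw [cycloO, MonoidHom.comp_apply, hε, map_one, Units.val_one, mul_one])
  rw [h2]
  simp only [map_add, map_one, mul_one]
  ring

end Main

end Fermat.Agent.UNIlib
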