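import Mathlib
import Fermat.Agent.UNI.EndTate
import Fermat.Agent.ES.M.KilHaupt

/-!
# T-UNI, endgame, part 3: `S30U` (= S30 + unipotent inertia at the primes `q ∥ N`, `q ≠ p`)
from the geometric input `UnipInput`
-/

set_option autoImplicit false

open ModularCurve AlgebraicCurve Fermat.Agent.S28lib

namespace Fermat.Agent.UNIlib

open Polynomial IsLocalRing Fermat.Agent.ESlib Fermat.Agent.ESlib.PartD

/-- **The geometric input of S34**: `(σ - 1)² = 0` on `W_{p^n}(ℚ̄, N)` for `σ` in an inertia group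
at `q ∥ N`, `q ≠ p`. -/
def UnipInput : Prop :=
  ∀ (N : ℕ) [NeZero N] (p q : ℕ), p.Prime → q.Prime → q ≠ p → q ∣ N → ¬ q ^ 2 ∣ N →
    ∀ A : ValuationSubring Qb, A.LiesOverPrime q → ∀ n : ℕ, UnipAt N A (p ^ n)

/-- The statement of S30, with the additional clause on the primes `q ∥ N`. -/
def StatementS30U : Prop :=
    ∀ (p : ℕ) [Fact p.Prime] (N : ℕ) [NeZero N] (S : Finset ℕ)
      (_hpS : p ∈ S) (_hNS : ∀ q : ℕ, q.Prime → q ∣ N → q ∈ S)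
      (𝒪' : Type) [CommRing 𝒪'] [IsDomain 𝒪'] [IsDiscreteValuationRing 𝒪']
      [IsAdicComplete (IsLocalRing.maximalIdeal 𝒪') 𝒪'] [Finite (IsLocalRing.ResidueField 𝒪')]
      [CharZero 𝒪'] (_hp𝒪' : (p : 𝒪') ∈ IsLocalRing.maximalIdeal 𝒪')
      (χ : CuspForm.heckeAlgebra N 2 (↑S : Set ℕ) →+* 𝒪'),
      ∃ (𝒪'' : Type) (_ : CommRing 𝒪'') (_ : IsDomain 𝒪'') (_ : IsDiscreteValuationRing 𝒪'')
        (_ : IsAdicComplete (IsLocalRing.maximalIdeal 𝒪'') 𝒪'')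
        (_ : Finite (IsLocalRing.ResidueField 𝒪'')) (_ : CharZero 𝒪'')
        (_ : Algebra 𝒪' 𝒪'') (_ : Module.Finite 𝒪' 𝒪'') (_ : IsLocalHom (algebraMap 𝒪' 𝒪'')),
      Function.Injective (algebraMap 𝒪' 𝒪'') ∧
      ∃ ρ : GaloisRepAdic 𝒪'',
        (∀ (ℓ : ℕ) (hℓ : ℓ.Prime) (hℓN : ¬ ℓ ∣ N) (hℓS : ℓ ∉ (↑S : Set ℕ)),
          ∀ A : ValuationSubring (AlgebraicClosure ℚ), A.LiesOverPrime ℓ →
            ∀ σ : AlgebraicClosure ℚ ≃ₐ[ℚ] AlgebraicClosure ℚ, A.IsFrobeniusAt σ ℓ →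
              LinearMap.charpoly (ρ.ρ σ) =
                X ^ 2 - C (algebraMap 𝒪' 𝒪'' (χ (CuspForm.heckeAlgebra.T hℓ hℓN hℓS))) * X
                  + C ((ℓ : 𝒪''))) ∧
        (∀ q : ℕ, q.Prime → ¬ q ∣ N → q ≠ p → ρ.IsUnramifiedAt q) ∧
        (∀ q : ℕ, q.Prime → q ≠ p → q ∣ N → ¬ q ^ 2 ∣ N → ρ.IsUnipotentOnInertiaAt q)

/-- the Tate datum of `J₀(N)` -/
noncomputable def tateD (N : ℕ) [NeZero N] (p : ℕ) (hp : p.Prime) : TateDatum N p :=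
  tateDatumOfKILHaupt (fun _ hℓ A hA => kilHaupt hℓ A hA) N p hp

theorem tateD_gal_unip {N : ℕ} [NeZero N] {p : ℕ} (hp : p.Prime) {A : ValuationSubring Qb}
    (n : ℕ) (hU : UnipAt N A (p ^ n)) {σ : GQ} (hσ : σ ∈ A.inertiaSubgroupIn ℚ) :
    ((tateD N p hp).gal n σ - 1) * ((tateD N p hp).gal n σ - 1) = 0 :=
  thetaSys_gal_unip (thetaSys N p hp.pos) n (hU σ hσ)

theorem s30U_of_unipInput (hU : UnipInput) : StatementS30U := by
  intro p _ N _ S hpS _hNS 𝒪' _ _ _ _ _ _ hp𝒪' χ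
  obtain ⟨O'', i1, i2, i3, i4, i5, i6, i7, i8, i9, hinj, lam, hlam⟩ :=
    exists_extend N (↑S : Set ℕ) 𝒪' χ
  have hp'' : (p : O'') ∈ maximalIdeal O'' := by
    have h1 : (p : O'') = algebraMap 𝒪' O'' (p : 𝒪') := by rw [map_natCast]
    rw [h1]
    exact map_nonunit (algebraMap 𝒪' O'') _ hp𝒪'
  obtain ⟨ρ, hch, hunr, hunip⟩ := exists_rep_of_fullHecke_unip (tateD N p Fact.out) O'' hp'' lam
  refine ⟨O'', i1, i2, i3, i4, i5, i6, i7, i8, i9, hinj, ρ, ?_, hunr, ?_⟩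
  · intro ℓ hℓ hℓN hℓS A hA σ hσ
    have hℓp : ℓ ≠ p := by
      rintro rfl
      exact hℓS (Finset.mem_coe.mpr hpS)
    rw [hch ℓ hℓ hℓN hℓp A hA σ hσ, ← hlam]
    rfl
  · intro q hq hqp hqN hq2 A hA σ hσ
    exact hunip σ (fun n => tateD_gal_unip Fact.out n (hU N p q Fact.out hq hqp hqN hq2 A hA n) hσ)
      (cycloZp_inertia p hq hqp A hA σ hσ)

end Fermat.Agent.UNIlib
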