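import Mathlib
import Fermat.Agent.UNI.EndS30U
import Fermat.Agent.S31.Main

/-!
# T-UNI, endgame, part 4: S34 from `S30U`

The trace of `H.ρ τ` (`τ` in an inertia group at `q ∥ N`) is computed by approximating `τ` by powers
of Frobenius elements and comparing with the representations attached to the `p`-adic characters of
the Hecke algebra (as in `S31/Main.lean`); the determinant is the cyclotomic character.
-/

set_option autoImplicit false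

namespace Fermat.Agent.UNIlib

open Polynomial IsLocalRing CuspForm Fermat.Agent.S31lib Fermat.Agent.ESlib.PartD

section

variable {p : ℕ} {N : ℕ} [NeZero N] {S : Finset ℕ}

set_option maxHeartbeats 1000000 in
/-- the consequence of S30U for one `p`-adic character -/
theorem exists_level_char_unipU (hS30 : StatementS30U) [Fact p.Prime] (hpS : p ∈ S)
    (hNS : ∀ q : ℕ, q.Prime → q ∣ N → q ∈ S)
    (𝒪' : Type) [CommRing 𝒪'] [IsDomain 𝒪'] [IsDiscreteValuationRing 𝒪']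
    [IsAdicComplete (maximalIdeal 𝒪') 𝒪'] [Finite (ResidueField 𝒪')]
    [CharZero 𝒪'] (hp𝒪' : (p : 𝒪') ∈ maximalIdeal 𝒪')
    (χ : heckeAlgebra N 2 (↑S : Set ℕ) →+* 𝒪')
    (q : ℕ) (hq : q.Prime) (hqp : q ≠ p) (hqN : q ∣ N) (hq2 : ¬ q ^ 2 ∣ N)
    (P : ValuationSubring Qb) (hP : P.LiesOverPrime q)
    (τ : S31lib.GQ) (hτ : τ ∈ P.inertiaSubgroupIn ℚ) (n : ℕ) :
    ∃ L : IntermediateField ℚ Qb, FiniteDimensional ℚ L ∧ ∀
      (ℓ : ℕ) (hℓ : ℓ.Prime) (hℓN : ¬ ℓ ∣ N) (hℓS : ℓ ∉ (↑S : Set ℕ))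
      (A : ValuationSubring Qb) (_ : A.LiesOverPrime ℓ) (σ : S31lib.GQ) (_ : A.IsFrobeniusAt σ ℓ)
      (b : ℕ), (∀ x ∈ L, (σ ^ b) x = τ x) →
      χ (frobTr N S hℓ hℓN hℓS b - 2) ∈ maximalIdeal 𝒪' ^ n := by
  obtain ⟨𝒪'', _, _, _, _, _, _, _, _, _, hinj, ρ, hfrob, -, hunip⟩ :=
    hS30 p N S hpS hNS 𝒪' hp𝒪' χ
  obtain ⟨k, hk⟩ := exists_pow_comap hinj n
  obtain ⟨L, hLfin, hL⟩ := exists_level_trace ρ k
  refine ⟨L, hLfin, ?_⟩
  intro ℓ hℓ hℓN hℓS A hA σ hσ b h1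
  apply hk
  have htr : ρ.trace τ = 2 := by
    have h2 := hunip q hq hqp hqN hq2 P hP τ hτ
    rw [charpoly_eq_trace_det] at h2
    have h3 := congrArg (fun Q => coeff Q 1) h2
    have e : ((X : 𝒪''[X]) - 1) ^ 2 = X ^ 2 - C 2 * X + C 1 := by
      simp only [map_ofNat, map_one]; ring
    rw [e] at h3
    have h4 : -ρ.trace τ = -2 := by
      simpa [coeff_X, coeff_C, coeff_X_pow, coeff_one] using h3
    exact neg_injective h4
  have e1 : algebraMap 𝒪' 𝒪'' (χ (frobTr N S hℓ hℓN hℓS b)) = ρ.trace (σ ^ b) := by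
    rw [trace_pow_frob ρ σ _ _ (hfrob ℓ hℓ hℓN hℓS A hA σ hσ) b, frobTr, map_lucas, map_lucas,
      map_natCast, map_natCast]
  rw [map_sub, map_sub, e1, map_ofNat, map_ofNat, ← htr]
  exact hL (σ ^ b) τ h1

end

variable {𝒪 : Type} [CommRing 𝒪] [IsDomain 𝒪] [IsDiscreteValuationRing 𝒪]
  [IsAdicComplete (maximalIdeal 𝒪) 𝒪]

set_option maxHeartbeats 2000000 in
/-- **S34** from `S30U`. -/
theorem s34_of_s30U (hS30 : StatementS30U)
    {p : ℕ} (hp : p.Prime) (hp𝒪 : (p : 𝒪) ∈ maximalIdeal 𝒪)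
    {N : ℕ} [NeZero N] {S : Finset ℕ} (hpS : p ∈ S) (hNS : ∀ q : ℕ, q.Prime → q ∣ N → q ∈ S)
    {θ : CuspForm.heckeAlgebra N 2 (↑S : Set ℕ) →+* ResidueField 𝒪}
    {T : Type} [CommRing T] [IsLocalRing T] [IsNoetherianRing T]
    [IsAdicComplete (maximalIdeal T) T] [Algebra 𝒪 T] [IsLocalHom (algebraMap 𝒪 T)]
    [Module.Finite 𝒪 T] [Module.Free 𝒪 T]
    (H : CuspForm.HeckeGaloisRepDatum N (↑S : Set ℕ) 𝒪 θ T)
    (q : ℕ) (hq : q.Prime) (hqp : q ≠ p) (hqN : q ∣ N) (hq2 : ¬ q ^ 2 ∣ N) :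
    H.ρ.IsUnipotentOnInertiaAt q := by
  have : Fact p.Prime := ⟨hp⟩
  have hfin : Module.Finite ℤ (heckeAlgebra N 2 (↑S : Set ℕ)) := Fermat.Agent.S22.result N 2 _
  have hfree : Module.Free ℤ (heckeAlgebra N 2 (↑S : Set ℕ)) :=
    Module.free_of_finite_type_torsion_free'
  have hred : IsReduced (heckeAlgebra N 2 (↑S : Set ℕ)) :=
    isReduced_heckeAlgebra N _ (fun q hq hqN => Finset.mem_coe.mpr (hNS q hq hqN))
  have hpT : (p : T) ∈ maximalIdeal T := by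
    have h1 : algebraMap 𝒪 T (p : 𝒪) ∈ maximalIdeal T := by
      rw [IsLocalRing.mem_maximalIdeal, mem_nonunits_iff] at hp𝒪 ⊢
      exact fun h => hp𝒪 (isUnit_of_map_unit (algebraMap 𝒪 T) _ h)
    simpa using h1
  intro P hP τ hτ
  -- the determinant
  obtain ⟨ι⟩ := exists_padicHom p T (maximalIdeal T) hpT
  have hdet : LinearMap.det (H.ρ.ρ τ) = 1 := by
    rw [det_eq_cycloO hpT ι H.ρ S hpS (fun ℓ hℓ hℓS A hA σ hσ =>
      det_of_charpoly H.ρ σ (H.charpoly_frob ℓ hℓ (fun h => hℓS (hNS ℓ hℓ h))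
        (fun h => hℓS (Finset.mem_coe.mp h)) A hA σ hσ)) τ,
      cycloO_inertia ι hq hqp P hP τ hτ, Units.val_one]
  -- the trace
  have htr : H.ρ.trace τ = 2 := by
    rw [← sub_eq_zero]
    have hkrull : (⨅ i : ℕ, maximalIdeal T ^ i) = ⊥ :=
      Ideal.iInf_pow_eq_bot_of_isLocalRing _ (Ideal.IsPrime.ne_top inferInstance)
    rw [← Ideal.mem_bot, ← hkrull, Ideal.mem_iInf]
    intro n
    obtain ⟨𝒪', _, _, _, _, _, _, hp𝒪', r, χ, hχ⟩ :=
      exists_chars p (heckeAlgebra N 2 (↑S : Set ℕ))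
    obtain ⟨n', hn'⟩ := hχ n
    choose L hLfin hL using fun i : Fin r =>
      exists_level_char_unipU hS30 hpS hNS 𝒪' hp𝒪' (χ i) q hq hqp hqN hq2 P hP τ hτ n'
    obtain ⟨L₀, hL₀fin, hL₀⟩ := exists_level_trace H.ρ n
    let LL : IntermediateField ℚ Qb := L₀ ⊔ ⨆ i, L i
    have : FiniteDimensional ℚ LL := by
      have := hL₀fin
      have := hLfin
      have : FiniteDimensional ℚ (⨆ i, L i : IntermediateField ℚ Qb) :=
        IntermediateField.finiteDimensional_iSup_of_finite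
      exact IntermediateField.finiteDimensional_sup _ _
    have hL₀le : L₀ ≤ LL := le_sup_left
    have hLle : ∀ i, L i ≤ LL := fun i => (le_iSup L i).trans le_sup_right
    obtain ⟨ℓ, hℓ, hℓS, A, hA, σ, hσ, b, hb⟩ := exists_frobenius_pow LL τ S
    have hℓN : ¬ ℓ ∣ N := fun h => hℓS (hNS ℓ hℓ h)
    have hℓS₁ : ℓ ∉ (↑S : Set ℕ) := fun h => hℓS (Finset.mem_coe.mp h)
    obtain ⟨y, hy⟩ := hn' (frobTr N S hℓ hℓN hℓS₁ b - 2) (fun i =>
      hL i ℓ hℓ hℓN hℓS₁ A hA σ hσ b (fun x hx => hb x (hLle i hx)))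
    have e1 : H.π (frobTr N S hℓ hℓN hℓS₁ b) = H.ρ.trace (σ ^ b) := by
      rw [trace_pow_frob H.ρ σ _ _ (H.charpoly_frob ℓ hℓ hℓN hℓS₁ A hA σ hσ) b, frobTr, map_lucas,
        map_natCast]
    have h5 : H.ρ.trace (σ ^ b) - 2 ∈ maximalIdeal T ^ n := by
      have : H.ρ.trace (σ ^ b) - 2 = H.π (frobTr N S hℓ hℓN hℓS₁ b - 2) := by
        rw [map_sub, e1, map_ofNat]
      rw [this, hy, map_mul, map_pow, map_natCast]
      exact Ideal.mul_mem_right _ _ (Ideal.pow_mem_pow hpT n)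
    have h3 := hL₀ (σ ^ b) τ (fun x hx => hb x (hL₀le hx))
    have h6 : H.ρ.trace τ - 2 = (H.ρ.trace (σ ^ b) - 2) - (H.ρ.trace (σ ^ b) - H.ρ.trace τ) := by
      ring
    rw [h6]
    exact Ideal.sub_mem _ h5 h3
  rw [charpoly_eq_trace_det, hdet, htr]
  simp only [map_ofNat, map_one]
  ring

/-- **S34** from the geometric input. -/
theorem s34_of_unipInput (hU : UnipInput)
    {p : ℕ} (hp : p.Prime) (hp𝒪 : (p : 𝒪) ∈ maximalIdeal 𝒪)
    {N : ℕ} [NeZero N] {S : Finset ℕ} (hpS : p ∈ S) (hNS : ∀ q : ℕ, q.Prime → q ∣ N → q ∈ S)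
    {θ : CuspForm.heckeAlgebra N 2 (↑S : Set ℕ) →+* ResidueField 𝒪}
    {T : Type} [CommRing T] [IsLocalRing T] [IsNoetherianRing T]
    [IsAdicComplete (maximalIdeal T) T] [Algebra 𝒪 T] [IsLocalHom (algebraMap 𝒪 T)]
    [Module.Finite 𝒪 T] [Module.Free 𝒪 T]
    (H : CuspForm.HeckeGaloisRepDatum N (↑S : Set ℕ) 𝒪 θ T)
    (q : ℕ) (hq : q.Prime) (hqp : q ≠ p) (hqN : q ∣ N) (hq2 : ¬ q ^ 2 ∣ N) :
    H.ρ.IsUnipotentOnInertiaAt q :=
  s34_of_s30U (s30U_of_unipInput hU) hp hp𝒪 hpS hNS H q hq hqp hqN hq2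

end Fermat.Agent.UNIlib
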