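import Mathlib

/-!
# T-UNI, (LP) half A: `P ⧸ π` is a valuation ring (copy of the former `ES/C/KummerUfd` (KU3))
-/

set_option autoImplicit false

namespace Fermat.Agent.UNIlib

open IsLocalRing

/-- **(KU3)** `O ⧸ π` is a valuation ring: `ε a^m ≡ r^m mod π`, `π ∤ a`, `π ∤ r` implies `u a ≡ r mod π`
for some unit `u`. -/
theorem exists_unit_congr {O : Type*} [CommRing O] [IsDomain O] [IsLocalRing O]
    [IsNoetherianRing O] (π s : O) (hmax : maximalIdeal O = Ideal.span {π, s}) (hπ : Prime π)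
    {m : ℕ} (hm : m ≠ 0) (ε : Oˣ) (a r : O) (ha : ¬ π ∣ a) (hr : ¬ π ∣ r)
    (h : π ∣ ε * a ^ m - r ^ m) : ∃ u : Oˣ, π ∣ u * a - r := by
  classical
  set I : Ideal O := Ideal.span {π} with hI
  have hIp : I.IsPrime := (Ideal.span_singleton_prime hπ.ne_zero).2 hπ
  have hIle : I ≤ maximalIdeal O := by
    rw [hmax, hI]
    exact Ideal.span_mono (by simp)
  let q : O →+* O ⧸ I := Ideal.Quotient.mk I
  have hq : Function.Surjective q := Ideal.Quotient.mk_surjective
  have hq0 : ∀ x : O, q x = 0 ↔ π ∣ x := by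
    intro x
    rw [Ideal.Quotient.eq_zero_iff_mem, hI, Ideal.mem_span_singleton]
  have : IsDomain (O ⧸ I) := Ideal.Quotient.isDomain I
  have : IsLocalRing (O ⧸ I) := IsLocalRing.of_surjective' q hq
  -- units lift
  have hlift : ∀ x : O, IsUnit (q x) → IsUnit x := by
    intro x hx
    by_contra hx'
    have hxm : x ∈ maximalIdeal O := (mem_maximalIdeal x).2 hx'
    obtain ⟨y, hy⟩ := hx.exists_right_inv
    obtain ⟨t, rfl⟩ := hq y
    have : q (x * t - 1) = 0 := by rw [map_sub, map_mul, hy, map_one, sub_self]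
    have h2 : x * t - 1 ∈ maximalIdeal O := hIle (Ideal.Quotient.eq_zero_iff_mem.1 this)
    have h3 : (1 : O) ∈ maximalIdeal O := by
      have : (1 : O) = x * t - (x * t - 1) := by ring
      rw [this]
      exact Ideal.sub_mem _ (Ideal.mul_mem_right _ _ hxm) h2
    exact (Ideal.ne_top_iff_one _).1 (maximalIdeal.isMaximal O).ne_top h3
  have hprin : (maximalIdeal (O ⧸ I)).IsPrincipal := by
    refine ⟨⟨q s, ?_⟩⟩
    apply le_antisymm
    · intro x hx
      obtain ⟨y, rfl⟩ := hq x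
      have hy : y ∈ maximalIdeal O := by
        rw [mem_maximalIdeal, mem_nonunits_iff]
        intro hy
        exact (mem_maximalIdeal _).1 hx (hy.map q)
      rw [hmax, Ideal.mem_span_pair] at hy
      obtain ⟨c, d, rfl⟩ := hy
      have : q (c * π + d * s) = q d * q s := by
        rw [map_add, map_mul, map_mul, (hq0 π).2 dvd_rfl, mul_zero, zero_add]
      rw [this]
      exact Ideal.mul_mem_left _ _ (Submodule.mem_span_singleton_self _)
    · rw [Submodule.span_singleton_le_iff_mem, mem_maximalIdeal, mem_nonunits_iff]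
      intro hs
      have := hlift s hs
      have hsm : s ∈ maximalIdeal O := by
        rw [hmax]; exact Ideal.subset_span (by simp)
      exact (mem_maximalIdeal _).1 hsm this
  have : ValuationRing (O ⧸ I) :=
    ((tfae_of_isNoetherianRing_of_isLocalRing_of_isDomain (O ⧸ I)).out 4 1).1 hprin
  have ha0 : q a ≠ 0 := fun h => ha ((hq0 a).1 h)
  have hr0 : q r ≠ 0 := fun h => hr ((hq0 r).1 h)
  have heq : q ε * q a ^ m = q r ^ m := by
    have := (hq0 _).2 h
    rw [map_sub, map_mul, map_pow, map_pow, sub_eq_zero] at this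
    exact this
  have hεu : IsUnit (q ε) := ε.isUnit.map q
  rcases ValuationRing.dvd_total (q a) (q r) with ⟨c, hc⟩ | ⟨c, hc⟩
  · obtain ⟨c0, rfl⟩ := hq c
    have h1 : q c0 ^ m = q ε := by
      rw [hc, mul_pow, mul_comm] at heq
      exact (mul_left_cancel₀ (pow_ne_zero m ha0) heq).symm
    have hcu : IsUnit (q c0) := (isUnit_pow_iff hm).1 (h1 ▸ hεu)
    obtain ⟨u, rfl⟩ := hlift c0 hcu
    refine ⟨u, (hq0 _).1 ?_⟩
    rw [map_sub, map_mul, hc, mul_comm, sub_self]
  · obtain ⟨c0, rfl⟩ := hq c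
    have h1 : q ε * q c0 ^ m = 1 := by
      rw [hc, mul_pow] at heq
      have : q r ^ m * (q ε * q c0 ^ m) = q r ^ m * 1 := by
        rw [mul_one]
        calc q r ^ m * (q ε * q c0 ^ m) = q ε * (q r ^ m * q c0 ^ m) := by ring
          _ = q r ^ m := heq
      exact mul_left_cancel₀ (pow_ne_zero m hr0) this
    have hcu : IsUnit (q c0) := (isUnit_pow_iff hm).1 (IsUnit.of_mul_eq_one_right _ h1)
    obtain ⟨u, rfl⟩ := hlift c0 hcu
    refine ⟨u⁻¹, (hq0 _).1 ?_⟩
    have h2 : q ((u⁻¹ : Oˣ) : O) * q (u : O) = 1 := by rw [← map_mul]; simp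
    rw [map_sub, map_mul, hc, sub_eq_zero]
    calc q ((u⁻¹ : Oˣ) : O) * (q r * q u) = q r * (q ((u⁻¹ : Oˣ) : O) * q (u : O)) := by ring
      _ = q r := by rw [h2, mul_one]

end Fermat.Agent.UNIlib
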