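import Mathlib
import Fermat.Agent.ES.C.AKDefs
import Fermat.Agent.ES.C.AK2Free
import Fermat.Agent.ES.C.Ufd
import Fermat.Agent.UNI.LPAU
import Fermat.Agent.UNI.LPA0
import Fermat.Agent.UNI.CLat
import Fermat.Agent.UNI.LPA2
import Fermat.Agent.UNI.LPA2N

/-!
# T-UNI, (LP) half A (= S2-S5 of helper9 #462, shape of helper10 #489)
-/

set_option autoImplicit false

namespace Fermat.Agent.UNIlib

open Fermat.Agent.ESlib IsLocalRing

universe u

theorem LInt.congr_associated {P F : Type*} [CommRing P] [Field F] [Algebra P F] {ϱ π : P}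
    (h : Associated ϱ π) {x : F} (hx : LInt π x) : LInt ϱ x := by
  obtain ⟨r, hr, hx⟩ := hx
  exact ⟨r, fun h' => hr (h.dvd_iff_dvd_left.1 h'), hx⟩

/-- **(LP), half A.**  `P` two-dimensional regular local with maximal ideal `(π, s)`, `F / Frac P`
finite, `g ≡ 1 mod π C`, and at every prime `ϱ ≠ π` of `P`, `g` is a unit times an `m`-th power.
Then `O` and `𝔞 = {f | f ^ m / g ∈ O}` have `P`-bases `b`, `a` whose transition determinant is a
unit of `P` modulo `π P_(π)`. -/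
theorem lp_halfA {P F : Type u} {Kt : Type*} [CommRing P] [IsDomain P] [IsLocalRing P]
    [IsNoetherianRing P] [IsIntegrallyClosed P] [Field Kt] [Field F] [Algebra P Kt]
    [IsFractionRing P Kt] [Algebra Kt F] [Algebra P F] [IsScalarTower P Kt F]
    [FiniteDimensional Kt F] [CharZero Kt]
    (π s : P) (hmax : maximalIdeal P = Ideal.span {π, s}) (hπ : Prime π) (hs : ¬ π ∣ s)
    {m : ℕ} (hm : 0 < m) {g : F} (hg0 : g ≠ 0)
    (hg : LInt π ((g - 1) / algebraMap P F π))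
    (hH : ∀ ϱ : P, Prime ϱ → ¬ Associated ϱ π →
      ∃ f : F, f ≠ 0 ∧ LInt ϱ (f ^ m / g) ∧ LInt ϱ (g / f ^ m)) :
    ∃ b a : Module.Basis (Fin (Module.finrank Kt F)) Kt F, IsIntBasis P b ∧
      (∀ f : F, IsIntegral P (f ^ m / g) ↔ ∀ k, a.repr f k ∈ (algebraMap P Kt).range) ∧
      ∃ c : Pˣ, ∃ r : P, ¬ π ∣ r ∧ ∃ w : P,
        algebraMap P Kt r * ((b.toMatrix a).det - algebraMap P Kt c) =
          algebraMap P Kt (π * w) := by
  classical
  obtain ⟨b, hb⟩ := exists_isIntBasis (Kt := Kt) (L := F) π s hmax hπ hs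
  obtain ⟨a, ha⟩ := exists_rootLat_basis_div (Kt := Kt) π s hmax hπ hs hg0 hm
  refine ⟨b, a, hb, ha, ?_⟩
  have hufd : UniqueFactorizationMonoid P := ufd_of_regular_two π s hmax hπ hs
  have hinj := IsFractionRing.injective P Kt
  have hπF : algebraMap P F π ≠ 0 := by
    rw [IsScalarTower.algebraMap_apply P Kt F]
    simpa using hπ.ne_zero
  have hπK : algebraMap P Kt π ≠ 0 := by simpa using hπ.ne_zero
  set d : Kt := (b.toMatrix a).det with hd
  have hd0 : d ≠ 0 := by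
    rw [hd, ← Module.Basis.det_apply]
    exact ((Module.Basis.is_basis_iff_det b).1 ⟨a.linearIndependent, a.span_eq⟩).ne_zero
  -- `g`, `g⁻¹` are `π`-integral
  have hgC : LInt π g := by
    have h1 : g = 1 + algebraMap P F π * ((g - 1) / algebraMap P F π) := by
      field_simp
      ring
    rw [h1]
    exact (LInt.of_isIntegral hπ isIntegral_one).add hπ ((LInt.algebraMap hπ π).mul hπ hg)
  have hgC' : LInt π g⁻¹ := lInt_inv_of_sub_one_div b hb hπ hg
  have h1π : LInt π ((1 : F) ^ m / g) := by rwa [one_pow, one_div]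
  have h2π : LInt π (g / (1 : F) ^ m) := by rwa [one_pow, div_one]
  have hN0 : Algebra.norm Kt g ≠ 0 := Algebra.norm_ne_zero_iff.2 hg0
  -- the local comparison
  have hloc : ∀ ϱ : P, Prime ϱ → ∃ u : Kt, LInt ϱ u ∧ LInt ϱ u⁻¹ ∧
      d ^ m = u * Algebra.norm Kt g := by
    intro ϱ hϱ
    by_cases hass : Associated ϱ π
    · exact det_toMatrix_pow_eq_mul_norm b a hb hm hg0 ha hϱ one_ne_zero
        (LInt.congr_associated hass h1π) (LInt.congr_associated hass h2π)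
    · obtain ⟨f, hf0, h1, h2⟩ := hH ϱ hϱ hass
      exact det_toMatrix_pow_eq_mul_norm b a hb hm hg0 ha hϱ hf0 h1 h2
  -- `d ^ m = ε * N g`
  obtain ⟨ε, hε⟩ : ∃ ε : Pˣ, d ^ m = algebraMap P Kt ε * Algebra.norm Kt g := by
    obtain ⟨e, he⟩ := mem_range_of_forall_lInt (d ^ m / Algebra.norm Kt g) (fun ϱ hϱ => by
      obtain ⟨u, hu, -, h⟩ := hloc ϱ hϱ
      rwa [h, mul_div_cancel_right₀ _ hN0])
    obtain ⟨e', he'⟩ := mem_range_of_forall_lInt (d ^ m / Algebra.norm Kt g)⁻¹ (fun ϱ hϱ => by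
      obtain ⟨u, -, hu, h⟩ := hloc ϱ hϱ
      rwa [h, mul_div_cancel_right₀ _ hN0])
    have hne : d ^ m / Algebra.norm Kt g ≠ 0 := by
      exact div_ne_zero (pow_ne_zero _ hd0) hN0
    have hee : e * e' = 1 := by
      apply hinj
      rw [map_mul, he, he', map_one, mul_inv_cancel₀ hne]
    refine ⟨⟨e, e', hee, by rw [mul_comm, hee]⟩, ?_⟩
    change d ^ m = algebraMap P Kt e * _
    rw [he, div_mul_cancel₀ _ hN0]
  -- `d` is a unit of `P_(π)`
  obtain ⟨u, hu, hu', hdu⟩ := det_toMatrix_eq_mul_norm b a hb hm hg0 ha hπ one_ne_zero h1π h2π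
  rw [map_one, mul_one, ← hd] at hdu
  rw [← hdu] at hu hu'
  obtain ⟨a₁, r₁, ha₁, h₁⟩ := lInt_frac_iff.1 hu
  obtain ⟨a₂, r₂, ha₂, h₂⟩ := lInt_frac_iff.1 hu'
  have hr₁ : ¬ π ∣ r₁ := by
    intro hdvd
    have h3 : a₁ * a₂ = r₁ * r₂ := by
      apply hinj
      rw [map_mul, map_mul, ← h₁, ← h₂]
      field_simp
    exact (hπ.dvd_or_dvd (h3 ▸ Dvd.dvd.mul_right hdvd r₂)).elim ha₁ ha₂
  -- `N g ≡ 1`
  obtain ⟨y₂, y₁, hy₂, hy⟩ := lInt_frac_iff.1 (lInt_norm_sub_one_div b hb hπ hg)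
  have hkey : y₂ * r₁ ^ m = ε * a₁ ^ m * (y₂ + π * y₁) := by
    apply hinj
    simp only [map_mul, map_pow, map_add]
    rw [← h₁, ← hy, mul_pow, hε]
    field_simp
    ring
  have hdvd : π ∣ ε * a₁ ^ m - r₁ ^ m := by
    have h4 : π ∣ y₂ * (ε * a₁ ^ m - r₁ ^ m) := by
      refine ⟨-(ε * a₁ ^ m * y₁), ?_⟩
      rw [mul_sub, hkey]
      ring
    exact (hπ.dvd_or_dvd h4).resolve_left hy₂
  obtain ⟨c, w, hw⟩ := exists_unit_congr π s hmax hπ hm.ne' ε a₁ r₁ ha₁ hr₁ hdvd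
  refine ⟨c, a₁, ha₁, -w, ?_⟩
  rw [mul_sub, h₁, ← map_mul, ← map_sub]
  congr 1
  linear_combination -hw

end Fermat.Agent.UNIlib
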