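import Mathlib

/-!
# T-UNI, local principality: the abstract end of the proof ((S8), Lemma U, (S9))

* `exists_weak_inv`: a reduced Artinian ring is von Neumann regular.
* `exists_unit_mul_mem` (Lemma U): `T ⊆ Tt` reduced, `T` Artinian, `U ⊆ Tt` a `T`-submodule with
  `u ^ n * v ∈ T` for `u v ∈ U`.  Then `z U ⊆ T` for some unit `z` of `Tt`.
* `exists_isUnit_of_det` (END): `Ob ⊆ Ot`, `ab ⊆ Ot` lattices of the same index, `ab` an `Ob`-module with
  `f ^ n * f' ∈ Ob`, and `Ob` contains a radical ideal `𝔯` of `Ot` contained in the Jacobson radical.  Then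
  `ab = f Ob` for a unit `f` of `Ot`.
-/

set_option autoImplicit false

open scoped BigOperators

namespace Fermat.Agent.UNIlib

/-- a reduced Artinian ring is von Neumann regular -/
theorem exists_weak_inv {T : Type*} [CommRing T] [IsArtinianRing T] [IsReduced T] (c : T) :
    ∃ c' : T, c * c' * c = c := by
  obtain ⟨n, y, hy⟩ := IsArtinian.exists_pow_succ_smul_dvd c (1 : T)
  simp only [smul_eq_mul, mul_one, Nat.succ_eq_add_one] at hy
  refine ⟨y, ?_⟩
  have h0 : (c - c * y * c) ^ (n + 1) = 0 := by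
    have : c - c * y * c = c * (1 - c * y) := by ring
    rw [this, mul_pow]
    have h1 : c ^ (n + 1) * (1 - c * y) ^ (n + 1) =
        c * (c ^ n - c ^ (n + 1) * y) * (1 - c * y) ^ n := by ring
    rw [h1, hy, sub_self, mul_zero, zero_mul]
  have := pow_eq_zero_iff (n.succ_ne_zero) |>.mp h0
  exact (sub_eq_zero.mp this).symm

theorem add_pow_of_mul_eq_zero {A : Type*} [CommRing A] {u v : A} (h : u * v = 0) (k : ℕ) :
    (u + v) ^ (k + 1) = u ^ (k + 1) + v ^ (k + 1) := by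
  induction k with
  | zero => simp
  | succ k ih =>
    rw [pow_succ, ih]
    have h1 : u ^ (k + 1) * v = 0 := by rw [pow_succ, mul_assoc, h, mul_zero]
    have h2 : v ^ (k + 1) * u = 0 := by rw [pow_succ, mul_assoc, mul_comm v u, h, mul_zero]
    calc (u ^ (k + 1) + v ^ (k + 1)) * (u + v)
        = u ^ (k + 1) * u + v ^ (k + 1) * v + (u ^ (k + 1) * v + v ^ (k + 1) * u) := by ring
      _ = u ^ (k + 1 + 1) + v ^ (k + 1 + 1) := by rw [h1, h2, pow_succ, pow_succ _ (k + 1)]; ring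

/-- **Lemma U** -/
theorem exists_unit_mul_mem {Tt : Type*} [CommRing Tt] [IsReduced Tt] (T : Subring Tt)
    [IsArtinianRing T] (U : AddSubgroup Tt) (hTU : ∀ t ∈ T, ∀ u ∈ U, t * u ∈ U) (n : ℕ)
    (hU : ∀ u ∈ U, ∀ v ∈ U, u ^ n * v ∈ T) : ∃ z : Ttˣ, ∀ u ∈ U, (z : Tt) * u ∈ T := by
  classical
  haveI : IsReduced T := isReduced_of_injective T.subtype Subtype.val_injective
  -- choose `u` with `(u ^ (n + 1))` maximal
  let J : U → Ideal T := fun u => Ideal.span {(⟨(u : Tt) ^ n * u, hU u u.2 u u.2⟩ : T)}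
  obtain ⟨_, ⟨u, rfl⟩, hmax⟩ := (set_has_maximal_iff_noetherian (R := T) (M := T)).2 inferInstance
    (Set.range J) ⟨_, ⟨0, rfl⟩⟩
  set c : T := ⟨(u : Tt) ^ n * u, hU u u.2 u u.2⟩ with hc
  obtain ⟨c₀, hc₀⟩ := exists_weak_inv c
  set c' : T := c₀ * c * c₀ with hc'
  set e : T := c * c' with he
  have hec : e * c = c := by
    rw [he, hc']
    calc c * (c₀ * c * c₀) * c = (c * c₀ * c) * c₀ * c := by ring
      _ = c := by rw [hc₀, hc₀]
  have hc'e : c' * e = c' := by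
    rw [he, hc']
    calc c₀ * c * c₀ * (c * (c₀ * c * c₀)) = c₀ * ((c * c₀ * c) * c₀ * c) * c₀ := by ring
      _ = c₀ * c * c₀ := by rw [hc₀, hc₀]
  have hee : e * e = e := by
    rw [he]
    calc c * c' * (c * c') = c * (c' * (c * c')) := by ring
      _ = c * c' := by rw [← he, hc'e]
  have hcT : (c : Tt) = (u : Tt) ^ (n + 1) := by rw [hc, pow_succ]
  -- `(1 - e) u = 0`
  have h1u : (1 - (e : Tt)) * u = 0 := by
    have h0 : ((1 - (e : Tt)) * u) ^ (n + 1) = 0 := by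
      rw [mul_pow, ← hcT, pow_succ, mul_assoc]
      have : (1 - (e : Tt)) * c = 0 := by
        have := congrArg (Subtype.val) hec
        simp only [Subring.coe_mul] at this
        rw [sub_mul, one_mul, this, sub_self]
      rw [this, mul_zero]
    exact (pow_eq_zero_iff n.succ_ne_zero).mp h0
  -- `(1 - e) v = 0` for all `v ∈ U`
  have h1v : ∀ v ∈ U, (1 - (e : Tt)) * v = 0 := by
    intro v hv
    set v' : Tt := (1 - (e : Tt)) * v with hv'
    have hv'U : v' ∈ U := hTU _ (T.sub_mem T.one_mem e.2) v hv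
    have huv : (u : Tt) * v' = 0 := by
      rw [hv', ← mul_assoc, mul_comm (u : Tt), h1u, zero_mul]
    have hev' : (e : Tt) * v' = 0 := by
      have h2 := congrArg (Subtype.val) hee
      simp only [Subring.coe_mul] at h2
      rw [hv', ← mul_assoc, mul_sub, mul_one, h2, sub_self, zero_mul]
    let u₁ : U := ⟨u + v', U.add_mem u.2 hv'U⟩
    set c₂ : T := ⟨v' ^ n * v', hU v' hv'U v' hv'U⟩ with hc₂
    have hc₁ : (⟨(u₁ : Tt) ^ n * u₁, hU u₁ u₁.2 u₁ u₁.2⟩ : T) = c + c₂ := by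
      apply Subtype.ext
      change ((u : Tt) + v') ^ n * (u + v') = (u : Tt) ^ n * u + v' ^ n * v'
      rw [← pow_succ, ← pow_succ, ← pow_succ, add_pow_of_mul_eq_zero huv]
    have hec₂ : e * c₂ = 0 := by
      apply Subtype.ext
      change (e : Tt) * (v' ^ n * v') = 0
      rw [mul_left_comm, hev', mul_zero]
    have hle : J u ≤ J u₁ := by
      rw [Ideal.span_singleton_le_iff_mem, Ideal.mem_span_singleton']
      refine ⟨e, ?_⟩
      rw [hc₁, mul_add, hec, hec₂, add_zero]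
    have hge : J u₁ ≤ J u := by
      by_contra hcon
      exact hmax _ ⟨u₁, rfl⟩ (lt_of_le_not_ge hle hcon)
    have hmem : c + c₂ ∈ Ideal.span {c} := by
      rw [← hc₁]
      exact hge (Ideal.subset_span rfl)
    obtain ⟨t, ht⟩ := Ideal.mem_span_singleton'.mp hmem
    have hc₂0 : c₂ = 0 := by
      have h3 : (1 - e) * (c + c₂) = c₂ := by
        rw [sub_mul, one_mul, mul_add, hec, hec₂]; ring
      rw [← h3, ← ht]
      calc (1 - e) * (t * c) = t * (c - e * c) := by ring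
        _ = 0 := by rw [hec, sub_self, mul_zero]
    have h4 : v' ^ (n + 1) = 0 := by
      have := congrArg Subtype.val hc₂0
      rw [pow_succ]
      exact this
    exact (pow_eq_zero_iff n.succ_ne_zero).mp h4
  -- the unit
  have hc'1 : (c' : Tt) * (1 - (e : Tt)) = 0 := by
    have := congrArg Subtype.val hc'e
    simp only [Subring.coe_mul] at this
    rw [mul_sub, mul_one, this, sub_self]
  have hee' : (e : Tt) * e = e := by
    have := congrArg Subtype.val hee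
    simpa only [Subring.coe_mul] using this
  have hcc' : (c' : Tt) * (u : Tt) ^ n * u = e := by
    have : (e : Tt) = c * c' := by rw [he]; rfl
    rw [this, hcT, pow_succ]; ring
  have hinv : ((c' : Tt) * (u : Tt) ^ n + (1 - (e : Tt))) * ((u : Tt) + (1 - (e : Tt))) = 1 := by
    calc ((c' : Tt) * (u : Tt) ^ n + (1 - (e : Tt))) * ((u : Tt) + (1 - (e : Tt)))
        = (c' : Tt) * (u : Tt) ^ n * u + ((c' : Tt) * (1 - (e : Tt))) * (u : Tt) ^ n
          + (1 - (e : Tt)) * u + (1 - 2 * (e : Tt) + (e : Tt) * e) := by ring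
      _ = 1 := by rw [hcc', hc'1, h1u, hee']; ring
  refine ⟨⟨_, _, hinv, by rw [mul_comm]; exact hinv⟩, fun v hv => ?_⟩
  change ((c' : Tt) * (u : Tt) ^ n + (1 - (e : Tt))) * v ∈ T
  rw [add_mul, h1v v hv, add_zero, mul_assoc]
  exact T.mul_mem c'.2 (hU u u.2 v hv)

section End

open Module

variable {Λ Ot ι : Type*} [CommRing Λ] [IsDomain Λ] [CommRing Ot] [Algebra Λ Ot] [Fintype ι]
  [DecidableEq ι]

theorem toMatrix_lmul_mul (c : Basis ι Λ Ot) (Z : Ot) (a : ι → Ot) :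
    LinearMap.toMatrix c c (LinearMap.mulLeft Λ Z) * c.toMatrix a = c.toMatrix fun j => Z * a j := by
  ext i j
  have := congrFun (LinearMap.toMatrix_mulVec_repr c c (LinearMap.mulLeft Λ Z) (a j)) i
  rw [Matrix.mul_apply]
  simpa [Matrix.mulVec, dotProduct, Basis.toMatrix_apply] using this

theorem toMatrix_mul_coeff (c : Basis ι Λ Ot) (b : ι → Ot) (W : Matrix ι ι Λ) :
    c.toMatrix b * W = c.toMatrix fun j => ∑ k, W k j • b k := by
  ext i j
  rw [Matrix.mul_apply, Basis.toMatrix_apply, map_sum, Finsupp.finsetSum_apply]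
  refine Finset.sum_congr rfl fun k _ => ?_
  rw [map_smul, Finsupp.smul_apply, smul_eq_mul, Basis.toMatrix_apply, mul_comm]

theorem isUnit_det_lmul (c : Basis ι Λ Ot) (Z : Otˣ) :
    IsUnit (LinearMap.toMatrix c c (LinearMap.mulLeft Λ (Z : Ot))).det := by
  rw [← Matrix.isUnit_iff_isUnit_det]
  refine IsUnit.of_mul_eq_one (LinearMap.toMatrix c c (LinearMap.mulLeft Λ ((Z⁻¹ : Otˣ) : Ot))) ?_
  rw [← LinearMap.toMatrix_mul, ← LinearMap.toMatrix_one c]
  congr 1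
  ext x
  simp

/-- (S9): two lattices of the same index, one contained in the other up to a unit -/
theorem eq_of_det (c : Basis ι Λ Ot) (Ob ab : Submodule Λ Ot) (b a : ι → Ot)
    (hb : Submodule.span Λ (Set.range b) = Ob) (ha : Submodule.span Λ (Set.range a) = ab)
    (hdet : ∃ u : Λˣ, (c.toMatrix a).det = u * (c.toMatrix b).det) (hb0 : (c.toMatrix b).det ≠ 0)
    (Z : Otˣ) (hZ : ∀ f ∈ ab, (Z : Ot) * f ∈ Ob) : ∀ x ∈ Ob, ∃ f ∈ ab, (Z : Ot) * f = x := by
  have hW : ∀ j, ∃ w : ι → Λ, (Z : Ot) * a j = ∑ k, w k • b k := by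
    intro j
    have h1 : (Z : Ot) * a j ∈ Submodule.span Λ (Set.range b) := by
      rw [hb]
      exact hZ _ (ha ▸ Submodule.subset_span ⟨j, rfl⟩)
    obtain ⟨w, hw⟩ := (Submodule.mem_span_range_iff_exists_fun Λ).1 h1
    exact ⟨w, hw.symm⟩
  choose w hw using hW
  let W : Matrix ι ι Λ := fun k j => w j k
  have hmat : LinearMap.toMatrix c c (LinearMap.mulLeft Λ (Z : Ot)) * c.toMatrix a =
      c.toMatrix b * W := by
    rw [toMatrix_lmul_mul, toMatrix_mul_coeff]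
    congr 1
    funext j
    exact hw j
  obtain ⟨u, hu⟩ := hdet
  have hdW : IsUnit W.det := by
    have h1 := congrArg Matrix.det hmat
    rw [Matrix.det_mul, Matrix.det_mul, hu] at h1
    have h2 : W.det = (LinearMap.toMatrix c c (LinearMap.mulLeft Λ (Z : Ot))).det * u := by
      apply mul_left_cancel₀ hb0
      rw [← h1]; ring
    rw [h2]
    exact (isUnit_det_lmul c Z).mul u.isUnit
  -- every `b i` is in `Z ab`
  have hbi : ∀ i, ∃ f ∈ ab, (Z : Ot) * f = b i := by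
    intro i
    refine ⟨∑ j, (W⁻¹) j i • a j, ?_, ?_⟩
    · exact Submodule.sum_mem _ fun j _ => Submodule.smul_mem _ _
        (ha ▸ Submodule.subset_span ⟨j, rfl⟩)
    · rw [Finset.mul_sum]
      simp only [mul_smul_comm, hw]
      simp only [Finset.smul_sum, smul_smul]
      rw [Finset.sum_comm]
      have h3 : ∀ k, ∑ j, ((W⁻¹) j i * w j k) • b k = (if k = i then (1 : Λ) else 0) • b k := by
        intro k
        rw [← Finset.sum_smul]
        congr 1
        have h4 : (W * W⁻¹) k i = (1 : Matrix ι ι Λ) k i := by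
          rw [Matrix.mul_nonsing_inv _ hdW]
        rw [Matrix.mul_apply, Matrix.one_apply] at h4
        rw [← h4]
        exact Finset.sum_congr rfl fun j _ => mul_comm _ _
      simp only [h3]
      simp
  intro x hx
  rw [← hb] at hx
  induction hx using Submodule.span_induction with
  | mem y hy =>
    obtain ⟨i, rfl⟩ := hy
    exact hbi i
  | zero => exact ⟨0, ab.zero_mem, mul_zero _⟩
  | add y y' _ _ h1 h2 =>
    obtain ⟨f, hf, rfl⟩ := h1
    obtain ⟨f', hf', rfl⟩ := h2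
    exact ⟨f + f', ab.add_mem hf hf', mul_add _ _ _⟩
  | smul r y _ h1 =>
    obtain ⟨f, hf, rfl⟩ := h1
    exact ⟨r • f, ab.smul_mem r hf, mul_smul_comm _ _ _⟩

/-- **END of local principality** -/
theorem exists_isUnit_of_det (c : Basis ι Λ Ot) (Ob : Subalgebra Λ Ot) (ab : Submodule Λ Ot)
    (b a : ι → Ot) (hb : Submodule.span Λ (Set.range b) = Subalgebra.toSubmodule Ob)
    (ha : Submodule.span Λ (Set.range a) = ab)
    (hdet : ∃ u : Λˣ, (c.toMatrix a).det = u * (c.toMatrix b).det) (hb0 : (c.toMatrix b).det ≠ 0)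
    (hmod : ∀ x ∈ Ob, ∀ f ∈ ab, x * f ∈ ab) (n : ℕ)
    (hprod : ∀ f ∈ ab, ∀ f' ∈ ab, f ^ n * f' ∈ Ob)
    (𝔯 : Ideal Ot) (hrad : 𝔯.IsRadical) (h𝔯 : ∀ x ∈ 𝔯, x ∈ Ob) (hjac : 𝔯 ≤ Ideal.jacobson ⊥)
    (hart : IsArtinianRing (Ob.toSubring.map (Ideal.Quotient.mk 𝔯))) :
    ∃ f ∈ ab, IsUnit f ∧ ∀ x, x ∈ ab ↔ ∃ o ∈ Ob, x = f * o := by
  haveI : IsReduced (Ot ⧸ 𝔯) := (Ideal.isRadical_iff_quotient_reduced 𝔯).1 hrad
  let T : Subring (Ot ⧸ 𝔯) := Ob.toSubring.map (Ideal.Quotient.mk 𝔯)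
  let U : AddSubgroup (Ot ⧸ 𝔯) := ab.toAddSubgroup.map (Ideal.Quotient.mk 𝔯 : Ot →+* Ot ⧸ 𝔯).toAddMonoidHom
  obtain ⟨z, hz⟩ := exists_unit_mul_mem T U (by
      rintro _ ⟨x, hx, rfl⟩ _ ⟨f, hf, rfl⟩
      exact ⟨x * f, hmod x hx f hf, map_mul (Ideal.Quotient.mk 𝔯) x f⟩) n (by
      rintro _ ⟨f, hf, rfl⟩ _ ⟨f', hf', rfl⟩
      refine ⟨f ^ n * f', hprod f hf f' hf', ?_⟩
      rw [map_mul, map_pow]
      rfl)
  -- lift `z`
  obtain ⟨Z₀, hZ₀⟩ := Ideal.Quotient.mk_surjective (z : Ot ⧸ 𝔯)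
  obtain ⟨Z₁, hZ₁⟩ := Ideal.Quotient.mk_surjective ((z⁻¹ : (Ot ⧸ 𝔯)ˣ) : Ot ⧸ 𝔯)
  have hunit : IsUnit Z₀ := by
    have h1 : Z₀ * Z₁ - 1 ∈ 𝔯 := by
      rw [← Ideal.Quotient.eq, map_mul, hZ₀, hZ₁, map_one, Units.mul_inv]
    have h2 := Ideal.mem_jacobson_bot.1 (hjac h1) 1
    rw [mul_one, sub_add_cancel] at h2
    exact isUnit_of_mul_isUnit_left h2
  obtain ⟨Z, rfl⟩ := hunit
  have hZab : ∀ f ∈ ab, (Z : Ot) * f ∈ Subalgebra.toSubmodule Ob := by
    intro f hf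
    obtain ⟨o, ho, hoz⟩ := hz _ ⟨f, hf, rfl⟩
    have h1 : (Z : Ot) * f - o ∈ 𝔯 := by
      rw [← Ideal.Quotient.eq, map_mul, hZ₀]
      exact hoz.symm
    have h2 := Ob.add_mem (h𝔯 _ h1) ho
    rwa [sub_add_cancel] at h2
  have hsurj := eq_of_det c (Subalgebra.toSubmodule Ob) ab b a hb ha hdet hb0 Z hZab
  obtain ⟨f, hf, hZf⟩ := hsurj 1 Ob.one_mem
  have hfu : f = ((Z⁻¹ : Otˣ) : Ot) := by
    rw [← mul_one ((Z⁻¹ : Otˣ) : Ot), ← hZf, Units.inv_mul_cancel_left]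
  refine ⟨f, hf, hfu ▸ (Z⁻¹).isUnit, fun x => ⟨fun hx => ⟨Z * x, hZab x hx, ?_⟩, ?_⟩⟩
  · rw [hfu, Units.inv_mul_cancel_left]
  · rintro ⟨o, ho, rfl⟩
    rw [mul_comm]
    exact hmod o ho f hf

/-- the same with a finite ring of nodes -/
theorem exists_isUnit_of_det_of_finite (c : Basis ι Λ Ot) (Ob : Subalgebra Λ Ot)
    (ab : Submodule Λ Ot) (b a : ι → Ot)
    (hb : Submodule.span Λ (Set.range b) = Subalgebra.toSubmodule Ob)
    (ha : Submodule.span Λ (Set.range a) = ab)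
    (hdet : ∃ u : Λˣ, (c.toMatrix a).det = u * (c.toMatrix b).det) (hb0 : (c.toMatrix b).det ≠ 0)
    (hmod : ∀ x ∈ Ob, ∀ f ∈ ab, x * f ∈ ab) (n : ℕ)
    (hprod : ∀ f ∈ ab, ∀ f' ∈ ab, f ^ n * f' ∈ Ob)
    (𝔯 : Ideal Ot) (hrad : 𝔯.IsRadical) (h𝔯 : ∀ x ∈ 𝔯, x ∈ Ob) (hjac : 𝔯 ≤ Ideal.jacobson ⊥)
    [Finite (Ot ⧸ 𝔯)] :
    ∃ f ∈ ab, IsUnit f ∧ ∀ x, x ∈ ab ↔ ∃ o ∈ Ob, x = f * o :=
  exists_isUnit_of_det c Ob ab b a hb ha hdet hb0 hmod n hprod 𝔯 hrad h𝔯 hjac inferInstance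

end End

end Fermat.Agent.UNIlib
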