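import Mathlib
import Fermat.Agent.ES.C.AK2Free
import Fermat.Agent.UNI.LPA3
import Fermat.Agent.UNI.LPB

/-!
# T-UNI, (LP) = (C): local principality of `(1/m) div g` at a closed point, local form

Assembly of half A (`lp_halfA`, for `g` and `g⁻¹`) and half B' (`lp_local_of_halfA`).
-/

set_option autoImplicit false

namespace Fermat.Agent.UNIlib

open Fermat.Agent.ESlib IsLocalRing

universe u

/-- **(LP), local form.**  `P` two-dimensional regular local with maximal ideal `(π, s)`,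
`F / Frac P` finite, `g ≡ 1 mod π C`, at every prime `ϱ ≠ π` of `P` the element `g` is a unit times an
`m`-th power, and (Node) holds at `(π, s)`.  Then `g = unit * H ^ m`. -/
theorem lp_local {P F : Type u} {Kt : Type*} [CommRing P] [IsDomain P] [IsLocalRing P]
    [IsNoetherianRing P] [IsIntegrallyClosed P] [Field Kt] [Field F] [Algebra P Kt]
    [IsFractionRing P Kt] [Algebra Kt F] [Algebra P F] [IsScalarTower P Kt F]
    [FiniteDimensional Kt F] [CharZero Kt]
    (π s : P) (hmax : maximalIdeal P = Ideal.span {π, s}) (hπ : Prime π) (hs : ¬ π ∣ s)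
    {m : ℕ} (hm : 0 < m) {g : F} (hg0 : g ≠ 0)
    (hg : LInt π ((g - 1) / algebraMap P F π))
    (hH : ∀ ϱ : P, Prime ϱ → ¬ Associated ϱ π →
      ∃ f : F, f ≠ 0 ∧ LInt ϱ (f ^ m / g) ∧ LInt ϱ (g / f ^ m))
    (hnode : NodeLoc F π s) :
    ∃ H : F, H ≠ 0 ∧ IsIntegral P (H ^ m / g) ∧ IsIntegral P (g / H ^ m) := by
  classical
  obtain ⟨b, hb⟩ := exists_isIntBasis (Kt := Kt) (L := F) π s hmax hπ hs
  have hπF : algebraMap P F π ≠ 0 := by
    rw [IsScalarTower.algebraMap_apply P Kt F]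
    simpa using hπ.ne_zero
  have hgC' : LInt π g⁻¹ := lInt_inv_of_sub_one_div b hb hπ hg
  have hg' : LInt π ((g⁻¹ - 1) / algebraMap P F π) := by
    have : (g⁻¹ - 1) / algebraMap P F π = -((g - 1) / algebraMap P F π * g⁻¹) := by
      field_simp
      ring
    rw [this]
    exact (hg.mul hπ hgC').neg
  have hH' : ∀ ϱ : P, Prime ϱ → ¬ Associated ϱ π →
      ∃ f : F, f ≠ 0 ∧ LInt ϱ (f ^ m / g⁻¹) ∧ LInt ϱ (g⁻¹ / f ^ m) := by
    intro ϱ hϱ hass
    obtain ⟨f, hf, h1, h2⟩ := hH ϱ hϱ hass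
    refine ⟨f⁻¹, inv_ne_zero hf, ?_, ?_⟩
    · have : f⁻¹ ^ m / g⁻¹ = g / f ^ m := by
        rw [inv_pow]
        field_simp
      rwa [this]
    · have : g⁻¹ / f⁻¹ ^ m = f ^ m / g := by
        rw [inv_pow]
        field_simp
      rwa [this]
  exact lp_local_of_halfA (Kt := Kt) π s hmax hπ hm hg0 hg
    (lp_halfA π s hmax hπ hs hm hg0 hg hH)
    (lp_halfA π s hmax hπ hs hm (inv_ne_zero hg0) hg' hH') hnode

end Fermat.Agent.UNIlib
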