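import Mathlib

/-!
# T-UNI, the combinatorial end of step (d)

* (M1) a `k`-subalgebra `U` of `I → k` (`I` finite, `k` a field) is the algebra of the functions which
  are constant on the blocks of `blockRel U`.
* (M2) if `U` is its own orthogonal for a diagonal form `∑ c i * a i * b i` (all `c i ≠ 0`), then all
  the blocks have exactly two elements `i, j`, and `c i + c j = 0`.
* (M3) for `I = I₁ ⊕ I₂` and `c = c₁` on `I₁`, `c = c₂` on `I₂`: `U` is the graph algebra of a bijection
  `β : I₁ ≃ I₂`, as soon as `2 ≠ 0` in `k`, or `|I₁|, |I₂|` are odd and `U` has enough symmetries.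
-/

set_option autoImplicit false

open scoped BigOperators

namespace Fermat.Agent.UNIlib

section Blocks

variable {k : Type*} [Field k] {I : Type*}

/-- two indices are in the same block if no element of `U` separates them -/
def blockRel (U : Subalgebra k (I → k)) : Setoid I where
  r i j := ∀ a ∈ U, a i = a j
  iseqv := ⟨fun _ _ _ => rfl, fun h a ha => (h a ha).symm,
    fun h1 h2 a ha => (h1 a ha).trans (h2 a ha)⟩

theorem blockRel_iff (U : Subalgebra k (I → k)) (i j : I) :
    blockRel U i j ↔ ∀ a ∈ U, a i = a j := Iff.rfl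

theorem exists_sep (U : Subalgebra k (I → k)) {i j : I} (h : ¬ blockRel U i j) :
    ∃ e ∈ U, e i = 1 ∧ e j = 0 := by
  rw [blockRel_iff] at h
  push Not at h
  obtain ⟨a, ha, hne⟩ := h
  refine ⟨(a i - a j)⁻¹ • (a - algebraMap k (I → k) (a j)),
    U.smul_mem (U.sub_mem ha (U.algebraMap_mem _)) _, ?_, ?_⟩
  · simp only [Pi.smul_apply, Pi.sub_apply, Pi.algebraMap_apply, Algebra.algebraMap_self,
      RingHom.id_apply, smul_eq_mul]
    exact inv_mul_cancel₀ (sub_ne_zero.mpr hne)
  · simp

theorem exists_indicator [Finite I] (U : Subalgebra k (I → k)) (i : I) :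
    ∃ e ∈ U, ∀ j, (blockRel U i j → e j = 1) ∧ (¬ blockRel U i j → e j = 0) := by
  classical
  have := Fintype.ofFinite I
  choose! f hfU hf1 hf0 using fun (j : I) (h : ¬ blockRel U i j) => exists_sep U h
  let e : I → k := ∏ j ∈ Finset.univ.filter (fun j => ¬ blockRel U i j), f j
  have heU : e ∈ U := Subalgebra.prod_mem _ fun j hj => hfU j (Finset.mem_filter.mp hj).2
  have hei : e i = 1 := by
    simp only [e, Finset.prod_apply]
    exact Finset.prod_eq_one fun j hj => hf1 j (Finset.mem_filter.mp hj).2
  refine ⟨e, heU, fun j => ⟨fun h => (h e heU).symm.trans hei, fun h => ?_⟩⟩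
  simp only [e, Finset.prod_apply]
  exact Finset.prod_eq_zero (Finset.mem_filter.mpr ⟨Finset.mem_univ j, h⟩) (hf0 j h)

/-- **(M1)** -/
theorem mem_iff_blockRel [Finite I] (U : Subalgebra k (I → k)) (a : I → k) :
    a ∈ U ↔ ∀ i j, blockRel U i j → a i = a j := by
  classical
  refine ⟨fun ha i j h => h a ha, fun h => ?_⟩
  have := Fintype.ofFinite (Quotient (blockRel U))
  choose E hEU hE using exists_indicator U
  have key : a = ∑ q : Quotient (blockRel U), a q.out • E q.out := by
    funext j
    rw [Finset.sum_apply, Finset.sum_eq_single (Quotient.mk (blockRel U) j)]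
    · have h1 : blockRel U (Quotient.mk (blockRel U) j).out j := Quotient.mk_out (s := blockRel U) j
      rw [Pi.smul_apply, (hE _ j).1 h1, smul_eq_mul, mul_one]
      exact (h _ _ h1).symm
    · intro q _ hq
      have h1 : ¬ blockRel U q.out j := by
        intro h2
        apply hq
        rw [← Quotient.out_eq q]
        exact Quotient.sound h2
      rw [Pi.smul_apply, (hE _ j).2 h1, smul_zero]
    · intro h1
      exact absurd (Finset.mem_univ _) h1
  rw [key]
  exact Subalgebra.sum_mem _ fun q _ => U.smul_mem (hEU _) _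

/-- the algebra `U` is isomorphic to the algebra of functions on the set of blocks -/
noncomputable def blockEquiv [Finite I] (U : Subalgebra k (I → k)) :
    (Quotient (blockRel U) → k) ≃ₐ[k] U :=
  AlgEquiv.ofBijective
    (AlgHom.codRestrict
      (AlgHom.pi fun i : I => Pi.evalAlgHom k (fun _ => k) (Quotient.mk (blockRel U) i))
      U (fun b => (mem_iff_blockRel U _).2 fun i j h => by
        change b (Quotient.mk _ i) = b (Quotient.mk _ j)
        rw [Quotient.sound h]))
    ⟨fun b b' h => by
        funext q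
        obtain ⟨i, rfl⟩ := Quotient.exists_rep q
        exact congrFun (congrArg Subtype.val h) i,
      fun a => ⟨fun q => (a : I → k) q.out, Subtype.ext (funext fun i =>
        (Quotient.mk_out (s := blockRel U) i) a a.2)⟩⟩

theorem blockEquiv_apply [Finite I] (U : Subalgebra k (I → k)) (b : Quotient (blockRel U) → k)
    (i : I) : (blockEquiv U b : I → k) i = b (Quotient.mk _ i) := rfl

theorem finrank_eq_card_blocks [Finite I] (U : Subalgebra k (I → k)) :
    Module.finrank k U = Nat.card (Quotient (blockRel U)) := by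
  classical
  have := Fintype.ofFinite (Quotient (blockRel U))
  rw [← (blockEquiv U).toLinearEquiv.finrank_eq, Module.finrank_fintype_fun_eq_card,
    Nat.card_eq_fintype_card]

end Blocks

section SelfDual

variable {k : Type*} [Field k] {I : Type*} [Fintype I]

/-- **(M2)**: a subalgebra which is its own orthogonal for a diagonal form has blocks of size two -/
theorem exists_partner (U : Subalgebra k (I → k)) (c : I → k) (hc : ∀ i, c i ≠ 0)
    (hU : ∀ a, a ∈ U ↔ ∀ b ∈ U, ∑ i, c i * a i * b i = 0) (i : I) :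
    ∃ j, j ≠ i ∧ blockRel U i j ∧ c i + c j = 0 ∧ ∀ l, blockRel U i l → l = i ∨ l = j := by
  classical
  obtain ⟨E, hEU, hE⟩ := exists_indicator U i
  have hsum : ∑ l, c l * E l * E l = 0 := (hU E).1 hEU E hEU
  have hEi : E i = 1 := (hE i).1 ((blockRel U).refl i)
  -- there is a second element
  obtain ⟨j, hji, hj⟩ : ∃ j, j ≠ i ∧ blockRel U i j := by
    by_contra hcon
    push Not at hcon
    rw [Finset.sum_eq_single i] at hsum
    · rw [hEi, mul_one, mul_one] at hsum
      exact hc i hsum
    · intro l _ hl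
      rw [(hE l).2 (hcon l hl), mul_zero]
    · intro h
      exact absurd (Finset.mem_univ _) h
  -- there is no third element
  have hthird : ∀ l, blockRel U i l → l = i ∨ l = j := by
    intro l hl
    by_contra hcon
    push Not at hcon
    let a : I → k := Pi.single i (c j) - Pi.single j (c i)
    have haU : a ∈ U := by
      rw [hU]
      intro b hb
      have hb' : b i = b j := hj b hb
      rw [Finset.sum_eq_add i j hji.symm]
      · simp only [a, Pi.sub_apply, Pi.single_eq_same, Pi.single_eq_of_ne hji,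
          Pi.single_eq_of_ne hji.symm, hb']
        ring
      · intro x _ hx
        simp only [a, Pi.sub_apply, Pi.single_eq_of_ne hx.1, Pi.single_eq_of_ne hx.2]
        ring
      · intro h
        exact absurd (Finset.mem_univ _) h
      · intro h
        exact absurd (Finset.mem_univ _) h
    have h1 := hl a haU
    simp only [a, Pi.sub_apply, Pi.single_eq_same, Pi.single_eq_of_ne hji.symm,
      Pi.single_eq_of_ne hcon.1, Pi.single_eq_of_ne hcon.2, sub_zero] at h1
    exact hc j h1
  refine ⟨j, hji, hj, ?_, hthird⟩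
  rw [Finset.sum_eq_add i j hji.symm] at hsum
  · rw [hEi, (hE j).1 hj] at hsum
    simpa using hsum
  · intro x _ hx
    have : ¬ blockRel U i x := fun h => by
      rcases hthird x h with h | h
      · exact hx.1 h
      · exact hx.2 h
    rw [(hE x).2 this, mul_zero]
  · intro h
    exact absurd (Finset.mem_univ _) h
  · intro h
    exact absurd (Finset.mem_univ _) h

end SelfDual

section Matching

variable {k : Type*} [Field k] {I₁ I₂ : Type*} [Fintype I₁] [Fintype I₂]

/-- **(M3), core**: if no block lies on one side, `U` is the graph algebra of a bijection -/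
theorem exists_matching_of_not_rel (U : Subalgebra k (I₁ ⊕ I₂ → k)) (c : I₁ ⊕ I₂ → k)
    (hc : ∀ i, c i ≠ 0) (hU : ∀ a, a ∈ U ↔ ∀ b ∈ U, ∑ i, c i * a i * b i = 0)
    (hL : ∀ i i' : I₁, i ≠ i' → ¬ blockRel U (Sum.inl i) (Sum.inl i'))
    (hR : ∀ j j' : I₂, j ≠ j' → ¬ blockRel U (Sum.inr j) (Sum.inr j')) :
    ∃ β : I₁ ≃ I₂, ∀ a, a ∈ U ↔ ∀ i, a (Sum.inl i) = a (Sum.inr (β i)) := by
  classical
  choose P hPne hPrel _ hPuniq using exists_partner U c hc hU
  have hl : ∀ i : I₁, ∃ j : I₂, P (Sum.inl i) = Sum.inr j := by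
    intro i
    rcases h : P (Sum.inl i) with i' | j
    · exfalso
      have h1 := hPrel (Sum.inl i)
      rw [h] at h1
      refine hL i i' ?_ h1
      rintro rfl
      exact hPne _ h
    · exact ⟨j, rfl⟩
  have hr : ∀ j : I₂, ∃ i : I₁, P (Sum.inr j) = Sum.inl i := by
    intro j
    rcases h : P (Sum.inr j) with i | j'
    · exact ⟨i, rfl⟩
    · exfalso
      have h1 := hPrel (Sum.inr j)
      rw [h] at h1
      refine hR j j' ?_ h1
      rintro rfl
      exact hPne _ h
  have hinv : ∀ x, P (P x) = x := by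
    intro x
    rcases hPuniq (P x) x ((blockRel U).symm (hPrel x)) with h | h
    · exact absurd h.symm (hPne x)
    · exact h.symm
  choose f hf using hl
  choose g hg using hr
  let β : I₁ ≃ I₂ :=
    { toFun := f
      invFun := g
      left_inv := fun i => by
        have := hinv (Sum.inl i)
        rw [hf, hg] at this
        exact Sum.inl_injective this
      right_inv := fun j => by
        have := hinv (Sum.inr j)
        rw [hg, hf] at this
        exact Sum.inr_injective this }
  refine ⟨β, fun a => ⟨fun ha i => ?_, fun h => ?_⟩⟩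
  · have := hPrel (Sum.inl i) a ha
    rwa [hf] at this
  · rw [mem_iff_blockRel]
    intro x y hxy
    rcases hPuniq x y hxy with rfl | rfl
    · rfl
    · rcases x with i | j
      · rw [hf]
        exact h i
      · rw [hg]
        have := h (g j)
        have h2 : β (g j) = j := β.right_inv j
        rw [h2] at this
        exact this.symm

/-- **(M3)** when `2 ≠ 0` -/
theorem exists_matching_of_two_ne_zero (U : Subalgebra k (I₁ ⊕ I₂ → k)) (c₁ c₂ : k) (h₁ : c₁ ≠ 0)
    (h₂ : c₂ ≠ 0)
    (hU : ∀ a, a ∈ U ↔ ∀ b ∈ U, ∑ i, Sum.elim (fun _ => c₁) (fun _ => c₂) i * a i * b i = 0)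
    (h2 : (2 : k) ≠ 0) :
    ∃ β : I₁ ≃ I₂, ∀ a, a ∈ U ↔ ∀ i, a (Sum.inl i) = a (Sum.inr (β i)) := by
  classical
  have hc : ∀ i : I₁ ⊕ I₂, Sum.elim (fun _ => c₁) (fun _ => c₂) i ≠ 0 := by
    rintro (i | j)
    · exact h₁
    · exact h₂
  refine exists_matching_of_not_rel U _ hc hU ?_ ?_
  · intro i i' hne hrel
    obtain ⟨j, hj, _, hsum, huniq⟩ := exists_partner U _ hc hU (Sum.inl i)
    rcases huniq _ hrel with h | h
    · exact hne (Sum.inl_injective h).symm
    · rw [← h] at hsum
      simp only [Sum.elim_inl] at hsum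
      apply h₁
      have : (2 : k) * c₁ = 0 := by rw [two_mul]; exact hsum
      exact (mul_eq_zero.mp this).resolve_left h2
  · intro i i' hne hrel
    obtain ⟨j, hj, _, hsum, huniq⟩ := exists_partner U _ hc hU (Sum.inr i)
    rcases huniq _ hrel with h | h
    · exact hne (Sum.inr_injective h).symm
    · rw [← h] at hsum
      simp only [Sum.elim_inr] at hsum
      apply h₂
      have : (2 : k) * c₂ = 0 := by rw [two_mul]; exact hsum
      exact (mul_eq_zero.mp this).resolve_left h2

/-- a fixed point free involution lives on a set of even cardinality -/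
theorem even_card_of_involution {X : Type*} [Fintype X] (s : X → X) (hs : ∀ x, s (s x) = x)
    (hne : ∀ x, s x ≠ x) : Even (Fintype.card X) := by
  classical
  let e : Function.End X := s
  have h1 : e ^ 2 ^ 1 = 1 := by
    funext x
    rw [pow_one, pow_two]
    exact hs x
  have h2 := Equiv.Perm.card_fixedPoints_modEq (p := 2) (n := 1) h1
  have h3 : Fintype.card (Function.fixedPoints e) = 0 := by
    rw [Fintype.card_eq_zero_iff]
    exact ⟨fun x => hne x.1 x.2⟩
  rw [h3] at h2
  exact (Nat.even_iff).2 h2

/-- **(M3)** with symmetries: `|I₁|`, `|I₂|` odd, and `U` is stable under a family of pairs of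
permutations which is transitive on `I₁` and on `I₂` -/
theorem exists_matching_of_odd (U : Subalgebra k (I₁ ⊕ I₂ → k)) (c : I₁ ⊕ I₂ → k)
    (hc : ∀ i, c i ≠ 0) (hU : ∀ a, a ∈ U ↔ ∀ b ∈ U, ∑ i, c i * a i * b i = 0)
    (ho₁ : Odd (Fintype.card I₁)) (ho₂ : Odd (Fintype.card I₂))
    (hG₁ : ∀ i i' : I₁, ∃ (e₁ : Equiv.Perm I₁) (e₂ : Equiv.Perm I₂), e₁ i = i' ∧
      ∀ a ∈ U, a ∘ Sum.map e₁ e₂ ∈ U)
    (hG₂ : ∀ j j' : I₂, ∃ (e₁ : Equiv.Perm I₁) (e₂ : Equiv.Perm I₂), e₂ j = j' ∧
      ∀ a ∈ U, a ∘ Sum.map e₁ e₂ ∈ U) :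
    ∃ β : I₁ ≃ I₂, ∀ a, a ∈ U ↔ ∀ i, a (Sum.inl i) = a (Sum.inr (β i)) := by
  classical
  have htrans : ∀ (e₁ : Equiv.Perm I₁) (e₂ : Equiv.Perm I₂), (∀ a ∈ U, a ∘ Sum.map e₁ e₂ ∈ U) →
      ∀ x y, blockRel U x y → blockRel U (Sum.map e₁ e₂ x) (Sum.map e₁ e₂ y) :=
    fun e₁ e₂ h x y hxy a ha => hxy _ (h a ha)
  have huniq : ∀ x y z, blockRel U x y → blockRel U x z → y ≠ x → z ≠ x → y = z := by
    intro x y z hy hz hyx hzx
    obtain ⟨j, _, _, _, hu⟩ := exists_partner U c hc hU x
    rcases hu y hy with h | h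
    · exact absurd h hyx
    · rcases hu z hz with h' | h'
      · exact absurd h' hzx
      · rw [h, h']
  refine exists_matching_of_not_rel U c hc hU ?_ ?_
  · intro i i' hne hrel
    -- every element of `I₁` has its partner in `I₁`
    have hall : ∀ x : I₁, ∃ x' : I₁, x' ≠ x ∧ blockRel U (Sum.inl x) (Sum.inl x') := by
      intro x
      obtain ⟨e₁, e₂, he, hst⟩ := hG₁ i x
      refine ⟨e₁ i', ?_, ?_⟩
      · rw [← he]
        exact fun h => hne (e₁.injective h).symm
      · have := htrans e₁ e₂ hst _ _ hrel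
        simpa [he] using this
    choose s hsne hsrel using hall
    have hinv : ∀ x, s (s x) = x := by
      intro x
      have := huniq (Sum.inl (s x)) (Sum.inl (s (s x))) (Sum.inl x) (hsrel (s x))
        ((blockRel U).symm (hsrel x)) (fun h => hsne (s x) (Sum.inl_injective h))
        (fun h => hsne x (Sum.inl_injective h).symm)
      exact Sum.inl_injective this
    exact (Nat.not_even_iff_odd.mpr ho₁) (even_card_of_involution s hinv hsne)
  · intro i i' hne hrel
    have hall : ∀ x : I₂, ∃ x' : I₂, x' ≠ x ∧ blockRel U (Sum.inr x) (Sum.inr x') := by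
      intro x
      obtain ⟨e₁, e₂, he, hst⟩ := hG₂ i x
      refine ⟨e₂ i', ?_, ?_⟩
      · rw [← he]
        exact fun h => hne (e₂.injective h).symm
      · have := htrans e₁ e₂ hst _ _ hrel
        simpa [he] using this
    choose s hsne hsrel using hall
    have hinv : ∀ x, s (s x) = x := by
      intro x
      have := huniq (Sum.inr (s x)) (Sum.inr (s (s x))) (Sum.inr x) (hsrel (s x))
        ((blockRel U).symm (hsrel x)) (fun h => hsne (s x) (Sum.inr_injective h))
        (fun h => hsne x (Sum.inr_injective h).symm)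
      exact Sum.inr_injective this
    exact (Nat.not_even_iff_odd.mpr ho₂) (even_card_of_involution s hinv hsne)

end Matching

end Fermat.Agent.UNIlib
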