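import Mathlib
import Fermat.Agent.S24.RHDiff
import Fermat.Agent.ES.K.PlaceExist

/-!
# T-UNI, row MOD4 (abstract part): constant field extensions of function fields are unramified

`F / K` a function field of characteristic zero, `L / K` an algebraic extension with `L`
algebraically closed, `F' / L` a function field generated by `L` and `F`.  Every place `v` of
`F / K` extends to a place `P` of `F' / L` with `ord_P f = ord_v f` for all `f ∈ F`.
-/

set_option autoImplicit false
set_option linter.unusedSectionVars false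

open AlgebraicCurve Polynomial IntermediateField

namespace Fermat.Agent.UNIlib

open Fermat.Agent.S24RH Fermat.Agent.S24lib Fermat.Agent.ESlib

variable {K L F F' : Type*} [Field K] [Field L] [Field F] [Field F'] [Algebra K F] [Algebra L F']
  [Algebra K L] [Algebra F F'] [Algebra K F'] [IsScalarTower K F F'] [IsScalarTower K L F']

/-- an element of `F'` which is integral over a subring of a valuation subring lies in it -/
theorem mem_valuationSubring_of_monic (W : ValuationSubring F') (x : F') (p : F'[X]) (hp : p.Monic)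
    (hc : ∀ i, p.coeff i ∈ W) (hx : p.eval x = 0) : x ∈ W := by
  have hint : IsIntegral W x := by
    have hlift : p ∈ Polynomial.lifts (algebraMap W F') := by
      rw [Polynomial.lifts_iff_coeff_lifts]
      intro n
      exact ⟨⟨_, hc n⟩, rfl⟩
    obtain ⟨q, hq, -, hqm⟩ := Polynomial.lifts_and_degree_eq_and_monic hlift hp
    refine ⟨q, hqm, ?_⟩
    rw [← Polynomial.eval_map, hq, hx]
  obtain ⟨y, hy⟩ := IsIntegrallyClosed.isIntegral_iff.1 hint
  rw [← hy]
  exact y.2

/-- **Extension of places.** -/
theorem exists_place_above [IsAlgClosed L] [Algebra.IsAlgebraic K L] (hFF' : IsFF L F')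
    (v : Place K F) :
    ∃ (P : Place L F') (n : ℕ), 0 < n ∧ ∀ f : F, P.ord (algebraMap F F' f) = n * v.ord f := by
  classical
  obtain ⟨π, hπ⟩ := exists_ord_eq_one v
  have hπ0 : π ≠ 0 := by rintro rfl; simp at hπ
  set e : F →+* F' := algebraMap F F' with he
  let A : Subring F' := v.toValuationSubring.toSubring.map e
  have hπV : π ∈ v.toValuationSubring := mem_of_ord_nonneg v (by omega)
  have hπA : e π ∈ A := ⟨π, hπV, rfl⟩
  have hI : Ideal.span {(⟨e π, hπA⟩ : A)} ≠ ⊤ := by
    intro h
    rw [Ideal.span_singleton_eq_top] at h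
    obtain ⟨⟨b, z, hz, rfl⟩, hb1⟩ := h.exists_right_inv
    have h1 : e π * e z = 1 := congrArg Subtype.val hb1
    rw [← map_mul, ← map_one e] at h1
    have h2 : π * z = 1 := e.injective h1
    have hz0 : z ≠ 0 := by rintro rfl; simp at h2
    have h3 := v.ord_mul hπ0 hz0
    rw [h2, hπ] at h3
    have h4 := ord_nonneg_of_mem v hz
    simp at h3
    omega
  obtain ⟨W, hAW, hnon⟩ := Ideal.image_subset_nonunits_valuationSubring _ hI
  set w := W.valuation with hw
  set u := e π with hu
  have hu0 : u ≠ 0 := (map_ne_zero e).2 hπ0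
  have hwu : w u < 1 := by
    have : u ∈ W.nonunits := hnon ⟨⟨u, hπA⟩, Ideal.subset_span (Set.mem_singleton _), rfl⟩
    exact this
  have hVW : ∀ f ∈ v.toValuationSubring, e f ∈ W := fun f hf => hAW ⟨f, hf, rfl⟩
  have hKW : ∀ a : K, algebraMap K F' a ∈ W := by
    intro a
    rw [IsScalarTower.algebraMap_apply K F F']
    exact hVW _ (v.algebraMap_mem' a)
  have hLW : ∀ c : L, algebraMap L F' c ∈ W := by
    intro c
    have hc : IsIntegral K c := (Algebra.IsAlgebraic.isAlgebraic c).isIntegral
    obtain ⟨p, hp, hpc⟩ := hc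
    refine mem_valuationSubring_of_monic W _ (p.map (algebraMap K F')) (hp.map _) ?_ ?_
    · intro i
      rw [Polynomial.coeff_map]
      exact hKW _
    · rw [Polynomial.eval_map, IsScalarTower.algebraMap_eq K L F', ← Polynomial.hom_eval₂, hpc,
        map_zero]
  have hL1 : ∀ a : L, a ≠ 0 → w (algebraMap L F' a) = 1 := by
    intro a ha
    apply le_antisymm ((W.valuation_le_one_iff _).2 (hLW a))
    have h1 := (W.valuation_le_one_iff _).2 (hLW a⁻¹)
    rw [map_inv₀, map_inv₀] at h1
    have h0 : w (algebraMap L F' a) ≠ 0 := (w.ne_zero_iff).2 (by simpa using ha)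
    exact (inv_le_one₀ (zero_lt_iff.2 h0)).1 h1
  have hutr : Transcendental L u := by
    apply transcendental_of_not_mem_range
    rintro ⟨c, hc⟩
    have hc0 : c ≠ 0 := by rintro rfl; simp at hc; exact hu0 hc.symm
    have := hL1 c hc0
    rw [hc] at this
    exact hwu.ne this
  have := hFF'.finiteDimensional hutr
  have hwu0 : w u ≠ 0 := (w.ne_zero_iff).2 hu0
  set n := Module.finrank L⟮u⟯ F' with hn
  have hpow : ∀ x : F', x ≠ 0 → ∃ k : ℤ, w x ^ n.factorial = w u ^ k := by
    intro x hx
    obtain ⟨e', he0, hen, k, hk⟩ := exists_val_pow_eq_zpow hL1 hwu hu0 hx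
    obtain ⟨c, hc⟩ := Nat.dvd_factorial he0 hen
    refine ⟨k * c, ?_⟩
    rw [hc, pow_mul, hk, zpow_mul, zpow_natCast]
  have hinj : ∀ a b : ℤ, w u ^ a = w u ^ b → a = b := by
    intro a b hab
    exact zpow_right_injective₀ (zero_lt_iff.2 hwu0) hwu.ne hab
  have hle : ∀ a b : ℤ, w u ^ a ≤ w u ^ b ↔ b ≤ a := by
    intro a b
    exact zpow_le_zpow_iff_right_of_lt_one₀ (zero_lt_iff.2 hwu0) hwu
  let ww : F' → ℤ := fun x => if hx : x = 0 then 0 else (hpow x hx).choose
  have hww : ∀ x : F', x ≠ 0 → w x ^ n.factorial = w u ^ ww x := by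
    intro x hx
    simp only [ww, dif_neg hx]
    exact (hpow x hx).choose_spec
  obtain ⟨Q, m, hm, hQ⟩ := exists_place_of_valuation (K := L) ww
    (fun f g hf hg => by
      apply hinj
      rw [← hww _ (mul_ne_zero hf hg), map_mul, mul_pow, hww f hf, hww g hg, zpow_add₀ hwu0])
    (fun f g hf hg hfg => by
      rcases le_max_iff.1 (w.map_add f g) with h | h
      · refine (min_le_left _ _).trans ?_
        rw [← hle, ← hww _ hfg, ← hww f hf]
        exact pow_le_pow_left₀ zero_le h _
      · refine (min_le_right _ _).trans ?_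
        rw [← hle, ← hww _ hfg, ← hww g hg]
        exact pow_le_pow_left₀ zero_le h _)
    (fun a ha => by
      apply hinj
      rw [← hww _ (by simpa using ha), hL1 a ha, one_pow, zpow_zero])
    ⟨u, hu0, by
      have : ww u = n.factorial := by
        apply hinj
        rw [← hww u hu0, zpow_natCast]
      rw [this]
      exact_mod_cast n.factorial_ne_zero⟩
  have hfac : n.factorial ≠ 0 := n.factorial_ne_zero
  -- membership
  have hmemW : ∀ x : F', x ≠ 0 → (w x ≤ 1 ↔ 0 ≤ Q.ord x) := by
    intro x hx
    have h1 : w x ≤ 1 ↔ w x ^ n.factorial ≤ 1 := by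
      constructor
      · intro h; exact pow_le_one₀ zero_le h
      · intro h
        by_contra hcon
        push Not at hcon
        exact absurd h (not_le.2 (one_lt_pow₀ hcon hfac))
    rw [h1, hww x hx, ← zpow_zero (w u), hle, hQ x hx]
    constructor
    · intro h
      by_contra hcon
      push Not at hcon
      have : (m : ℤ) * Q.ord x < 0 := mul_neg_of_pos_of_neg (by exact_mod_cast hm) hcon
      omega
    · intro h; positivity
  obtain ⟨k, hk, hkv⟩ := Place.exists_mul_ord v (fun f => Q.ord (e f))
    (fun f g hf hg => by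
      simp only [map_mul]
      exact Q.ord_mul ((map_ne_zero e).2 hf) ((map_ne_zero e).2 hg))
    (fun f hf => by
      have hef : e f ≠ 0 := (map_ne_zero e).2 hf
      rw [← hmemW _ hef]
      constructor
      · intro h
        exact (W.valuation_le_one_iff _).2 (hVW f h)
      · intro h
        by_contra hcon
        have h1 : v.ord f < 0 := by
          by_contra h2
          exact hcon (mem_of_ord_nonneg v (by omega))
        have h2 : (π * f)⁻¹ ∈ v.toValuationSubring := by
          apply mem_of_ord_nonneg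
          rw [v.ord_inv, v.ord_mul hπ0 hf, hπ]
          omega
        have h3 := (W.valuation_le_one_iff _).2 (hVW _ h2)
        rw [map_inv₀, map_mul, map_inv₀, map_mul] at h3
        have h4 : w (e π) * w (e f) < 1 := by
          calc w (e π) * w (e f) ≤ w (e π) * 1 := by gcongr
            _ < 1 := by rw [mul_one]; exact hwu
        have h5 : w (e π) * w (e f) ≠ 0 := mul_ne_zero hwu0 ((w.ne_zero_iff).2 hef)
        have h6 := (inv_le_one₀ (zero_lt_iff.2 h5)).1 h3
        exact absurd h4 (not_lt.2 h6))
  refine ⟨Q, k, hk, fun f => ?_⟩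
  by_cases hf : f = 0
  · subst hf; simp
  · exact hkv f hf

/-- a `K`-derivation of `F` into an `F`-module which kills a transcendental element is zero -/
theorem derivation_eq_zero_of_apply_eq_zero [CharZero K] {M : Type*} [AddCommGroup M] [Module K M]
    [Module F M] [IsScalarTower K F M] (u : F) (hu : Transcendental K u) [FiniteDimensional K⟮u⟯ F]
    (d : Derivation K F M) (hd : d u = 0) (x : F) : d x = 0 := by
  have hspan := (kaehler_span_and_derivation u hu).1
  have h0 : d.liftKaehlerDifferential = 0 := by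
    apply LinearMap.ext_on hspan
    intro y hy
    rw [Set.mem_singleton_iff] at hy
    subst hy
    rw [Derivation.liftKaehlerDifferential_comp_D, hd, LinearMap.zero_apply]
  rw [← Derivation.liftKaehlerDifferential_comp_D d x, h0, LinearMap.zero_apply]

/-- **Constant field extensions are unramified.** -/
theorem exists_place_above_unramified [CharZero K] [IsAlgClosed L] [Algebra.IsAlgebraic K L]
    (hFF : IsFF K F) (hFF' : IsFF L F')
    (hgen : IntermediateField.adjoin L (Set.range (algebraMap F F')) = ⊤) (v : Place K F) :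
    ∃ P : Place L F', ∀ f : F, P.ord (algebraMap F F' f) = v.ord f := by
  classical
  have : CharZero L := charZero_of_injective_algebraMap (algebraMap K L).injective
  obtain ⟨P, n, hn, hP⟩ := exists_place_above hFF' v
  set e : F →+* F' := algebraMap F F' with he
  obtain ⟨u, hu⟩ := exists_ord_eq_one v
  have hu0 : u ≠ 0 := by rintro rfl; simp at hu
  set U := e u with hU
  have hU0 : U ≠ 0 := (map_ne_zero e).2 hu0
  have hPU : P.ord U = n := by rw [hU, hP, hu, mul_one]
  have hnZ : (0 : ℤ) < n := by exact_mod_cast hn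
  obtain ⟨ϖ, hϖ⟩ := exists_ord_eq_one P
  have hϖtr : Transcendental L ϖ := transcendental_of_ord_ne_zero P (by omega)
  have := hFF'.finiteDimensional hϖtr
  obtain ⟨-, δ, hδ⟩ := kaehler_span_and_derivation ϖ hϖtr
  obtain ⟨hδU0, hδU⟩ := ord_derivation hFF' P δ ϖ hδ hϖ (z := U) (by omega)
  let D : Derivation L F' F' := (δ U)⁻¹ • δ
  have hDapp : ∀ x, D x = (δ U)⁻¹ * δ x := fun x => rfl
  have hDU : D U = 1 := by rw [hDapp, inv_mul_cancel₀ hδU0]
  have hDord : ∀ x, P.ord x ≠ 0 → D x ≠ 0 ∧ P.ord (D x) = P.ord x - n := by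
    intro x hx
    obtain ⟨h1, h2⟩ := ord_derivation hFF' P δ ϖ hδ hϖ hx
    refine ⟨mul_ne_zero (inv_ne_zero hδU0) h1, ?_⟩
    rw [hDapp, P.ord_mul (inv_ne_zero hδU0) h1, P.ord_inv, hδU, h2, hPU]
    ring
  have hDmem : ∀ x ∈ P.toValuationSubring, D x = 0 ∨ -((n : ℤ) - 1) ≤ P.ord (D x) := by
    intro x hx
    have h1 := derivation_mem hFF' P δ ϖ hδ hϖ x hx
    by_cases h0 : δ x = 0
    · left; rw [hDapp, h0, mul_zero]
    · right
      rw [hDapp, P.ord_mul (inv_ne_zero hδU0) h0, P.ord_inv, hδU, hPU]
      have := ord_nonneg_of_mem P h1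
      omega
  -- the derivation of `F`
  have hUtr : Transcendental L U := transcendental_of_ord_ne_zero P (by omega)
  have hutr : Transcendental K u := by
    intro halg
    have h1 : IsAlgebraic K (algebraMap F F' u) := halg.algebraMap
    exact hUtr (h1.tower_top L)
  have := hFF.finiteDimensional hutr
  obtain ⟨-, δK, hδK⟩ := kaehler_span_and_derivation u hutr
  have hcomm : ∀ f : F, D (e f) = e (δK f) := by
    intro f
    let d₁ : Derivation K F F' := (D.restrictScalars K).compAlgebraMap F
    let d₂ : Derivation K F F' := (Algebra.linearMap F F').compDer δK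
    have h1 : (d₁ - d₂) u = 0 := by
      show D (e u) - e (δK u) = 0
      rw [hδK, map_one, ← hU, hDU, sub_self]
    have h2 := derivation_eq_zero_of_apply_eq_zero u hutr (d₁ - d₂) h1 f
    have h3 : D (e f) - e (δK f) = 0 := h2
    exact sub_eq_zero.1 h3
  have hVP : ∀ f ∈ v.toValuationSubring, e f ∈ P.toValuationSubring := by
    intro f hf
    apply mem_of_ord_nonneg
    rw [hP]
    have := ord_nonneg_of_mem v hf
    positivity
  have hδKmem : ∀ f ∈ v.toValuationSubring, δK f ∈ v.toValuationSubring := by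
    intro f hf
    rcases hDmem (e f) (hVP f hf) with h | h
    · rw [hcomm] at h
      have : δK f = 0 := by simpa using h
      rw [this]; exact zero_mem _
    · rw [hcomm, hP] at h
      apply mem_of_ord_nonneg
      by_contra hcon
      push Not at hcon
      have : (n : ℤ) * v.ord (δK f) ≤ (n : ℤ) * (-1) := by
        apply mul_le_mul_of_nonneg_left _ hnZ.le
        omega
      omega
  -- the subalgebra generated by `L` and the valuation ring of `v`
  let S : Subalgebra L F' := Algebra.adjoin L (e '' (v.toValuationSubring : Set F))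
  have hS_le : ∀ x ∈ S, x ∈ P.toValuationSubring := by
    intro x hx
    induction hx using Algebra.adjoin_induction with
    | mem x hx =>
      obtain ⟨f, hf, rfl⟩ := hx
      exact hVP f hf
    | algebraMap r => exact P.algebraMap_mem' r
    | add x y _ _ hx hy => exact add_mem hx hy
    | mul x y _ _ hx hy => exact mul_mem hx hy
  have hS_D : ∀ x ∈ S, D x ∈ S := by
    intro x hx
    induction hx using Algebra.adjoin_induction with
    | mem x hx =>
      obtain ⟨f, hf, rfl⟩ := hx
      rw [hcomm]
      exact Algebra.subset_adjoin ⟨_, hδKmem f hf, rfl⟩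
    | algebraMap r => rw [Derivation.map_algebraMap]; exact zero_mem _
    | add x y _ _ hx hy => rw [map_add]; exact add_mem hx hy
    | mul x y hx' hy' hx hy =>
      rw [Derivation.leibniz, smul_eq_mul, smul_eq_mul]
      exact add_mem (mul_mem hx' hy) (mul_mem hy' hx)
  have hS_dvd : ∀ x ∈ S, x ≠ 0 → (n : ℤ) ∣ P.ord x := by
    intro x hx hx0
    by_contra hcon
    have key : ∀ j : ℕ, D^[j] x ∈ S ∧ P.ord (D^[j] x) = P.ord x - j * n := by
      intro j
      induction j with
      | zero => simpa using hx
      | succ j ih =>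
        obtain ⟨h1, h2⟩ := ih
        rw [Function.iterate_succ_apply']
        refine ⟨hS_D _ h1, ?_⟩
        have h3 : P.ord (D^[j] x) ≠ 0 := by
          rw [h2]
          intro h
          apply hcon
          exact ⟨j, by linarith⟩
        rw [(hDord _ h3).2, h2]
        push_cast
        ring
    have hk := ord_nonneg_of_mem P (hS_le x hx)
    obtain ⟨h1, h2⟩ := key ((P.ord x).toNat + 1)
    have h3 := ord_nonneg_of_mem P (hS_le _ h1)
    rw [h2] at h3
    have h4 : (((P.ord x).toNat : ℕ) : ℤ) = P.ord x := Int.toNat_of_nonneg hk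
    push_cast at h3
    rw [h4] at h3
    nlinarith
  have hUS : U ∈ S := Algebra.subset_adjoin ⟨u, mem_of_ord_nonneg v (by omega), rfl⟩
  have hclear : ∀ r ∈ Algebra.adjoin L (Set.range e), ∃ k : ℕ, U ^ k * r ∈ S := by
    intro r hr
    induction hr using Algebra.adjoin_induction with
    | mem x hx =>
      obtain ⟨f, rfl⟩ := hx
      obtain ⟨M, hM⟩ := exists_pow_mul_mem v u hu f
      refine ⟨M, ?_⟩
      rw [hU, ← map_pow, ← map_mul]
      exact Algebra.subset_adjoin ⟨_, hM M le_rfl, rfl⟩
    | algebraMap r => exact ⟨0, by simp⟩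
    | add x y _ _ hx hy =>
      obtain ⟨a, ha⟩ := hx
      obtain ⟨b, hb⟩ := hy
      refine ⟨a + b, ?_⟩
      have : U ^ (a + b) * (x + y) = U ^ b * (U ^ a * x) + U ^ a * (U ^ b * y) := by ring
      rw [this]
      exact add_mem (mul_mem (pow_mem hUS _) ha) (mul_mem (pow_mem hUS _) hb)
    | mul x y _ _ hx hy =>
      obtain ⟨a, ha⟩ := hx
      obtain ⟨b, hb⟩ := hy
      refine ⟨a + b, ?_⟩
      have : U ^ (a + b) * (x * y) = (U ^ a * x) * (U ^ b * y) := by ring
      rw [this]
      exact mul_mem ha hb
  have hadj_dvd : ∀ r ∈ Algebra.adjoin L (Set.range e), r ≠ 0 → (n : ℤ) ∣ P.ord r := by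
    intro r hr hr0
    obtain ⟨k, hk⟩ := hclear r hr
    have h1 := hS_dvd _ hk (mul_ne_zero (pow_ne_zero _ hU0) hr0)
    rw [P.ord_mul (pow_ne_zero _ hU0) hr0, ord_pow, hPU] at h1
    exact (Int.dvd_add_right (Dvd.intro_left _ rfl)).1 h1
  have hn1 : (n : ℤ) ∣ 1 := by
    have hϖ0 : ϖ ≠ 0 := by rintro rfl; simp at hϖ
    have hmem : ϖ ∈ IntermediateField.adjoin L (Set.range e) := by rw [hgen]; trivial
    obtain ⟨r, hr, s, hs, hrs⟩ := IntermediateField.mem_adjoin_iff_div.1 hmem
    have hr0 : r ≠ 0 := by rintro rfl; simp at hrs; exact hϖ0 hrs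
    have hs0 : s ≠ 0 := by rintro rfl; simp at hrs; exact hϖ0 hrs
    rw [← hϖ, hrs, ord_div P hr0 hs0]
    exact dvd_sub (hadj_dvd r hr hr0) (hadj_dvd s hs hs0)
  have hn1' : (n : ℤ) = 1 := Int.eq_one_of_dvd_one hnZ.le hn1
  refine ⟨P, fun f => ?_⟩
  rw [hP, hn1', one_mul]

end Fermat.Agent.UNIlib
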