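import Fermat.Agent.UNI.TwoValPi
import Fermat.Agent.ES.M.PiSide

/-!
# T-UNI: (T2) without an `R`-algebra structure on the level `N`
-/

set_option autoImplicit false
set_option linter.unusedSectionVars false
set_option linter.style.haveILetI false

open ModularCurve Polynomial
open scoped Pointwise

namespace Fermat.Agent.UNIlib

open Fermat.Agent.ESlib
open Fermat.Agent.S24lib (Dv Kb)

section abstractR

variable {R K : Type} [CommRing R] [IsDomain R] [IsDiscreteValuationRing R] [Field K] [Algebra R K]
  [IsFractionRing R K] [CharZero K] [Algebra ℚ K] [Algebra K ℂ] [IsScalarTower ℚ K ℂ]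
  {N r : ℕ} [NeZero N] [NeZero r] [NeZero (N * r)]
  [Algebra R (FK K (N * r))] [IsScalarTower R K (FK K (N * r))]
  [CharP (IsLocalRing.ResidueField R) r]

/-- (T2) without an `R`-algebra structure on the level `N` -/
theorem piInt_tF_iff_two {π : R} (hπ : Irreducible π) (hr : r.Prime) (hrN : ¬ r ∣ N)
    (hN : IsUnit (N : R)) (a : ℕ) [NeZero a] (ha : a = 2 ∨ a = 3) (haN : a ∣ N)
    (x : FK K (N * r)) :
    PiInt π (tF K (N * r) a ha (haN.mul_right r)) x ↔
      x ∈ gaussSub R K (N * r) ∧ wr K hr hrN x ∈ gaussSub R K (N * r) := by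
  letI : Algebra R (FK K N) := ((algebraMap K (FK K N)).comp (algebraMap R K)).toAlgebra
  haveI : IsScalarTower R K (FK K N) := IsScalarTower.of_algebraMap_eq fun _ => rfl
  have hN' := natCast_residueField_ne_zero_of_isUnit hN
  have haR : IsUnit (a : R) := by
    obtain ⟨k, rfl⟩ := haN
    rw [Nat.cast_mul] at hN
    exact isUnit_of_mul_isUnit_left hN
  exact ⟨fun h => two_of_piInt a ha haN hr hrN haR hπ h,
    fun h => piInt_of_two a ha haN hr hrN hN' hπ h.1 h.2⟩

end abstractR

end Fermat.Agent.UNIlib
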