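import Fermat.Agent.S28.Analytic
import Fermat.Agent.S28.Descent
import Fermat.Agent.S28.PrimeLevel

/-!
# T-UNI: the shape of the modular polynomial `Φ_p` over `ℤ`

`Φ_p ∈ ℤ[Y][X]` (integrality at ALL primes, including `p`), monic of degree `p + 1` in `X`,
`Φ_p = X^(p+1) - X^p Y^p + Y^(p+1) + (terms X^i Y^k, i, k ≤ p, (i, k) ≠ (p, p))`.
-/

set_option autoImplicit false

open ModularCurve Polynomial
open Fermat.Agent.S28lib

namespace Fermat.Agent.UNIlib

noncomputable section

section W

variable {K : Type*} [Field K]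

/-- `ord f ≥ -n` -/
def Wle (n : ℤ) (f : LaurentSeries K) : Prop := ∀ m : ℤ, m < -n → f.coeff m = 0

theorem Wle.mono {a b : ℤ} {f : LaurentSeries K} (h : Wle a f) (hab : a ≤ b) : Wle b f :=
  fun m hm => h m (by omega)

theorem Wle.zero (a : ℤ) : Wle a (0 : LaurentSeries K) := fun _ _ => rfl

theorem Wle.add {a : ℤ} {f g : LaurentSeries K} (hf : Wle a f) (hg : Wle a g) : Wle a (f + g) :=
  fun m hm => by rw [HahnSeries.coeff_add, hf m hm, hg m hm, add_zero]

theorem Wle.neg {a : ℤ} {f : LaurentSeries K} (hf : Wle a f) : Wle a (-f) :=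
  fun m hm => by rw [HahnSeries.coeff_neg, hf m hm, neg_zero]

theorem Wle.sub {a : ℤ} {f g : LaurentSeries K} (hf : Wle a f) (hg : Wle a g) : Wle a (f - g) := by
  rw [sub_eq_add_neg]; exact hf.add hg.neg

theorem Wle.mul {a b : ℤ} {f g : LaurentSeries K} (hf : Wle a f) (hg : Wle b g) :
    Wle (a + b) (f * g) := by
  intro m hm
  rw [HahnSeries.coeff_mul]
  apply Finset.sum_eq_zero
  intro ij hij
  obtain ⟨h1, h2, h3⟩ := Finset.mem_antidiagonal.1 hij
  by_cases hi : ij.1 < -a
  · rw [hf _ hi, zero_mul]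
  · rw [hg ij.2 (by omega), mul_zero]

theorem Wle.one : Wle 0 (1 : LaurentSeries K) := by
  intro m hm
  rw [HahnSeries.coeff_one, if_neg (by omega)]

theorem Wle_J (c : Kˣ) (e : ℕ) [NeZero e] : Wle (e : ℤ) (J c e) := by
  intro m hm
  apply HahnSeries.coeff_eq_zero_of_lt_order
  rw [order_J]
  exact hm

/-- the coefficients of `∏ (X - j(c q))` -/
theorem Wle_coeff_prod (T : Finset Kˣ) (m : ℕ) :
    Wle ((T.card : ℤ) - m) ((∏ c ∈ T, (X - C (J c 1))).coeff m) := by
  classical
  induction T using Finset.induction_on generalizing m with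
  | empty =>
    rw [Finset.prod_empty, coeff_one]
    split_ifs with h
    · subst h
      simpa using Wle.one
    · exact Wle.zero _
  | insert a T ha ih =>
    rw [Finset.prod_insert ha, Finset.card_insert_of_notMem ha, sub_mul]
    rcases m with _ | k
    · rw [coeff_sub, coeff_X_mul_zero, zero_sub, coeff_C_mul]
      refine (((Wle_J a 1).mul (ih 0)).neg).mono ?_
      push_cast
      omega
    · rw [coeff_sub, coeff_X_mul, coeff_C_mul]
      refine ((ih k).mono ?_).sub (((Wle_J a 1).mul (ih (k + 1))).mono ?_)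
      · push_cast; omega
      · push_cast; omega

end W

section coeffRing

variable {K : Type*} [Field K]

/-- the Laurent series with coefficients in the subring `O` -/
def coeffRing (O : Subring K) : Subring (LaurentSeries K) := (coeffMap O.subtype).range

theorem mem_coeffRing_iff {O : Subring K} {x : LaurentSeries K} :
    x ∈ coeffRing O ↔ ∀ n, x.coeff n ∈ O := by
  constructor
  · rintro ⟨X, rfl⟩ n
    rw [coeffMap_coeff]
    exact (X.coeff n).2
  · intro h
    refine ⟨{ coeff := fun n => ⟨_, h n⟩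
              isPWO_support' := x.isPWO_support.mono fun n hn => by
                intro h0
                exact hn (Subtype.ext h0) }, ?_⟩
    ext n
    rw [coeffMap_coeff]
    rfl

theorem jA_mem_coeffRing (O : Subring K) : jA K ∈ coeffRing O := by
  rw [mem_coeffRing_iff]
  intro n
  rw [← coeffMap_jA (Int.castRingHom K), coeffMap_coeff]
  exact intCast_mem O _

theorem jAd_mem_coeffRing (O : Subring K) (d : ℕ) [NeZero d] : jAd K d ∈ coeffRing O := by
  rw [mem_coeffRing_iff]
  intro n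
  rw [← coeffMap_jAd (Int.castRingHom K), coeffMap_coeff]
  exact intCast_mem O _

theorem C_mem_coeffRing {O : Subring K} {a : K} (ha : a ∈ O) :
    (HahnSeries.C a : LaurentSeries K) ∈ coeffRing O := by
  rw [mem_coeffRing_iff]
  intro n
  rw [HahnSeries.C_apply, HahnSeries.coeff_single]
  split_ifs
  · exact ha
  · exact zero_mem O

/-- **Hasse's `q`-expansion principle** for polynomials in `j`. -/
theorem coeff_mem_of_evY_jA_mem (O : Subring K) (n : ℕ) :
    ∀ P : K[X], P.natDegree < n → evY K (jA K) P ∈ coeffRing O → ∀ k, P.coeff k ∈ O := by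
  induction n with
  | zero => intro P h; omega
  | succ n ih =>
    intro P hP hmem k
    have hlead : P.leadingCoeff ∈ O := by
      rw [← coeff_evY_jA_natDegree]
      exact mem_coeffRing_iff.1 hmem _
    have hdec := P.eraseLead_add_monomial_natDegree_leadingCoeff
    have hmem' : evY K (jA K) P.eraseLead ∈ coeffRing O := by
      have h1 : evY K (jA K) P.eraseLead =
          evY K (jA K) P - HahnSeries.C P.leadingCoeff * jA K ^ P.natDegree := by
        have h2 := congrArg (evY K (jA K)) hdec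
        rw [map_add, ← C_mul_X_pow_eq_monomial, map_mul, map_pow, evY_C, evY_X] at h2
        rw [← h2]
        ring
      rw [h1]
      exact sub_mem hmem (mul_mem (C_mem_coeffRing hlead) (pow_mem (jA_mem_coeffRing O) _))
    by_cases h0 : P.natDegree = 0
    · rw [eq_C_of_natDegree_eq_zero h0, coeff_C]
      split_ifs
      · have : P.coeff 0 = P.leadingCoeff := by rw [leadingCoeff, h0]
        rw [this]; exact hlead
      · exact zero_mem O
    · have hlt : P.eraseLead.natDegree < n := by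
        have := P.eraseLead_natDegree_le
        omega
      have := ih P.eraseLead hlt hmem' k
      rw [← hdec, coeff_add, coeff_monomial]
      split_ifs
      · exact add_mem this hlead
      · simpa using this

end coeffRing

section product

variable {K : Type*} [Field K] {p : ℕ} [NeZero p]

/-- the factorisation of `Φ_p(X, j(q^p))` in `K((q))[X]` -/
theorem specialize_Phi_eq [IsAlgClosed K] [NeZero (p * p)] (hp : p.Prime) (hpK : (p : K) ≠ 0)
    (D : ModData K p) :
    ∃ T : Finset Kˣ, T.card = p ∧ (∀ c ∈ T, c ^ p = 1) ∧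
      specialize D.Φ (J 1 p) = (X - C (J 1 (p * p))) * ∏ c ∈ T, (X - C (J c 1)) := by
  classical
  obtain ⟨T, hTcard, hT⟩ := exists_finset_pthRoots (p := p) hpK (1 : Kˣ)
  refine ⟨T, hTcard, fun c hc => (hT c).1 hc, ?_⟩
  set F := specialize D.Φ (J 1 p) with hFdef
  have hmonic : F.Monic := D.Φ_monic.map _
  have hdeg : F.natDegree = p + 1 := by
    rw [hFdef, specialize, D.Φ_monic.natDegree_map, D.Φ_natDegree]
  have hnot : J (1 : Kˣ) (p * p) ∉ T.image fun c' => J c' 1 := by
    rw [Finset.mem_image]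
    rintro ⟨c', _, hc'⟩
    have h2 := (J_injective hc').2
    have hp2 := hp.two_le
    nlinarith
  have hinj : Function.Injective (fun c' : Kˣ => J c' 1) := fun a b hab => (J_injective hab).1
  set S : Finset (LaurentSeries K) := insert (J 1 (p * p)) (T.image fun c' => J c' 1) with hSdef
  have hSroot : ∀ a ∈ S, F.eval a = 0 := by
    intro a ha
    rw [hSdef, Finset.mem_insert, Finset.mem_image] at ha
    rcases ha with rfl | ⟨c', hc', rfl⟩
    · rw [hFdef, eval_specialize]
      have := Phi_root_up D (1 : Kˣ) p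
      rwa [one_pow] at this
    · rw [hFdef, eval_specialize]
      have : NeZero (1 * p) := ⟨by rw [one_mul]; exact NeZero.ne p⟩
      have := Phi_root_down D c' 1
      rwa [J_congr ((hT c').1 hc') (one_mul p)] at this
  have hScard : F.natDegree ≤ S.card := by
    rw [hdeg, hSdef, Finset.card_insert_of_notMem hnot, Finset.card_image_of_injective _ hinj,
      hTcard]
  have hprod := eq_prod_of_monic_of_roots F hmonic S hSroot hScard
  rw [hprod, hSdef, Finset.prod_insert hnot, Finset.prod_image (fun a _ b _ hab => hinj hab)]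

theorem evY_J_one (P : K[X]) : evY K (J 1 p) P = sub 1 p (evY K (jA K) P) := by
  rw [sub_evY]; rfl

theorem coeff_evY_J_one (P : K[X]) (n : ℤ) :
    (evY K (J 1 p) P).coeff ((p : ℤ) * n) = (evY K (jA K) P).coeff n := by
  rw [evY_J_one, coeff_sub_mul]
  simp

theorem natDegree_le_of_Wle (P : K[X]) (B : ℤ) (n : ℕ) (hB : B < (p : ℤ) * (n + 1))
    (h : Wle B (evY K (J 1 p) P)) : P.natDegree ≤ n := by
  by_contra hlt
  rw [not_le] at hlt
  have hP : P ≠ 0 := by
    rintro rfl
    simp at hlt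
  have h1 := coeff_evY_J_one (p := p) P (-(P.natDegree : ℤ))
  rw [coeff_evY_jA_natDegree, h] at h1
  · exact leadingCoeff_ne_zero.2 hP h1.symm
  · have hp0 : (0 : ℤ) < p := by exact_mod_cast Nat.pos_of_ne_zero (NeZero.ne p)
    have : (p : ℤ) * (n + 1) ≤ (p : ℤ) * P.natDegree :=
      mul_le_mul_of_nonneg_left (by exact_mod_cast hlt) hp0.le
    linarith

theorem coeff_evY_J_one_of_le (P : K[X]) (n : ℕ) (hn : P.natDegree ≤ n) :
    (evY K (J 1 p) P).coeff (-((p : ℤ) * n)) = P.coeff n := by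
  rw [show -((p : ℤ) * n) = (p : ℤ) * (-(n : ℤ)) by ring, coeff_evY_J_one]
  rcases hn.eq_or_lt with rfl | hlt
  · rw [coeff_evY_jA_natDegree]; rfl
  · rw [coeff_evY_jA_of_lt P (by omega), coeff_eq_zero_of_natDegree_lt hlt]

theorem J_mem_coeffRing (O : Subring K) (c : Kˣ) (hc : ∀ n : ℤ, ((c ^ n : Kˣ) : K) ∈ O) :
    J c 1 ∈ coeffRing O := by
  rw [mem_coeffRing_iff]
  intro n
  have h := coeff_sub_mul c 1 (jA K) n
  rw [Nat.cast_one, one_mul] at h
  rw [J, h]
  exact mul_mem (hc n) (mem_coeffRing_iff.1 (jA_mem_coeffRing O) n)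

/-- the shape of `Φ_p` over an algebraically closed field of characteristic prime to `p` -/
theorem Phi_shape_field [IsAlgClosed K] (hp : p.Prime) (hpK : (p : K) ≠ 0) (D : ModData K p)
    (O : Subring K) (hO : ∀ c : K, c ^ p = 1 → c ∈ O) :
    (∀ i k, (D.Φ.coeff i).coeff k ∈ O) ∧ (∀ i, 1 ≤ i → (D.Φ.coeff i).natDegree ≤ p) ∧
      (D.Φ.coeff p).coeff p = -1 ∧ (D.Φ.coeff 0).natDegree ≤ p + 1 := by
  classical
  have : NeZero (p * p) := ⟨mul_ne_zero (NeZero.ne p) (NeZero.ne p)⟩
  obtain ⟨T, hTcard, hT, hprod⟩ := specialize_Phi_eq hp hpK D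
  set G : (LaurentSeries K)[X] := ∏ c ∈ T, (X - C (J c 1)) with hG
  have hp0 : (0 : ℤ) < p := by exact_mod_cast Nat.pos_of_ne_zero (NeZero.ne p)
  have hGW : ∀ m : ℕ, Wle ((p : ℤ) - m) (G.coeff m) := fun m => by
    have := Wle_coeff_prod T m
    rwa [hTcard] at this
  have hco : ∀ i, evY K (J 1 p) (D.Φ.coeff i) = ((X - C (J 1 (p * p))) * G).coeff i := fun i => by
    rw [← hprod, specialize, coeff_map]
  have hbig : Wle ((p : ℤ) * p) (J (1 : Kˣ) (p * p)) := by
    have := Wle_J (1 : Kˣ) (p * p)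
    rwa [Nat.cast_mul] at this
  have hdeg : ∀ i, 1 ≤ i → (D.Φ.coeff i).natDegree ≤ p := by
    intro i hi
    obtain ⟨k, rfl⟩ : ∃ k, i = k + 1 := ⟨i - 1, by omega⟩
    refine natDegree_le_of_Wle (p := p) _ ((p : ℤ) * p + p - 1) p (by linarith) ?_
    rw [hco, sub_mul, coeff_sub, coeff_X_mul, coeff_C_mul]
    refine ((hGW k).mono ?_).sub ((hbig.mul (hGW (k + 1))).mono ?_)
    · have : (0 : ℤ) ≤ (p : ℤ) * p := by positivity
      have : (1 : ℤ) ≤ (p : ℤ) * p := by nlinarith
      have hk : (0 : ℤ) ≤ k := by positivity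
      linarith
    · push_cast
      have hk : (0 : ℤ) ≤ k := by positivity
      linarith
  refine ⟨?_, hdeg, ?_, ?_⟩
  · -- integrality
    intro i k
    have hlift : ((X - C (J 1 (p * p))) * G) ∈ Polynomial.liftsRing (coeffRing O).subtype := by
      have hX : ∀ a ∈ coeffRing O, (X - C a : (LaurentSeries K)[X]) ∈
          Polynomial.liftsRing (coeffRing O).subtype := fun a ha =>
        ⟨X - C ⟨a, ha⟩, by simp⟩
      refine mul_mem (hX _ ?_) (Subring.prod_mem _ fun c hc => hX _ ?_)
      · rw [J_one]; exact jAd_mem_coeffRing O _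
      · refine J_mem_coeffRing O c fun n => hO _ ?_
        rw [← Units.val_pow_eq_pow_val, ← zpow_natCast, ← zpow_mul, mul_comm, zpow_mul,
          zpow_natCast, hT c hc, one_zpow, Units.val_one]
    have hmem : evY K (J 1 p) (D.Φ.coeff i) ∈ coeffRing O := by
      rw [hco]
      obtain ⟨Q, hQ⟩ := hlift
      rw [← hQ]
      simp only [coe_mapRingHom, coeff_map]
      exact (Q.coeff i).2
    have hmem' : evY K (jA K) (D.Φ.coeff i) ∈ coeffRing O := by
      rw [mem_coeffRing_iff] at hmem ⊢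
      intro n
      rw [← coeff_evY_J_one (p := p)]
      exact hmem _
    exact coeff_mem_of_evY_jA_mem O _ _ (Nat.lt_succ_self _) hmem' k
  · -- the coefficient of `X^p Y^p`
    have hp2 := hp.two_le
    have hGm : G.Monic := monic_prod_of_monic _ _ fun c _ => monic_X_sub_C _
    have hGd : G.natDegree = p := by
      rw [hG, natDegree_prod_of_monic _ _ fun c _ => monic_X_sub_C _]
      simp [hTcard]
    have hGp : G.coeff p = 1 := by
      rw [← hGd]; exact hGm.coeff_natDegree
    rw [← coeff_evY_J_one_of_le (p := p) _ p (hdeg p (by omega)), hco]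
    obtain ⟨k, hk⟩ : ∃ k, p = k + 1 := ⟨p - 1, by omega⟩
    have h1 : ((X - C (J 1 (p * p))) * G).coeff p = G.coeff k - J 1 (p * p) := by
      have h0 : ∀ (b : LaurentSeries K) (n : ℕ), n = k + 1 →
          ((X - C b) * G).coeff n = G.coeff k - b * G.coeff n := by
        rintro b n rfl
        rw [sub_mul, coeff_sub, coeff_X_mul, coeff_C_mul]
      rw [h0 _ p hk, hGp, mul_one]
    rw [h1, HahnSeries.coeff_sub, hGW k]
    · have h2 := coeff_sub_mul (1 : Kˣ) (p * p) (jA K) (-1)
      rw [coeff_jqModC_neg_one] at h2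
      rw [J, show -((p : ℤ) * p) = ((p * p : ℕ) : ℤ) * (-1) by push_cast; ring, h2]
      simp
    · have : (p : ℤ) = k + 1 := by exact_mod_cast hk
      have h2 : (2 : ℤ) ≤ p := by exact_mod_cast hp2
      nlinarith
  · refine natDegree_le_of_Wle (p := p) _ ((p : ℤ) * p + p) (p + 1) (by push_cast; nlinarith) ?_
    rw [hco, sub_mul, coeff_sub, coeff_X_mul_zero, zero_sub, coeff_C_mul]
    refine ((hbig.mul (hGW 0)).neg).mono ?_
    push_cast
    linarith

end product

section int

/-- **The modular polynomial `Φ_p` over `ℤ` and its shape.** -/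
theorem exists_PhiZ {p : ℕ} [NeZero p] (hp : p.Prime) :
    ∃ Φ : ℤ[X][X], Φ.Monic ∧ Φ.natDegree = p + 1 ∧
      ev2 Φ (jAd ℤ p) (jA ℤ) = 0 ∧ ev2 Φ (jA ℤ) (jAd ℤ p) = 0 ∧
      (∀ i, 1 ≤ i → (Φ.coeff i).natDegree ≤ p) ∧ (Φ.coeff p).coeff p = -1 ∧
      (Φ.coeff 0).natDegree ≤ p + 1 := by
  obtain ⟨D₀⟩ := nonempty_modData_rat (nonempty_modData_complex hp)
  set K := AlgebraicClosure ℚ
  set D := D₀.map (algebraMap ℚ K) with hD
  have hpK : (p : K) ≠ 0 := Nat.cast_ne_zero.2 hp.ne_zero
  obtain ⟨h1, h2, h3, h4⟩ := Phi_shape_field hp hpK D (integralClosure ℤ K).toSubring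
    (fun c hc => IsIntegral.of_pow hp.pos (by rw [hc]; exact isIntegral_one))
  have hcoeff : ∀ i, D.Φ.coeff i = (D₀.Φ.coeff i).map (algebraMap ℚ K) := fun i => by
    rw [hD]
    show (D₀.Φ.map (mapRingHom (algebraMap ℚ K))).coeff i = _
    rw [coeff_map, coe_mapRingHom]
  have hinjK : Function.Injective (algebraMap ℚ K) := (algebraMap ℚ K).injective
  have hint : ∀ i k, ∃ z : ℤ, (z : ℚ) = (D₀.Φ.coeff i).coeff k := by
    intro i k
    have h := h1 i k
    rw [hcoeff, coeff_map] at h
    have h' : IsIntegral ℤ ((D₀.Φ.coeff i).coeff k) := (isIntegral_algebraMap_iff hinjK).1 h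
    obtain ⟨z, hz⟩ := IsIntegrallyClosed.isIntegral_iff.1 h'
    exact ⟨z, by simpa using hz⟩
  have hlift : D₀.Φ ∈ lifts (mapRingHom (Int.castRingHom ℚ)) := by
    rw [lifts_iff_coeff_lifts]
    intro i
    have : D₀.Φ.coeff i ∈ lifts (Int.castRingHom ℚ) := by
      rw [lifts_iff_coeff_lifts]
      intro k
      obtain ⟨z, hz⟩ := hint i k
      exact ⟨z, by simpa using hz⟩
    obtain ⟨Q, hQ⟩ := this
    exact ⟨Q, hQ⟩
  obtain ⟨Φ, hΦ, hΦd, hΦm⟩ := lifts_and_natDegree_eq_and_monic hlift D₀.Φ_monic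
  have hinjQ : Function.Injective (Int.castRingHom ℚ) := Int.cast_injective
  have hc : ∀ i, (Φ.coeff i).map (Int.castRingHom ℚ) = D₀.Φ.coeff i := fun i => by
    rw [← hΦ, coeff_map, coe_mapRingHom]
  have hnd : ∀ i, (Φ.coeff i).natDegree = (D.Φ.coeff i).natDegree := fun i => by
    rw [hcoeff, ← hc, natDegree_map_eq_of_injective hinjK, natDegree_map_eq_of_injective hinjQ]
  refine ⟨Φ, hΦm, hΦd.trans D₀.Φ_natDegree, ?_, ?_, ?_, ?_, ?_⟩
  · apply coeffMap_injective hinjQ
    rw [coeffMap_ev2, hΦ, coeffMap_jAd, coeffMap_jA, D₀.Φ_ev₁, map_zero]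
  · apply coeffMap_injective hinjQ
    rw [coeffMap_ev2, hΦ, coeffMap_jAd, coeffMap_jA, D₀.Φ_ev₂, map_zero]
  · intro i hi
    rw [hnd]; exact h2 i hi
  · rw [hcoeff, ← hc, coeff_map, coeff_map] at h3
    have : (((Φ.coeff p).coeff p : ℤ) : K) = ((-1 : ℤ) : K) := by
      simpa using h3
    exact Int.cast_injective this
  · rw [hnd]; exact h4

end int

end

end Fermat.Agent.UNIlib
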