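import Fermat.Agent.ES.M.NumField
import Fermat.Agent.ES.Dict.Defs

/-!
# T-UNI: the `A ∩ K`-algebra structure of `F_K(M)`

Instance search for `Algebra (RA A K) (FK K M)` / `IsScalarTower (RA A K) K (FK K M)` times out
(`K : IntermediateField ℚ ℚ̄`).  Use, inside a proof,

```
letI : Algebra (RA A K) (FK K M) := algRAFK A K M
haveI : IsScalarTower (RA A K) K (FK K M) := towerRAFK A K M
```
-/

set_option autoImplicit false

open ModularCurve

namespace Fermat.Agent.UNIlib

open Fermat.Agent.ESlib
open Fermat.Agent.S24lib (Kb)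

/-- the `A ∩ K`-algebra structure of `F_K(M)` -/
noncomputable abbrev algRAFK (A : ValuationSubring Kb) (K : IntermediateField ℚ Kb) (M : ℕ) :
    Algebra (RA A K) (FK K M) :=
  ((algebraMap K (FK K M)).comp (algebraMap (RA A K) K)).toAlgebra

set_option synthInstance.maxHeartbeats 400000 in
theorem towerRAFK (A : ValuationSubring Kb) (K : IntermediateField ℚ Kb) (M : ℕ) :
    letI := algRAFK A K M
    IsScalarTower (RA A K) K (FK K M) :=
  letI := algRAFK A K M
  IsScalarTower.of_algebraMap_eq fun _ => rfl

end Fermat.Agent.UNIlib
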