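import Fermat.Agent.ES.D.Main

/-!
# T-UNI, S35 endgame, part 1: rank two linear algebra and the two branches of Part D3b

If `φ = ρ(σ)` satisfies `(φ² - q²)(φ² - 1) = 0` and the cyclotomic character of `σ` is `q`, then the
representation produced by Part D3b has `charpoly (ρ' σ) = X² ∓ (q + 1) X + q`.
-/

set_option autoImplicit false

namespace Fermat.Agent.UNIlib

open Fermat.Agent.ESlib Fermat.Agent.ESlib.PartD IsLocalRing Polynomial

local notation "Qb" => AlgebraicClosure ℚ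
local notation "GalQ" => (AlgebraicClosure ℚ ≃ₐ[ℚ] AlgebraicClosure ℚ)

section Mat

variable {O : Type} [CommRing O]

/-- the key identity: `(M² - d²)(M² - 1) = (t² - (d + 1)²) M²`, `t = tr M`, `d = det M`. -/
theorem mat_steinberg_identity (M : Matrix (Fin 2) (Fin 2) O) :
    (M * M - (M.det ^ 2) • 1) * (M * M - 1) = (M.trace ^ 2 - (M.det + 1) ^ 2) • (M * M) := by
  ext i j
  fin_cases i <;> fin_cases j <;>
    simp [Matrix.mul_apply, Fin.sum_univ_two, Matrix.det_fin_two, Matrix.trace_fin_two,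
      Matrix.one_apply] <;> ring

theorem trace_sq_of_steinberg [IsDomain O] (M : Matrix (Fin 2) (Fin 2) O) {q : O} (hq : q ≠ 0)
    (hdet : M.det = q) (h : (M * M - (q ^ 2) • 1) * (M * M - 1) = 0) :
    M.trace = q + 1 ∨ M.trace = -(q + 1) := by
  have h1 := mat_steinberg_identity M
  rw [hdet, h] at h1
  have h2 : (M * M).det ≠ 0 := by
    rw [Matrix.det_mul, hdet]
    exact mul_ne_zero hq hq
  have h3 : M.trace ^ 2 - (q + 1) ^ 2 = 0 := by
    by_contra hne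
    apply h2
    have h4 : M * M = 0 := (smul_eq_zero.mp h1.symm).resolve_left hne
    rw [h4, Matrix.det_zero]
  have h5 : (M.trace - (q + 1)) * (M.trace + (q + 1)) = 0 := by linear_combination h3
  rcases mul_eq_zero.mp h5 with h6 | h6
  · left; linear_combination h6
  · right; linear_combination h6

end Mat

/-- a sharper form of `forall_scalar_or_charpoly`: either all `ρ σ` are scalars or `det ρ` is the
cyclotomic character. -/
theorem scalar_or_det (p : ℕ) [Fact p.Prime] (O : Type) [CommRing O] [IsDomain O]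
    [IsDiscreteValuationRing O] [IsAdicComplete (IsLocalRing.maximalIdeal O) O]
    (hp : (p : O) ∈ IsLocalRing.maximalIdeal O) (T : Finset ℕ) (hpT : p ∈ T) (a : ℕ → O)
    (ρ : GaloisRepAdic O)
    (hfrob : ∀ ℓ : ℕ, ℓ.Prime → ℓ ∉ T → ∀ A : ValuationSubring (AlgebraicClosure ℚ),
      A.LiesOverPrime ℓ → ∀ σ, A.IsFrobeniusAt σ ℓ →
        ρ.ρ σ * ρ.ρ σ - a ℓ • ρ.ρ σ + (ℓ : O) • 1 = 0) (ι : ℤ_[p] →+* O) :
    (∀ σ, ∃ c : O, ρ.ρ σ = c • 1) ∨ (∀ σ, (mat ρ σ).det = ((cycloO ι σ : Oˣ) : O)) := by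
  have hne : ∀ ℓ : ℕ, ℓ ∉ T → ℓ ≠ p := fun ℓ hℓ h => hℓ (h ▸ hpT)
  have hF : ∀ l : ℕ, l.Prime → l ∉ T → ∃ A : ValuationSubring (AlgebraicClosure ℚ),
      A.LiesOverPrime l ∧ ∃ σ : GalQ, A.IsFrobeniusAt σ l ∧
        (σ ∈ detSubgroup ρ ι ∨ σ ∈ scalSubgroup ρ) := by
    intro l hl hlT
    obtain ⟨A, hA⟩ := Fermat.Agent.FrobExists.exists_liesOverPrime l hl
    obtain ⟨σ, hσ⟩ := Fermat.Agent.FrobExists.exists_isFrobeniusAt A hl hA
    refine ⟨A, hA, σ, hσ, ?_⟩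
    obtain ⟨e1, e2, e3, e4⟩ := ch_sub (mat ρ σ) (a l) (l : O)
      (mat_relation ρ (hfrob l hl hlT A hA σ hσ))
    by_cases ht : (mat ρ σ).trace - a l = 0
    · left
      rw [mem_detSubgroup, cycloO_frob ι hl (hne l hlT) A hA σ hσ, ← e4, ht, zero_mul]
    · right
      exact ⟨(mul_eq_zero.mp e1).resolve_left ht, (mul_eq_zero.mp e2).resolve_left ht,
        (mul_eq_zero.mp e3).resolve_left ht⟩
  rcases eq_top_or_eq_top_of_frobenius_mem (detSubgroup ρ ι) (scalSubgroup ρ)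
    (isClosed_detSubgroup ρ ι hp) (isClosed_scalSubgroup ρ) T hF with h | h
  · right
    intro σ
    have hmem : σ ∈ detSubgroup ρ ι := by rw [h]; trivial
    rw [mem_detSubgroup, sub_eq_zero] at hmem
    exact hmem
  · left
    intro σ
    have hmem : σ ∈ scalSubgroup ρ := by rw [h]; trivial
    rw [mem_scalSubgroup, isScal_iff] at hmem
    obtain ⟨c, hc⟩ := hmem
    exact ⟨c, eq_smul_one_of_mat ρ hc⟩

/-- transport of the Steinberg relation to matrices -/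
theorem mat_steinberg_relation {O : Type} [CommRing O] [IsLocalRing O] (ρ : GaloisRepAdic O)
    {σ : GalQ} {q : O}
    (h : (ρ.ρ σ * ρ.ρ σ - (q ^ 2) • 1) * (ρ.ρ σ * ρ.ρ σ - 1) = 0) :
    (mat ρ σ * mat ρ σ - (q ^ 2) • 1) * (mat ρ σ * mat ρ σ - 1) = 0 := by
  have h1 := congrArg (LinearMap.toMatrix (rbasis ρ) (rbasis ρ)) h
  have h0 : LinearMap.toMatrix (rbasis ρ) (rbasis ρ) (1 : Module.End O ρ.V) = 1 :=
    LinearMap.toMatrix_one _
  rw [LinearMap.toMatrix_mul, map_sub, map_sub, map_smul, LinearMap.toMatrix_mul, h0,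
    map_zero] at h1
  exact h1

/-- the conclusion of S35 at one element -/
def SteinbergCharpoly {O : Type} [CommRing O] [IsLocalRing O] (ρ : GaloisRepAdic O) (σ : GalQ)
    (q : ℕ) : Prop :=
  LinearMap.charpoly (ρ.ρ σ) = X ^ 2 - C ((q : O) + 1) * X + C ((q : O)) ∨
  LinearMap.charpoly (ρ.ρ σ) = X ^ 2 + C ((q : O) + 1) * X + C ((q : O))

theorem steinbergCharpoly_of_det {O : Type} [CommRing O] [IsDomain O] [IsLocalRing O] [CharZero O]
    (ρ : GaloisRepAdic O) {σ : GalQ} {q : ℕ} (hq : q ≠ 0) (hdet : (mat ρ σ).det = (q : O))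
    (h : (ρ.ρ σ * ρ.ρ σ - ((q : O) ^ 2) • 1) * (ρ.ρ σ * ρ.ρ σ - 1) = 0) :
    SteinbergCharpoly ρ σ q := by
  have hq' : (q : O) ≠ 0 := Nat.cast_ne_zero.mpr hq
  rcases trace_sq_of_steinberg (mat ρ σ) hq' hdet (mat_steinberg_relation ρ h) with ht | ht
  · left
    rw [charpoly_eq_mat, hdet, ht]
  · right
    rw [charpoly_eq_mat, hdet, ht, map_neg]
    ring

section scalar

/-- `exists_rep_of_scalar` (ES/D/TwoDimA) with the Steinberg clause. -/
theorem exists_rep_of_scalar_st (p : ℕ) [Fact p.Prime] (O : Type) [CommRing O] [IsDomain O]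
    [IsLocalRing O] [IsAdicComplete (IsLocalRing.maximalIdeal O) O]
    (hp : (p : O) ∈ IsLocalRing.maximalIdeal O) (T : Finset ℕ) (hpT : p ∈ T) (a : ℕ → O)
    (ρ : GaloisRepAdic O) (hunr : ∀ ℓ : ℕ, ℓ.Prime → ℓ ∉ T → ρ.IsUnramifiedAt ℓ)
    (hfrob : ∀ ℓ : ℕ, ℓ.Prime → ℓ ∉ T → ∀ A : ValuationSubring (AlgebraicClosure ℚ),
      A.LiesOverPrime ℓ → ∀ σ, A.IsFrobeniusAt σ ℓ →
        ρ.ρ σ * ρ.ρ σ - a ℓ • ρ.ρ σ + (ℓ : O) • 1 = 0)
    (hsc : ∀ σ, ∃ c : O, ρ.ρ σ = c • 1) :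
    ∃ ρ' : GaloisRepAdic O, (∀ ℓ : ℕ, ℓ.Prime → ℓ ∉ T → ρ'.IsUnramifiedAt ℓ) ∧
      (∀ ℓ : ℕ, ℓ.Prime → ℓ ∉ T → ∀ A : ValuationSubring (AlgebraicClosure ℚ),
        A.LiesOverPrime ℓ → ∀ σ, A.IsFrobeniusAt σ ℓ →
          LinearMap.charpoly (ρ'.ρ σ) = X ^ 2 - C (a ℓ) * X + C ((ℓ : O))) ∧
      (∀ (σ : GalQ) (q : ℕ), ((cycloZp p σ : ℤ_[p]ˣ) : ℤ_[p]) = q →
        (ρ.ρ σ * ρ.ρ σ - ((q : O) ^ 2) • 1) * (ρ.ρ σ * ρ.ρ σ - 1) = 0 →
        SteinbergCharpoly ρ' σ q) := by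
  classical
  let b : Module.Basis (Fin 2) O ρ.V := Module.finBasisOfFinrankEq O ρ.V ρ.finrank_eq
  let sc : Module.End O ρ.V → O := fun f => b.coord 0 (f (b 0))
  have hsc1 : ∀ c : O, sc (c • 1) = c := by
    intro c
    simp [sc]
  have hsc' : ∀ σ, ρ.ρ σ = sc (ρ.ρ σ) • 1 := by
    intro σ
    obtain ⟨c, hc⟩ := hsc σ
    rw [hc, hsc1]
  let ψ₀ : GalQ →* O :=
    { toFun := fun σ => sc (ρ.ρ σ)
      map_one' := by
        have := hsc1 1
        rwa [one_smul, ← map_one ρ.ρ] at this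
      map_mul' := fun σ τ => by
        have h1 : ρ.ρ (σ * τ) = (sc (ρ.ρ σ) * sc (ρ.ρ τ)) • 1 := by
          rw [map_mul]
          conv_lhs => rw [hsc' σ, hsc' τ]
          rw [smul_mul_smul_comm, one_mul]
        rw [h1, hsc1] }
  let ψ : GalQ →* Oˣ := ψ₀.toHomUnits
  have hψ : ∀ σ, ρ.ρ σ = ((ψ σ : Oˣ) : O) • 1 := hsc'
  have hψc : CharCont ψ := by
    intro n
    obtain ⟨L, hL, h⟩ := ρ.isAdicContinuous n
    refine ⟨L, hL, fun σ hσ => ?_⟩
    have h1 := apply_mem_of_mem_smul_top _ (b.coord 0) (h σ hσ (b 0))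
    have h2 : b.coord 0 (ρ.ρ σ (b 0) - b 0) = ((ψ σ : Oˣ) : O) - 1 := by
      rw [map_sub]
      congr 1
      simp
    rwa [h2] at h1
  obtain ⟨ι⟩ := exists_padicHom p O (maximalIdeal O) hp
  have hεc : CharCont (cycloO ι) := cycloO_sub_one_mem ι (maximalIdeal O) hp
  have hne : ∀ ℓ : ℕ, ℓ ∉ T → ℓ ≠ p := fun ℓ hℓ h => hℓ (h ▸ hpT)
  have hψ1 : ∀ σ, ρ.ρ σ = 1 → ψ σ = 1 := by
    intro σ hσ
    apply Units.ext
    have h2 : ((ψ σ : Oˣ) : O) = sc (ρ.ρ σ) := rfl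
    rw [h2, hσ, Units.val_one]
    have := hsc1 1
    rwa [one_smul] at this
  have key : ∀ x y : O, (X - C x) * (X - C y) = X ^ 2 - C (x + y) * X + C (x * y) := by
    intro x y
    simp only [map_add, map_mul]
    ring
  refine ⟨diagRep ψ (cycloO ι / ψ) hψc (hεc.div hψc), ?_, ?_, ?_⟩
  · intro ℓ hℓ hℓT A hA σ hσ
    have h1 : ψ σ = 1 := hψ1 σ (hunr ℓ hℓ hℓT A hA σ hσ)
    refine diagRep_eq_one _ _ _ _ h1 ?_
    rw [MonoidHom.div_apply, h1, cycloO_inertia ι hℓ (hne ℓ hℓT) A hA σ hσ, div_one]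
  · intro ℓ hℓ hℓT A hA σ hσ
    rw [charpoly_diagRep]
    have he : ((cycloO ι σ : Oˣ) : O) = ℓ := cycloO_frob ι hℓ (hne ℓ hℓT) A hA σ hσ
    have hrel : ((ψ σ : Oˣ) : O) * ((ψ σ : Oˣ) : O) - a ℓ * ((ψ σ : Oˣ) : O) + (ℓ : O) = 0 := by
      have h1 := hfrob ℓ hℓ hℓT A hA σ hσ
      rw [hψ σ, smul_mul_smul_comm, one_mul, smul_smul, ← sub_smul, ← add_smul] at h1
      have h2 := hsc1 (((ψ σ : Oˣ) : O) * ((ψ σ : Oˣ) : O) - a ℓ * ((ψ σ : Oˣ) : O) + (ℓ : O))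
      rw [h1] at h2
      rw [← h2]
      simp [sc]
    set c : Oˣ := ψ σ with hc
    have hd : (((cycloO ι / ψ) σ : Oˣ) : O) = (ℓ : O) * ((c⁻¹ : Oˣ) : O) := by
      rw [MonoidHom.div_apply, div_eq_mul_inv, Units.val_mul, he]
    have hcc : (c : O) * ((c⁻¹ : Oˣ) : O) = 1 := Units.mul_inv c
    have hsum : (c : O) + (ℓ : O) * ((c⁻¹ : Oˣ) : O) = a ℓ := by
      linear_combination ((c⁻¹ : Oˣ) : O) * hrel + (a ℓ - (c : O)) * hcc
    have hprod : (c : O) * ((ℓ : O) * ((c⁻¹ : Oˣ) : O)) = ℓ := by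
      linear_combination (ℓ : O) * hcc
    rw [hd, key, hsum, hprod]
  · intro σ q hcy hst
    have he : ((cycloO ι σ : Oˣ) : O) = q := by rw [cycloO_coe, hcy, map_natCast]
    have hrel : (((ψ σ : Oˣ) : O) * ((ψ σ : Oˣ) : O) - (q : O) ^ 2) *
        (((ψ σ : Oˣ) : O) * ((ψ σ : Oˣ) : O) - 1) = 0 := by
      have h1 := hst
      have e1 : ρ.ρ σ * ρ.ρ σ - ((q : O) ^ 2) • (1 : Module.End O ρ.V) =
          (((ψ σ : Oˣ) : O) * ((ψ σ : Oˣ) : O) - (q : O) ^ 2) • 1 := by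
        conv_lhs => rw [hψ σ]
        rw [smul_mul_smul_comm, one_mul, ← sub_smul]
      have e2 : ρ.ρ σ * ρ.ρ σ - (1 : Module.End O ρ.V) =
          (((ψ σ : Oˣ) : O) * ((ψ σ : Oˣ) : O) - 1) • 1 := by
        conv_lhs => rw [hψ σ]
        rw [smul_mul_smul_comm, one_mul, sub_smul, one_smul]
      rw [e1, e2, smul_mul_smul_comm, one_mul] at h1
      have h2 := hsc1 ((((ψ σ : Oˣ) : O) * ((ψ σ : Oˣ) : O) - (q : O) ^ 2) *
        (((ψ σ : Oˣ) : O) * ((ψ σ : Oˣ) : O) - 1))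
      rw [h1] at h2
      rw [← h2]
      simp [sc]
    set c : Oˣ := ψ σ with hc
    have hd : (((cycloO ι / ψ) σ : Oˣ) : O) = (q : O) * ((c⁻¹ : Oˣ) : O) := by
      rw [MonoidHom.div_apply, div_eq_mul_inv, Units.val_mul, he]
    have hcc : (c : O) * ((c⁻¹ : Oˣ) : O) = 1 := Units.mul_inv c
    have hprod : (c : O) * ((q : O) * ((c⁻¹ : Oˣ) : O)) = q := by
      linear_combination (q : O) * hcc
    have hfour : ((c : O) - q) * ((c : O) + q) * (((c : O) - 1) * ((c : O) + 1)) = 0 := by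
      linear_combination hrel
    have hc0 : (c : O) ≠ 0 := c.ne_zero
    have hsum : (c : O) + (q : O) * ((c⁻¹ : Oˣ) : O) = (q : O) + 1 ∨
        (c : O) + (q : O) * ((c⁻¹ : Oˣ) : O) = -((q : O) + 1) := by
      rcases mul_eq_zero.mp hfour with h | h
      · rcases mul_eq_zero.mp h with h | h
        · left
          have hcq : (c : O) = q := sub_eq_zero.mp h
          rw [← hcq, hcc]
        · right
          have hcq : (q : O) = -(c : O) := by linear_combination h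
          rw [hcq]
          linear_combination -hcc
      · rcases mul_eq_zero.mp h with h | h
        · left
          have hc1 : (c : O) = 1 := sub_eq_zero.mp h
          have hi : ((c⁻¹ : Oˣ) : O) = 1 := by rw [hc1, one_mul] at hcc; exact hcc
          rw [hc1, hi]; ring
        · right
          have hc1 : (c : O) = -1 := by linear_combination h
          have hi : ((c⁻¹ : Oˣ) : O) = -1 := by
            rw [hc1] at hcc; linear_combination -hcc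
          rw [hc1, hi]; ring
    unfold SteinbergCharpoly
    rw [charpoly_diagRep, hd, key, hprod]
    rcases hsum with h | h
    · left; rw [h]
    · right; rw [h, map_neg]; ring

end scalar

/-- `exists_rep_charpoly` (ES/D/TwoDim) with the Steinberg clause. -/
theorem exists_rep_charpoly_st (p : ℕ) [Fact p.Prime] (O : Type) [CommRing O] [IsDomain O]
    [IsDiscreteValuationRing O] [IsAdicComplete (IsLocalRing.maximalIdeal O) O] [CharZero O]
    (hp : (p : O) ∈ IsLocalRing.maximalIdeal O) (T : Finset ℕ) (hpT : p ∈ T) (a : ℕ → O)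
    (ρ : GaloisRepAdic O) (hunr : ∀ ℓ : ℕ, ℓ.Prime → ℓ ∉ T → ρ.IsUnramifiedAt ℓ)
    (hfrob : ∀ ℓ : ℕ, ℓ.Prime → ℓ ∉ T → ∀ A : ValuationSubring (AlgebraicClosure ℚ),
      A.LiesOverPrime ℓ → ∀ σ, A.IsFrobeniusAt σ ℓ →
        ρ.ρ σ * ρ.ρ σ - a ℓ • ρ.ρ σ + (ℓ : O) • 1 = 0) :
    ∃ ρ' : GaloisRepAdic O, (∀ ℓ : ℕ, ℓ.Prime → ℓ ∉ T → ρ'.IsUnramifiedAt ℓ) ∧
      (∀ ℓ : ℕ, ℓ.Prime → ℓ ∉ T → ∀ A : ValuationSubring (AlgebraicClosure ℚ),
        A.LiesOverPrime ℓ → ∀ σ, A.IsFrobeniusAt σ ℓ →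
          LinearMap.charpoly (ρ'.ρ σ) = X ^ 2 - C (a ℓ) * X + C ((ℓ : O))) ∧
      (∀ (σ : GalQ) (q : ℕ), q ≠ 0 → ((cycloZp p σ : ℤ_[p]ˣ) : ℤ_[p]) = q →
        (ρ.ρ σ * ρ.ρ σ - ((q : O) ^ 2) • 1) * (ρ.ρ σ * ρ.ρ σ - 1) = 0 →
        SteinbergCharpoly ρ' σ q) := by
  obtain ⟨ι⟩ := exists_padicHom p O (maximalIdeal O) hp
  have hne : ∀ ℓ : ℕ, ℓ ∉ T → ℓ ≠ p := fun ℓ hℓ h => hℓ (h ▸ hpT)
  rcases scalar_or_det p O hp T hpT a ρ hfrob ι with hsc | hdet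
  · obtain ⟨ρ', h1, h2, h3⟩ := exists_rep_of_scalar_st p O hp T hpT a ρ hunr hfrob hsc
    exact ⟨ρ', h1, h2, fun σ q _ hcy hst => h3 σ q hcy hst⟩
  · refine ⟨ρ, hunr, ?_, ?_⟩
    · intro ℓ hℓ hℓT A hA σ hσ
      have hd : (mat ρ σ).det = (ℓ : O) := by
        rw [hdet σ, cycloO_frob ι hℓ (hne ℓ hℓT) A hA σ hσ]
      obtain ⟨e1, e2, e3, e4⟩ := ch_sub (mat ρ σ) (a ℓ) (ℓ : O)
        (mat_relation ρ (hfrob ℓ hℓ hℓT A hA σ hσ))
      have ht : (mat ρ σ).trace - a ℓ = 0 := by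
        by_contra ht
        rw [hd, sub_self] at e4
        have z00 := (mul_eq_zero.mp e4).resolve_left ht
        have z01 := (mul_eq_zero.mp e1).resolve_left ht
        have hz : (mat ρ σ).det = 0 := by
          rw [Matrix.det_fin_two, z00, z01]
          ring
        rw [hdet σ] at hz
        exact (cycloO ι σ).ne_zero hz
      rw [charpoly_eq_mat, hd, sub_eq_zero.mp ht]
    · intro σ q hq hcy hst
      refine steinbergCharpoly_of_det ρ hq ?_ hst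
      rw [hdet σ, cycloO_coe, hcy, map_natCast]

end Fermat.Agent.UNIlib
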