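import Fermat.Agent.ES.D.TateRep

/-!
# T-UNI, S35 endgame, part 2: passage to the limit

`IsLimS F φ`: the `O`-linear endomorphism `F` of `O ⊗ Λ` induces `φ n ⊗ O` on `O ⊗ (Λ / p ^ n)` for
every `n`.  This notion is stable under sums and products, and implications between kernels (and
inclusions of ranges) at all finite levels pass to the limit (flatness of `O` over `ℤ`, Krull).
-/

set_option autoImplicit false

namespace Fermat.Agent.UNIlib

open Fermat.Agent.ESlib.PartD TensorProduct IsLocalRing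

section flat

variable {O : Type} [CommRing O] [Module.Flat ℤ O]
variable {X Y Z : Type} [AddCommGroup X] [AddCommGroup Y] [AddCommGroup Z]

theorem exists_of_baseChange_eq_zero (A : X →ₗ[ℤ] Y) (ξ : O ⊗[ℤ] X)
    (hξ : A.baseChange O ξ = 0) :
    ∃ η : O ⊗[ℤ] (LinearMap.ker A), (LinearMap.ker A).subtype.baseChange O η = ξ := by
  have h := Module.Flat.lTensor_exact O (LinearMap.exact_subtype_ker_map A)
  have h1 : LinearMap.lTensor O A ξ = 0 := by
    rw [← LinearMap.baseChange_eq_ltensor]; exact hξ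
  obtain ⟨η, hη⟩ := (h ξ).mp h1
  exact ⟨η, by rw [LinearMap.baseChange_eq_ltensor]; exact hη⟩

theorem baseChange_eq_zero_of_ker (A : X →ₗ[ℤ] Y) (C : X →ₗ[ℤ] Z)
    (h : ∀ ξ, A ξ = 0 → C ξ = 0) (ξ : O ⊗[ℤ] X) (hξ : A.baseChange O ξ = 0) :
    C.baseChange O ξ = 0 := by
  obtain ⟨η, rfl⟩ := exists_of_baseChange_eq_zero A ξ hξ
  have h0 : C ∘ₗ (LinearMap.ker A).subtype = 0 := by
    ext x
    exact h x x.2
  have h1 := LinearMap.baseChange_comp (A := O) (LinearMap.ker A).subtype C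
  rw [h0] at h1
  have h2 := congrArg (fun f => f η) h1
  simp only [LinearMap.comp_apply] at h2
  rw [← h2]
  simp

theorem baseChange_eq_zero_of_ker₂ {Y' : Type} [AddCommGroup Y'] (A : X →ₗ[ℤ] Y)
    (B : X →ₗ[ℤ] Y') (C : X →ₗ[ℤ] Z)
    (h : ∀ ξ, A ξ = 0 → B ξ = 0 → C ξ = 0) (ξ : O ⊗[ℤ] X) (hA : A.baseChange O ξ = 0)
    (hB : B.baseChange O ξ = 0) : C.baseChange O ξ = 0 := by
  obtain ⟨η, rfl⟩ := exists_of_baseChange_eq_zero A ξ hA
  have e : ∀ (W : Type) [AddCommGroup W] (G : X →ₗ[ℤ] W),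
      G.baseChange O ((LinearMap.ker A).subtype.baseChange O η) =
        (G ∘ₗ (LinearMap.ker A).subtype).baseChange O η := by
    intro W _ G
    rw [LinearMap.baseChange_comp]
    rfl
  rw [e] at hB ⊢
  exact baseChange_eq_zero_of_ker (B ∘ₗ (LinearMap.ker A).subtype)
    (C ∘ₗ (LinearMap.ker A).subtype) (fun x hx => h x x.2 hx) η hB

end flat

section red

variable (Λ : Type) [AddCommGroup Λ] (p : ℕ) (O : Type) [CommRing O]

/-- the reduction `O ⊗ Λ → O ⊗ (Λ / p ^ n)` -/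
noncomputable def redN (n : ℕ) : O ⊗[ℤ] Λ →ₗ[O] O ⊗[ℤ] (Λ ⧸ powSub Λ p n) :=
  (powSub Λ p n).mkQ.baseChange O

variable {Λ p O}

theorem redN_tmul (n : ℕ) (a : O) (x : Λ) :
    redN Λ p O n (a ⊗ₜ x) = a ⊗ₜ (Submodule.Quotient.mk x : Λ ⧸ powSub Λ p n) := rfl

theorem redN_surjective (n : ℕ) : Function.Surjective (redN Λ p O n) := by
  intro ζ
  induction ζ using TensorProduct.induction_on with
  | zero => exact ⟨0, map_zero _⟩
  | tmul a ξ =>
    obtain ⟨x, rfl⟩ := Submodule.Quotient.mk_surjective _ ξ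
    exact ⟨a ⊗ₜ x, rfl⟩
  | add x y hx hy =>
    obtain ⟨u, rfl⟩ := hx
    obtain ⟨v, rfl⟩ := hy
    exact ⟨u + v, map_add _ _ _⟩

theorem pow_smul_eq_zero (n : ℕ) (ζ : O ⊗[ℤ] (Λ ⧸ powSub Λ p n)) : ((p : O) ^ n) • ζ = 0 := by
  induction ζ using TensorProduct.induction_on with
  | zero => exact smul_zero _
  | tmul a ξ =>
    obtain ⟨x, rfl⟩ := Submodule.Quotient.mk_surjective _ ξ
    have h1 : ((p : O) ^ n) • (a ⊗ₜ[ℤ] (Submodule.Quotient.mk x : Λ ⧸ powSub Λ p n)) =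
        a ⊗ₜ[ℤ] (((p : ℤ) ^ n) • (Submodule.Quotient.mk x : Λ ⧸ powSub Λ p n)) := by
      rw [TensorProduct.tmul_smul, TensorProduct.smul_tmul', TensorProduct.smul_tmul']
      congr 1
      simp [mul_comm]
    rw [h1, ← Submodule.Quotient.mk_smul]
    have h2 : (Submodule.Quotient.mk (((p : ℤ) ^ n) • x) : Λ ⧸ powSub Λ p n) = 0 := by
      rw [Submodule.Quotient.mk_eq_zero]
      exact ⟨x, rfl⟩
    rw [h2, TensorProduct.tmul_zero]
  | add x y hx hy => rw [smul_add, hx, hy, add_zero]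

theorem mem_powTop_of_redN_eq_zero {I : Ideal O} (hp : (p : O) ∈ I) {n : ℕ} {v : O ⊗[ℤ] Λ}
    (h : redN Λ p O n v = 0) : v ∈ powTop Λ I n := by
  have hex := lTensor_exact O (LinearMap.exact_map_mkQ_range (LinearMap.lsmul ℤ Λ ((p : ℤ) ^ n)))
    (Submodule.mkQ_surjective _)
  have h1 : LinearMap.lTensor O (powSub Λ p n).mkQ v = 0 := by
    rw [← LinearMap.baseChange_eq_ltensor]; exact h
  obtain ⟨w, rfl⟩ := (hex v).mp h1
  have h2 : ∀ w : O ⊗[ℤ] Λ, LinearMap.lTensor O (LinearMap.lsmul ℤ Λ ((p : ℤ) ^ n)) w =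
      ((p : O) ^ n) • w := by
    intro w
    induction w using TensorProduct.induction_on with
    | zero => simp
    | tmul a x =>
      rw [LinearMap.lTensor_tmul, LinearMap.lsmul_apply, TensorProduct.tmul_smul,
        TensorProduct.smul_tmul', TensorProduct.smul_tmul']
      congr 1
      simp [mul_comm]
    | add x y hx hy => rw [map_add, hx, hy, smul_add]
  rw [h2]
  exact Submodule.smul_mem_smul (Ideal.pow_mem_pow hp n) Submodule.mem_top

/-- `F` induces `φ n ⊗ O` on `O ⊗ (Λ / p ^ n)` for all `n` -/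
def IsLimS (F : Module.End O (O ⊗[ℤ] Λ)) (φ : ∀ n : ℕ, Module.End ℤ (Λ ⧸ powSub Λ p n)) : Prop :=
  ∀ (n : ℕ) (v : O ⊗[ℤ] Λ), redN Λ p O n (F v) = (φ n).baseChange O (redN Λ p O n v)

namespace IsLimS

variable {F G : Module.End O (O ⊗[ℤ] Λ)} {φ ψ : ∀ n : ℕ, Module.End ℤ (Λ ⧸ powSub Λ p n)}

theorem one : IsLimS (1 : Module.End O (O ⊗[ℤ] Λ))
    (fun n => (1 : Module.End ℤ (Λ ⧸ powSub Λ p n))) := by
  intro n v
  rw [LinearMap.baseChange_one]
  rfl

theorem add (hF : IsLimS F φ) (hG : IsLimS G ψ) : IsLimS (F + G) (fun n => φ n + ψ n) := by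
  intro n v
  rw [LinearMap.add_apply, map_add, hF n v, hG n v, LinearMap.baseChange_add, LinearMap.add_apply]

theorem sub (hF : IsLimS F φ) (hG : IsLimS G ψ) : IsLimS (F - G) (fun n => φ n - ψ n) := by
  intro n v
  rw [LinearMap.sub_apply, map_sub, hF n v, hG n v, LinearMap.baseChange_sub, LinearMap.sub_apply]

theorem mul (hF : IsLimS F φ) (hG : IsLimS G ψ) : IsLimS (F * G) (fun n => φ n * ψ n) := by
  intro n v
  rw [Module.End.mul_apply, hF n, hG n v, LinearMap.baseChange_mul, Module.End.mul_apply]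

theorem zsmul (hF : IsLimS F φ) (c : ℤ) : IsLimS ((c : O) • F) (fun n => c • φ n) := by
  intro n v
  rw [LinearMap.smul_apply, map_smul, hF n v, LinearMap.baseChange_smul, LinearMap.smul_apply,
    Int.cast_smul_eq_zsmul]

end IsLimS

/-- an endomorphism of the lattice -/
noncomputable def famOf (p : ℕ) (T : Module.End ℤ Λ) (n : ℕ) : Module.End ℤ (Λ ⧸ powSub Λ p n) :=
  (powSub Λ p n).mapQ (powSub Λ p n) T (by
    rintro _ ⟨y, rfl⟩
    exact ⟨T y, by simp⟩)

theorem famOf_mk (T : Module.End ℤ Λ) (n : ℕ) (x : Λ) :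
    famOf p T n (Submodule.Quotient.mk x) = Submodule.Quotient.mk (T x) := rfl

theorem isLimS_baseChange (T : Module.End ℤ Λ) :
    IsLimS (T.baseChange O : Module.End O (O ⊗[ℤ] Λ)) (famOf p T) := by
  intro n v
  induction v using TensorProduct.induction_on with
  | zero => simp
  | tmul a x => rfl
  | add x y hx hy => simp only [map_add, hx, hy]

end red

section dvr

variable {Λ : Type} [AddCommGroup Λ] {p : ℕ}
variable {O : Type} [CommRing O] [IsDomain O] [IsDiscreteValuationRing O]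

theorem redN_eq_zero_of_mem_powTop (hp0 : (p : O) ≠ 0) (n : ℕ) :
    ∃ k : ℕ, n ≤ k ∧ ∀ v ∈ powTop Λ (maximalIdeal O) k, redN Λ p O n v = 0 := by
  obtain ⟨ϖ, hϖ⟩ := IsDiscreteValuationRing.exists_irreducible O
  obtain ⟨e, he⟩ := IsDiscreteValuationRing.associated_pow_irreducible hp0 hϖ
  refine ⟨e * n + n, Nat.le_add_left _ _, fun v hv => ?_⟩
  refine Submodule.smul_induction_on hv ?_ ?_
  · intro r hr w _
    rw [hϖ.maximalIdeal_eq, Ideal.span_singleton_pow, Ideal.mem_span_singleton] at hr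
    have h1 : (p : O) ^ n ∣ r := by
      have h2 : Associated ((p : O) ^ n) (ϖ ^ (e * n)) := by
        rw [pow_mul]; exact he.pow_pow
      exact h2.dvd.trans ((pow_dvd_pow ϖ (Nat.le_add_right _ _)).trans hr)
    obtain ⟨s, rfl⟩ := h1
    rw [map_smul, mul_comm, mul_smul, pow_smul_eq_zero, smul_zero]
  · intro x y hx hy
    rw [map_add, hx, hy, add_zero]

theorem isLimS_of_isLim (hp0 : (p : O) ≠ 0) {F : Module.End O (O ⊗[ℤ] Λ)}
    {φ : ∀ n : ℕ, Module.End ℤ (Λ ⧸ powSub Λ p n)} (hF : IsLim p (maximalIdeal O) F φ)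
    (hφ : ∀ (n : ℕ) (x y : Λ), φ (n + 1) (Submodule.Quotient.mk x) = Submodule.Quotient.mk y →
      φ n (Submodule.Quotient.mk x) = Submodule.Quotient.mk y) : IsLimS F φ := by
  have hle : ∀ {m n : ℕ} (_ : m ≤ n) (x y : Λ),
      φ n (Submodule.Quotient.mk x) = Submodule.Quotient.mk y →
      φ m (Submodule.Quotient.mk x) = Submodule.Quotient.mk y := by
    intro m n hmn
    induction hmn with
    | refl => exact fun x y h => h
    | step _ ih => exact fun x y h => ih x y (hφ _ x y h)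
  intro n v
  obtain ⟨k, hnk, hk⟩ := redN_eq_zero_of_mem_powTop (Λ := Λ) hp0 n
  induction v using TensorProduct.induction_on with
  | zero => simp
  | add x y hx hy => simp only [map_add, hx, hy]
  | tmul a x =>
    have e : a ⊗ₜ[ℤ] x = a • ((1 : O) ⊗ₜ[ℤ] x) := by
      rw [TensorProduct.smul_tmul', smul_eq_mul, mul_one]
    rw [e, map_smul, map_smul, map_smul, map_smul]
    congr 1
    obtain ⟨y, hy⟩ := Submodule.Quotient.mk_surjective _ (φ k (Submodule.Quotient.mk x))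
    have h1 := hk _ (hF k x y hy.symm)
    rw [map_sub, sub_eq_zero] at h1
    rw [h1, redN_tmul, redN_tmul, LinearMap.baseChange_tmul, hle hnk x y hy.symm]

end dvr

section main

variable {Λ : Type} [AddCommGroup Λ] {p : ℕ}
variable {O : Type} [CommRing O]

/-- implications between kernels pass to the limit -/
theorem IsLimS.implication [Module.Flat ℤ O] {I : Ideal O} [IsHausdorff I (O ⊗[ℤ] Λ)]
    (hp : (p : O) ∈ I)
    {FA FB FC : Module.End O (O ⊗[ℤ] Λ)} {A B C : ∀ n : ℕ, Module.End ℤ (Λ ⧸ powSub Λ p n)}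
    (hA : IsLimS FA A) (hB : IsLimS FB B) (hC : IsLimS FC C)
    (h : ∀ n ξ, A n ξ = 0 → B n ξ = 0 → C n ξ = 0) {v : O ⊗[ℤ] Λ} (h1 : FA v = 0)
    (h2 : FB v = 0) : FC v = 0 := by
  refine IsHausdorff.haus ‹_› _ fun n => ?_
  rw [SModEq.zero]
  refine mem_powTop_of_redN_eq_zero hp ?_
  rw [hC n v]
  refine baseChange_eq_zero_of_ker₂ (A n) (B n) (C n) (h n) _ ?_ ?_
  · rw [← hA n v, h1, map_zero]
  · rw [← hB n v, h2, map_zero]

/-- equalities pass to the limit -/
theorem IsLimS.eq_of_forall {I : Ideal O} [IsHausdorff I (O ⊗[ℤ] Λ)] (hp : (p : O) ∈ I)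
    {F G : Module.End O (O ⊗[ℤ] Λ)} {φ ψ : ∀ n : ℕ, Module.End ℤ (Λ ⧸ powSub Λ p n)}
    (hF : IsLimS F φ) (hG : IsLimS G ψ) (h : ∀ n, φ n = ψ n) : F = G := by
  refine LinearMap.ext fun v => ?_
  rw [← sub_eq_zero]
  refine IsHausdorff.haus ‹_› _ fun n => ?_
  rw [SModEq.zero]
  refine mem_powTop_of_redN_eq_zero hp ?_
  rw [map_sub, hF n v, hG n v, h n, sub_self]

/-- inclusions of ranges pass to the limit -/
theorem IsLimS.mem_range [IsLocalRing O] [IsNoetherianRing O] [Module.Finite ℤ Λ]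
    (hp : (p : O) ∈ maximalIdeal O) {Λ' : Type} [AddCommGroup Λ'] (res : Λ' →ₗ[ℤ] Λ)
    {F : Module.End O (O ⊗[ℤ] Λ)} {φ : ∀ n : ℕ, Module.End ℤ (Λ ⧸ powSub Λ p n)}
    (hF : IsLimS F φ) (h : ∀ n ξ, ∃ x' : Λ', φ n ξ = Submodule.Quotient.mk (res x'))
    (v : O ⊗[ℤ] Λ) : F v ∈ LinearMap.range (res.baseChange O) := by
  set R := LinearMap.range (res.baseChange O) with hR
  have key : ∀ n, ∀ ζ : O ⊗[ℤ] (Λ ⧸ powSub Λ p n), ∃ u : O ⊗[ℤ] Λ',
      (φ n).baseChange O ζ = redN Λ p O n (res.baseChange O u) := by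
    intro n ζ
    induction ζ using TensorProduct.induction_on with
    | zero => exact ⟨0, by simp⟩
    | tmul a ξ =>
      obtain ⟨x', hx'⟩ := h n ξ
      exact ⟨a ⊗ₜ x', by rw [LinearMap.baseChange_tmul, hx']; rfl⟩
    | add x y hx hy =>
      obtain ⟨u, hu⟩ := hx
      obtain ⟨w, hw⟩ := hy
      exact ⟨u + w, by rw [map_add, hu, hw, map_add, map_add]⟩
  have h0 : (Submodule.Quotient.mk (F v) : (O ⊗[ℤ] Λ) ⧸ R) = 0 := by
    refine IsHausdorff.haus (I := maximalIdeal O) inferInstance _ fun n => ?_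
    rw [SModEq.zero]
    obtain ⟨u, hu⟩ := key n (redN Λ p O n v)
    rw [← hF n v] at hu
    have h1 : F v - res.baseChange O u ∈ powTop Λ (maximalIdeal O) n :=
      mem_powTop_of_redN_eq_zero hp (by rw [map_sub, hu, sub_self])
    have h2 : (Submodule.Quotient.mk (F v) : (O ⊗[ℤ] Λ) ⧸ R) =
        R.mkQ (F v - res.baseChange O u) := by
      rw [map_sub, Submodule.mkQ_apply, Submodule.mkQ_apply]
      have : (Submodule.Quotient.mk (res.baseChange O u) : (O ⊗[ℤ] Λ) ⧸ R) = 0 := by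
        rw [Submodule.Quotient.mk_eq_zero]
        exact ⟨u, rfl⟩
      rw [this, sub_zero]
    rw [h2]
    refine Submodule.smul_induction_on h1 ?_ ?_
    · intro r hr w _
      rw [map_smul]
      exact Submodule.smul_mem_smul hr Submodule.mem_top
    · intro x y hx hy
      rw [map_add]
      exact Submodule.add_mem _ hx hy
  rwa [Submodule.Quotient.mk_eq_zero] at h0

end main

end Fermat.Agent.UNIlib
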