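import Fermat.Agent.ES.A.BettiEigen
import Fermat.Agent.ES.D.Eigen
import Fermat.Agent.ES.D.Extend
import Fermat.Agent.ES.D.Iface
import Fermat.Prelude.Def_CuspForm_Newforms

/-!
# T-UNI, S35 endgame, part 3: newness

An eigenvector with the good eigenvalues of a newform `g` of level `M` which comes from a proper
divisor level `N` vanishes.
-/

set_option autoImplicit false
set_option linter.unusedSectionVars false

open CongruenceSubgroup ModularFormClass CuspForm
open scoped TensorProduct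
open Fermat.Agent.S49 Fermat.Agent.S23lib
open P2MW.S_CuspForm_intLattice_fg.W3WsD

namespace Fermat.Agent.UNIlib

open Fermat.Agent.ESlib Fermat.Agent.ESlib.PartD

/-- an eigenvector of the full Hecke algebra with `a₁ = 1` is a normalised eigenform -/
theorem isNormalizedEigenform_of_eigen {N : ℕ} [NeZero N] (lam : FullHecke N →+* ℂ)
    (f : CuspForm (Gamma0 N) 2) (hf1 : qCoeff ⇑f 1 = 1)
    (hf : ∀ t : FullHecke N, (t : Module.End ℂ (CuspForm (Gamma0 N) 2)) f = lam t • f) :
    f.IsNormalizedEigenform ∧ ∀ (ℓ : ℕ) (hℓ : ℓ.Prime) (hℓN : ¬ ℓ ∣ N),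
      qCoeff ⇑f ℓ = lam (CuspForm.heckeAlgebra.T hℓ hℓN (Set.notMem_empty ℓ)) := by
  classical
  let e : ℕ → ℂ := fun ℓ => if ℓ ∣ N then 0 else (ℓ : ℂ)
  let μ : ℕ → ℂ := fun ℓ => if hℓ : ℓ.Prime then
    (if hN : ℓ ∣ N then lam (CuspForm.heckeAlgebra.U hℓ hN (Set.notMem_empty ℓ))
      else lam (CuspForm.heckeAlgebra.T hℓ hN (Set.notMem_empty ℓ))) else 0
  have hrec : ∀ ℓ : ℕ, ℓ.Prime → ∀ n : ℕ,
      qCoeff ⇑f (ℓ * n) + e ℓ * (if ℓ ∣ n then qCoeff ⇑f (n / ℓ) else 0) = μ ℓ * qCoeff ⇑f n := by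
    intro ℓ hℓ n
    by_cases hN : ℓ ∣ N
    · have h1 := hf (CuspForm.heckeAlgebra.U hℓ hN (Set.notMem_empty ℓ))
      rw [CuspForm.heckeAlgebra.coe_U] at h1
      have h2 := congrArg (fun F : CuspForm (Gamma0 N) 2 => qCoeff ⇑F n) h1
      simp only [qCoeff_heckeULin hℓ hN, qCoeff_csmul] at h2
      simp only [e, μ, dif_pos hℓ, dif_pos hN, if_pos hN, zero_mul, add_zero]
      exact h2
    · have h1 := hf (CuspForm.heckeAlgebra.T hℓ hN (Set.notMem_empty ℓ))
      rw [CuspForm.heckeAlgebra.coe_T] at h1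
      have h2 := congrArg (fun F : CuspForm (Gamma0 N) 2 => qCoeff ⇑F n) h1
      simp only [qCoeff_heckeTLin hℓ hN, qCoeff_csmul] at h2
      simp only [e, μ, dif_pos hℓ, dif_neg hN, if_neg hN]
      exact h2
  have hbμ : ∀ ℓ : ℕ, ℓ.Prime → qCoeff ⇑f ℓ = μ ℓ := by
    intro ℓ hℓ
    have h1 := hrec ℓ hℓ 1
    rw [if_neg (fun hd => hℓ.one_lt.ne' (Nat.dvd_one.mp hd)), mul_zero, add_zero, mul_one,
      hf1, mul_one] at h1
    exact h1
  have hsys : FormalHecke.IsEigensystem e (fun n => qCoeff ⇑f n) := by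
    refine ⟨hf1, fun ℓ hℓ n => ?_⟩
    have h1 := hrec ℓ hℓ n
    simp only []
    rw [hbμ ℓ hℓ]
    exact h1
  refine ⟨{ qCoeff_one := hf1
            qCoeff_mul_of_coprime := IsEigensystem.mul_of_coprime hsys
            qCoeff_prime_pow_of_not_dvd := by
              intro p r hp hpN
              have := IsEigensystem.prime_pow hsys p r hp
              simpa only [e, if_neg hpN] using this
            qCoeff_prime_pow_of_dvd := by
              intro p r hp hpN
              have := IsEigensystem.prime_pow hsys p r hp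
              simpa only [e, if_pos hpN, zero_mul, sub_zero] using this }, ?_⟩
  intro ℓ hℓ hℓN
  rw [hbμ ℓ hℓ]
  simp only [μ, dif_pos hℓ, dif_neg hℓN]

section new

variable {M N : ℕ} [NeZero M] [NeZero N]

/-- the index set of the good primes -/
abbrev GoodPrime (M : ℕ) : Type := {ℓ : ℕ // ℓ.Prime ∧ ¬ ℓ ∣ M}

/-- the polynomial ring on the good Hecke operators, mapped to the Hecke algebra of level `N ∣ M` -/
noncomputable def goodEval (hNM : N ∣ M) : MvPolynomial (GoodPrime M) ℤ →+* FullHecke N :=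
  (MvPolynomial.aeval (fun i : GoodPrime M =>
    (CuspForm.heckeAlgebra.T i.2.1 (fun h => i.2.2 (h.trans hNM)) (Set.notMem_empty i.1) :
      FullHecke N))).toRingHom

theorem goodEval_X (hNM : N ∣ M) (i : GoodPrime M) :
    goodEval hNM (MvPolynomial.X i) =
      CuspForm.heckeAlgebra.T i.2.1 (fun h => i.2.2 (h.trans hNM)) (Set.notMem_empty i.1) := by
  simp [goodEval]

theorem goodEval_C (hNM : N ∣ M) (c : ℤ) :
    goodEval hNM (MvPolynomial.C c) = (c : FullHecke N) := by
  simp [goodEval]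

/-- **Newness.**  If the good eigensystem of `g` (level `M`) factors through the Hecke algebra of
level `N`, then it occurs at level `N`. -/
theorem goodEigensystemOccursAt_of_ker (hNM : N ∣ M) {g : CuspForm (Gamma0 M) 2}
    (hg : g.IsNormalizedEigenform)
    (h : ∀ F : MvPolynomial (GoodPrime M) ℤ, goodEval hNM F = 0 →
      eigenCharC hg ∅ (goodEval (dvd_refl M) F) = 0) :
    GoodEigensystemOccursAt g N := by
  have hfin : Module.Finite ℤ (FullHecke N) := Fermat.Agent.S22b.finite_heckeAlgebra N 2 ∅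
  let A := MvPolynomial (GoodPrime M) ℤ ⧸ RingHom.ker (goodEval (N := N) hNM)
  let _ : Algebra A (FullHecke N) := (RingHom.kerLift (goodEval (N := N) hNM)).toAlgebra
  have hinj : Function.Injective (algebraMap A (FullHecke N)) :=
    RingHom.kerLift_injective (goodEval (N := N) hNM)
  have htow : IsScalarTower ℤ A (FullHecke N) := by
    refine IsScalarTower.of_algebraMap_eq (R := ℤ) (S := A) (A := FullHecke N) (fun x => ?_)
    rw [eq_intCast (algebraMap ℤ (FullHecke N)), eq_intCast (algebraMap ℤ A), map_intCast]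
  have hint : Algebra.IsIntegral A (FullHecke N) := ⟨fun b =>
    (Algebra.IsIntegral.isIntegral (R := ℤ) b).tower_top⟩
  let χ : A →+* ℂ := Ideal.Quotient.lift _ ((eigenCharC hg ∅).comp (goodEval (dvd_refl M)))
    (fun F hF => h F hF)
  obtain ⟨μ, hμ⟩ := exists_ringHom_extend hinj χ
  obtain ⟨f, hf1, hf⟩ := exists_eigenform μ
  obtain ⟨hn, hc⟩ := isNormalizedEigenform_of_eigen μ f hf1 hf
  refine ⟨f, hn, fun ℓ hℓ hℓM => ?_⟩
  rw [hc ℓ hℓ (fun h => hℓM (h.trans hNM))]
  have h1 := hμ (Ideal.Quotient.mk _ (MvPolynomial.X (⟨ℓ, hℓ, hℓM⟩ : GoodPrime M)))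
  have h2 : algebraMap A (FullHecke N)
      (Ideal.Quotient.mk _ (MvPolynomial.X (⟨ℓ, hℓ, hℓM⟩ : GoodPrime M))) =
      goodEval hNM (MvPolynomial.X (⟨ℓ, hℓ, hℓM⟩ : GoodPrime M)) := rfl
  rw [h2, goodEval_X] at h1
  rw [h1]
  show eigenCharC hg ∅ (goodEval (dvd_refl M) (MvPolynomial.X (⟨ℓ, hℓ, hℓM⟩ : GoodPrime M))) = _
  rw [goodEval_X, eigenCharC_T]

variable {Λ Λ' : Type} [AddCommGroup Λ] [AddCommGroup Λ']

theorem res_goodEval (hNM : N ∣ M) (hecke : FullHecke M →+* Module.End ℤ Λ)
    (hecke' : FullHecke N →+* Module.End ℤ Λ') (res : Λ' →ₗ[ℤ] Λ)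
    (hres : ∀ (i : GoodPrime M) (x' : Λ'), res (hecke' (goodEval hNM (MvPolynomial.X i)) x') =
      hecke (goodEval (dvd_refl M) (MvPolynomial.X i)) (res x'))
    (F : MvPolynomial (GoodPrime M) ℤ) (x' : Λ') :
    res (hecke' (goodEval hNM F) x') = hecke (goodEval (dvd_refl M) F) (res x') := by
  induction F using MvPolynomial.induction_on generalizing x' with
  | C c =>
    rw [goodEval_C, goodEval_C, map_intCast, map_intCast]
    have e1 : ∀ w : Λ', ((c : ℤ) : Module.End ℤ Λ') w = c • w := fun w => by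
      rw [← zsmul_one, LinearMap.smul_apply, Module.End.one_apply]
    have e2 : ∀ w : Λ, ((c : ℤ) : Module.End ℤ Λ) w = c • w := fun w => by
      rw [← zsmul_one, LinearMap.smul_apply, Module.End.one_apply]
    rw [e1, e2, map_smul]
  | add P Q hP hQ =>
    rw [map_add, map_add, map_add, map_add, LinearMap.add_apply, LinearMap.add_apply, map_add,
      hP, hQ]
  | mul_X P i hP =>
    rw [map_mul, map_mul, map_mul, map_mul, Module.End.mul_apply, Module.End.mul_apply, hP, hres]

/-- **Newness, module form.** -/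
theorem eq_zero_of_isNewform (hNM : N ∣ M) (hne : N ≠ M) {g : CuspForm (Gamma0 M) 2}
    (hg : g.IsNewform) (hecke : FullHecke M →+* Module.End ℤ Λ)
    (hecke' : FullHecke N →+* Module.End ℤ Λ') (res : Λ' →ₗ[ℤ] Λ)
    (hres : ∀ (i : GoodPrime M) (x' : Λ'), res (hecke' (goodEval hNM (MvPolynomial.X i)) x') =
      hecke (goodEval (dvd_refl M) (MvPolynomial.X i)) (res x'))
    {O : Type} [CommRing O] [IsDomain O] [Module.IsTorsionFree O (O ⊗[ℤ] Λ)] (lam : FullHecke M →+* O)
    (hlam : ∀ t, lam t = 0 → eigenCharC hg.1 ∅ t = 0)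
    (y : O ⊗[ℤ] Λ) (hy : y ∈ LinearMap.range (res.baseChange O))
    (heig : ∀ i : GoodPrime M, (hecke (goodEval (dvd_refl M) (MvPolynomial.X i))).baseChange O y =
      lam (goodEval (dvd_refl M) (MvPolynomial.X i)) • y) : y = 0 := by
  by_contra hy0
  refine hg.2 N hNM hne (goodEigensystemOccursAt_of_ker hNM hg.1 fun F hF => hlam _ ?_)
  have h1 : ∀ F : MvPolynomial (GoodPrime M) ℤ,
      (hecke (goodEval (dvd_refl M) F)).baseChange O y = lam (goodEval (dvd_refl M) F) • y := by
    intro F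
    induction F using MvPolynomial.induction_on with
    | C c =>
      rw [goodEval_C, map_intCast, map_intCast]
      have e2 : ((c : ℤ) : Module.End ℤ Λ) = c • (1 : Module.End ℤ Λ) := by rw [zsmul_one]
      rw [e2, LinearMap.baseChange_smul, LinearMap.baseChange_one, LinearMap.smul_apply,
        Module.End.one_apply, Int.cast_smul_eq_zsmul]
    | add P Q hP hQ =>
      rw [map_add, map_add, map_add, LinearMap.baseChange_add, LinearMap.add_apply, hP, hQ,
        add_smul]
    | mul_X P i hP =>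
      rw [map_mul, map_mul, map_mul, LinearMap.baseChange_mul, Module.End.mul_apply, heig i,
        map_smul, hP, smul_smul, mul_comm]
  obtain ⟨u, rfl⟩ := hy
  have h2 : (hecke (goodEval (dvd_refl M) F)).baseChange O (res.baseChange O u) = 0 := by
    have h3 : (hecke (goodEval (dvd_refl M) F)) ∘ₗ res = 0 := by
      ext x'
      rw [LinearMap.comp_apply, ← res_goodEval hNM hecke hecke' res hres, hF, map_zero,
        LinearMap.zero_apply, map_zero, LinearMap.zero_apply]
    have h4 := LinearMap.baseChange_comp (A := O) res (hecke (goodEval (dvd_refl M) F))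
    rw [h3] at h4
    have h5 := congrArg (fun f => f u) h4
    simp only [LinearMap.comp_apply] at h5
    rw [← h5]
    simp
  rw [h1 F] at h2
  exact (smul_eq_zero.mp h2).resolve_right hy0

end new

end Fermat.Agent.UNIlib
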