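import Fermat.Agent.UNI.S35Alg
import Fermat.Agent.UNI.S35Lim
import Fermat.Agent.UNI.S35New

/-!
# T-UNI, S35 endgame, part 4: the Steinberg relation on the eigenspace of a newform

Abstract form: from the finite level facts about `w_q`, `U_q`, the norm to level `N = M / q` and a
Frobenius element `σ` at `q`, we get `(φ² - q²)(φ² - 1) = 0` on the eigenspace of a newform.
-/

set_option autoImplicit false
set_option linter.unusedSectionVars false

open CongruenceSubgroup ModularFormClass CuspForm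
open scoped TensorProduct

namespace Fermat.Agent.UNIlib

open Fermat.Agent.ESlib Fermat.Agent.ESlib.PartD IsLocalRing

section core

variable {M N : ℕ} [NeZero M] [NeZero N] {p : ℕ} (D : TateDatum M p)
variable {O : Type} [CommRing O] [IsDomain O] [IsDiscreteValuationRing O]
  [IsAdicComplete (maximalIdeal O) O] [CharZero O] (hp : (p : O) ∈ maximalIdeal O)

theorem isLimS_rhoM (hp0 : p ≠ 0) (σ : GQ) :
    IsLimS (rhoM D hp σ : Module.End O (O ⊗[ℤ] D.Λ)) (fun n => D.gal n σ) :=
  isLimS_of_isLim (Nat.cast_ne_zero.mpr hp0) (limRho_isLim D hp σ) (fun n => D.gal_compat n σ)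

theorem isLimS_heckeO (t : FullHecke M) :
    IsLimS (heckeO D O t : Module.End O (O ⊗[ℤ] D.Λ)) (famOf p (D.hecke t)) :=
  isLimS_baseChange (D.hecke t)

instance : Module.IsTorsionFree O (O ⊗[ℤ] D.Λ) := inferInstance

/-- **The Steinberg relation** (abstract form). -/
theorem steinberg_of_finite_level (hp0 : p ≠ 0) (hNM : N ∣ M) (hne : N ≠ M)
    {g : CuspForm (Gamma0 M) 2} (hg : g.IsNewform) (lam : FullHecke M →+* O)
    (hlam : ∀ t, lam t = 0 → eigenCharC hg.1 ∅ t = 0)
    (q : ℕ) (Uq : FullHecke M)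
    -- the Atkin-Lehner involution
    (w : ∀ n : ℕ, Module.End ℤ (D.Λ ⧸ powSub D.Λ p n))
    (w_compat : ∀ (n : ℕ) (x y : D.Λ),
      w (n + 1) (Submodule.Quotient.mk x) = Submodule.Quotient.mk y →
      w n (Submodule.Quotient.mk x) = Submodule.Quotient.mk y)
    (w_sq : ∀ n, w n * w n = 1)
    (w_T : ∀ (n : ℕ) (i : GoodPrime M),
      w n * famOf p (D.hecke (goodEval (dvd_refl M) (MvPolynomial.X i))) n =
        famOf p (D.hecke (goodEval (dvd_refl M) (MvPolynomial.X i))) n * w n)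
    -- the lower level
    {Λ' : Type} [AddCommGroup Λ'] (hecke' : FullHecke N →+* Module.End ℤ Λ') (res : Λ' →ₗ[ℤ] D.Λ)
    (hres : ∀ (i : GoodPrime M) (x' : Λ'), res (hecke' (goodEval hNM (MvPolynomial.X i)) x') =
      D.hecke (goodEval (dvd_refl M) (MvPolynomial.X i)) (res x'))
    (hrange : ∀ n ξ, ∃ x' : Λ', (1 + famOf p (D.hecke Uq) n * w n) ξ =
      Submodule.Quotient.mk (res x'))
    -- Frobenius
    (σ : GQ)
    (hfrob : ∀ n ξ, (1 + famOf p (D.hecke Uq) n * w n) ξ = 0 →
      (w n + famOf p (D.hecke Uq) n) ξ = 0 →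
      ((D.gal n σ * D.gal n σ - ((q : ℤ) ^ 2) • 1) * (D.gal n σ - famOf p (D.hecke Uq) n)) ξ = 0)
    (v : O ⊗[ℤ] D.Λ) (hv : v ∈ eigenO D lam) :
    ((rhoM D hp σ * rhoM D hp σ - ((q : O) ^ 2) • 1) * (rhoM D hp σ * rhoM D hp σ - 1)) v = 0 := by
  obtain ⟨W, hW⟩ := exists_isLim (O := O) hp w w_compat
  have hWS : IsLimS (W : Module.End O (O ⊗[ℤ] D.Λ)) w :=
    isLimS_of_isLim (Nat.cast_ne_zero.mpr hp0) hW w_compat
  set φ : Module.End O (O ⊗[ℤ] D.Λ) := rhoM D hp σ with hφ
  set U : Module.End O (O ⊗[ℤ] D.Λ) := heckeO D O Uq with hU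
  have hφS : IsLimS φ (fun n => D.gal n σ) := isLimS_rhoM D hp hp0 σ
  have hUS : IsLimS U (famOf p (D.hecke Uq)) := isLimS_heckeO D Uq
  have hPS : IsLimS (1 + U * W) (fun n => 1 + famOf p (D.hecke Uq) n * w n) :=
    IsLimS.one.add (hUS.mul hWS)
  have hQS : IsLimS (W + U) (fun n => w n + famOf p (D.hecke Uq) n) := hWS.add hUS
  have hCS : IsLimS ((φ * φ - (((q : ℤ) ^ 2 : ℤ) : O) • 1) * (φ - U))
      (fun n => (D.gal n σ * D.gal n σ - ((q : ℤ) ^ 2) • 1) *
        (D.gal n σ - famOf p (D.hecke Uq) n)) :=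
    ((hφS.mul hφS).sub (IsLimS.one.zsmul _)).mul (hφS.sub hUS)
  -- relations in the limit
  have hWW : W * W = 1 := (hWS.mul hWS).eq_of_forall hp IsLimS.one w_sq
  have hWT : ∀ i : GoodPrime M, W * heckeO D O (goodEval (dvd_refl M) (MvPolynomial.X i)) =
      heckeO D O (goodEval (dvd_refl M) (MvPolynomial.X i)) * W := fun i =>
    (hWS.mul (isLimS_heckeO D _)).eq_of_forall hp ((isLimS_heckeO D _).mul hWS) (fun n => w_T n i)
  have hTU : ∀ t : FullHecke M, heckeO D O t * U = U * heckeO D O t := by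
    intro t
    rw [hU, heckeO, heckeO, ← LinearMap.baseChange_mul, ← LinearMap.baseChange_mul, ← map_mul,
      ← map_mul, mul_comm]
  have hve := (mem_eigenO D lam).mp hv
  -- newness
  have hnew : ∀ x : O ⊗[ℤ] D.Λ, (∀ i : GoodPrime M,
      heckeO D O (goodEval (dvd_refl M) (MvPolynomial.X i)) x =
        lam (goodEval (dvd_refl M) (MvPolynomial.X i)) • x) → (1 + U * W) x = 0 := by
    intro x hx
    refine eq_zero_of_isNewform hNM hne hg D.hecke hecke' res hres lam hlam _
      (hPS.mem_range hp res hrange x) (fun i => ?_)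
    set T := heckeO D O (goodEval (dvd_refl M) (MvPolynomial.X i)) with hT
    show T ((1 + U * W) x) = _
    have h1 : T * (1 + U * W) = (1 + U * W) * T := by
      rw [mul_add, add_mul, mul_one, one_mul, ← mul_assoc, hTU, mul_assoc, ← hWT i, mul_assoc]
    have h2 := congrArg (fun f => f x) h1
    simp only [Module.End.mul_apply] at h2
    rw [h2, hx i, map_smul]
  have h1 : (1 + U * W) v = 0 := hnew v (fun i => hve _)
  have h2 : (W + U) v = 0 := by
    have h3 : (1 + U * W) (W v) = 0 := by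
      refine hnew (W v) (fun i => ?_)
      have h4 := congrArg (fun f => f v) (hWT i)
      simp only [Module.End.mul_apply] at h4
      rw [← h4, hve, map_smul]
    have h5 : (1 + U * W) * W = W + U := by
      rw [add_mul, one_mul, mul_assoc, hWW, mul_one]
    rw [← h5, Module.End.mul_apply]
    exact h3
  have h3 : ((φ * φ - (((q : ℤ) ^ 2 : ℤ) : O) • 1) * (φ - U)) v = 0 :=
    hPS.implication hp hQS hCS hfrob h1 h2
  -- conclusion
  set a : O := lam Uq with ha
  have hUv : U v = a • v := hve Uq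
  have hWv : W v = -(a • v) := by
    have : W v + U v = 0 := h2
    rw [hUv] at this
    exact eq_neg_of_add_eq_zero_left this
  have ha2 : (a ^ 2 - 1) • v = 0 := by
    have h4 : v + U (W v) = 0 := h1
    rw [hWv, map_neg, map_smul, hUv, smul_smul] at h4
    rw [sub_smul, one_smul, pow_two]
    rw [← neg_eq_zero, neg_sub]
    rw [← sub_eq_add_neg] at h4
    exact h4
  have hq2 : (((q : ℤ) ^ 2 : ℤ) : O) = (q : O) ^ 2 := by push_cast; rfl
  rw [hq2] at h3
  set z : O ⊗[ℤ] D.Λ := φ v - a • v with hz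
  have h5 : φ (φ z) - ((q : O) ^ 2) • z = 0 := by
    have : ((φ * φ - ((q : O) ^ 2) • 1) * (φ - U)) v = φ (φ (φ v - U v)) -
        ((q : O) ^ 2) • (φ v - U v) := rfl
    rw [this, hUv] at h3
    exact h3
  have h6 : φ (φ v) - v = φ z + a • z := by
    rw [hz, map_sub, map_smul, smul_sub, smul_smul]
    have h7 : (a * a) • v = v := by
      have := ha2
      rw [sub_smul, one_smul, sub_eq_zero, pow_two] at this
      exact this
    rw [h7]
    abel
  have h8 : ((φ * φ - ((q : O) ^ 2) • 1) * (φ * φ - 1)) v =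
      φ (φ (φ (φ v) - v)) - ((q : O) ^ 2) • (φ (φ v) - v) := rfl
  rw [h8, h6, map_add, map_add, map_smul, map_smul, smul_add]
  have h9 : φ (φ (φ z)) = ((q : O) ^ 2) • φ z := by
    rw [sub_eq_zero.mp h5, map_smul]
  rw [h9, sub_eq_zero.mp h5, smul_comm a]
  abel

end core

end Fermat.Agent.UNIlib
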