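import Fermat.Agent.UNI.AL2
import Fermat.Agent.UNI.S35New
import Fermat.Agent.UNI.LevelU
import Fermat.Agent.ES.E.ThetaC
import Fermat.Agent.ES.H.MF

/-!
# T-UNI, S35: restriction of the Betti lattice to a higher level

For `N ∣ M`:
* `bettiRes h : betti N →ₗ[ℤ] betti M` : restriction of parabolic homomorphisms to `Γ₀(M) ⊆ Γ₀(N)`;
* `relC_inclF` : the comparison `W_m(ℂ, ·) ≃ Λ / m` is compatible with `F(N) ⊆ F(M)` and `bettiRes`;
* `bettiRes_T` : `bettiRes` commutes with the good Hecke operators `T_ℓ`, `ℓ ∤ M`;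
* `thetaSys_rel_incl` : the same over `ℚ̄`, for the relation of `thetaSys`.
-/

set_option autoImplicit false
set_option linter.unusedSectionVars false

open UpperHalfPlane ModularForm MatrixGroups CongruenceSubgroup ModularCurve AlgebraicCurve
open ModularCurve.Period
open scoped Manifold
open Fermat.Agent.S24lib

namespace Fermat.Agent.UNIlib

open Fermat.Agent.ESlib Fermat.Agent.ESlib.PartD

noncomputable section

variable {N M : ℕ} [NeZero N] [NeZero M]

/-- the inclusion `Γ₀(M) ⊆ Γ₀(N)` for `N ∣ M` -/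
def gammaIncl (h : N ∣ M) : ↥(Gamma0 M) →* ↥(Gamma0 N) :=
  Subgroup.inclusion (Gamma0_le_of_dvd h)

@[simp]
theorem coe_gammaIncl (h : N ∣ M) (γ : ↥(Gamma0 M)) :
    ((gammaIncl h γ : ↥(Gamma0 N)) : SL(2, ℤ)) = (γ : SL(2, ℤ)) := rfl

/-- restriction of the Betti lattice -/
def bettiRes (h : N ∣ M) : betti N →ₗ[ℤ] betti M where
  toFun ψ := ⟨(ψ : Additive (Gamma0 N) →+ ℂ).comp (MonoidHom.toAdditive (gammaIncl h)), by
    refine ⟨?_, fun γ => ?_⟩
    · rw [mem_parabolicHoms_iff]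
      intro γ hγ
      exact (mem_parabolicHoms_iff.mp ψ.2.1) (gammaIncl h γ) hγ
    · exact ψ.2.2 _⟩
  map_add' φ ψ := rfl
  map_smul' c ψ := rfl

theorem coe_bettiRes_apply (h : N ∣ M) (ψ : betti N) (γ : ↥(Gamma0 M)) :
    (bettiRes h ψ : Additive (Gamma0 M) →+ ℂ) (Additive.ofMul γ) =
      (ψ : Additive (Gamma0 N) →+ ℂ) (Additive.ofMul (gammaIncl h γ)) := rfl

theorem toInt_bettiRes (h : N ∣ M) (ψ : betti N) (γ : ↥(Gamma0 M)) :
    betti.toInt (bettiRes h ψ) (Additive.ofMul γ) =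
      betti.toInt ψ (Additive.ofMul (gammaIncl h γ)) := by
  have h1 : ((betti.toInt (bettiRes h ψ) (Additive.ofMul γ) : ℤ) : ℂ) =
      ((betti.toInt ψ (Additive.ofMul (gammaIncl h γ)) : ℤ) : ℂ) := by
    rw [betti.toInt_apply, betti.toInt_apply, coe_bettiRes_apply]
  exact_mod_cast h1

theorem expChar_bettiRes (h : N ∣ M) (m : ℕ) (ψ : betti N) :
    expChar m (bettiRes h ψ) = (expChar m ψ).comp (gammaIncl h) := by
  refine MonoidHom.ext fun γ => ?_
  rw [MonoidHom.comp_apply, expChar_apply, expChar_apply, toInt_bettiRes]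

/-- the inclusion of the sets of divisors -/
def dvIncl (h : N ∣ M) (d : Dv N) : Dv M := ⟨d.1, d.2.trans h⟩

theorem evF_rename (h : N ∣ M) (P : MvPolynomial (Dv N) ℂ) :
    evF ℂ M (MvPolynomial.rename (dvIncl h) P) = inclF ℂ h (evF ℂ N P) := by
  have : (evF ℂ M).comp (MvPolynomial.rename (dvIncl h)) = (inclF ℂ h).comp (evF ℂ N) := by
    apply MvPolynomial.algHom_ext
    intro d
    simp only [AlgHom.comp_apply, MvPolynomial.rename_X, ESlib.evF, MvPolynomial.aeval_X]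
    exact (inclF_Jgen ℂ h d).symm
  exact DFunLike.congr_fun this P

theorem evH_rename (h : N ∣ M) (P : MvPolynomial (Dv N) ℂ) :
    evH ℂ M (MvPolynomial.rename (dvIncl h) P) = evH ℂ N P := by
  have : (evH ℂ M).comp (MvPolynomial.rename (dvIncl h)) = evH ℂ N := by
    apply MvPolynomial.algHom_ext
    intro d
    simp only [AlgHom.comp_apply, MvPolynomial.rename_X, ESlib.evH, MvPolynomial.aeval_X]
    rfl
  exact DFunLike.congr_fun this P

/-- the character of the `m`-th root, at a higher level -/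
theorem IsRootChar.inclF (h : N ∣ M) {m : ℕ} {f : FK ℂ N} {χ : ↥(Gamma0 N) →* ℂˣ}
    (hf : IsRootChar N m f χ) :
    IsRootChar M m (UNIlib.inclF ℂ h f) (χ.comp (gammaIncl h)) := by
  obtain ⟨P, Q, a, hQ, hfQ, ha, hpow, hχ⟩ := hf
  refine ⟨MvPolynomial.rename (dvIncl h) P, MvPolynomial.rename (dvIncl h) Q, a, ?_, ?_, ha, ?_, ?_⟩
  · rw [evF_rename]
    exact (map_ne_zero (UNIlib.inclF ℂ h)).2 hQ
  · rw [evF_rename, evF_rename, ← map_mul, hfQ]
  · intro τ
    rw [evH_rename, evH_rename]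
    exact hpow τ
  · intro γ τ
    exact hχ (gammaIncl h γ) τ

/-- **compatibility of the comparison isomorphisms with the change of level** -/
theorem relC_inclF (h : N ∣ M) {m : ℕ} {f : FK ℂ N} {x : betti N} (hx : relC N m f x) :
    relC M m (inclF ℂ h f) (bettiRes h x) := by
  rw [relC, expChar_bettiRes]
  exact IsRootChar.inclF h hx

/-- an element of the Betti lattice which is divisible by all integers is zero -/
theorem betti_eq_zero_of_forall_mem_mSub {y : betti M} (hy : ∀ m : ℕ, m ≠ 0 → y ∈ mSub M m) :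
    y = 0 := by
  apply betti.toInt_injective
  refine AddMonoidHom.ext fun γ => ?_
  rw [map_zero, AddMonoidHom.zero_apply]
  obtain ⟨z, hz⟩ := hy ((betti.toInt y γ).natAbs + 1) (Nat.succ_ne_zero _)
  have h1 : betti.toInt y γ = (((betti.toInt y γ).natAbs + 1 : ℕ) : ℤ) * betti.toInt z γ := by
    conv_lhs => rw [← hz]
    rw [LinearMap.lsmul_apply, map_smul, AddMonoidHom.smul_apply, smul_eq_mul]
  by_contra hne
  have h2 : (((betti.toInt y γ).natAbs + 1 : ℕ) : ℤ) ∣ betti.toInt y γ := ⟨_, h1⟩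
  have h3 := Int.natAbs_le_of_dvd_ne_zero h2 hne
  rw [Int.natAbs_natCast] at h3
  omega

/-- **`bettiRes` commutes with the good Hecke operators.** -/
theorem bettiRes_T (h : N ∣ M) {ℓ : ℕ} (hℓ : ℓ.Prime) (hℓN : ¬ ℓ ∣ N) (hℓM : ¬ ℓ ∣ M)
    (x : betti N) :
    bettiRes h (bettiHecke N (CuspForm.heckeAlgebra.T hℓ hℓN (Set.notMem_empty ℓ)) x) =
      bettiHecke M (CuspForm.heckeAlgebra.T hℓ hℓM (Set.notMem_empty ℓ)) (bettiRes h x) := by
  have : NeZero ℓ := ⟨hℓ.ne_zero⟩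
  rw [← sub_eq_zero]
  apply betti_eq_zero_of_forall_mem_mSub
  intro m hm
  have : NeZero m := ⟨hm⟩
  obtain ⟨f, hf, hx⟩ := (thetaRel_relC (N := N) hm).exists_left x
  have hζ := isPrimitiveRoot_zetaC ℓ
  have h1 := relC_inclF h (relC_heckeTS hm hℓ hℓN hζ hf.1 hx)
  have hf' : inclF ℂ h f ≠ 0 := (map_ne_zero (inclF ℂ h)).2 hf.1
  have h2 := relC_heckeTS hm hℓ hℓM hζ hf' (relC_inclF h hx)
  have e : inclF ℂ h ⟨heckeTS ℓ _ (f : LaurentSeries ℂ), heckeTS_mem hℓ hℓN hζ f⟩ =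
      ⟨heckeTS ℓ _ ((inclF ℂ h f : FK ℂ M) : LaurentSeries ℂ),
        heckeTS_mem hℓ hℓM hζ (inclF ℂ h f)⟩ := by
    apply Subtype.ext
    rw [coe_inclF]
    simp only [coe_inclF]
  rw [← e] at h2
  rw [← expChar_eq_iff]
  exact IsRootChar.unique hm
    ((map_ne_zero (inclF ℂ h)).2 (mDiv_heckeTS hm hℓ hℓN hζ hf).1) h1 h2

/-- `hres` in the shape of `steinberg_of_finite_level` -/
theorem bettiRes_goodEval_X (h : N ∣ M) (i : GoodPrime M) (x : betti N) :
    bettiRes h (bettiHecke N (goodEval h (MvPolynomial.X i)) x) =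
      bettiHecke M (goodEval (dvd_refl M) (MvPolynomial.X i)) (bettiRes h x) := by
  rw [goodEval_X, goodEval_X]
  exact bettiRes_T h i.2.1 _ _ x

theorem bcQ_incl (h : N ∣ M) (f : modularFunctionFieldBar N) :
    bcQ M (LevelU.incl h f) = inclF ℂ h (bcQ N f) := by
  apply Subtype.ext
  rw [coe_inclF, coe_bc, coe_bc, LevelU.coe_incl]

/-- **compatibility over `ℚ̄`**, for the relation of `thetaSys` -/
theorem thetaSys_rel_incl (h : N ∣ M) {p : ℕ} (hp : 0 < p) (n : ℕ)
    {f : modularFunctionFieldBar N} {x : betti N} (hx : (thetaSys N p hp).rel n f x) :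
    (thetaSys M p hp).rel n (LevelU.incl h f) (bettiRes h x) := by
  show relC M (p ^ n) (bcQ M (LevelU.incl h f)) (bettiRes h x)
  rw [bcQ_incl]
  exact relC_inclF h hx

end

end Fermat.Agent.UNIlib
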