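import Fermat.Agent.UNI.S35Core
import Fermat.Agent.UNI.EndS30U

/-!
# T-UNI, S35 endgame, part 5: the statement of S35 from the Steinberg relation

`SteinbergAll`: for every newform `g` of level `M`, every prime `q ∥ M`, `q ≠ p`, and every
Frobenius element `σ` at `q`, `(φ² - q²)(φ² - 1) = 0` on the `g`-eigenspace of the Tate module.
-/

set_option autoImplicit false
set_option linter.unusedSectionVars false

open CongruenceSubgroup ModularFormClass CuspForm Polynomial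
open scoped TensorProduct

namespace Fermat.Agent.UNIlib

open Fermat.Agent.ESlib Fermat.Agent.ESlib.PartD IsLocalRing

/-- the Steinberg relation for all newforms -/
def SteinbergAll : Prop :=
  ∀ (M : ℕ) [NeZero M] (p : ℕ) (hp : p.Prime) (g : CuspForm (Gamma0 M) 2) (hg : g.IsNewform)
    (O : Type) [CommRing O] [IsDomain O] [IsDiscreteValuationRing O]
    [IsAdicComplete (maximalIdeal O) O] [CharZero O] (hpO : (p : O) ∈ maximalIdeal O)
    (lam : FullHecke M →+* O) (_ : ∀ t, lam t = 0 → eigenCharC hg.1 ∅ t = 0)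
    (q : ℕ), q.Prime → q ≠ p → q ∣ M → ¬ q ^ 2 ∣ M →
    ∀ A : ValuationSubring (AlgebraicClosure ℚ), A.LiesOverPrime q →
    ∀ σ : GQ, A.IsFrobeniusAt σ q → ∀ v ∈ eigenO (tateD M p hp) lam,
      ((rhoM (tateD M p hp) hpO σ * rhoM (tateD M p hp) hpO σ - ((q : O) ^ 2) • 1) *
        (rhoM (tateD M p hp) hpO σ * rhoM (tateD M p hp) hpO σ - 1)) v = 0

/-- the representation attached to a character of the full Hecke algebra, with the Steinberg
clause -/
theorem exists_rep_of_fullHecke_st {N : ℕ} [NeZero N] {p : ℕ} [Fact p.Prime] (D : TateDatum N p)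
    (O : Type) [CommRing O] [IsDomain O] [IsDiscreteValuationRing O]
    [IsAdicComplete (maximalIdeal O) O] [CharZero O] (hp : (p : O) ∈ maximalIdeal O)
    (lam : FullHecke N →+* O) :
    ∃ ρ : GaloisRepAdic O,
      (∀ (ℓ : ℕ) (hℓ : ℓ.Prime) (hℓN : ¬ ℓ ∣ N), ℓ ≠ p →
        ∀ A : ValuationSubring (AlgebraicClosure ℚ), A.LiesOverPrime ℓ →
          ∀ σ : AlgebraicClosure ℚ ≃ₐ[ℚ] AlgebraicClosure ℚ, A.IsFrobeniusAt σ ℓ →
            LinearMap.charpoly (ρ.ρ σ) =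
              X ^ 2 - C (lam (CuspForm.heckeAlgebra.T hℓ hℓN (Set.notMem_empty ℓ))) * X
                + C ((ℓ : O))) ∧
      (∀ (q : ℕ), q.Prime → q ≠ p →
        ∀ A : ValuationSubring (AlgebraicClosure ℚ), A.LiesOverPrime q →
          ∀ σ : AlgebraicClosure ℚ ≃ₐ[ℚ] AlgebraicClosure ℚ, A.IsFrobeniusAt σ q →
            (∀ v ∈ eigenO D lam, ((rhoM D hp σ * rhoM D hp σ - ((q : O) ^ 2) • 1) *
              (rhoM D hp σ * rhoM D hp σ - 1)) v = 0) → SteinbergCharpoly ρ σ q) := by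
  classical
  have : Module.Finite ℤ (FullHecke N) := Fermat.Agent.S22b.finite_heckeAlgebra N 2 ∅
  have hrank : Module.finrank O (eigenO D lam) = 2 := finrank_eigenO_eq_two D lam
  let T : Finset ℕ := insert p N.primeFactors
  have hT : ∀ ℓ : ℕ, ℓ.Prime → ℓ ∉ T → ¬ ℓ ∣ N ∧ ℓ ≠ p := by
    intro ℓ hℓ hℓT
    rw [Finset.mem_insert, not_or] at hℓT
    refine ⟨fun hdvd => hℓT.2 ?_, hℓT.1⟩
    exact Nat.mem_primeFactors.mpr ⟨hℓ, hdvd, NeZero.ne N⟩
  have hT' : ∀ ℓ : ℕ, ℓ.Prime → ¬ ℓ ∣ N → ℓ ≠ p → ℓ ∉ T := by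
    intro ℓ _ hℓN hℓp hℓT
    rcases Finset.mem_insert.mp hℓT with h | h
    · exact hℓp h
    · exact hℓN (Nat.dvd_of_mem_primeFactors h)
  let a : ℕ → O := fun ℓ =>
    if h : ℓ.Prime ∧ ¬ ℓ ∣ N then lam (CuspForm.heckeAlgebra.T h.1 h.2 (Set.notMem_empty ℓ)) else 0
  have ha : ∀ (ℓ : ℕ) (hℓ : ℓ.Prime) (hℓN : ¬ ℓ ∣ N),
      a ℓ = lam (CuspForm.heckeAlgebra.T hℓ hℓN (Set.notMem_empty ℓ)) := by
    intro ℓ hℓ hℓN
    exact dif_pos ⟨hℓ, hℓN⟩
  obtain ⟨ρ', -, hch, hst⟩ := exists_rep_charpoly_st p O hp T (Finset.mem_insert_self p _) a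
    (repV D hp lam hrank)
    (fun ℓ hℓ hℓT => repV_unram D hp lam hrank hℓ (hT ℓ hℓ hℓT).1 (hT ℓ hℓ hℓT).2)
    (fun ℓ hℓ hℓT A hA σ hσ => by
      rw [ha ℓ hℓ (hT ℓ hℓ hℓT).1]
      exact repV_frob D hp lam hrank hℓ (hT ℓ hℓ hℓT).1 (hT ℓ hℓ hℓT).2 A hA σ hσ)
  refine ⟨ρ', fun ℓ hℓ hℓN hℓp A hA σ hσ => ?_, fun q hq hqp A hA σ hσ hv => ?_⟩
  · rw [hch ℓ hℓ (hT' ℓ hℓ hℓN hℓp) A hA σ hσ, ha ℓ hℓ hℓN]
  · refine hst σ q hq.ne_zero (cycloZp_frob p hq hqp A hA σ hσ) ?_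
    refine LinearMap.ext fun (v : eigenO D lam) => Subtype.ext ?_
    exact hv v v.2

/-- a ring homomorphism from a domain which is integral over `ℤ` to a ring of characteristic zero
is injective -/
theorem injective_of_isIntegral_int {B O : Type*} [CommRing B] [IsDomain B]
    [Algebra.IsIntegral ℤ B] [CommRing O] [CharZero O] (μ : B →+* O) : Function.Injective μ := by
  rw [RingHom.injective_iff_ker_eq_bot]
  apply Ideal.eq_bot_of_comap_eq_bot (R := ℤ)
  rw [eq_bot_iff]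
  intro n hn
  rw [Ideal.mem_comap, RingHom.mem_ker, eq_intCast, map_intCast] at hn
  rw [Ideal.mem_bot]
  exact_mod_cast hn

/-- **S35** from the Steinberg relation. -/
theorem s35_of_steinbergAll (H : SteinbergAll)
    {M : ℕ} [NeZero M] {g : CuspForm (CongruenceSubgroup.Gamma0 M) 2} (hg : g.IsNewform)
    (lam : ℕ) [Fact lam.Prime]
    (S : Finset ℕ)
    (O' : Type) [CommRing O'] [IsDomain O'] [IsDiscreteValuationRing O']
    [IsAdicComplete (IsLocalRing.maximalIdeal O') O'] [Finite (IsLocalRing.ResidueField O')]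
    [CharZero O'] (hlamO' : (lam : O') ∈ IsLocalRing.maximalIdeal O')
    (chig : CuspForm.heckeAlgebra M 2 (↑S : Set ℕ) →+* ℂ)
    (hchig : ∀ (ℓ : ℕ) (hℓ : ℓ.Prime) (hℓM : ¬ ℓ ∣ M) (hℓS : ℓ ∉ (↑S : Set ℕ)),
      chig (CuspForm.heckeAlgebra.T hℓ hℓM hℓS) = ModularFormClass.qCoeff g ℓ)
    (iota : chig.range →+* O')
    (hlamS : lam ∈ S) (hMS : ∀ q : ℕ, q.Prime → q ∣ M → q ∈ S) :
    ∃ (O'' : Type) (_ : CommRing O'') (_ : IsDomain O'') (_ : IsDiscreteValuationRing O'')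
      (_ : IsAdicComplete (IsLocalRing.maximalIdeal O'') O'') (_ : Finite (IsLocalRing.ResidueField O''))
      (_ : CharZero O'') (_ : Algebra O' O'') (_ : Module.Finite O' O'') (_ : IsLocalHom (algebraMap O' O'')),
      Function.Injective (algebraMap O' O'') ∧
      ∃ ρ : GaloisRepAdic O'',
        (∀ (ℓ : ℕ) (hℓ : ℓ.Prime) (hℓM : ¬ ℓ ∣ M) (hℓS : ℓ ∉ (↑S : Set ℕ)),
          ∀ A : ValuationSubring (AlgebraicClosure ℚ), A.LiesOverPrime ℓ →
            ∀ σ : AlgebraicClosure ℚ ≃ₐ[ℚ] AlgebraicClosure ℚ, A.IsFrobeniusAt σ ℓ →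
              LinearMap.charpoly (ρ.ρ σ) =
                X ^ 2 - C (algebraMap O' O'' ((iota.comp chig.rangeRestrict) (CuspForm.heckeAlgebra.T hℓ hℓM hℓS))) * X
                  + C ((ℓ : O''))) ∧
        (∀ q : ℕ, q.Prime → q ≠ lam → q ∣ M → ¬ q ^ 2 ∣ M →
          ∀ A : ValuationSubring (AlgebraicClosure ℚ), A.LiesOverPrime q →
            ∀ σ : AlgebraicClosure ℚ ≃ₐ[ℚ] AlgebraicClosure ℚ, A.IsFrobeniusAt σ q →
              LinearMap.charpoly (ρ.ρ σ) = X ^ 2 - C ((q : O'') + 1) * X + C ((q : O'')) ∨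
              LinearMap.charpoly (ρ.ρ σ) = X ^ 2 + C ((q : O'') + 1) * X + C ((q : O''))) := by
  classical
  have hfin : Module.Finite ℤ (FullHecke M) := Fermat.Agent.S22b.finite_heckeAlgebra M 2 ∅
  set χ : FullHecke M →+* ℂ := eigenCharC hg.1 ∅ with hχ
  -- the range of `chig` is contained in the range of `χ`
  have hle : chig.range ≤ χ.range := by
    rintro _ ⟨t, rfl⟩
    obtain ⟨t, ht⟩ := t
    induction ht using Algebra.adjoin_induction with
    | mem t ht =>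
      rcases ht with ⟨ℓ, hℓ, hℓM, hℓS, rfl⟩ | ⟨q, hqM, hq, hqS, rfl⟩
      · refine ⟨CuspForm.heckeAlgebra.T hℓ hℓM (Set.notMem_empty ℓ), ?_⟩
        rw [hχ, eigenCharC_T]
        exact (hchig ℓ hℓ hℓM hℓS).symm
      · exact absurd (Finset.mem_coe.mpr (hMS q hq hqM)) hqS
    | algebraMap r =>
      have e : (⟨algebraMap ℤ _ r, Subalgebra.algebraMap_mem _ r⟩ :
          CuspForm.heckeAlgebra M 2 (↑S : Set ℕ)) = ((r : ℤ) : CuspForm.heckeAlgebra M 2 (↑S : Set ℕ)) := by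
        apply Subtype.ext
        simp
      rw [e, map_intCast]
      exact intCast_mem _ r
    | add a b ha hb iha ihb =>
      have e : (⟨a + b, add_mem ha hb⟩ : CuspForm.heckeAlgebra M 2 (↑S : Set ℕ)) =
          ⟨a, ha⟩ + ⟨b, hb⟩ := rfl
      rw [e, map_add]
      exact add_mem iha ihb
    | mul a b ha hb iha ihb =>
      have e : (⟨a * b, mul_mem ha hb⟩ : CuspForm.heckeAlgebra M 2 (↑S : Set ℕ)) =
          ⟨a, ha⟩ * ⟨b, hb⟩ := rfl
      rw [e, map_mul]
      exact mul_mem iha ihb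
  let _ : Algebra chig.range χ.range := (Subring.inclusion hle).toAlgebra
  have hinjAB : Function.Injective (algebraMap chig.range χ.range) :=
    Subring.inclusion_injective hle
  have hfinB : Module.Finite ℤ χ.range :=
    Module.Finite.of_surjective (χ.rangeRestrict.toAddMonoidHom.toIntLinearMap)
      χ.rangeRestrict_surjective
  obtain ⟨O'', i1, i2, i3, i4, i5, i6, i7, i8, i9, hinj, μ, hμ⟩ :=
    exists_extend_abstract (A := chig.range) (B := χ.range) hinjAB O' iota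
  have hp'' : (lam : O'') ∈ maximalIdeal O'' := by
    have h1 : (lam : O'') = algebraMap O' O'' (lam : O') := by rw [map_natCast]
    rw [h1]
    exact map_nonunit (algebraMap O' O'') _ hlamO'
  have hintB : Algebra.IsIntegral ℤ χ.range := Algebra.IsIntegral.of_finite ℤ χ.range
  have hμinj : Function.Injective μ := injective_of_isIntegral_int μ
  let L : FullHecke M →+* O'' := μ.comp χ.rangeRestrict
  have hL : ∀ t, L t = 0 → eigenCharC hg.1 ∅ t = 0 := by
    intro t ht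
    have h1 : χ.rangeRestrict t = 0 := hμinj (by rw [map_zero]; exact ht)
    exact congrArg Subtype.val h1
  obtain ⟨ρ, hch, hst⟩ := exists_rep_of_fullHecke_st (tateD M lam Fact.out) O'' hp'' L
  refine ⟨O'', i1, i2, i3, i4, i5, i6, i7, i8, i9, hinj, ρ, ?_, ?_⟩
  · intro ℓ hℓ hℓM hℓS A hA σ hσ
    have hℓp : ℓ ≠ lam := by
      rintro rfl
      exact hℓS (Finset.mem_coe.mpr hlamS)
    rw [hch ℓ hℓ hℓM hℓp A hA σ hσ]
    have e : L (CuspForm.heckeAlgebra.T hℓ hℓM (Set.notMem_empty ℓ)) =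
        algebraMap O' O'' ((iota.comp chig.rangeRestrict) (CuspForm.heckeAlgebra.T hℓ hℓM hℓS)) := by
      show μ (χ.rangeRestrict _) = algebraMap O' O'' (iota (chig.rangeRestrict _))
      rw [← hμ]
      congr 1
      apply Subtype.ext
      show χ _ = chig _
      rw [hχ, eigenCharC_T, hchig]
    rw [e]
  · intro q hq hqp hqM hq2 A hA σ hσ
    exact hst q hq hqp A hA σ hσ
      (H M lam Fact.out g hg O'' hp'' L hL q hq hqp hqM hq2 A hA σ hσ)

end Fermat.Agent.UNIlib
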