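import Fermat.Agent.UNI.Matching

/-!
# T-UNI, step (d): the special fibre of a totally split covering of a nodal curve

`Λ` is the base (`P / π`, a DVR with uniformiser `h`), `D₁`, `D₂` are the two branches, `T` the ring of
the nodes (`ρᵢ : Dᵢ → T`), so that the nodal ring is `{(d₁, d₂) | ρ₁ d₁ = ρ₂ d₂}`.  The normalisation of
the special fibre of the covering is `(I₁ → D₁) × (I₂ → D₂)` (`I₁`, `I₂` the sets of sheets) and `Ab` is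
the special fibre itself.  The functionals `s₁`, `s₂` are `h` times the restrictions to the branches of
the generator `t` of the dualizing module of the nodal ring.

Main result (`IsSheetAlg.exists_matching`, `IsSheetAlg.mem_of_forall_matching`): if the form
`t ∘ (sum over the sheets)` is perfect on `Ab`, then at every node `χ : T → k` the sheets are glued along
a bijection `β : I₁ ≃ I₂`.
-/

set_option autoImplicit false

open scoped BigOperators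

namespace Fermat.Agent.UNIlib

section SF

variable {Λ D₁ D₂ T : Type*} [CommRing Λ] [CommRing D₁] [CommRing D₂] [CommRing T]
  [Algebra Λ D₁] [Algebra Λ D₂] {I₁ I₂ : Type*} [Fintype I₁] [Fintype I₂]

/-- `h` times the form `t (sum over the sheets of z * w)` -/
def sheetForm (s₁ : D₁ →ₗ[Λ] Λ) (s₂ : D₂ →ₗ[Λ] Λ) (z w : (I₁ → D₁) × (I₂ → D₂)) : Λ :=
  ∑ i, s₁ (z.1 i * w.1 i) + ∑ j, s₂ (z.2 j * w.2 j)

theorem sheetForm_eq (s₁ : D₁ →ₗ[Λ] Λ) (s₂ : D₂ →ₗ[Λ] Λ) (z w : (I₁ → D₁) × (I₂ → D₂)) :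
    sheetForm s₁ s₂ z w = s₁ (∑ i, z.1 i * w.1 i) + s₂ (∑ j, z.2 j * w.2 j) := by
  rw [sheetForm, map_sum, map_sum]

theorem sheetForm_add_right (s₁ : D₁ →ₗ[Λ] Λ) (s₂ : D₂ →ₗ[Λ] Λ)
    (z w w' : (I₁ → D₁) × (I₂ → D₂)) :
    sheetForm s₁ s₂ z (w + w') = sheetForm s₁ s₂ z w + sheetForm s₁ s₂ z w' := by
  simp only [sheetForm, Prod.fst_add, Prod.snd_add, Pi.add_apply, mul_add, map_add,
    Finset.sum_add_distrib]
  ring

theorem sheetForm_smul_right (s₁ : D₁ →ₗ[Λ] Λ) (s₂ : D₂ →ₗ[Λ] Λ) (c : Λ)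
    (z w : (I₁ → D₁) × (I₂ → D₂)) :
    sheetForm s₁ s₂ z (c • w) = c * sheetForm s₁ s₂ z w := by
  simp only [sheetForm, Prod.smul_fst, Prod.smul_snd, Pi.smul_apply, mul_smul_comm, map_smul,
    smul_eq_mul, Finset.mul_sum, mul_add]

theorem sheetForm_sub_left (s₁ : D₁ →ₗ[Λ] Λ) (s₂ : D₂ →ₗ[Λ] Λ)
    (z z' w : (I₁ → D₁) × (I₂ → D₂)) :
    sheetForm s₁ s₂ (z - z') w = sheetForm s₁ s₂ z w - sheetForm s₁ s₂ z' w := by
  simp only [sheetForm, Prod.fst_sub, Prod.snd_sub, Pi.sub_apply, sub_mul, map_sub,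
    Finset.sum_sub_distrib]
  ring

theorem sheetForm_mul_one (s₁ : D₁ →ₗ[Λ] Λ) (s₂ : D₂ →ₗ[Λ] Λ) (z w : (I₁ → D₁) × (I₂ → D₂)) :
    sheetForm s₁ s₂ (z * w) 1 = sheetForm s₁ s₂ z w := by
  simp [sheetForm]

/-- the hypotheses on the special fibre `Ab` -/
structure IsSheetAlg (h : Λ) (ρ₁ : D₁ →+* T) (ρ₂ : D₂ →+* T) (s₁ : D₁ →ₗ[Λ] Λ) (s₂ : D₂ →ₗ[Λ] Λ)
    (Ab : Subalgebra Λ ((I₁ → D₁) × (I₂ → D₂))) : Prop where
  /-- `h` is not a zero divisor -/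
  hh : ∀ x : Λ, h * x = 0 → x = 0
  surj₁ : Function.Surjective ρ₁
  surj₂ : Function.Surjective ρ₂
  /-- `t` is integral on the nodal ring -/
  diag : ∀ d₁ d₂, ρ₁ d₁ = ρ₂ d₂ → h ∣ s₁ d₁ + s₂ d₂
  /-- `Ab` contains the nodal ring -/
  const_mem : ∀ d₁ d₂, ρ₁ d₁ = ρ₂ d₂ →
    ((fun _ => d₁, fun _ => d₂) : (I₁ → D₁) × (I₂ → D₂)) ∈ Ab
  /-- the trace (sum over the sheets) maps `Ab` to the nodal ring -/
  sum_mem : ∀ z ∈ Ab, ρ₁ (∑ i, z.1 i) = ρ₂ (∑ j, z.2 j)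
  /-- the form is perfect on `Ab` -/
  perfect : ∀ φ : Ab →ₗ[Λ] Λ, ∃ a ∈ Ab, ∀ b : Ab, h * φ b = sheetForm s₁ s₂ a b
  nondeg : ∀ w, (∀ b ∈ Ab, sheetForm s₁ s₂ w b = 0) → w = 0

namespace IsSheetAlg

variable {h : Λ} {ρ₁ : D₁ →+* T} {ρ₂ : D₂ →+* T} {s₁ : D₁ →ₗ[Λ] Λ} {s₂ : D₂ →ₗ[Λ] Λ}
  {Ab : Subalgebra Λ ((I₁ → D₁) × (I₂ → D₂))}

/-- `Ab` is its own dual inside the normalisation -/
theorem mem_of_dvd (H : IsSheetAlg h ρ₁ ρ₂ s₁ s₂ Ab) {z : (I₁ → D₁) × (I₂ → D₂)}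
    (hz : ∀ b ∈ Ab, h ∣ sheetForm s₁ s₂ z b) : z ∈ Ab := by
  have hcancel : ∀ x y : Λ, h * x = h * y → x = y := fun x y hxy =>
    sub_eq_zero.mp (H.hh _ (by rw [mul_sub, hxy, sub_self]))
  choose c hc using fun b : Ab => hz b b.2
  let φ : Ab →ₗ[Λ] Λ :=
    { toFun := c
      map_add' := fun b b' => hcancel _ _ (by
        rw [mul_add, ← hc, ← hc, ← hc, Subalgebra.coe_add, sheetForm_add_right])
      map_smul' := fun r b => hcancel _ _ (by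
        rw [RingHom.id_apply, smul_eq_mul, mul_left_comm, ← hc, ← hc, Subalgebra.coe_smul,
          sheetForm_smul_right]) }
  obtain ⟨a, ha, hab⟩ := H.perfect φ
  have : z - a = 0 := by
    apply H.nondeg
    intro b hb
    rw [sheetForm_sub_left, ← hab ⟨b, hb⟩]
    change _ - h * c ⟨b, hb⟩ = 0
    rw [← hc, sub_self]
  rw [sub_eq_zero.mp this]
  exact ha

/-- the `T`-valued form: `Ab` is its own orthogonal -/
theorem mem_iff_sum (H : IsSheetAlg h ρ₁ ρ₂ s₁ s₂ Ab) (z : (I₁ → D₁) × (I₂ → D₂)) :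
    z ∈ Ab ↔ ∀ b ∈ Ab, ρ₁ (∑ i, z.1 i * b.1 i) = ρ₂ (∑ j, z.2 j * b.2 j) := by
  refine ⟨fun hz b hb => H.sum_mem _ (Ab.mul_mem hz hb), fun hz => H.mem_of_dvd fun b hb => ?_⟩
  rw [sheetForm_eq]
  exact H.diag _ _ (hz b hb)

/-- the conductor is contained in `Ab`: membership only depends on the values at the nodes -/
theorem mem_congr (H : IsSheetAlg h ρ₁ ρ₂ s₁ s₂ Ab) {z z' : (I₁ → D₁) × (I₂ → D₂)}
    (h1 : ∀ i, ρ₁ (z.1 i) = ρ₁ (z'.1 i)) (h2 : ∀ j, ρ₂ (z.2 j) = ρ₂ (z'.2 j)) (hz : z ∈ Ab) :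
    z' ∈ Ab := by
  rw [H.mem_iff_sum] at hz ⊢
  intro b hb
  have := hz b hb
  simp only [map_sum, map_mul] at this ⊢
  simpa only [h1, h2] using this

section Node

variable {k : Type*} [Field k] (χ : T →+* k)

/-- the values of `z` at the points over the node `χ` -/
def red (ρ₁ : D₁ →+* T) (ρ₂ : D₂ →+* T) (χ : T →+* k) (z : (I₁ → D₁) × (I₂ → D₂)) : I₁ ⊕ I₂ → k :=
  Sum.elim (fun i => χ (ρ₁ (z.1 i))) (fun j => χ (ρ₂ (z.2 j)))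

omit [Algebra Λ D₁] [Algebra Λ D₂] [Fintype I₁] [Fintype I₂] in
theorem red_mul (z w : (I₁ → D₁) × (I₂ → D₂)) :
    red ρ₁ ρ₂ χ (z * w) = red ρ₁ ρ₂ χ z * red ρ₁ ρ₂ χ w := by
  funext x
  rcases x with i | j <;> simp [red]

omit [Algebra Λ D₁] [Algebra Λ D₂] [Fintype I₁] [Fintype I₂] in
theorem red_add (z w : (I₁ → D₁) × (I₂ → D₂)) :
    red ρ₁ ρ₂ χ (z + w) = red ρ₁ ρ₂ χ z + red ρ₁ ρ₂ χ w := by
  funext x
  rcases x with i | j <;> simp [red]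

/-- the algebra of the points over the node `χ` -/
def nodeAlg (H : IsSheetAlg h ρ₁ ρ₂ s₁ s₂ Ab) (hχ : Function.Surjective χ) :
    Subalgebra k (I₁ ⊕ I₂ → k) where
  carrier := {a | ∃ z ∈ Ab, red ρ₁ ρ₂ χ z = a}
  mul_mem' := by
    rintro _ _ ⟨z, hz, rfl⟩ ⟨w, hw, rfl⟩
    exact ⟨z * w, Ab.mul_mem hz hw, red_mul χ z w⟩
  add_mem' := by
    rintro _ _ ⟨z, hz, rfl⟩ ⟨w, hw, rfl⟩
    exact ⟨z + w, Ab.add_mem hz hw, red_add χ z w⟩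
  algebraMap_mem' := by
    intro c
    obtain ⟨x, rfl⟩ := hχ c
    obtain ⟨d₁, hd₁⟩ := H.surj₁ x
    obtain ⟨d₂, hd₂⟩ := H.surj₂ x
    refine ⟨_, H.const_mem d₁ d₂ (hd₁.trans hd₂.symm), ?_⟩
    funext y
    rcases y with i | j
    · simp [red, hd₁]
    · simp [red, hd₂]

theorem mem_nodeAlg (H : IsSheetAlg h ρ₁ ρ₂ s₁ s₂ Ab) (hχ : Function.Surjective χ)
    (a : I₁ ⊕ I₂ → k) : a ∈ H.nodeAlg χ hχ ↔ ∃ z ∈ Ab, red ρ₁ ρ₂ χ z = a := Iff.rfl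

/-- the algebra of the points over a node is its own orthogonal -/
theorem mem_nodeAlg_iff (H : IsSheetAlg h ρ₁ ρ₂ s₁ s₂ Ab) (hχ : Function.Surjective χ) (e : T)
    (he : χ e = 1) (hker : ∀ y, χ y = 0 → e * y = 0) (a : I₁ ⊕ I₂ → k) :
    a ∈ H.nodeAlg χ hχ ↔ ∀ b ∈ H.nodeAlg χ hχ,
      ∑ x, Sum.elim (fun _ : I₁ => (1 : k)) (fun _ : I₂ => (-1 : k)) x * a x * b x = 0 := by
  constructor
  · rintro ⟨z, hz, rfl⟩ _ ⟨b, hb, rfl⟩
    have := congrArg χ ((H.mem_iff_sum z).1 hz b hb)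
    simp only [map_sum, map_mul] at this
    simp only [Fintype.sum_sum_type, Sum.elim_inl, Sum.elim_inr, red, one_mul, neg_mul,
      Finset.sum_neg_distrib, this, add_neg_cancel]
  · intro ha
    -- lift `a`, multiplied by the idempotent
    have hl₁ : ∀ i : I₁, ∃ d : D₁, χ (ρ₁ d) = a (Sum.inl i) ∧ ∃ y, ρ₁ d = e * y := by
      intro i
      obtain ⟨y, hy⟩ := hχ (a (Sum.inl i))
      obtain ⟨d, hd⟩ := H.surj₁ (e * y)
      exact ⟨d, by rw [hd, map_mul, he, one_mul, hy], y, hd⟩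
    have hl₂ : ∀ j : I₂, ∃ d : D₂, χ (ρ₂ d) = a (Sum.inr j) ∧ ∃ y, ρ₂ d = e * y := by
      intro j
      obtain ⟨y, hy⟩ := hχ (a (Sum.inr j))
      obtain ⟨d, hd⟩ := H.surj₂ (e * y)
      exact ⟨d, by rw [hd, map_mul, he, one_mul, hy], y, hd⟩
    choose z₁ hz₁ y₁ hy₁ using hl₁
    choose z₂ hz₂ y₂ hy₂ using hl₂
    refine ⟨(z₁, z₂), ?_, ?_⟩
    · rw [H.mem_iff_sum]
      intro b hb
      have h0 := ha _ ⟨b, hb, rfl⟩
      simp only [Fintype.sum_sum_type, Sum.elim_inl, Sum.elim_inr, red, one_mul, neg_mul,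
        Finset.sum_neg_distrib, ← hz₁, ← hz₂] at h0
      rw [← sub_eq_zero]
      simp only [map_sum, map_mul]
      have h1 : ∑ i, ρ₁ (z₁ i) * ρ₁ (b.1 i) - ∑ j, ρ₂ (z₂ j) * ρ₂ (b.2 j) =
          e * (∑ i, y₁ i * ρ₁ (b.1 i) - ∑ j, y₂ j * ρ₂ (b.2 j)) := by
        simp only [hy₁, hy₂, mul_sub, Finset.mul_sum, mul_assoc]
      have h2 : e * (e * (∑ i, y₁ i * ρ₁ (b.1 i) - ∑ j, y₂ j * ρ₂ (b.2 j))) = 0 := by
        apply hker
        rw [← h1]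
        simp only [map_sub, map_sum, map_mul]
        rw [← sub_eq_add_neg] at h0
        exact h0
      have h3 : e * e = e := by
        have : e * (e - 1) = 0 := hker _ (by rw [map_sub, he, map_one, sub_self])
        rw [mul_sub, mul_one, sub_eq_zero] at this
        exact this
      rw [h1]
      rw [← mul_assoc, h3] at h2
      exact h2
    · funext x
      rcases x with i | j
      · exact hz₁ i
      · exact hz₂ j

/-- **(d)**: at the node `χ` the sheets are glued along a bijection -/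
theorem exists_matching (H : IsSheetAlg h ρ₁ ρ₂ s₁ s₂ Ab) (hχ : Function.Surjective χ) (e : T)
    (he : χ e = 1) (hker : ∀ y, χ y = 0 → e * y = 0)
    (hc₁ : (Fintype.card I₁ : k) ≠ 0) (hc₂ : (Fintype.card I₂ : k) ≠ 0)
    (hG₁ : ∀ i i' : I₁, ∃ (e₁ : Equiv.Perm I₁) (e₂ : Equiv.Perm I₂), e₁ i = i' ∧
      ∀ z ∈ Ab, ((z.1 ∘ e₁, z.2 ∘ e₂) : (I₁ → D₁) × (I₂ → D₂)) ∈ Ab)
    (hG₂ : ∀ j j' : I₂, ∃ (e₁ : Equiv.Perm I₁) (e₂ : Equiv.Perm I₂), e₂ j = j' ∧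
      ∀ z ∈ Ab, ((z.1 ∘ e₁, z.2 ∘ e₂) : (I₁ → D₁) × (I₂ → D₂)) ∈ Ab) :
    ∃ β : I₁ ≃ I₂, ∀ a : I₁ ⊕ I₂ → k,
      (∃ z ∈ Ab, red ρ₁ ρ₂ χ z = a) ↔ ∀ i, a (Sum.inl i) = a (Sum.inr (β i)) := by
  have hU := H.mem_nodeAlg_iff χ hχ e he hker
  by_cases h2 : (2 : k) = 0
  · have hodd : ∀ n : ℕ, (n : k) ≠ 0 → Odd n := by
      intro n hn
      rw [← Nat.not_even_iff_odd]
      rintro ⟨r, rfl⟩
      apply hn
      rw [← two_mul]
      push_cast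
      rw [h2, zero_mul]
    have hstab : ∀ (e₁ : Equiv.Perm I₁) (e₂ : Equiv.Perm I₂),
        (∀ z ∈ Ab, ((z.1 ∘ e₁, z.2 ∘ e₂) : (I₁ → D₁) × (I₂ → D₂)) ∈ Ab) →
        ∀ a ∈ H.nodeAlg χ hχ, a ∘ Sum.map e₁ e₂ ∈ H.nodeAlg χ hχ := by
      rintro e₁ e₂ hst _ ⟨z, hz, rfl⟩
      refine ⟨_, hst z hz, ?_⟩
      funext x
      rcases x with i | j <;> simp [red]
    refine exists_matching_of_odd (H.nodeAlg χ hχ) _ ?_ hU (hodd _ hc₁) (hodd _ hc₂) ?_ ?_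
    · rintro (i | j) <;> simp
    · intro i i'
      obtain ⟨e₁, e₂, h1, hst⟩ := hG₁ i i'
      exact ⟨e₁, e₂, h1, hstab e₁ e₂ hst⟩
    · intro j j'
      obtain ⟨e₁, e₂, h1, hst⟩ := hG₂ j j'
      exact ⟨e₁, e₂, h1, hstab e₁ e₂ hst⟩
  · exact exists_matching_of_two_ne_zero (H.nodeAlg χ hχ) 1 (-1) one_ne_zero
      (neg_ne_zero.mpr one_ne_zero) hU h2

end Node

/-- **gluing criterion**: an element of the normalisation which is compatible with the gluing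
bijections at all the nodes lies in `Ab` -/
theorem mem_of_forall_matching (H : IsSheetAlg h ρ₁ ρ₂ s₁ s₂ Ab) {X : Type*} (k : X → Type*)
    [∀ x, Field (k x)] (χ : ∀ x, T →+* k x) (hinj : ∀ y : T, (∀ x, χ x y = 0) → y = 0)
    (β : X → I₁ ≃ I₂)
    (hβ : ∀ x, ∀ b ∈ Ab, ∀ i, χ x (ρ₁ (b.1 i)) = χ x (ρ₂ (b.2 (β x i))))
    {z : (I₁ → D₁) × (I₂ → D₂)} (hz : ∀ x i, χ x (ρ₁ (z.1 i)) = χ x (ρ₂ (z.2 (β x i)))) :
    z ∈ Ab := by
  rw [H.mem_iff_sum]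
  intro b hb
  rw [← sub_eq_zero]
  apply hinj
  intro x
  rw [map_sub, sub_eq_zero]
  simp only [map_sum, map_mul]
  rw [← Equiv.sum_comp (β x)]
  exact Finset.sum_congr rfl fun i _ => by rw [hz x i, hβ x b hb i]

end IsSheetAlg

end SF

end Fermat.Agent.UNIlib
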