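import Fermat.Agent.UNI.ToricU
import Fermat.Agent.UNI.IntRepBad
import Fermat.Agent.UNI.LevelU
import Fermat.Agent.UNI.AL2
import Fermat.Agent.UNI.EndS34

/-!
# T-UNI: `UnipHaupt` (hence `UnipInput`, hence S34) from the triviality of inertia on the toric part
-/

set_option autoImplicit false
set_option linter.unusedSectionVars false

open ModularCurve AlgebraicCurve

namespace Fermat.Agent.UNIlib

open Fermat.Agent.ESlib Fermat.Agent.ESlib.PartD

/-- the geometric input of S34: inertia acts trivially on the toric part, at the levels `N r` with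
`r ∤ N` and `a ∣ N` for an auxiliary `a ∈ {2, 3}`, `a ≠ r`. -/
def ToricIAll : Prop :=
  ∀ (N r : ℕ) [NeZero (N * r)] (a p : ℕ), (a = 2 ∨ a = 3) → a ∣ N → a ≠ r → p.Prime →
    ∀ (hr : r.Prime) (hrN : ¬ r ∣ N), r ≠ p → ∀ A : ValuationSubring Qb, A.LiesOverPrime r →
      ∀ n : ℕ, ToricI (N * r) A (p ^ n) (wr Qb hr hrN).toAlgHom.toRingHom

theorem unipHaupt_of_toricIAll (H : ToricIAll) : UnipHaupt := by
  intro N _ a p q ha23 haN haq hp hq hqp hqN hq2 A hA n
  obtain ⟨N', hN'⟩ := hqN
  have hN : N = N' * q := by rw [hN', mul_comm]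
  subst hN
  have hqN' : ¬ q ∣ N' := by
    rintro ⟨k, rfl⟩
    exact hq2 ⟨k, by ring⟩
  have ha : a.Prime := by
    rcases ha23 with rfl | rfl
    · exact Nat.prime_two
    · exact Nat.prime_three
  have haN' : a ∣ N' :=
    (Nat.Coprime.dvd_of_dvd_mul_right ((Nat.coprime_primes ha hq).2 haq) haN)
  exact unipAt_of_toricI (wr Qb hq hqN').toAlgHom.toRingHom
    (fun σ f => (arithmeticRingAut_wr Qb hq hqN' σ f).symm) (intRepAt (N' * q) hq A hA)
    (H N' q a p ha23 haN' haq hp hq hqN' hqp A hA n)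

end Fermat.Agent.UNIlib
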