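import Fermat.Agent.UNI.ToricLevel
import Fermat.Agent.UNI.ToricU
import Fermat.Agent.UNI.NormaliseFK
import Fermat.Agent.UNI.WeakApprox
import Fermat.Agent.UNI.AL2
import Fermat.Agent.UNI.Mord

/-!
# T-UNI, glue (U2): `ToricI` over `ℚ̄` from the statement `ToricK` over number fields
-/

set_option autoImplicit false
set_option linter.unusedSectionVars false
set_option linter.style.haveILetI false

open ModularCurve IntermediateField AlgebraicCurve
open Fermat.Agent.S24lib Fermat.Agent.ESlib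

namespace Fermat.Agent.UNIlib

/-- `exists_level` with a number field which is normal over `ℚ` -/
theorem exists_level_normalT (N : ℕ) [NeZero N] (s : Finset (FK Kb N)) (c : Finset Kb) :
    ∃ K : IntermediateField ℚ Kb, FiniteDimensional ℚ K ∧ Normal ℚ K ∧ (∀ a ∈ c, a ∈ K) ∧
      ∀ f ∈ s, ∃ g : FK K N, bc K Kb (modularFunctionFieldFull N) g = f := by
  obtain ⟨K₁, h₁, H₁⟩ := exists_level_finset N s
  have h₂ : FiniteDimensional ℚ (IntermediateField.adjoin ℚ (c : Set Kb)) :=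
    IntermediateField.finiteDimensional_adjoin fun x _ => isIntegral_Qb_MK x
  have h₃ : FiniteDimensional ℚ ↥(K₁ ⊔ IntermediateField.adjoin ℚ (c : Set Kb)) :=
    IntermediateField.finiteDimensional_sup _ _
  have hle := IntermediateField.le_normalClosure (K₁ ⊔ IntermediateField.adjoin ℚ (c : Set Kb))
  have : Algebra.IsAlgebraic ℚ Kb := AlgebraicClosure.isAlgebraic ℚ
  have : IsAlgClosure ℚ Kb := ⟨inferInstance, inferInstance⟩
  have : Normal ℚ Kb := IsAlgClosure.normal ℚ Kb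
  refine ⟨IntermediateField.normalClosure ℚ ↥(K₁ ⊔ IntermediateField.adjoin ℚ (c : Set Kb)) Kb,
    inferInstance, normalClosure.normal ℚ _ Kb, fun a ha => ?_, H₁ _ (le_sup_left.trans hle)⟩
  exact hle ((le_sup_right : IntermediateField.adjoin ℚ (c : Set Kb) ≤ _)
    (IntermediateField.subset_adjoin ℚ _ ha))

/-- the `R`-algebra structure of `F_K(M)` -/
theorem exists_algebra_tower (R K : Type) [CommRing R] [Field K] [Algebra R K] [Algebra ℚ K]
    (M : ℕ) : ∃ _ : Algebra R (FK K M), IsScalarTower R K (FK K M) := by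
  letI : Algebra R (FK K M) := ((algebraMap K (FK K M)).comp (algebraMap R K)).toAlgebra
  exact ⟨inferInstance, IsScalarTower.of_algebraMap_eq fun _ => rfl⟩

theorem laurent_leadingCoeff_pow {K : Type*} [Field K] (x : LaurentSeries K) (n : ℕ) :
    (x ^ n).leadingCoeff = x.leadingCoeff ^ n := by
  induction n with
  | zero => simp
  | succ n ih => rw [pow_succ, HahnSeries.leadingCoeff_mul, ih, pow_succ]

/-- the coercion of a constant of `F_K(M)` -/
theorem coe_algebraMap_FKT (K : Type) [Field K] [Algebra ℚ K] (M : ℕ) (a : K) :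
    ((algebraMap K (FK K M) a : FK K M) : LaurentSeries K) = HahnSeries.C a := by
  show algebraMap K (LaurentSeries K) a = _
  rw [algebraMap_laurentSeries_eq_single, HahnSeries.C_apply]

/-- descent of one `RedOne`-type relation to a number field -/
theorem gauss_of_rel (A : ValuationSubring Kb) (K : IntermediateField ℚ Kb)
    [IsDiscreteValuationRing (RA A K)] {M : ℕ} [NeZero M]
    [Algebra (RA A K) (FK K M)] [IsScalarTower (RA A K) K (FK K M)]
    {π : RA A K} (hπ : Irreducible π) (x u₁ u₂ : FK K M) (Y₁ Y₂ : LaurentSeries A)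
    (h₁ : ((bc K Kb (modularFunctionFieldFull M) u₁ : FK Kb M) : LaurentSeries Kb) = incA A Y₁)
    (h₂ : ((bc K Kb (modularFunctionFieldFull M) u₂ : FK Kb M) : LaurentSeries Kb) = incA A Y₂)
    (hred : redA A Y₁ = redA A Y₂) (hne : redA A Y₁ ≠ 0) (hrel : x * u₂ = u₁) :
    (x - 1) / algebraMap (RA A K) (FK K M) π ∈ gaussSub (RA A K) K M := by
  obtain ⟨v₁, hv₁, hv₁'⟩ := exists_series_RA A K Y₁ (u₁ : LaurentSeries K)
    (by rw [← coe_bc, h₁])
  obtain ⟨v₂, hv₂, hv₂'⟩ := exists_series_RA A K Y₂ (u₂ : LaurentSeries K)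
    (by rw [← coe_bc, h₂])
  refine div_sub_one_mem_gaussSub hπ (y₁ := v₁) (y₂ := v₂) ?_
    ((coeffMap_residue_RA_eq_iff A K v₁ v₂).2 (by rw [hv₁', hv₂']; exact hred)) ?_
  · rw [hv₁, hv₂, ← hrel]
    rfl
  · intro h
    apply hne
    rw [hred]
    have := (coeffMap_residue_RA_eq_iff A K v₂ 0).1 (by rw [h, map_zero])
    rw [hv₂', map_zero, map_zero] at this
    exact this

section normaliseK

variable (A : ValuationSubring Kb) (K : IntermediateField ℚ Kb) [Normal ℚ K]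
  [IsDiscreteValuationRing (RA A K)] {N r : ℕ} [NeZero (N * r)]
  [CharP (IsLocalRing.ResidueField (RA A K)) r]
  [Algebra (RA A K) (FK K (N * r))] [IsScalarTower (RA A K) K (FK K (N * r))]

/-- the normalisation over the number field `K` -/
theorem normalise_K (hr : r.Prime) (hrN : ¬ r ∣ N) {π : RA A K} (hπ : Irreducible π) (m : ℕ)
    (fK ψK ψK' u₁ u₂ u₁' u₂' : FK K (N * r)) (cK cK' aK : K) (hcK : cK ≠ 0) (hcK' : cK' ≠ 0)
    (haK0 : aK ≠ 0) (haK : aK ^ m = cK / cK') (hψK0 : ψK ≠ 0) (hψK0' : ψK' ≠ 0)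
    (Y₁ Y₂ Y₁' Y₂' : LaurentSeries A)
    (h₁ : ((bc K Kb (modularFunctionFieldFull (N * r)) u₁ : FK Kb (N * r)) : LaurentSeries Kb) =
      incA A Y₁)
    (h₂ : ((bc K Kb (modularFunctionFieldFull (N * r)) u₂ : FK Kb (N * r)) : LaurentSeries Kb) =
      incA A Y₂)
    (h₁' : ((bc K Kb (modularFunctionFieldFull (N * r)) u₁' : FK Kb (N * r)) : LaurentSeries Kb) =
      incA A Y₁')
    (h₂' : ((bc K Kb (modularFunctionFieldFull (N * r)) u₂' : FK Kb (N * r)) : LaurentSeries Kb) =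
      incA A Y₂')
    (hred : redA A Y₁ = redA A Y₂) (hne : redA A Y₁ ≠ 0)
    (hred' : redA A Y₁' = redA A Y₂') (hne' : redA A Y₁' ≠ 0)
    (hrelK : fK * ψK ^ m * u₂ = algebraMap K (FK K (N * r)) cK * u₁)
    (hrelK' : wr K hr hrN fK * ψK' ^ m * u₂' = algebraMap K (FK K (N * r)) cK' * u₁') :
    ∃ S : FK K (N * r), S ≠ 0 ∧
      (fK * S ^ m / algebraMap K (FK K (N * r)) cK - 1) / algebraMap K (FK K (N * r)) (π : K) ∈
        gaussSub (RA A K) K (N * r) ∧
      (wr K hr hrN (fK * S ^ m / algebraMap K (FK K (N * r)) cK) - 1) /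
        algebraMap K (FK K (N * r)) (π : K) ∈ gaussSub (RA A K) K (N * r) := by
  set cF : FK K (N * r) := algebraMap K (FK K (N * r)) cK with hcF
  set cF' : FK K (N * r) := algebraMap K (FK K (N * r)) cK' with hcF'
  set aF : FK K (N * r) := algebraMap K (FK K (N * r)) aK with haF
  have hcF0 : cF ≠ 0 := by rwa [hcF, Ne, map_eq_zero]
  have hcF0' : cF' ≠ 0 := by rwa [hcF', Ne, map_eq_zero]
  have haF0 : aF ≠ 0 := by rwa [haF, Ne, map_eq_zero]
  have haFm : aF ^ m = cF / cF' := by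
    rw [haF, hcF, hcF', ← map_pow, ← map_div₀, haK]
  have hg₁ : (fK * ψK ^ m / cF - 1) / algebraMap (RA A K) (FK K (N * r)) π ∈
      gaussSub (RA A K) K (N * r) := by
    refine gauss_of_rel A K hπ _ u₁ u₂ Y₁ Y₂ h₁ h₂ hred hne ?_
    rw [div_mul_eq_mul_div, hrelK, mul_div_cancel_left₀ _ hcF0]
  have e1 : wr K hr hrN (fK * (aF * wr K hr hrN ψK') ^ m / cF) =
      wr K hr hrN fK * ψK' ^ m / cF' := by
    rw [map_div₀, map_mul, map_pow, map_mul, wr_wr, mul_pow, ← map_pow, haFm, map_div₀, hcF,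
      hcF', AlgEquiv.commutes, AlgEquiv.commutes, ← hcF, ← hcF']
    field_simp
  have hg₂ : ((wr K hr hrN : FK K (N * r) →+* FK K (N * r))
      (fK * (aF * wr K hr hrN ψK') ^ m / cF) - 1) / algebraMap (RA A K) (FK K (N * r)) π ∈
      gaussSub (RA A K) K (N * r) := by
    refine gauss_of_rel A K hπ _ u₁' u₂' Y₁' Y₂' h₁' h₂' hred' hne' ?_
    rw [RingHom.coe_coe, e1, div_mul_eq_mul_div, hrelK', mul_div_cancel_left₀ _ hcF0']
  obtain ⟨e₀, he₁, he₂⟩ := exists_weakApprox (R := RA A K) (K := K) hr hrN hπ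
  obtain ⟨S, hS, hS₁, hS₂⟩ := exists_normalise_FK hπ
    (wr K hr hrN : FK K (N * r) →+* FK K (N * r))
    (by rw [RingHom.coe_coe, algebraMap_RA_eq, AlgEquiv.commutes])
    he₁ he₂ m hψK0 (mul_ne_zero haF0 ((map_ne_zero_iff _ (wr K hr hrN).injective).2 hψK0'))
    hg₁ hg₂
  refine ⟨S, hS, ?_, ?_⟩
  · rw [← algebraMap_RA_eq]; exact hS₁
  · rw [← algebraMap_RA_eq]; exact hS₂

end normaliseK

section normalise

variable (A : ValuationSubring Kb) {N r : ℕ} [NeZero (N * r)]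

theorem isAlgebraic_K_Kb (K : IntermediateField ℚ Kb) : Algebra.IsAlgebraic K Kb := by
  have : Algebra.IsAlgebraic ℚ Kb := AlgebraicClosure.isAlgebraic ℚ
  exact Algebra.IsAlgebraic.tower_top (K := ℚ) K

/-- **(U2), `τ`-independent part.**  A class `f` with `RedOne f` and `RedOne (w_r f)` has a
representative `g = f S ^ m / c` defined over a normal number field `K` (containing any given
finite set `Z` of constants), `g ≡ 1` modulo `π` at both Gauss valuations, whose leading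
coefficient is an `m`-th power in `K`. -/
theorem normalised_elim {P : Prop} (hr : r.Prime) (hrN : ¬ r ∣ N) (hA : A.LiesOverPrime r)
    {m : ℕ} (hm : 0 < m) (Z : Finset Kb) {f : FK Kb (N * r)} (hf : MDiv Kb m f)
    (h1 : RedOne (N * r) A m f) (h2 : RedOne (N * r) A m (wr Kb hr hrN f))
    (k : ∀ (K : IntermediateField ℚ Kb) [Normal ℚ K] [FiniteDimensional ℚ K]
      [IsDiscreteValuationRing (RA A K)] (π : RA A K) (_ : Irreducible π) (g : FK K (N * r))
      (S : FK Kb (N * r)) (c : Kb), (∀ z ∈ Z, z ∈ K) → S ≠ 0 → c ≠ 0 → MDiv K m g →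
      (g - 1) / algebraMap K (FK K (N * r)) (π : K) ∈ gaussSub (RA A K) K (N * r) →
      (wr K hr hrN g - 1) / algebraMap K (FK K (N * r)) (π : K) ∈ gaussSub (RA A K) K (N * r) →
      (∃ c₀ : K, c₀ ^ m = (g : LaurentSeries K).leadingCoeff) →
      bc K Kb (modularFunctionFieldFull (N * r)) g = f * S ^ m / algebraMap Kb (FK Kb (N * r)) c →
      P) : P := by
  classical
  obtain ⟨ψ, c, Y₁, Y₂, hψ, hc, hY₁, hY₂, hred, hne, hrel⟩ := h1
  obtain ⟨ψ', c', Y₁', Y₂', hψ', hc', hY₁', hY₂', hred', hne', hrel'⟩ := h2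
  have hf0 : f ≠ 0 := hf.1
  have hf0' : (f : LaurentSeries Kb) ≠ 0 := fun h => hf0 (Subtype.ext h)
  -- the constants
  obtain ⟨a₀, ha₀⟩ := IsAlgClosed.exists_pow_nat_eq (c / c') hm
  obtain ⟨b₀, hb₀⟩ := IsAlgClosed.exists_pow_nat_eq ((f : LaurentSeries Kb).leadingCoeff / c) hm
  have ha₀0 : a₀ ≠ 0 := by
    rintro rfl
    rw [zero_pow hm.ne'] at ha₀
    exact div_ne_zero hc hc' ha₀.symm
  -- the relations in `F_ℚ̄`
  have hrelF : f * ψ ^ m * (⟨_, hY₂⟩ : FK Kb (N * r)) =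
      algebraMap Kb (FK Kb (N * r)) c * (⟨_, hY₁⟩ : FK Kb (N * r)) := by
    apply Subtype.ext
    rw [IntermediateField.coe_mul, IntermediateField.coe_mul, IntermediateField.coe_pow,
      IntermediateField.coe_mul, coe_algebraMap_FKT]
    exact hrel
  have hrelF' : wr Kb hr hrN f * ψ' ^ m * (⟨_, hY₂'⟩ : FK Kb (N * r)) =
      algebraMap Kb (FK Kb (N * r)) c' * (⟨_, hY₁'⟩ : FK Kb (N * r)) := by
    apply Subtype.ext
    rw [IntermediateField.coe_mul, IntermediateField.coe_mul, IntermediateField.coe_pow,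
      IntermediateField.coe_mul, coe_algebraMap_FKT]
    exact hrel'
  -- the number field
  obtain ⟨K, hKfd, hKn, hKc, hKf⟩ := exists_level_normalT (N * r)
    {f, ψ, ψ', ⟨_, hY₁⟩, ⟨_, hY₂⟩, ⟨_, hY₁'⟩, ⟨_, hY₂'⟩} (Z ∪ {a₀, b₀, c, c'})
  obtain ⟨fK, hfK⟩ := hKf f (by simp)
  obtain ⟨ψK, hψK⟩ := hKf ψ (by simp)
  obtain ⟨ψK', hψK'⟩ := hKf ψ' (by simp)
  obtain ⟨u₁, hu₁⟩ := hKf ⟨_, hY₁⟩ (by simp)
  obtain ⟨u₂, hu₂⟩ := hKf ⟨_, hY₂⟩ (by simp)
  obtain ⟨u₁', hu₁'⟩ := hKf ⟨_, hY₁'⟩ (by simp)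
  obtain ⟨u₂', hu₂'⟩ := hKf ⟨_, hY₂'⟩ (by simp)
  have ha₀K : a₀ ∈ K := hKc a₀ (by simp)
  have hb₀K : b₀ ∈ K := hKc b₀ (by simp)
  have hcK : c ∈ K := hKc c (by simp)
  have hcK' : c' ∈ K := hKc c' (by simp)
  haveI := isDiscreteValuationRing_RA A hr hA K
  haveI := charP_resField_RA A K hr hA
  haveI := isAlgebraic_K_Kb K
  obtain ⟨π, hπ⟩ := IsDiscreteValuationRing.exists_irreducible (RA A K)
  have hBinj : Function.Injective (bc K Kb (modularFunctionFieldFull (N * r))) :=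
    bc_injective K Kb _
  have hBc : ∀ (x : Kb) (hx : x ∈ K), bc K Kb (modularFunctionFieldFull (N * r))
      (algebraMap K (FK K (N * r)) ⟨x, hx⟩) = algebraMap Kb (FK Kb (N * r)) x :=
    fun x hx => bc_algebraMap K Kb _ _
  have hψK0 : ψK ≠ 0 := fun h => hψ (by rw [← hψK, h, map_zero])
  have hψK0' : ψK' ≠ 0 := fun h => hψ' (by rw [← hψK', h, map_zero])
  have hfK0 : fK ≠ 0 := fun h => hf0 (by rw [← hfK, h, map_zero])
  -- the two relations over `K`
  have hrelK : fK * ψK ^ m * u₂ = algebraMap K (FK K (N * r)) ⟨c, hcK⟩ * u₁ := by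
    apply hBinj
    rw [map_mul, map_mul, map_pow, map_mul, hfK, hψK, hu₂, hu₁, hBc]
    exact hrelF
  have hrelK' : wr K hr hrN fK * ψK' ^ m * u₂' = algebraMap K (FK K (N * r)) ⟨c', hcK'⟩ * u₁' := by
    apply hBinj
    rw [map_mul, map_mul, map_pow, map_mul, bc_wr K Kb hr hrN, hfK, hψK', hu₂', hu₁', hBc]
    exact hrelF'
  obtain ⟨S, hS, hS₁, hS₂⟩ : ∃ S : FK K (N * r), S ≠ 0 ∧
      (fK * S ^ m / algebraMap K (FK K (N * r)) ⟨c, hcK⟩ - 1) /
        algebraMap K (FK K (N * r)) (π : K) ∈ gaussSub (RA A K) K (N * r) ∧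
      (wr K hr hrN (fK * S ^ m / algebraMap K (FK K (N * r)) ⟨c, hcK⟩) - 1) /
        algebraMap K (FK K (N * r)) (π : K) ∈ gaussSub (RA A K) K (N * r) := by
    obtain ⟨i, hi⟩ := exists_algebra_tower (RA A K) K (N * r)
    exact normalise_K A K hr hrN hπ m fK ψK ψK' u₁ u₂ u₁' u₂' ⟨c, hcK⟩ ⟨c', hcK'⟩ ⟨a₀, ha₀K⟩
      (fun h => hc (congrArg Subtype.val h)) (fun h => hc' (congrArg Subtype.val h))
      (fun h => ha₀0 (congrArg Subtype.val h)) (Subtype.ext ha₀) hψK0 hψK0' Y₁ Y₂ Y₁' Y₂'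
      (by rw [hu₁]) (by rw [hu₂]) (by rw [hu₁']) (by rw [hu₂']) hred hne hred' hne' hrelK hrelK'
  have hBg : bc K Kb (modularFunctionFieldFull (N * r))
      (fK * S ^ m / algebraMap K (FK K (N * r)) ⟨c, hcK⟩) =
      f * bc K Kb (modularFunctionFieldFull (N * r)) S ^ m / algebraMap Kb (FK Kb (N * r)) c := by
    rw [map_div₀, map_mul, map_pow, hfK, hBc]
  have hBS : bc K Kb (modularFunctionFieldFull (N * r)) S ≠ 0 := (map_ne_zero_iff _ hBinj).2 hS
  have hcF0 : algebraMap Kb (FK Kb (N * r)) c ≠ 0 := by rwa [Ne, map_eq_zero]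
  refine k K π hπ (fK * S ^ m / algebraMap K (FK K (N * r)) ⟨c, hcK⟩)
    (bc K Kb (modularFunctionFieldFull (N * r)) S) c (fun z hz => hKc z (by simp [hz])) hBS hc
    ?_ hS₁ hS₂ ?_ hBg
  · -- `MDiv`
    apply mDiv_of_mDiv_bc K Kb (N * r)
    rw [hBg, div_eq_mul_inv]
    refine (hf.mul' (MDiv.pow_self' hBS)).mul' (MDiv.inv' ⟨hcF0, fun v => ?_⟩)
    rw [Fermat.Agent.S24RH.ord_algebraMap]
    exact dvd_zero _
  · -- the leading coefficient
    refine ⟨⟨b₀, hb₀K⟩ * (S : LaurentSeries K).leadingCoeff, ?_⟩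
    have hKinj : Function.Injective (algebraMap K Kb) := (algebraMap K Kb).injective
    have hcK0 : (⟨c, hcK⟩ : K) ≠ 0 := fun h => hc (congrArg Subtype.val h)
    have e1 : ((fK * S ^ m / algebraMap K (FK K (N * r)) ⟨c, hcK⟩ : FK K (N * r)) :
        LaurentSeries K) * HahnSeries.C (⟨c, hcK⟩ : K) =
        (fK : LaurentSeries K) * (S : LaurentSeries K) ^ m := by
      rw [← coe_algebraMap_FKT K (N * r), ← IntermediateField.coe_mul, div_mul_cancel₀,
        IntermediateField.coe_mul, IntermediateField.coe_pow]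
      rwa [Ne, map_eq_zero]
    have e2 := congrArg HahnSeries.leadingCoeff e1
    rw [HahnSeries.leadingCoeff_mul, HahnSeries.leadingCoeff_mul, laurent_leadingCoeff_pow,
      HahnSeries.C_apply, HahnSeries.leadingCoeff_of_single] at e2
    have e3 : (fK : LaurentSeries K).leadingCoeff = ⟨b₀, hb₀K⟩ ^ m * ⟨c, hcK⟩ := by
      apply hKinj
      rw [← leadingCoeff_coeffMap_of_injective_top _ hKinj, ← coe_bc, hfK, map_mul, map_pow]
      show _ = b₀ ^ m * c
      rw [hb₀, div_mul_cancel₀ _ hc]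
    rw [e3] at e2
    rw [mul_pow]
    apply mul_right_cancel₀ hcK0
    rw [e2]
    ring

/-- `σ` acts trivially on the classes of the `g ≡ 1` at both Gauss valuations, over `K` -/
def ToricK (K : IntermediateField ℚ Kb) [IsDiscreteValuationRing (RA A K)] [Normal ℚ K]
    (hr : r.Prime) (hrN : ¬ r ∣ N) (m : ℕ) (σ : Kb ≃ₐ[ℚ] Kb) : Prop :=
  ∀ π : RA A K, Irreducible π → ∀ g : FK K (N * r), MDiv K m g →
    (g - 1) / algebraMap K (FK K (N * r)) (π : K) ∈ gaussSub (RA A K) K (N * r) →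
    (wr K hr hrN g - 1) / algebraMap K (FK K (N * r)) (π : K) ∈ gaussSub (RA A K) K (N * r) →
    (∃ c₀ : K, c₀ ^ m = (g : LaurentSeries K).leadingCoeff) →
    ∃ ψ : FK K (N * r), ψ ≠ 0 ∧ galK K (N * r) σ g = g * ψ ^ m

/-- **(U2)**: `ToricI` over `ℚ̄` from `ToricK` over all the sufficiently large normal number
fields. -/
theorem toricI_of_toricK (hr : r.Prime) (hrN : ¬ r ∣ N) (hA : A.LiesOverPrime r)
    {m : ℕ} (hm : 0 < m) (Z : Finset Kb)
    (H : ∀ (K : IntermediateField ℚ Kb) [Normal ℚ K] [FiniteDimensional ℚ K]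
      [IsDiscreteValuationRing (RA A K)], (∀ z ∈ Z, z ∈ K) →
      ∀ σ ∈ A.inertiaSubgroupIn ℚ, ToricK A K hr hrN m σ) :
    ToricI (N * r) A m (wr Kb hr hrN : FK Kb (N * r) →+* FK Kb (N * r)) := by
  intro σ hσ f hf h1 h2
  refine normalised_elim A hr hrN hA hm Z hf h1 h2 ?_
  intro K _ _ _ π hπ g S c hZ hS hc hg hg1 hg2 hlc hbc
  obtain ⟨ψ, hψ, hψg⟩ := H K hZ σ hσ π hπ g hg hg1 hg2 hlc
  obtain ⟨d, hd⟩ := IsAlgClosed.exists_pow_nat_eq (σ c / c) hm
  have hσc : σ c ≠ 0 := (map_ne_zero σ).2 hc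
  have hd0 : d ≠ 0 := by
    rintro rfl
    rw [zero_pow hm.ne'] at hd
    exact div_ne_zero hσc hc hd.symm
  have h3 := congrArg (bc K Kb (modularFunctionFieldFull (N * r))) hψg
  rw [bc_galK, map_mul, map_pow, hbc, map_div₀, map_mul, map_pow] at h3
  have h4 : galF (N * r) σ (algebraMap Kb (FK Kb (N * r)) c) =
      algebraMap Kb (FK Kb (N * r)) (σ c) := arithmeticRingAut_algebraMap _ _ c
  rw [h4] at h3
  set ψb := bc K Kb (modularFunctionFieldFull (N * r)) ψ with hψb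
  have hψb0 : ψb ≠ 0 := (map_ne_zero_iff _ (bc_injective K Kb _)).2 hψ
  have hσS : galF (N * r) σ S ≠ 0 := (map_ne_zero_iff _ (galF (N * r) σ).injective).2 hS
  have hcF : algebraMap Kb (FK Kb (N * r)) c ≠ 0 := by rwa [Ne, map_eq_zero]
  have hσcF : algebraMap Kb (FK Kb (N * r)) (σ c) ≠ 0 := by rwa [Ne, map_eq_zero]
  have hdF : algebraMap Kb (FK Kb (N * r)) d ^ m =
      algebraMap Kb (FK Kb (N * r)) (σ c) / algebraMap Kb (FK Kb (N * r)) c := by
    rw [← map_pow, hd, map_div₀]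
  refine ⟨S * ψb * algebraMap Kb (FK Kb (N * r)) d / galF (N * r) σ S,
    div_ne_zero (mul_ne_zero (mul_ne_zero hS hψb0) (by rwa [Ne, map_eq_zero])) hσS, ?_⟩
  rw [div_pow, mul_pow, mul_pow, hdF]
  field_simp
  field_simp at h3
  linear_combination h3

end normalise

end Fermat.Agent.UNIlib
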