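import Fermat.Agent.UNI.TwoVal
import Fermat.Agent.UNI.WeakApprox
import Fermat.Agent.UNI.NormaliseFK
import Fermat.Agent.UNI.Node

/-!
# T-UNI, modular side (T3): the residue field of the Gauss valuation of `F_K(N r)` is that of
`F_K(N)`

Every `x ∈ gaussSub R K (N r)` is congruent modulo `π` to an element of `gaussSub R K N`.
-/

set_option autoImplicit false
set_option linter.unusedSectionVars false

open ModularCurve Polynomial

namespace Fermat.Agent.UNIlib

open Fermat.Agent.ESlib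
open Fermat.Agent.S28lib (RedSetup jA jAd)
open Fermat.Agent.S24lib (Dv)

noncomputable section

variable {R K : Type} [CommRing R] [IsDomain R] [IsDiscreteValuationRing R] [Field K]
  [Algebra R K] [IsFractionRing R K] [Algebra ℚ K] [Algebra K ℂ] [IsScalarTower ℚ K ℂ]
  {N r : ℕ} [NeZero N] [NeZero r] [NeZero (N * r)]

theorem inclF_mem_gaussSub {x : FK K N} (hx : x ∈ gaussSub R K N) :
    inclF K (dvd_mul_right N r) x ∈ gaussSub R K (N * r) := by
  rw [mem_gaussSub_iff, coe_inclF]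
  exact hx

theorem inclF_mem_gaussSub_iff {x : FK K N} :
    inclF K (dvd_mul_right N r) x ∈ gaussSub R K (N * r) ↔ x ∈ gaussSub R K N := by
  rw [mem_gaussSub_iff, coe_inclF, mem_gaussSub_iff]

theorem inclF_J1 : inclF K (dvd_mul_right N r) (J1 K N) = J1 K (N * r) := by
  apply Subtype.ext
  rw [coe_inclF, coe_J1_jA, coe_J1_jA]

variable [Algebra R (FK K (N * r))] [IsScalarTower R K (FK K (N * r))]
  [CharP (IsLocalRing.ResidueField R) r]

/-- `j_r ≡ j ^ r` modulo `π` at the Gauss valuation -/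
theorem jr_sub_pow_div_mem (hr : r.Prime) {π : R} (hπ : Irreducible π) :
    (jr K N r - J1 K (N * r) ^ r) / algebraMap R (FK K (N * r)) π ∈ gaussSub R K (N * r) := by
  have : Fact r.Prime := ⟨hr⟩
  refine wa_div_mem_gaussSub hπ (y₁ := jAd R r - jA R ^ r) (y₂ := 1) ?_ ?_ ?_
  · rw [map_one, mul_one, map_sub, map_pow, S28lib.coeffMap_jAd, S28lib.coeffMap_jA]
    show ((jr K N r : FK K (N * r)) : LaurentSeries K) -
      ((J1 K (N * r) : FK K (N * r)) : LaurentSeries K) ^ r = _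
    rw [coe_Jgen_jAd, coe_J1_jA]
  · rw [map_sub, map_pow, S28lib.coeffMap_jAd, S28lib.coeffMap_jA, jA_pow_char, sub_self]
  · rw [map_one]; exact one_ne_zero

/-- **(T3)** the residue field of `v_∞` on `F_K(N r)` is the residue field of `F_K(N)` -/
theorem exists_level_approx [CharZero K] (hr : r.Prime) (hrN : ¬ r ∣ N)
    (hN : (N : IsLocalRing.ResidueField R) ≠ 0) {π : R} (hπ : Irreducible π)
    (x : FK K (N * r)) (hx : x ∈ gaussSub R K (N * r)) :
    ∃ x' : FK K N, x' ∈ gaussSub R K N ∧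
      (x - inclF K (dvd_mul_right N r) x') / algebraMap R (FK K (N * r)) π ∈
        gaussSub R K (N * r) := by
  set ϖ := algebraMap R (FK K (N * r)) π with hϖ
  have hϖ0 : ϖ ≠ 0 := algebraMap_unif_ne_zero hπ
  have hϖG : ϖ ∈ gaussSub R K (N * r) := algebraMap_R_mem_gaussSub π
  set G := gaussSub R K (N * r) with hG
  set e := waE K N r with he
  have he1 : (e - 1) / ϖ ∈ G := wa_sub_one_div_mem hr hπ
  have he2 : wr K hr hrN e / ϖ ∈ G := wa_wr_div_mem hr hrN hπ
  have heG : e ∈ G := by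
    have : e = 1 + ϖ * ((e - 1) / ϖ) := by field_simp; ring
    rw [this]
    exact add_mem (one_mem _) (mul_mem hϖG he1)
  obtain ⟨k, hk⟩ := exists_pow_mul_mem_gaussSub hπ (wr K hr hrN x)
  rw [← hϖ, ← hG] at hk
  set y := e ^ k * x with hy
  have hyG : y ∈ G := mul_mem (pow_mem heG k) hx
  have hwy : wr K hr hrN y ∈ G := by
    have : wr K hr hrN y = (wr K hr hrN e / ϖ) ^ k * (ϖ ^ k * wr K hr hrN x) := by
      rw [hy, map_mul, map_pow, div_pow]
      field_simp
    rw [this]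
    exact mul_mem (pow_mem he2 k) hk
  have hxy : (x - y) / ϖ ∈ G := by
    have h1 : (e ^ k - 1 ^ k) / ϖ ∈ gaussVal R K (N * r) :=
      pow_sub_pow_div_mem (gaussVal R K (N * r)) ϖ heG (one_mem _) he1 k
    have : (x - y) / ϖ = -(x * ((e ^ k - 1 ^ k) / ϖ)) := by
      rw [hy, one_pow]; field_simp; ring
    rw [this]
    exact neg_mem (mul_mem hx h1)
  obtain ⟨c, hc, hyc⟩ := exists_gauss_coeffs hr hrN hN y hyG hwy
  refine ⟨∑ i, c i * J1 K N ^ (r * (i : ℕ)),
    sum_mem fun i _ => mul_mem (hc i) (pow_mem (Jgen_mem_gaussSub _) _), ?_⟩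
  have hjr : (jr K N r - J1 K (N * r) ^ r) / ϖ ∈ G := jr_sub_pow_div_mem hr hπ
  have hsum : (y - inclF K (dvd_mul_right N r) (∑ i, c i * J1 K N ^ (r * (i : ℕ)))) / ϖ ∈ G := by
    rw [map_sum, hyc, ← Finset.sum_sub_distrib, Finset.sum_div]
    refine sum_mem fun i _ => ?_
    rw [map_mul, map_pow, inclF_J1, ← mul_sub, mul_div_assoc, pow_mul]
    refine mul_mem (inclF_mem_gaussSub (hc i)) ?_
    exact pow_sub_pow_div_mem (gaussVal R K (N * r)) ϖ (Jgen_mem_gaussSub _)
      (pow_mem (Jgen_mem_gaussSub _) _) hjr i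
  have : (x - inclF K (dvd_mul_right N r) (∑ i, c i * J1 K N ^ (r * (i : ℕ)))) / ϖ =
      (x - y) / ϖ + (y - inclF K (dvd_mul_right N r) (∑ i, c i * J1 K N ^ (r * (i : ℕ)))) / ϖ := by
    ring
  rw [this]
  exact add_mem hxy hsum

/-- **(T3)**, in the shape of `NodeData.t3` -/
theorem exists_level_approx' [CharZero K] (hr : r.Prime) (hrN : ¬ r ∣ N)
    (hN : (N : IsLocalRing.ResidueField R) ≠ 0) {π : R} (hπ : Irreducible π)
    (x : FK K (N * r)) (hx : x ∈ gaussSub R K (N * r)) :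
    ∃ x' : FK K (N * r), (x' : LaurentSeries K) ∈ laurentBaseChange K (modularFunctionFieldFull N) ∧
      x' ∈ gaussSub R K (N * r) ∧
      (x - x') / algebraMap R (FK K (N * r)) π ∈ gaussSub R K (N * r) := by
  obtain ⟨x', h1, h2⟩ := exists_level_approx hr hrN hN hπ x hx
  refine ⟨inclF K (dvd_mul_right N r) x', ?_, inclF_mem_gaussSub h1, h2⟩
  rw [coe_inclF]
  exact x'.2

end

end Fermat.Agent.UNIlib
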