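import Mathlib
import Fermat.Agent.UNI.Wrap
import Fermat.Agent.UNI.Node

/-!
# T-UNI, (WRAP-F): the Frobenius version of (WRAP)

`ρ` is the inverse of the square of a Frobenius lift, `q = r ^ 2`, so that `β ≡ (ρ β) ^ q` modulo the
ideal `J = 𝔭₁ + 𝔭₂` of the nodes (`NodeHyp.frob`).  If `g ≡ 1 mod π` and `g`, `ρ g` are locally a
unit times an `m`-th power, then `g / (ρ g) ^ q` satisfies the hypotheses of `crit`.
-/

set_option autoImplicit false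
set_option linter.unusedSectionVars false

namespace Fermat.Agent.UNIlib

open Polynomial IntermediateField Fermat.Agent.ESlib

universe u

section Calc

variable {R F : Type*} [CommRing R] [Field F] [Algebra R F]

/-- `x` lies in the integral closure of `R[T]_𝔪` -/
def LocInt (T : F) (𝔪 : Ideal R[X]) (x : F) : Prop :=
  ∃ s : R[X], s ∉ 𝔪 ∧ IsIntegral (Algebra.adjoin R {T}) (aeval T s * x)

/-- `x` lies in `J_𝔪` -/
def LocJ (π : R) (T : F) (V₁ V₂ : ValuationSubring F) (𝔪 : Ideal R[X]) (x : F) : Prop :=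
  ∃ s : R[X], s ∉ 𝔪 ∧ InJ π T V₁ V₂ (aeval T s * x)

variable {π : R} {T : F} {V₁ V₂ : ValuationSubring F} {q : ℕ} {ρ : F →+* F} {𝔪 : Ideal R[X]}

theorem LocInt.of_isIntegral (hp : 𝔪.IsPrime) {x : F}
    (hx : IsIntegral (Algebra.adjoin R {T}) x) : LocInt T 𝔪 x :=
  ⟨1, fun h => hp.ne_top ((Ideal.eq_top_iff_one _).2 h), by simpa using hx⟩

theorem LocInt.add (hp : 𝔪.IsPrime) {x y : F} (hx : LocInt T 𝔪 x) (hy : LocInt T 𝔪 y) :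
    LocInt T 𝔪 (x + y) := by
  obtain ⟨r, hr, hrx⟩ := hx
  obtain ⟨s, hs, hsy⟩ := hy
  refine ⟨r * s, fun h => (hp.mem_or_mem h).elim hr hs, ?_⟩
  have : aeval T (r * s) * (x + y) = aeval T s * (aeval T r * x) + aeval T r * (aeval T s * y) := by
    rw [map_mul]; ring
  rw [this]
  exact ((isIntegral_aeval_adjoin T s).mul hrx).add ((isIntegral_aeval_adjoin T r).mul hsy)

theorem LocInt.neg {x : F} (hx : LocInt T 𝔪 x) : LocInt T 𝔪 (-x) := by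
  obtain ⟨r, hr, hrx⟩ := hx
  exact ⟨r, hr, by rw [mul_neg]; exact hrx.neg⟩

theorem LocInt.sub (hp : 𝔪.IsPrime) {x y : F} (hx : LocInt T 𝔪 x) (hy : LocInt T 𝔪 y) :
    LocInt T 𝔪 (x - y) := by
  rw [sub_eq_add_neg]
  exact hx.add hp hy.neg

theorem LocInt.mul (hp : 𝔪.IsPrime) {x y : F} (hx : LocInt T 𝔪 x) (hy : LocInt T 𝔪 y) :
    LocInt T 𝔪 (x * y) := by
  obtain ⟨r, hr, hrx⟩ := hx
  obtain ⟨s, hs, hsy⟩ := hy
  refine ⟨r * s, fun h => (hp.mem_or_mem h).elim hr hs, ?_⟩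
  have : aeval T (r * s) * (x * y) = (aeval T r * x) * (aeval T s * y) := by
    rw [map_mul]; ring
  rw [this]
  exact hrx.mul hsy

theorem LocInt.pow (hp : 𝔪.IsPrime) {x : F} (hx : LocInt T 𝔪 x) (n : ℕ) :
    LocInt T 𝔪 (x ^ n) := by
  induction n with
  | zero => simpa using LocInt.of_isIntegral hp (T := T) isIntegral_one
  | succ n ih =>
    rw [pow_succ]
    exact ih.mul hp hx

theorem LocInt.sum (hp : 𝔪.IsPrime) {ι : Type*} (s : Finset ι) (f : ι → F)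
    (h : ∀ i ∈ s, LocInt T 𝔪 (f i)) : LocInt T 𝔪 (∑ i ∈ s, f i) := by
  classical
  induction s using Finset.induction_on with
  | empty => simpa using LocInt.of_isIntegral hp (T := T) isIntegral_zero
  | insert a s ha ih =>
    rw [Finset.sum_insert ha]
    exact (h a (Finset.mem_insert_self a s)).add hp
      (ih fun i hi => h i (Finset.mem_insert_of_mem hi))

theorem LocInt.of_pow {x : F} {n : ℕ} (hn : 0 < n) (hx : LocInt T 𝔪 (x ^ n)) :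
    LocInt T 𝔪 x := by
  obtain ⟨r, hr, hrx⟩ := hx
  refine ⟨r, hr, IsIntegral.of_pow hn ?_⟩
  obtain ⟨m, rfl⟩ : ∃ m, n = m + 1 := ⟨n - 1, by omega⟩
  have : (aeval T r * x) ^ (m + 1) = aeval T r ^ m * (aeval T r * x ^ (m + 1)) := by ring
  rw [this]
  exact ((isIntegral_aeval_adjoin T r).pow m).mul hrx

theorem LocInt.piInt (hπ𝔪 : C π ∈ 𝔪) {x : F} (hx : LocInt T 𝔪 x) : PiInt π T x := by
  obtain ⟨r, hr, hrx⟩ := hx
  exact ⟨r, fun h => hr (Ideal.mem_of_dvd _ h hπ𝔪), hrx⟩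

theorem LocJ.locInt {x : F} (hx : LocJ π T V₁ V₂ 𝔪 x) : LocInt T 𝔪 x := by
  obtain ⟨r, hr, hrx⟩ := hx
  exact ⟨r, hr, hrx.isIntegral⟩

theorem LocJ.add (H : NodeHyp π T V₁ V₂ q ρ) (hp : 𝔪.IsPrime) {x y : F}
    (hx : LocJ π T V₁ V₂ 𝔪 x) (hy : LocJ π T V₁ V₂ 𝔪 y) : LocJ π T V₁ V₂ 𝔪 (x + y) := by
  obtain ⟨r, hr, hrx⟩ := hx
  obtain ⟨s, hs, hsy⟩ := hy
  refine ⟨r * s, fun h => (hp.mem_or_mem h).elim hr hs, ?_⟩
  have : aeval T (r * s) * (x + y) = aeval T s * (aeval T r * x) + aeval T r * (aeval T s * y) := by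
    rw [map_mul]; ring
  rw [this]
  exact (hrx.mul_left H (isIntegral_aeval_adjoin T s)).add
    (hsy.mul_left H (isIntegral_aeval_adjoin T r))

theorem LocJ.neg {x : F} (hx : LocJ π T V₁ V₂ 𝔪 x) : LocJ π T V₁ V₂ 𝔪 (-x) := by
  obtain ⟨r, hr, hrx⟩ := hx
  exact ⟨r, hr, by rw [mul_neg]; exact hrx.neg⟩

theorem LocJ.sub (H : NodeHyp π T V₁ V₂ q ρ) (hp : 𝔪.IsPrime) {x y : F}
    (hx : LocJ π T V₁ V₂ 𝔪 x) (hy : LocJ π T V₁ V₂ 𝔪 y) : LocJ π T V₁ V₂ 𝔪 (x - y) := by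
  rw [sub_eq_add_neg]
  exact hx.add H hp hy.neg

theorem LocJ.mul_left (H : NodeHyp π T V₁ V₂ q ρ) (hp : 𝔪.IsPrime) {b x : F}
    (hb : LocInt T 𝔪 b) (hx : LocJ π T V₁ V₂ 𝔪 x) : LocJ π T V₁ V₂ 𝔪 (b * x) := by
  obtain ⟨r, hr, hrb⟩ := hb
  obtain ⟨s, hs, hsx⟩ := hx
  refine ⟨r * s, fun h => (hp.mem_or_mem h).elim hr hs, ?_⟩
  have : aeval T (r * s) * (b * x) = (aeval T r * b) * (aeval T s * x) := by
    rw [map_mul]; ring
  rw [this]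
  exact hsx.mul_left H hrb

theorem LocJ.pow_sub_pow (H : NodeHyp π T V₁ V₂ q ρ) (hp : 𝔪.IsPrime) {u v : F}
    (hu : LocInt T 𝔪 u) (hv : LocInt T 𝔪 v) (h : LocJ π T V₁ V₂ 𝔪 (u - v)) (n : ℕ) :
    LocJ π T V₁ V₂ 𝔪 (u ^ n - v ^ n) := by
  rw [← Commute.geom_sum₂_mul (Commute.all u v) n]
  exact h.mul_left H hp (LocInt.sum hp _ _ fun i _ => (hu.pow hp _).mul hp (hv.pow hp _))

theorem LocJ.of_div_mem₁ (H : NodeHyp π T V₁ V₂ q ρ) {x : F} (hx : LocInt T 𝔪 x)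
    (h : x / algebraMap R F π ∈ V₁) : LocJ π T V₁ V₂ 𝔪 x := by
  obtain ⟨r, hr, hrx⟩ := hx
  refine ⟨r, hr, InJ.of_div_mem₁ hrx ?_⟩
  rw [mul_div_assoc]
  exact V₁.mul_mem _ _ (H.int_mem₁ _ (isIntegral_aeval_adjoin T r)) h

theorem LocJ.of_div_mem₂ (H : NodeHyp π T V₁ V₂ q ρ) {x : F} (hx : LocInt T 𝔪 x)
    (h : x / algebraMap R F π ∈ V₂) : LocJ π T V₁ V₂ 𝔪 x := by
  obtain ⟨r, hr, hrx⟩ := hx
  refine ⟨r, hr, InJ.of_div_mem₂ hrx ?_⟩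
  rw [mul_div_assoc]
  exact V₂.mul_mem _ _ (H.int_mem₂ _ (isIntegral_aeval_adjoin T r)) h

/-- if `J_𝔪 = 1` everything lies in `J_𝔪` -/
theorem LocJ.of_triv (H : NodeHyp π T V₁ V₂ q ρ) (hp : 𝔪.IsPrime)
    (ht : ∃ c : R[X], c ∉ 𝔪 ∧ InJ π T V₁ V₂ (aeval T c)) {x : F} (hx : LocInt T 𝔪 x) :
    LocJ π T V₁ V₂ 𝔪 x := by
  obtain ⟨c, hc, hcJ⟩ := ht
  obtain ⟨r, hr, hrx⟩ := hx
  refine ⟨r * c, fun h => (hp.mem_or_mem h).elim hr hc, ?_⟩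
  have : aeval T (r * c) * x = (aeval T r * x) * aeval T c := by
    rw [map_mul]; ring
  rw [this]
  exact hcJ.mul_left H hrx

/-- if `J_𝔪 ≠ 1` then `ρ` maps the complement of `𝔪` to itself -/
theorem notMem_of_not_triv (H : NodeHyp π T V₁ V₂ q ρ)
    (ht : ¬ ∃ c : R[X], c ∉ 𝔪 ∧ InJ π T V₁ V₂ (aeval T c)) {s s' : R[X]} (hs : s ∉ 𝔪)
    (hss' : ρ (aeval T s) = aeval T s') : s' ∉ 𝔪 := by
  intro hs'
  apply ht
  refine ⟨s - s' ^ q, fun h => hs ?_, ?_⟩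
  · have h1 : s' ^ q ∈ 𝔪 := 𝔪.pow_mem_of_mem hs' _ (by have := H.two_le; omega)
    have := 𝔪.add_mem h h1
    rwa [sub_add_cancel] at this
  · have := H.frob _ (isIntegral_aeval_adjoin T s)
    rwa [hss', ← map_pow, ← map_sub] at this

theorem LocInt.map (H : NodeHyp π T V₁ V₂ q ρ)
    (ht : ¬ ∃ c : R[X], c ∉ 𝔪 ∧ InJ π T V₁ V₂ (aeval T c)) {x : F} (hx : LocInt T 𝔪 x) :
    LocInt T 𝔪 (ρ x) := by
  obtain ⟨s, hs, hsx⟩ := hx
  obtain ⟨s', hs'⟩ := H.ρ_poly s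
  refine ⟨s', notMem_of_not_triv H ht hs hs', ?_⟩
  rw [← hs', ← map_mul]
  exact H.ρ_int _ hsx

/-- `x ≡ (ρ x) ^ q mod J_𝔪` for `x ∈ O_𝔪` -/
theorem LocJ.frob (H : NodeHyp π T V₁ V₂ q ρ) (hp : 𝔪.IsPrime)
    (ht : ¬ ∃ c : R[X], c ∉ 𝔪 ∧ InJ π T V₁ V₂ (aeval T c)) {x : F} (hx : LocInt T 𝔪 x) :
    LocJ π T V₁ V₂ 𝔪 (x - ρ x ^ q) := by
  obtain ⟨s, hs, hsx⟩ := hx
  obtain ⟨s', hs'⟩ := H.ρ_poly s
  have hs'm := notMem_of_not_triv H ht hs hs'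
  refine ⟨s * s' ^ q, fun h => (hp.mem_or_mem h).elim hs fun h' => hs'm (hp.mem_of_pow_mem _ h'), ?_⟩
  have h1 := H.frob _ (isIntegral_aeval_adjoin T s)
  have h2 := H.frob _ hsx
  have h3 : aeval T (s * s' ^ q) * (x - ρ x ^ q) =
      aeval T s * (aeval T s * x - ρ (aeval T s * x) ^ q) +
        -((aeval T s * x) * (aeval T s - ρ (aeval T s) ^ q)) := by
    rw [map_mul ρ, hs', map_mul, map_pow]
    ring
  rw [h3]
  exact (h2.mul_left H (isIntegral_aeval_adjoin T s)).add (h1.mul_left H hsx).neg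

end Calc

section Main

variable {R F : Type*} [CommRing R] [IsDomain R] [Field F] [Algebra R F]
variable {π : R} {T : F} {V₁ V₂ : ValuationSubring F} {q : ℕ} {ρ : F →+* F} {𝔪 : Ideal R[X]}

/-- local form of the normality of a branch -/
theorem exists_locInt_congr {V : ValuationSubring F}
    (hV : ∀ x, IsIntegral (Algebra.adjoin R {T}) x → x ∈ V)
    (hnorm : ∀ Z, IntV π T V Z →
      ∃ x, IsIntegral (Algebra.adjoin R {T}) x ∧ (Z - x) / algebraMap R F π ∈ V)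
    (hinv : ∀ s : R[X], s ∉ 𝔪 → aeval T s ≠ 0 ∧ (aeval T s)⁻¹ ∈ V)
    {Z w : F} {n : ℕ} (hn : 0 < n) (hZ : Z ∈ V) (hw : LocInt T 𝔪 w)
    (h : (Z ^ n - w) / algebraMap R F π ∈ V) :
    ∃ x, LocInt T 𝔪 x ∧ (Z - x) / algebraMap R F π ∈ V := by
  obtain ⟨s, hs, hsw⟩ := hw
  obtain ⟨hS0, hSi⟩ := hinv s hs
  set S := aeval T s with hS
  have hSint : IsIntegral (Algebra.adjoin R {T}) S := isIntegral_aeval_adjoin T s
  obtain ⟨k, rfl⟩ : ∃ k, n = k + 1 := ⟨n - 1, by omega⟩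
  have hI : IntV π T V (S * Z) := by
    refine ⟨V.mul_mem _ _ (hV _ hSint) hZ, X ^ (k + 1) - C (S ^ k * (S * w)),
      monic_X_pow_sub_C _ (by omega), fun i => ?_, ?_⟩
    · rw [coeff_sub, coeff_X_pow, coeff_C]
      refine IsIntegral.sub ?_ ?_
      · split_ifs
        · exact isIntegral_one
        · exact isIntegral_zero
      · split_ifs
        · exact (hSint.pow k).mul hsw
        · exact isIntegral_zero
    · have h1 : (X ^ (k + 1) - C (S ^ k * (S * w)) : F[X]).eval (S * Z) / algebraMap R F π =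
          S ^ (k + 1) * ((Z ^ (k + 1) - w) / algebraMap R F π) := by
        simp only [eval_sub, eval_pow, eval_X, eval_C]
        ring
      rw [h1]
      exact V.mul_mem _ _ (hV _ (hSint.pow _)) h
  obtain ⟨x₀, hx₀, hx₀'⟩ := hnorm _ hI
  refine ⟨x₀ * S⁻¹, ⟨s, hs, ?_⟩, ?_⟩
  · rw [← hS, mul_comm x₀, mul_inv_cancel_left₀ hS0]
    exact hx₀
  · have h2 : (Z - x₀ * S⁻¹) / algebraMap R F π = (S * Z - x₀) / algebraMap R F π * S⁻¹ := by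
      field_simp
    rw [h2]
    exact V.mul_mem _ _ hx₀' hSi

theorem piInt_pow_sub_one_div' (hπ : Prime π) (hπ0 : algebraMap R F π ≠ 0) {G : F}
    (hG : PiInt π T ((G - 1) / algebraMap R F π)) (k : ℕ) :
    PiInt π T ((G ^ k - 1) / algebraMap R F π) := by
  have hGC := piInt_of_sub_one_div hπ hπ0 hG
  induction k with
  | zero => simpa using PiInt.of_isIntegral hπ (T := T) isIntegral_zero
  | succ k ih =>
    have : (G ^ (k + 1) - 1) / algebraMap R F π =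
        G ^ k * ((G - 1) / algebraMap R F π) + (G ^ k - 1) / algebraMap R F π := by
      ring
    rw [this]
    exact ((hGC.pow hπ k).mul hπ hG).add hπ ih

/-- the key congruence: `a b ^ q ≡ ε ^ q mod J_𝔪` -/
theorem locJ_mul_pow_sub (H : NodeHyp π T V₁ V₂ q ρ) (hp : 𝔪.IsPrime)
    (ht : ¬ ∃ c : R[X], c ∉ 𝔪 ∧ InJ π T V₁ V₂ (aeval T c)) {a b ε : F}
    (ha : LocInt T 𝔪 a) (hb : LocInt T 𝔪 b) (hε : LocInt T 𝔪 ε)
    (h : LocJ π T V₁ V₂ 𝔪 (ρ a * b - ε)) : LocJ π T V₁ V₂ 𝔪 (a * b ^ q - ε ^ q) := by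
  have h1 : LocJ π T V₁ V₂ 𝔪 (b ^ q * (a - ρ a ^ q)) :=
    (LocJ.frob H hp ht ha).mul_left H hp (hb.pow hp q)
  have h2 : LocJ π T V₁ V₂ 𝔪 ((ρ a * b) ^ q - ε ^ q) :=
    LocJ.pow_sub_pow H hp ((ha.map H ht).mul hp hb) hε h q
  have h3 := h1.add H hp h2
  have h4 : b ^ q * (a - ρ a ^ q) + ((ρ a * b) ^ q - ε ^ q) = a * b ^ q - ε ^ q := by
    rw [mul_pow]; ring
  rwa [h4] at h3

/-- the data on one branch -/
theorem exists_branch_data {V : ValuationSubring F}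
    (hV : ∀ x, IsIntegral (Algebra.adjoin R {T}) x → x ∈ V)
    (hnorm : ∀ Z, IntV π T V Z →
      ∃ x, IsIntegral (Algebra.adjoin R {T}) x ∧ (Z - x) / algebraMap R F π ∈ V)
    (hinv : ∀ s : R[X], s ∉ 𝔪 → aeval T s ≠ 0 ∧ (aeval T s)⁻¹ ∈ V)
    (hρV : ∀ x, x / algebraMap R F π ∈ V → ρ x / algebraMap R F π ∈ V)
    (hLV : ∀ x, LocInt T 𝔪 x → x ∈ V) {m : ℕ} (hm : 0 < m) (q : ℕ) {g H₁ H₂ : F}
    (hg0 : g ≠ 0) (hρg0 : ρ g ≠ 0) (hH₂0 : H₂ ≠ 0)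
    (hgV : (g - 1) / algebraMap R F π ∈ V) (hρgV : (ρ g - 1) / algebraMap R F π ∈ V)
    (hρgi : (ρ g)⁻¹ ∈ V) (hH₁V : H₁ ∈ V) (hH₂V : H₂⁻¹ ∈ V)
    (u1 : LocInt T 𝔪 (H₁ ^ m / g)) (u2 : LocInt T 𝔪 (ρ g / H₂ ^ m)) :
    ∃ a b : F, LocInt T 𝔪 a ∧ LocInt T 𝔪 b ∧
      (H₁ * H₂⁻¹ ^ q - a * b ^ q) / algebraMap R F π ∈ V ∧
      (ρ a ∈ V → (ρ a * b - ρ H₁ * H₂⁻¹) / algebraMap R F π ∈ V) := by
  obtain ⟨a, ha, ha'⟩ := exists_locInt_congr hV hnorm hinv hm hH₁V u1 (by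
    have : (H₁ ^ m - H₁ ^ m / g) / algebraMap R F π =
        H₁ ^ m / g * ((g - 1) / algebraMap R F π) := by
      field_simp
    rw [this]
    exact V.mul_mem _ _ (hLV _ u1) hgV)
  obtain ⟨b, hb, hb'⟩ := exists_locInt_congr hV hnorm hinv hm hH₂V u2 (by
    have : (H₂⁻¹ ^ m - ρ g / H₂ ^ m) / algebraMap R F π =
        -(ρ g / H₂ ^ m * (ρ g)⁻¹ * ((ρ g - 1) / algebraMap R F π)) := by
      rw [inv_pow]
      field_simp
      ring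
    rw [this]
    exact V.neg_mem _ (V.mul_mem _ _ (V.mul_mem _ _ (hLV _ u2) hρgi) hρgV))
  refine ⟨a, b, ha, hb, ?_, fun hρa => ?_⟩
  · have : (H₁ * H₂⁻¹ ^ q - a * b ^ q) / algebraMap R F π =
        (H₁ - a) / algebraMap R F π * H₂⁻¹ ^ q +
          a * ((H₂⁻¹ ^ q - b ^ q) / algebraMap R F π) := by
      ring
    rw [this]
    exact V.add_mem _ _ (V.mul_mem _ _ ha' (V.toSubring.pow_mem hH₂V _))
      (V.mul_mem _ _ (hLV _ ha) (pow_sub_pow_div_mem V _ hH₂V (hLV _ hb) hb' q))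
  · have : (ρ a * b - ρ H₁ * H₂⁻¹) / algebraMap R F π =
        -(ρ a * ((H₂⁻¹ - b) / algebraMap R F π)) -
          ρ (H₁ - a) / algebraMap R F π * H₂⁻¹ := by
      rw [map_sub]
      ring
    rw [this]
    exact V.toSubring.sub_mem (V.neg_mem _ (V.mul_mem _ _ hρa hb'))
      (V.mul_mem _ _ (hρV _ ha') hH₂V)

/-- **(WRAP-F)**: `g ≡ 1 mod π`, `g` and `ρ g` locally a unit times an `m`-th power.  Then
`g / (ρ g) ^ q` satisfies the hypotheses of `crit` in the chart `T`. -/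
theorem locPow_frob (H : NodeHyp π T V₁ V₂ q ρ) (hπ : Prime π) (hπ0 : algebraMap R F π ≠ 0)
    (hinj : ∀ s : R[X], s ≠ 0 → aeval T s ≠ 0)
    (hC : ∀ x, PiInt π T x ↔ x ∈ V₁ ∧ x ∈ V₂) {m : ℕ} (hm : 0 < m) {g : F}
    (hg : PiInt π T ((g - 1) / algebraMap R F π))
    (hloc : LocPrin π T g m) (hloc' : LocPrin π T (ρ g) m) :
    PiInt π T ((g / ρ g ^ q - 1) / algebraMap R F π) ∧ LocPow π T (g / ρ g ^ q) m := by
  have hgC : PiInt π T g := piInt_of_sub_one_div hπ hπ0 hg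
  have hgi : PiInt π T g⁻¹ := piInt_inv_of_sub_one_div hπ hπ0 hg
  have hρg : PiInt π T ((ρ g - 1) / algebraMap R F π) := by
    rw [hC]
    have h1 := (hC _).1 hg
    have e : ρ g - 1 = ρ (g - 1) := by rw [map_sub, map_one]
    rw [e]
    exact ⟨H.ρ_V₁ _ h1.1, H.ρ_V₂ _ h1.2⟩
  have hρgC : PiInt π T (ρ g) := piInt_of_sub_one_div hπ hπ0 hρg
  have hρgi : PiInt π T (ρ g)⁻¹ := piInt_inv_of_sub_one_div hπ hπ0 hρg
  by_cases hg0 : g = 0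
  · subst hg0
    refine ⟨by simpa using hg, fun 𝔪 h𝔪 _ => ⟨1, ?_, 1, ?_, ?_⟩⟩
    · simpa using PiInt.of_isIntegral hπ (T := T) isIntegral_zero
    · exact fun h => h𝔪.ne_top ((Ideal.eq_top_iff_one _).2 h)
    · simpa using isIntegral_zero
  have hρg0 : ρ g ≠ 0 := by rwa [Ne, map_eq_zero]
  constructor
  · have h1 : (g / ρ g ^ q - 1) / algebraMap R F π =
        ((g - 1) / algebraMap R F π - (ρ g ^ q - 1) / algebraMap R F π) * (ρ g)⁻¹ ^ q := by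
      rw [inv_pow]
      field_simp
      ring
    rw [h1]
    exact (hg.sub hπ (piInt_pow_sub_one_div' hπ hπ0 hρg q)).mul hπ (hρgi.pow hπ q)
  intro 𝔪 h𝔪 hπ𝔪
  have hp := h𝔪.isPrime
  obtain ⟨H₁, hH₁0, s₁, hs₁, h11, h12⟩ := hloc 𝔪 h𝔪 hπ𝔪
  obtain ⟨H₂, hH₂0, s₂, hs₂, h21, h22⟩ := hloc' 𝔪 h𝔪 hπ𝔪
  have u1i : LocInt T 𝔪 (H₁ ^ m / g) := ⟨s₁, hs₁, h11⟩
  have u1 : LocInt T 𝔪 (g / H₁ ^ m) := ⟨s₁, hs₁, h12⟩
  have u2i : LocInt T 𝔪 (H₂ ^ m / ρ g) := ⟨s₂, hs₂, h21⟩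
  have u2 : LocInt T 𝔪 (ρ g / H₂ ^ m) := ⟨s₂, hs₂, h22⟩
  have hH₁C : PiInt π T H₁ := by
    refine PiInt.of_pow hm ?_
    have : H₁ ^ m = H₁ ^ m / g * g := by field_simp
    rw [this]
    exact (u1i.piInt hπ𝔪).mul hπ hgC
  have hH₁i : PiInt π T H₁⁻¹ := by
    refine PiInt.of_pow hm ?_
    have : H₁⁻¹ ^ m = g / H₁ ^ m * g⁻¹ := by
      rw [inv_pow]
      field_simp
    rw [this]
    exact (u1.piInt hπ𝔪).mul hπ hgi
  have hH₂C : PiInt π T H₂ := by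
    refine PiInt.of_pow hm ?_
    have : H₂ ^ m = H₂ ^ m / ρ g * ρ g := by field_simp
    rw [this]
    exact (u2i.piInt hπ𝔪).mul hπ hρgC
  have hH₂i : PiInt π T H₂⁻¹ := by
    refine PiInt.of_pow hm ?_
    have : H₂⁻¹ ^ m = ρ g / H₂ ^ m * (ρ g)⁻¹ := by
      rw [inv_pow]
      field_simp
    rw [this]
    exact (u2.piInt hπ𝔪).mul hπ hρgi
  have hinv : ∀ s : R[X], s ∉ 𝔪 → aeval T s ≠ 0 ∧ PiInt π T (aeval T s)⁻¹ := fun s hs =>
    ⟨hinj s (by rintro rfl; exact hs 𝔪.zero_mem),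
      PiInt.inv_aeval (fun h => hs (Ideal.mem_of_dvd _ h hπ𝔪))⟩
  have hLV : ∀ x, LocInt T 𝔪 x → x ∈ V₁ ∧ x ∈ V₂ := fun x hx => (hC x).1 (hx.piInt hπ𝔪)
  obtain ⟨a₁, b₁, ha₁, hb₁, hx₁, hε₁⟩ := exists_branch_data (ρ := ρ) H.int_mem₁ H.norm₁
    (fun s hs => ⟨(hinv s hs).1, ((hC _).1 (hinv s hs).2).1⟩) H.ρ_V₁ (fun x hx => (hLV x hx).1)
    hm q hg0 hρg0 hH₂0 ((hC _).1 hg).1 ((hC _).1 hρg).1 ((hC _).1 hρgi).1 ((hC _).1 hH₁C).1
    ((hC _).1 hH₂i).1 u1i u2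
  obtain ⟨a₂, b₂, ha₂, hb₂, hx₂, hε₂⟩ := exists_branch_data (ρ := ρ) H.int_mem₂ H.norm₂
    (fun s hs => ⟨(hinv s hs).1, ((hC _).1 (hinv s hs).2).2⟩) H.ρ_V₂ (fun x hx => (hLV x hx).2)
    hm q hg0 hρg0 hH₂0 ((hC _).1 hg).2 ((hC _).1 hρg).2 ((hC _).1 hρgi).2 ((hC _).1 hH₁C).2
    ((hC _).1 hH₂i).2 u1i u2
  have hX₁ : LocInt T 𝔪 (a₁ * b₁ ^ q) := ha₁.mul hp (hb₁.pow hp q)
  have hX₂ : LocInt T 𝔪 (a₂ * b₂ ^ q) := ha₂.mul hp (hb₂.pow hp q)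
  have hJ : LocJ π T V₁ V₂ 𝔪 (a₁ * b₁ ^ q - a₂ * b₂ ^ q) := by
    by_cases ht : ∃ c : R[X], c ∉ 𝔪 ∧ InJ π T V₁ V₂ (aeval T c)
    · exact LocJ.of_triv H hp ht (hX₁.sub hp hX₂)
    · have hε : LocInt T 𝔪 (ρ H₁ * H₂⁻¹) := by
        refine LocInt.of_pow hm ?_
        have : (ρ H₁ * H₂⁻¹) ^ m = ρ (H₁ ^ m / g) * (ρ g / H₂ ^ m) := by
          rw [map_div₀, map_pow, mul_pow, inv_pow]
          field_simp
        rw [this]
        exact (u1i.map H ht).mul hp u2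
      have j₁ : LocJ π T V₁ V₂ 𝔪 (ρ a₁ * b₁ - ρ H₁ * H₂⁻¹) :=
        LocJ.of_div_mem₁ H (((ha₁.map H ht).mul hp hb₁).sub hp hε)
          (hε₁ (hLV _ (ha₁.map H ht)).1)
      have j₂ : LocJ π T V₁ V₂ 𝔪 (ρ a₂ * b₂ - ρ H₁ * H₂⁻¹) :=
        LocJ.of_div_mem₂ H (((ha₂.map H ht).mul hp hb₂).sub hp hε)
          (hε₂ (hLV _ (ha₂.map H ht)).2)
      have h3 := (locJ_mul_pow_sub H hp ht ha₁ hb₁ hε j₁).sub H hp
        (locJ_mul_pow_sub H hp ht ha₂ hb₂ hε j₂)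
      rwa [sub_sub_sub_cancel_right] at h3
  obtain ⟨c, hc, -, Y, hY, hY2, hY1⟩ := hJ
  obtain ⟨hc0, hci⟩ := hinv c hc
  set W : F := a₂ * b₂ ^ q + Y * (aeval T c)⁻¹ with hW
  have hWL : LocInt T 𝔪 W := by
    refine hX₂.add hp ⟨c, hc, ?_⟩
    rw [mul_comm Y, mul_inv_cancel_left₀ hc0]
    exact hY
  have hW1 : (W - H₁ * H₂⁻¹ ^ q) / algebraMap R F π ∈ V₁ := by
    have : (W - H₁ * H₂⁻¹ ^ q) / algebraMap R F π =
        (Y - aeval T c * (a₁ * b₁ ^ q - a₂ * b₂ ^ q)) / algebraMap R F π * (aeval T c)⁻¹ -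
          (H₁ * H₂⁻¹ ^ q - a₁ * b₁ ^ q) / algebraMap R F π := by
      rw [hW]
      field_simp
      ring
    rw [this]
    exact V₁.toSubring.sub_mem (V₁.mul_mem _ _ hY1 ((hC _).1 hci).1) hx₁
  have hW2 : (W - H₁ * H₂⁻¹ ^ q) / algebraMap R F π ∈ V₂ := by
    have : (W - H₁ * H₂⁻¹ ^ q) / algebraMap R F π =
        Y / algebraMap R F π * (aeval T c)⁻¹ -
          (H₁ * H₂⁻¹ ^ q - a₂ * b₂ ^ q) / algebraMap R F π := by
      rw [hW]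
      field_simp
      ring
    rw [this]
    exact V₂.toSubring.sub_mem (V₂.mul_mem _ _ hY2 ((hC _).1 hci).2) hx₂
  refine ⟨W * (H₁⁻¹ * H₂ ^ q), ?_, ?_⟩
  · have : (W * (H₁⁻¹ * H₂ ^ q) - 1) / algebraMap R F π =
        (W - H₁ * H₂⁻¹ ^ q) / algebraMap R F π * (H₁⁻¹ * H₂ ^ q) := by
      rw [inv_pow]
      field_simp
    rw [this]
    exact ((hC _).2 ⟨hW1, hW2⟩).mul hπ (hH₁i.mul hπ (hH₂C.pow hπ q))
  · have h5 : LocInt T 𝔪 (g / ρ g ^ q * (W * (H₁⁻¹ * H₂ ^ q)) ^ m) := by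
      have : g / ρ g ^ q * (W * (H₁⁻¹ * H₂ ^ q)) ^ m =
          g / H₁ ^ m * (H₂ ^ m / ρ g) ^ q * W ^ m := by
        rw [mul_pow, mul_pow, inv_pow, div_pow, ← pow_mul, ← pow_mul, mul_comm q m]
        field_simp
      rw [this]
      exact (u1.mul hp (u2i.pow hp q)).mul hp (hWL.pow hp m)
    exact h5

end Main

section CritF

variable {R K F E : Type u} [CommRing R] [IsDomain R] [IsDiscreteValuationRing R]
    [Field K] [Algebra R K] [IsFractionRing R K] [CharZero K] [Field F] [Algebra K F] [Algebra R F]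
    [IsScalarTower R K F] [Field E] [Algebra F E] [Algebra K E] [Algebra R E] [IsScalarTower K F E]
    [IsScalarTower R F E] [IsScalarTower R K E]

/-- **(WRAP-F) + (CRIT)**: `g ≡ 1 mod π`, `g` and `ρ g` locally a unit times an `m`-th power in both
charts.  Then `g / (ρ g) ^ q` is an `m`-th power in `F`. -/
theorem crit_frob {π : R} (hπ : Irreducible π) (t : F) (ht : Transcendental K t)
    [FiniteDimensional K⟮t⟯ F]
    (m : ℕ) (hm : IsUnit (m : R)) (ζ : R) (hζ : IsPrimitiveRoot ζ m)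
    {V₁ V₂ : ValuationSubring F} {q : ℕ} {ρ : F →+* F}
    (H : NodeHyp π t V₁ V₂ q ρ) (H' : NodeHyp π t⁻¹ V₁ V₂ q ρ)
    (hC : ∀ x, PiInt π t x ↔ x ∈ V₁ ∧ x ∈ V₂)
    (g : F) (hg : PiInt π t ((g - 1) / algebraMap R F π))
    (hloc : LocPrin π t g m) (hloc' : LocPrin π t⁻¹ g m)
    (hlocρ : LocPrin π t (ρ g) m) (hlocρ' : LocPrin π t⁻¹ (ρ g) m)
    (y : E) (hy : y ^ m = algebraMap F E (g / ρ g ^ q))
    (hE : IntermediateField.adjoin F {y} = ⊤)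
    (hK : ∀ z : E, IsIntegral K z → ∃ c : K, algebraMap K E c = z) :
    ∃ x : F, algebraMap F E x = y := by
  have hp : Prime π := hπ.prime
  have hm0 : 0 < m := by
    rcases Nat.eq_zero_or_pos m with rfl | h
    · simp at hm
    · exact h
  have hinjRF : Function.Injective (algebraMap R F) := by
    rw [IsScalarTower.algebraMap_eq R K F]
    exact (algebraMap K F).injective.comp (IsFractionRing.injective R K)
  have hπF : algebraMap R F π ≠ 0 := by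
    rw [Ne, map_eq_zero_iff _ hinjRF]
    exact hπ.ne_zero
  have ht' : Transcendental K t⁻¹ := by
    intro h
    exact ht (by simpa using h.inv)
  have hinj : ∀ s : R[X], s ≠ 0 → aeval t s ≠ 0 := fun s hs h =>
    hs (aeval_injective_of_transcendental (K := K) ht (by rw [h, map_zero]))
  have hinj' : ∀ s : R[X], s ≠ 0 → aeval t⁻¹ s ≠ 0 := fun s hs h =>
    hs (aeval_injective_of_transcendental (K := K) ht' (by rw [h, map_zero]))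
  have hC' : ∀ x, PiInt π t⁻¹ x ↔ x ∈ V₁ ∧ x ∈ V₂ := fun x =>
    (piInt_inv_iff hp ht).trans (hC x)
  obtain ⟨h1, h2⟩ := locPow_frob H hp hπF hinj hC hm0 hg hloc hlocρ
  obtain ⟨-, h3⟩ := locPow_frob H' hp hπF hinj' hC' hm0 ((piInt_inv_iff hp ht).2 hg) hloc' hlocρ'
  exact crit hπ t ht m hm ζ hζ (g / ρ g ^ q) h1 h2 h3 y hy hE hK

end CritF

end Fermat.Agent.UNIlib
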